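import Mathlib

/-!
# M14 (S14), package [ALG1]: Herbrand's lemma for a pair of endomorphisms

`A` an additive commutative group, `D N : A →+ A` with `D ∘ N = 0 = N ∘ D`,
`X` a subgroup of finite index stable under `D` and `N`.  Then
`[ker D : N A] · [ker N ∩ X : D X] = [ker D ∩ X : N X] · [ker N : D A]`.
-/

set_option autoImplicit false

namespace Fermat.Agent.M14

variable {A : Type*} [AddCommGroup A]

/-- `[A : X] = [ker f : ker f ∩ X] · [f A : f X]` -/
theorem m14alg1_index_eq (f : A →+ A) (X : AddSubgroup A) :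
    X.index = X.relIndex f.ker * (X.map f).relIndex f.range := by
  have h1 : (X.map f).relIndex f.range = (X ⊔ f.ker).index := by
    rw [AddMonoidHom.range_eq_map, AddSubgroup.relIndex_map_map, top_sup_eq,
      AddSubgroup.relIndex_top_right]
  have h2 : X.relIndex f.ker = X.relIndex (X ⊔ f.ker) :=
    (AddSubgroup.relIndex_sup_left (K := X) (H := f.ker)).symm
  rw [h1, h2]
  exact (AddSubgroup.relIndex_mul_index (le_sup_left : X ≤ X ⊔ f.ker)).symm

/-- **Herbrand's lemma.** -/
theorem m14alg1_herbrand (D N : A →+ A) (hDN : ∀ x, D (N x) = 0) (hND : ∀ x, N (D x) = 0)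
    (X : AddSubgroup A) (hXD : ∀ x ∈ X, D x ∈ X) (hXN : ∀ x ∈ X, N x ∈ X)
    (hX : X.index ≠ 0) :
    N.range.relIndex D.ker * (X.map D).relIndex (N.ker ⊓ X)
      = (X.map N).relIndex (D.ker ⊓ X) * D.range.relIndex N.ker := by
  have hNrange : N.range ≤ D.ker := by
    rintro _ ⟨x, rfl⟩
    exact hDN x
  have hDrange : D.range ≤ N.ker := by
    rintro _ ⟨x, rfl⟩
    exact hND x
  have hXN' : X.map N ≤ D.ker ⊓ X := by
    rintro _ ⟨x, hx, rfl⟩
    exact ⟨hDN x, hXN x hx⟩
  have hXD' : X.map D ≤ N.ker ⊓ X := by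
    rintro _ ⟨x, hx, rfl⟩
    exact ⟨hND x, hXD x hx⟩
  have e1 := m14alg1_index_eq D X
  have e2 := m14alg1_index_eq N X
  -- (3)
  have e3 : (X.map N).relIndex N.range * N.range.relIndex D.ker
      = (X.map N).relIndex (D.ker ⊓ X) * X.relIndex D.ker := by
    rw [AddSubgroup.relIndex_mul_relIndex _ _ _ (AddSubgroup.map_le_range N X) hNrange,
      ← AddSubgroup.inf_relIndex_left (H := D.ker) (K := X),
      AddSubgroup.relIndex_mul_relIndex _ _ _ hXN' inf_le_left]
  have e4 : (X.map D).relIndex D.range * D.range.relIndex N.ker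
      = (X.map D).relIndex (N.ker ⊓ X) * X.relIndex N.ker := by
    rw [AddSubgroup.relIndex_mul_relIndex _ _ _ (AddSubgroup.map_le_range D X) hDrange,
      ← AddSubgroup.inf_relIndex_left (H := N.ker) (K := X),
      AddSubgroup.relIndex_mul_relIndex _ _ _ hXD' inf_le_left]
  apply Nat.eq_of_mul_eq_mul_right (Nat.pos_of_ne_zero hX)
  calc N.range.relIndex D.ker * (X.map D).relIndex (N.ker ⊓ X) * X.index
      = ((X.map N).relIndex N.range * N.range.relIndex D.ker)
          * ((X.map D).relIndex (N.ker ⊓ X) * X.relIndex N.ker) := by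
        conv_lhs => rw [e2]
        ring
    _ = ((X.map N).relIndex (D.ker ⊓ X) * X.relIndex D.ker)
          * ((X.map D).relIndex D.range * D.range.relIndex N.ker) := by rw [e3, e4]
    _ = (X.map N).relIndex (D.ker ⊓ X) * D.range.relIndex N.ker * X.index := by
        conv_rhs => rw [e1]
        ring

end Fermat.Agent.M14
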