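import Mathlib

/-!
# M14 (S14), package [ALG2], part 1: polynomial identities for a cyclic group of prime order
-/

set_option autoImplicit false
set_option linter.style.haveILetI false

open Polynomial Finset

namespace Fermat.Agent.M14

/-- `1 + X + ⋯ + X^(p-1) = p + (X - 1) w(X)` -/
theorem m14alg2_exists_w (p : ℕ) :
    ∃ w : ℤ[X], (∑ i ∈ range p, (X : ℤ[X]) ^ i) = C (p : ℤ) + (X - 1) * w := by
  have h : ((X : ℤ[X]) - C 1) ∣ (∑ i ∈ range p, (X : ℤ[X]) ^ i) - C (p : ℤ) := by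
    rw [Polynomial.dvd_iff_isRoot]
    simp [Polynomial.eval_finsetSum]
  obtain ⟨w, hw⟩ := h
  refine ⟨w, ?_⟩
  rw [map_one] at hw
  rw [← hw]
  ring

/-- `(X - 1)^(p-1) = 1 + X + ⋯ + X^(p-1) + p u(X)` -/
theorem m14alg2_exists_u (p : ℕ) (hp : p.Prime) :
    ∃ u : ℤ[X], ((X : ℤ[X]) - 1) ^ (p - 1) = (∑ i ∈ range p, (X : ℤ[X]) ^ i) + C (p : ℤ) * u := by
  haveI : Fact p.Prime := ⟨hp⟩
  set f : ℤ[X] := ((X : ℤ[X]) - 1) ^ (p - 1) - ∑ i ∈ range p, (X : ℤ[X]) ^ i with hf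
  have hmap : f.map (Int.castRingHom (ZMod p)) = 0 := by
    have h1 : ((X : (ZMod p)[X]) - 1) * (((X : (ZMod p)[X]) - 1) ^ (p - 1)
        - ∑ i ∈ range p, (X : (ZMod p)[X]) ^ i) = 0 := by
      rw [mul_sub, ← pow_succ', Nat.sub_add_cancel hp.one_le, mul_geom_sum, sub_pow_char,
        one_pow, sub_self]
    have h2 : ((X : (ZMod p)[X]) - 1) ≠ 0 := by
      have := Polynomial.X_sub_C_ne_zero (1 : ZMod p)
      rwa [map_one] at this
    have h3 := (mul_eq_zero.mp h1).resolve_left h2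
    rw [hf]
    simp only [Polynomial.map_sub, Polynomial.map_pow, Polynomial.map_X, Polynomial.map_one,
      Polynomial.map_sum]
    exact h3
  have hdvd : C (p : ℤ) ∣ f := by
    rw [Polynomial.C_dvd_iff_dvd_coeff]
    intro i
    have := congrArg (fun g : (ZMod p)[X] => g.coeff i) hmap
    simp only [Polynomial.coeff_map, Polynomial.coeff_zero] at this
    exact (ZMod.intCast_zmod_eq_zero_iff_dvd _ p).mp this
  obtain ⟨u, hu⟩ := hdvd
  refine ⟨u, ?_⟩
  rw [← hu, hf]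
  ring

end Fermat.Agent.M14
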