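import Mathlib
import Fermat.Agent.M14.Alg1
import Fermat.Agent.M14.Alg2Poly

/-!
# M14 (S14), package [ALG2], part 2: the Herbrand quotient of a finitely generated module over a
cyclic group of prime order, in terms of ranks
-/

set_option autoImplicit false
set_option linter.style.haveILetI false
set_option linter.unusedSectionVars false

open Polynomial Finset Module

namespace Fermat.Agent.M14

variable {A : Type*} [AddCommGroup A]

/-- relative index of submodules -/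
noncomputable def m14alg2_ri (H K : Submodule ℤ A) : ℕ :=
  H.toAddSubgroup.relIndex K.toAddSubgroup

/-- **Herbrand's lemma**, for `ℤ`-linear maps and submodules. -/
theorem m14alg2_herbrand (D N : A →ₗ[ℤ] A) (hDN : ∀ x, D (N x) = 0) (hND : ∀ x, N (D x) = 0)
    (X : Submodule ℤ A) (hXD : ∀ x ∈ X, D x ∈ X) (hXN : ∀ x ∈ X, N x ∈ X)
    (hX : X.toAddSubgroup.index ≠ 0) :
    m14alg2_ri (LinearMap.range N) (LinearMap.ker D)
        * m14alg2_ri (X.map D) (LinearMap.ker N ⊓ X)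
      = m14alg2_ri (X.map N) (LinearMap.ker D ⊓ X)
        * m14alg2_ri (LinearMap.range D) (LinearMap.ker N) :=
  m14alg1_herbrand D.toAddMonoidHom N.toAddMonoidHom hDN hND X.toAddSubgroup hXD hXN hX

/-- the operator `s - 1` -/
def m14alg2_D (s : A →ₗ[ℤ] A) : A →ₗ[ℤ] A := s - 1

/-- the norm operator `1 + s + ⋯ + s^(p-1)` -/
def m14alg2_N (s : A →ₗ[ℤ] A) (p : ℕ) : A →ₗ[ℤ] A := ∑ i ∈ range p, s ^ i

theorem m14alg2_D_apply (s : A →ₗ[ℤ] A) (x : A) : m14alg2_D s x = s x - x := rfl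

theorem m14alg2_N_apply (s : A →ₗ[ℤ] A) (p : ℕ) (x : A) :
    m14alg2_N s p x = ∑ i ∈ range p, (s ^ i) x := by
  unfold m14alg2_N
  rw [LinearMap.sum_apply]

theorem m14alg2_DN (s : A →ₗ[ℤ] A) (p : ℕ) (hs : s ^ p = 1) (x : A) :
    m14alg2_D s (m14alg2_N s p x) = 0 := by
  have h : (s - 1) * ∑ i ∈ range p, s ^ i = 0 := by rw [mul_geom_sum, hs, sub_self]
  have := congrArg (fun f : A →ₗ[ℤ] A => f x) h
  exact this

theorem m14alg2_ND (s : A →ₗ[ℤ] A) (p : ℕ) (hs : s ^ p = 1) (x : A) :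
    m14alg2_N s p (m14alg2_D s x) = 0 := by
  have h : (∑ i ∈ range p, s ^ i) * (s - 1) = 0 := by rw [geom_sum_mul, hs, sub_self]
  have := congrArg (fun f : A →ₗ[ℤ] A => f x) h
  exact this

theorem m14alg2_pow_apply_of_fixed (s : A →ₗ[ℤ] A) {x : A} (hx : s x = x) (i : ℕ) :
    (s ^ i) x = x := by
  induction i with
  | zero => rfl
  | succ i ih =>
    rw [pow_succ]
    change (s ^ i) (s x) = x
    rw [hx, ih]

/-- on the invariants the norm is multiplication by `p` -/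
theorem m14alg2_N_of_fixed (s : A →ₗ[ℤ] A) (p : ℕ) {x : A} (hx : m14alg2_D s x = 0) :
    m14alg2_N s p x = p • x := by
  have hx' : s x = x := sub_eq_zero.mp hx
  rw [m14alg2_N_apply]
  simp only [m14alg2_pow_apply_of_fixed s hx']
  rw [sum_const, card_range]

/-- polynomials in `s` preserve `s`-stable subgroups -/
theorem m14alg2_aeval_mem (s : A →ₗ[ℤ] A) (Λ : Submodule ℤ A) (hΛ : ∀ x ∈ Λ, s x ∈ Λ)
    (f : ℤ[X]) {x : A} (hx : x ∈ Λ) : (aeval s f) x ∈ Λ := by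
  induction f using Polynomial.induction_on generalizing x with
  | C a =>
    rw [aeval_C]
    change a • x ∈ Λ
    exact Λ.smul_mem a hx
  | add f g hf hg =>
    rw [map_add]
    exact Λ.add_mem (hf hx) (hg hx)
  | monomial n a ih =>
    rw [pow_succ, ← mul_assoc, map_mul, aeval_X]
    change (aeval s (C a * X ^ n)) (s x) ∈ Λ
    exact ih (hΛ x hx)

theorem m14alg2_aeval_D (s : A →ₗ[ℤ] A) : aeval s ((X : ℤ[X]) - 1) = m14alg2_D s := by
  rw [map_sub, aeval_X, map_one]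
  rfl

theorem m14alg2_aeval_N (s : A →ₗ[ℤ] A) (p : ℕ) :
    aeval s (∑ i ∈ range p, (X : ℤ[X]) ^ i) = m14alg2_N s p := by
  rw [map_sum]
  simp only [map_pow, aeval_X]
  rfl


/-- the norm commutes with polynomials in `s` -/
theorem m14alg2_N_aeval (s : A →ₗ[ℤ] A) (p : ℕ) (f : ℤ[X]) (x : A) :
    m14alg2_N s p ((aeval s f) x) = (aeval s f) (m14alg2_N s p x) := by
  rw [← m14alg2_aeval_N]
  change ((aeval s (∑ i ∈ range p, (X : ℤ[X]) ^ i)) * (aeval s f)) x
    = ((aeval s f) * (aeval s (∑ i ∈ range p, (X : ℤ[X]) ^ i))) x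
  rw [← map_mul, ← map_mul, mul_comm]

/-- on the kernel of the norm, `p` is divisible by `s - 1` -/
theorem m14alg2_exists_D_eq (s : A →ₗ[ℤ] A) (p : ℕ) (M : Submodule ℤ A)
    (hMs : ∀ x ∈ M, s x ∈ M) (hMN : ∀ x ∈ M, m14alg2_N s p x = 0) {x : A} (hx : x ∈ M) :
    ∃ y ∈ M, m14alg2_D s y = p • x := by
  obtain ⟨w, hw⟩ := m14alg2_exists_w p
  have h1 : (aeval s (∑ i ∈ range p, (X : ℤ[X]) ^ i)) x
      = (aeval s (C (p : ℤ) + (X - 1) * w)) x := by rw [hw]
  rw [m14alg2_aeval_N, hMN x hx, map_add, map_mul, m14alg2_aeval_D, aeval_C] at h1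
  refine ⟨-((aeval s w) x), M.neg_mem (m14alg2_aeval_mem s M hMs w hx), ?_⟩
  rw [map_neg]
  have h2 : (algebraMap ℤ (A →ₗ[ℤ] A) (p : ℤ)) x = p • x := by
    change ((p : ℤ) • (1 : A →ₗ[ℤ] A)) x = p • x
    rw [LinearMap.smul_apply, natCast_zsmul]
    rfl
  rw [LinearMap.add_apply, h2] at h1
  change 0 = p • x + m14alg2_D s ((aeval s w) x) at h1
  rw [eq_comm, add_eq_zero_iff_eq_neg] at h1
  rw [h1]

/-- on the kernel of the norm, `(s - 1)^(p-1)` is divisible by `p` -/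
theorem m14alg2_exists_pow_D_eq (s : A →ₗ[ℤ] A) (p : ℕ) (hp : p.Prime) (M : Submodule ℤ A)
    (hMs : ∀ x ∈ M, s x ∈ M) (hMN : ∀ x ∈ M, m14alg2_N s p x = 0) {x : A} (hx : x ∈ M) :
    ∃ y ∈ M, ((m14alg2_D s) ^ (p - 1)) x = p • y := by
  obtain ⟨u, hu⟩ := m14alg2_exists_u p hp
  have h1 : (aeval s (((X : ℤ[X]) - 1) ^ (p - 1))) x
      = (aeval s ((∑ i ∈ range p, (X : ℤ[X]) ^ i) + C (p : ℤ) * u)) x := by rw [hu]
  rw [map_pow, m14alg2_aeval_D, map_add, m14alg2_aeval_N, map_mul, aeval_C,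
    LinearMap.add_apply, hMN x hx, zero_add] at h1
  refine ⟨(aeval s u) x, m14alg2_aeval_mem s M hMs u hx, ?_⟩
  rw [h1]
  change ((p : ℤ) • (1 : A →ₗ[ℤ] A)) ((aeval s u) x) = p • (aeval s u) x
  rw [LinearMap.smul_apply, natCast_zsmul]
  rfl


/-- enlarging both subgroups by the same subgroup can only decrease the relative index -/
theorem m14alg2_relIndex_sup_dvd {H K : AddSubgroup A} (hHK : H ≤ K) (L : AddSubgroup A) :
    (H ⊔ L).relIndex (K ⊔ L) ∣ H.relIndex K := by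
  have h1 : K ⊔ L = (H ⊔ L) ⊔ K := by
    rw [sup_comm (H ⊔ L) K, ← sup_assoc, sup_of_le_left hHK]
  rw [h1, AddSubgroup.relIndex_sup_left]
  exact AddSubgroup.relIndex_dvd_of_le_left K (le_sup_left : H ≤ H ⊔ L)

theorem m14alg2_ri_map_dvd (f : A →ₗ[ℤ] A) {H K : Submodule ℤ A} (hHK : H ≤ K) :
    m14alg2_ri (H.map f) (K.map f) ∣ m14alg2_ri H K := by
  unfold m14alg2_ri
  change (H.toAddSubgroup.map f.toAddMonoidHom).relIndex (K.toAddSubgroup.map f.toAddMonoidHom)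
    ∣ H.toAddSubgroup.relIndex K.toAddSubgroup
  rw [AddSubgroup.relIndex_map_map]
  exact m14alg2_relIndex_sup_dvd hHK _

theorem m14alg2_ri_mul_ri {H K L : Submodule ℤ A} (hHK : H ≤ K) (hKL : K ≤ L) :
    m14alg2_ri H K * m14alg2_ri K L = m14alg2_ri H L :=
  AddSubgroup.relIndex_mul_relIndex _ _ _ hHK hKL

theorem m14alg2_ri_dvd_of_le_left {H K : Submodule ℤ A} (L : Submodule ℤ A) (hHK : H ≤ K) :
    m14alg2_ri K L ∣ m14alg2_ri H L :=
  AddSubgroup.relIndex_dvd_of_le_left _ hHK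

/-- the filtration of `M` by the powers of `D` -/
theorem m14alg2_ri_pow_dvd (D : A →ₗ[ℤ] A) (M : Submodule ℤ A) (hM : ∀ x ∈ M, D x ∈ M)
    (k : ℕ) : m14alg2_ri (M.map (D ^ k)) M ∣ (m14alg2_ri (M.map D) M) ^ k := by
  have hle : ∀ k : ℕ, M.map (D ^ k) ≤ M := by
    intro k
    induction k with
    | zero =>
      rintro _ ⟨x, hx, rfl⟩
      exact hx
    | succ k ih =>
      rintro _ ⟨x, hx, rfl⟩
      rw [pow_succ]
      exact ih ⟨D x, hM x hx, rfl⟩
  induction k with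
  | zero =>
    have : M.map (D ^ 0) = M := by
      rw [pow_zero]
      exact Submodule.map_id M
    rw [this, pow_zero]
    unfold m14alg2_ri
    rw [AddSubgroup.relIndex_self]
  | succ k ih =>
    have h1 : M.map (D ^ (k + 1)) = (M.map D).map (D ^ k) := by
      rw [pow_succ, ← Submodule.map_comp]
      rfl
    have h2 : (M.map D).map (D ^ k) ≤ M.map (D ^ k) :=
      Submodule.map_mono (by
        rintro _ ⟨x, hx, rfl⟩
        exact hM x hx)
    have hD : M.map D ≤ M := by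
      rintro _ ⟨x, hx, rfl⟩
      exact hM x hx
    rw [h1, ← m14alg2_ri_mul_ri h2 (hle k), pow_succ, mul_comm]
    exact mul_dvd_mul ih (m14alg2_ri_map_dvd (D ^ k) hD)


/-- `[M : p M] = p ^ rank M` for a finitely generated torsion-free `M` -/
theorem m14alg2_ri_smul (p : ℕ) (M : Submodule ℤ A) [Module.Finite ℤ M] [IsTorsionFree ℤ M] :
    m14alg2_ri (M.map ((p : ℤ) • (LinearMap.id : A →ₗ[ℤ] A))) M = p ^ finrank ℤ M := by
  haveI : Module.Free ℤ ↥M := inferInstance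
  haveI : Module.Free ℤ ↥(M.toAddSubgroup.toIntSubmodule) := inferInstanceAs (Module.Free ℤ ↥M)
  haveI : Module.Finite ℤ ↥(M.toAddSubgroup.toIntSubmodule) :=
    inferInstanceAs (Module.Finite ℤ ↥M)
  have h := AddSubgroup.relIndex_map_nsmul p M.toAddSubgroup
  unfold m14alg2_ri
  have h2 : (M.map ((p : ℤ) • (LinearMap.id : A →ₗ[ℤ] A))).toAddSubgroup
      = M.toAddSubgroup.map (nsmulAddMonoidHom (α := A) p) := by
    ext x
    simp only [Submodule.mem_toAddSubgroup, Submodule.mem_map, AddSubgroup.mem_map]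
    constructor
    · rintro ⟨y, hy, rfl⟩
      exact ⟨y, hy, by simp⟩
    · rintro ⟨y, hy, rfl⟩
      exact ⟨y, hy, by simp⟩
  rw [h2, h]
  rfl

/-- a subgroup containing `n A` has finite index, for finitely generated `A` -/
theorem m14alg2_index_ne_zero [Module.Finite ℤ A] (n : ℕ) (hn : n ≠ 0) (X : Submodule ℤ A)
    (hX : ∀ x : A, n • x ∈ X) : X.toAddSubgroup.index ≠ 0 := by
  haveI : Module.Finite ℤ (A ⧸ X) := inferInstance
  have htors : Module.IsTorsion ℤ (A ⧸ X) := by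
    intro x
    obtain ⟨y, rfl⟩ := Submodule.Quotient.mk_surjective X x
    refine ⟨⟨(n : ℤ), ?_⟩, ?_⟩
    · rw [mem_nonZeroDivisors_iff_ne_zero]
      exact_mod_cast hn
    · change (n : ℤ) • (Submodule.Quotient.mk y : A ⧸ X) = 0
      rw [← Submodule.Quotient.mk_smul, Submodule.Quotient.mk_eq_zero, natCast_zsmul]
      exact hX y
  haveI : Finite (A ⧸ X) := Module.finite_of_fg_torsion _ htors
  haveI : Finite (A ⧸ X.toAddSubgroup) := inferInstanceAs (Finite (A ⧸ X))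
  exact AddSubgroup.index_ne_zero_of_finite

/-- finite index does not change the rank -/
theorem m14alg2_finrank_eq [Module.Finite ℤ A] (n : ℕ) (hn : n ≠ 0) (X : Submodule ℤ A)
    (hX : ∀ x : A, n • x ∈ X) : finrank ℤ X = finrank ℤ A := by
  have htors : Module.IsTorsion ℤ (A ⧸ X) := by
    intro x
    obtain ⟨y, rfl⟩ := Submodule.Quotient.mk_surjective X x
    refine ⟨⟨(n : ℤ), ?_⟩, ?_⟩
    · rw [mem_nonZeroDivisors_iff_ne_zero]
      exact_mod_cast hn
    · change (n : ℤ) • (Submodule.Quotient.mk y : A ⧸ X) = 0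
      rw [← Submodule.Quotient.mk_smul, Submodule.Quotient.mk_eq_zero, natCast_zsmul]
      exact hX y
  have h1 := Submodule.finrank_quotient_add_finrank X
  have h2 : finrank ℤ (A ⧸ X) = 0 := Module.finrank_eq_zero_iff_isTorsion.mpr htors
  omega


/-- a multiple `m A` of a finitely generated abelian group which is torsion-free -/
theorem m14alg2_exists_torsionFree [Module.Finite ℤ A] :
    ∃ m : ℕ, m ≠ 0 ∧ ∀ x : A, ∀ k : ℤ, k ≠ 0 → k • (m • x) = 0 → m • x = 0 := by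
  classical
  let T : Submodule ℤ A := Submodule.torsion ℤ A
  haveI : Module.Finite ℤ ↥T := inferInstance
  have htors : Module.IsTorsion ℤ ↥T := Submodule.torsion_isTorsion
  haveI : Finite ↥T := Module.finite_of_fg_torsion _ htors
  refine ⟨Nat.card ↥T, Nat.card_pos.ne', fun x k hk hx => ?_⟩
  have hxT : x ∈ T := by
    rw [Submodule.mem_torsion_iff]
    refine ⟨⟨k * (Nat.card ↥T : ℤ), ?_⟩, ?_⟩
    · rw [mem_nonZeroDivisors_iff_ne_zero]
      exact mul_ne_zero hk (by exact_mod_cast Nat.card_pos.ne')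
    · change (k * (Nat.card ↥T : ℤ)) • x = 0
      rw [mul_smul, natCast_zsmul]
      exact hx
  have h1 : Nat.card ↥T • (⟨x, hxT⟩ : ↥T) = 0 := card_nsmul_eq_zero'
  have h2 := congrArg Subtype.val h1
  simpa using h2


theorem m14alg2_isTorsionFree (M : Submodule ℤ A)
    (h : ∀ x ∈ M, ∀ k : ℤ, k ≠ 0 → k • x = 0 → x = 0) : IsTorsionFree ℤ ↥M where
  isSMulRegular r hr := by
    intro x y hxy
    have hr0 : r ≠ 0 := hr.ne_zero
    have h1 : r • ((x : A) - (y : A)) = 0 := by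
      have := congrArg Subtype.val hxy
      simp only [Submodule.coe_smul] at this
      rw [smul_sub, this, sub_self]
    have h2 := h _ (M.sub_mem x.2 y.2) r hr0 h1
    exact Subtype.ext (sub_eq_zero.mp h2)

section TorsionFree

variable (s : A →ₗ[ℤ] A) (p : ℕ) (Λ : Submodule ℤ A)

/-- the invariants in `Λ` -/
def m14alg2_L1 : Submodule ℤ A := Λ ⊓ LinearMap.ker (m14alg2_D s)

/-- the kernel of the norm in `Λ` -/
def m14alg2_L2 : Submodule ℤ A := Λ ⊓ LinearMap.ker (m14alg2_N s p)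

variable {s p Λ}

theorem m14alg2_mem_L1 {x : A} : x ∈ m14alg2_L1 s Λ ↔ x ∈ Λ ∧ m14alg2_D s x = 0 := by
  unfold m14alg2_L1
  rw [Submodule.mem_inf, LinearMap.mem_ker]

theorem m14alg2_mem_L2 {x : A} : x ∈ m14alg2_L2 s p Λ ↔ x ∈ Λ ∧ m14alg2_N s p x = 0 := by
  unfold m14alg2_L2
  rw [Submodule.mem_inf, LinearMap.mem_ker]

theorem m14alg2_s_comm_N (hs : s ^ p = 1) (x : A) :
    m14alg2_N s p (s x) = m14alg2_N s p x := by
  have := m14alg2_ND s p hs x
  rw [m14alg2_D_apply, map_sub, sub_eq_zero] at this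
  exact this

theorem m14alg2_N_s (hs : s ^ p = 1) (x : A) :
    s (m14alg2_N s p x) = m14alg2_N s p x := by
  have := m14alg2_DN s p hs x
  rw [m14alg2_D_apply, sub_eq_zero] at this
  exact this

theorem m14alg2_L2_stable (hs : s ^ p = 1) (hΛs : ∀ x ∈ Λ, s x ∈ Λ) :
    ∀ x ∈ m14alg2_L2 s p Λ, s x ∈ m14alg2_L2 s p Λ := by
  intro x hx
  rw [m14alg2_mem_L2] at hx ⊢
  exact ⟨hΛs x hx.1, by rw [m14alg2_s_comm_N hs, hx.2]⟩

theorem m14alg2_D_mem (hΛs : ∀ x ∈ Λ, s x ∈ Λ) {x : A} (hx : x ∈ Λ) : m14alg2_D s x ∈ Λ := by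
  rw [m14alg2_D_apply]
  exact Λ.sub_mem (hΛs x hx) hx

theorem m14alg2_N_mem (hΛs : ∀ x ∈ Λ, s x ∈ Λ) {x : A} (hx : x ∈ Λ) :
    m14alg2_N s p x ∈ Λ := by
  rw [← m14alg2_aeval_N]
  exact m14alg2_aeval_mem s Λ hΛs _ hx

theorem m14alg2_N_N (hs : s ^ p = 1) (x : A) :
    m14alg2_N s p (m14alg2_N s p x) = p • m14alg2_N s p x :=
  m14alg2_N_of_fixed s p (m14alg2_DN s p hs x)

end TorsionFree

end Fermat.Agent.M14
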