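import Mathlib
import Fermat.Agent.M14.Alg2Core

/-!
# M14 (S14), package [ALG2], part 3: the Herbrand quotient inequality in terms of ranks
-/

set_option autoImplicit false
set_option linter.style.haveILetI false
set_option linter.unusedSectionVars false

open Polynomial Finset Module

namespace Fermat.Agent.M14

variable {A : Type*} [AddCommGroup A]

section TorsionFree

variable {s : A →ₗ[ℤ] A} {p : ℕ} {Λ : Submodule ℤ A}

/-- the hypotheses on `Λ` -/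
structure m14alg2_TF (s : A →ₗ[ℤ] A) (p : ℕ) (Λ : Submodule ℤ A) : Prop where
  prime : p.Prime
  pow : s ^ p = 1
  stable : ∀ x ∈ Λ, s x ∈ Λ
  tf : ∀ x ∈ Λ, ∀ k : ℤ, k ≠ 0 → k • x = 0 → x = 0

namespace m14alg2_TF

variable (h : m14alg2_TF s p Λ)

include h

theorem L1_inf_L2 {x : A} (h1 : x ∈ m14alg2_L1 s Λ) (h2 : x ∈ m14alg2_L2 s p Λ) : x = 0 := by
  rw [m14alg2_mem_L1] at h1
  rw [m14alg2_mem_L2] at h2
  have h3 := m14alg2_N_of_fixed s p h1.2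
  rw [h2.2] at h3
  refine h.tf x h1.1 (p : ℤ) (by exact_mod_cast h.prime.ne_zero) ?_
  rw [natCast_zsmul]
  exact h3.symm

/-- `X = Λ₁ + Λ₂` -/
theorem mem_X {x : A} : x ∈ m14alg2_L1 s Λ ⊔ m14alg2_L2 s p Λ ↔
    ∃ x₁ ∈ m14alg2_L1 s Λ, ∃ x₂ ∈ m14alg2_L2 s p Λ, x₁ + x₂ = x :=
  Submodule.mem_sup

theorem smul_mem_X {x : A} (hx : x ∈ Λ) : p • x ∈ m14alg2_L1 s Λ ⊔ m14alg2_L2 s p Λ := by
  rw [h.mem_X]
  refine ⟨m14alg2_N s p x, ?_, p • x - m14alg2_N s p x, ?_, by abel⟩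
  · rw [m14alg2_mem_L1]
    exact ⟨m14alg2_N_mem h.stable hx, m14alg2_DN s p h.pow x⟩
  · rw [m14alg2_mem_L2]
    refine ⟨Λ.sub_mem (Λ.smul_of_tower_mem p hx) (m14alg2_N_mem h.stable hx), ?_⟩
    rw [map_sub, m14alg2_N_N h.pow, map_nsmul, sub_self]

theorem X_map_N : (m14alg2_L1 s Λ ⊔ m14alg2_L2 s p Λ).map (m14alg2_N s p)
    = (m14alg2_L1 s Λ).map ((p : ℤ) • (LinearMap.id : A →ₗ[ℤ] A)) := by
  ext y
  simp only [Submodule.mem_map]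
  constructor
  · rintro ⟨x, hx, rfl⟩
    obtain ⟨x₁, h1, x₂, h2, rfl⟩ := h.mem_X.mp hx
    refine ⟨x₁, h1, ?_⟩
    rw [map_add, (m14alg2_mem_L2.mp h2).2, add_zero, m14alg2_N_of_fixed s p (m14alg2_mem_L1.mp h1).2]
    simp
  · rintro ⟨x, hx, rfl⟩
    refine ⟨x, Submodule.mem_sup_left hx, ?_⟩
    rw [m14alg2_N_of_fixed s p (m14alg2_mem_L1.mp hx).2]
    simp

theorem X_map_D : (m14alg2_L1 s Λ ⊔ m14alg2_L2 s p Λ).map (m14alg2_D s)
    = (m14alg2_L2 s p Λ).map (m14alg2_D s) := by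
  ext y
  simp only [Submodule.mem_map]
  constructor
  · rintro ⟨x, hx, rfl⟩
    obtain ⟨x₁, h1, x₂, h2, rfl⟩ := h.mem_X.mp hx
    refine ⟨x₂, h2, ?_⟩
    rw [map_add, (m14alg2_mem_L1.mp h1).2, zero_add]
  · rintro ⟨x, hx, rfl⟩
    exact ⟨x, Submodule.mem_sup_right hx, rfl⟩

theorem ker_D_inf_X : LinearMap.ker (m14alg2_D s) ⊓ (m14alg2_L1 s Λ ⊔ m14alg2_L2 s p Λ)
    = m14alg2_L1 s Λ := by
  ext x
  rw [Submodule.mem_inf, LinearMap.mem_ker]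
  constructor
  · rintro ⟨hD, hx⟩
    obtain ⟨x₁, h1, x₂, h2, rfl⟩ := h.mem_X.mp hx
    rw [map_add, (m14alg2_mem_L1.mp h1).2, zero_add] at hD
    have h3 : x₂ ∈ m14alg2_L1 s Λ := m14alg2_mem_L1.mpr ⟨(m14alg2_mem_L2.mp h2).1, hD⟩
    rw [h.L1_inf_L2 h3 h2, add_zero]
    exact h1
  · intro hx
    exact ⟨(m14alg2_mem_L1.mp hx).2, Submodule.mem_sup_left hx⟩

theorem ker_N_inf_X : LinearMap.ker (m14alg2_N s p) ⊓ (m14alg2_L1 s Λ ⊔ m14alg2_L2 s p Λ)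
    = m14alg2_L2 s p Λ := by
  ext x
  rw [Submodule.mem_inf, LinearMap.mem_ker]
  constructor
  · rintro ⟨hN, hx⟩
    obtain ⟨x₁, h1, x₂, h2, rfl⟩ := h.mem_X.mp hx
    rw [map_add, (m14alg2_mem_L2.mp h2).2, add_zero] at hN
    have h3 : x₁ ∈ m14alg2_L2 s p Λ := m14alg2_mem_L2.mpr ⟨(m14alg2_mem_L1.mp h1).1, hN⟩
    rw [h.L1_inf_L2 h1 h3, zero_add]
    exact h2
  · intro hx
    exact ⟨(m14alg2_mem_L2.mp hx).2, Submodule.mem_sup_right hx⟩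

theorem X_stable_D : ∀ x ∈ m14alg2_L1 s Λ ⊔ m14alg2_L2 s p Λ,
    m14alg2_D s x ∈ m14alg2_L1 s Λ ⊔ m14alg2_L2 s p Λ := by
  intro x hx
  obtain ⟨x₁, h1, x₂, h2, rfl⟩ := h.mem_X.mp hx
  rw [map_add, (m14alg2_mem_L1.mp h1).2, zero_add]
  refine Submodule.mem_sup_right ?_
  rw [m14alg2_D_apply]
  exact (m14alg2_L2 s p Λ).sub_mem (m14alg2_L2_stable h.pow h.stable x₂ h2) h2

theorem X_stable_N : ∀ x ∈ m14alg2_L1 s Λ ⊔ m14alg2_L2 s p Λ,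
    m14alg2_N s p x ∈ m14alg2_L1 s Λ ⊔ m14alg2_L2 s p Λ := by
  intro x hx
  obtain ⟨x₁, h1, x₂, h2, rfl⟩ := h.mem_X.mp hx
  rw [map_add, (m14alg2_mem_L2.mp h2).2, add_zero,
    m14alg2_N_of_fixed s p (m14alg2_mem_L1.mp h1).2]
  exact Submodule.mem_sup_left ((m14alg2_L1 s Λ).smul_of_tower_mem p h1)


theorem tf_L1 : IsTorsionFree ℤ ↥(m14alg2_L1 s Λ) :=
  m14alg2_isTorsionFree _ (fun x hx => h.tf x (m14alg2_mem_L1.mp hx).1)

theorem tf_L2 : IsTorsionFree ℤ ↥(m14alg2_L2 s p Λ) :=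
  m14alg2_isTorsionFree _ (fun x hx => h.tf x (m14alg2_mem_L2.mp hx).1)

theorem tf_L : IsTorsionFree ℤ ↥Λ := m14alg2_isTorsionFree _ h.tf

variable [Module.Finite ℤ A]

/-- `h⁰(X) = p ^ rank Λ₁` -/
theorem x0_eq : m14alg2_ri ((m14alg2_L1 s Λ ⊔ m14alg2_L2 s p Λ).map (m14alg2_N s p))
    (LinearMap.ker (m14alg2_D s) ⊓ (m14alg2_L1 s Λ ⊔ m14alg2_L2 s p Λ))
      = p ^ finrank ℤ ↥(m14alg2_L1 s Λ) := by
  haveI := h.tf_L1
  rw [h.X_map_N, h.ker_D_inf_X]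
  exact m14alg2_ri_smul p _

/-- `h¹(X) = [Λ₂ : D Λ₂]` -/
theorem x1_eq : m14alg2_ri ((m14alg2_L1 s Λ ⊔ m14alg2_L2 s p Λ).map (m14alg2_D s))
    (LinearMap.ker (m14alg2_N s p) ⊓ (m14alg2_L1 s Λ ⊔ m14alg2_L2 s p Λ))
      = m14alg2_ri ((m14alg2_L2 s p Λ).map (m14alg2_D s)) (m14alg2_L2 s p Λ) := by
  rw [h.X_map_D, h.ker_N_inf_X]

theorem L2_map_D_le : (m14alg2_L2 s p Λ).map (m14alg2_D s) ≤ m14alg2_L2 s p Λ := by
  rintro _ ⟨x, hx, rfl⟩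
  rw [m14alg2_D_apply]
  exact (m14alg2_L2 s p Λ).sub_mem (m14alg2_L2_stable h.pow h.stable x hx) hx

theorem smul_L2_le : (m14alg2_L2 s p Λ).map ((p : ℤ) • (LinearMap.id : A →ₗ[ℤ] A))
    ≤ (m14alg2_L2 s p Λ).map (m14alg2_D s) := by
  rintro _ ⟨x, hx, rfl⟩
  obtain ⟨y, hy, hyx⟩ := m14alg2_exists_D_eq s p (m14alg2_L2 s p Λ)
    (m14alg2_L2_stable h.pow h.stable) (fun z hz => (m14alg2_mem_L2.mp hz).2) hx
  refine ⟨y, hy, ?_⟩
  rw [hyx]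
  simp

theorem pow_D_L2_le : (m14alg2_L2 s p Λ).map ((m14alg2_D s) ^ (p - 1))
    ≤ (m14alg2_L2 s p Λ).map ((p : ℤ) • (LinearMap.id : A →ₗ[ℤ] A)) := by
  rintro _ ⟨x, hx, rfl⟩
  obtain ⟨y, hy, hyx⟩ := m14alg2_exists_pow_D_eq s p h.prime (m14alg2_L2 s p Λ)
    (m14alg2_L2_stable h.pow h.stable) (fun z hz => (m14alg2_mem_L2.mp hz).2) hx
  refine ⟨y, hy, ?_⟩
  rw [hyx]
  simp

/-- `[Λ₂ : D Λ₂]` divides `p ^ rank Λ₂` -/
theorem c_dvd : m14alg2_ri ((m14alg2_L2 s p Λ).map (m14alg2_D s)) (m14alg2_L2 s p Λ)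
    ∣ p ^ finrank ℤ ↥(m14alg2_L2 s p Λ) := by
  haveI := h.tf_L2
  rw [← m14alg2_ri_smul p (m14alg2_L2 s p Λ)]
  exact m14alg2_ri_dvd_of_le_left _ h.smul_L2_le

/-- `p ^ rank Λ₂` divides `[Λ₂ : D Λ₂] ^ (p - 1)` -/
theorem dvd_c_pow : p ^ finrank ℤ ↥(m14alg2_L2 s p Λ)
    ∣ (m14alg2_ri ((m14alg2_L2 s p Λ).map (m14alg2_D s)) (m14alg2_L2 s p Λ)) ^ (p - 1) := by
  haveI := h.tf_L2
  rw [← m14alg2_ri_smul p (m14alg2_L2 s p Λ)]
  refine dvd_trans (m14alg2_ri_dvd_of_le_left _ h.pow_D_L2_le) ?_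
  refine m14alg2_ri_pow_dvd (m14alg2_D s) (m14alg2_L2 s p Λ) (fun x hx => ?_) (p - 1)
  exact h.L2_map_D_le ⟨x, hx, rfl⟩


/-- `rank Λ ≤ rank Λ₁ + rank Λ₂` -/
theorem finrank_le : finrank ℤ ↥Λ
    ≤ finrank ℤ ↥(m14alg2_L1 s Λ) + finrank ℤ ↥(m14alg2_L2 s p Λ) := by
  have hp : p.Prime := h.prime
  let f₁ : ↥Λ →ₗ[ℤ] ↥(m14alg2_L1 s Λ) :=
    LinearMap.codRestrict (m14alg2_L1 s Λ) ((m14alg2_N s p).domRestrict Λ) (fun x => by
      rw [m14alg2_mem_L1]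
      exact ⟨m14alg2_N_mem h.stable x.2, m14alg2_DN s p h.pow x⟩)
  let f₂ : ↥Λ →ₗ[ℤ] ↥(m14alg2_L2 s p Λ) :=
    LinearMap.codRestrict (m14alg2_L2 s p Λ)
      (((p : ℤ) • (LinearMap.id : A →ₗ[ℤ] A) - m14alg2_N s p).domRestrict Λ) (fun x => by
      rw [m14alg2_mem_L2]
      change (((p : ℤ) • (LinearMap.id : A →ₗ[ℤ] A) - m14alg2_N s p) (x : A)) ∈ Λ ∧
        m14alg2_N s p (((p : ℤ) • (LinearMap.id : A →ₗ[ℤ] A) - m14alg2_N s p) (x : A)) = 0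
      have e : ((p : ℤ) • (LinearMap.id : A →ₗ[ℤ] A) - m14alg2_N s p) (x : A)
          = p • (x : A) - m14alg2_N s p x := by simp
      rw [e]
      refine ⟨Λ.sub_mem (Λ.smul_of_tower_mem p x.2) (m14alg2_N_mem h.stable x.2), ?_⟩
      rw [map_sub, m14alg2_N_N h.pow, map_nsmul, sub_self])
  have hinj : Function.Injective (f₁.prod f₂) := by
    rw [injective_iff_map_eq_zero]
    intro x hx
    have h1 : (f₁ x : A) = 0 := by
      have := congrArg (fun y : ↥(m14alg2_L1 s Λ) × ↥(m14alg2_L2 s p Λ) => (y.1 : A)) hx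
      exact this
    have h2 : (f₂ x : A) = 0 := by
      have := congrArg (fun y : ↥(m14alg2_L1 s Λ) × ↥(m14alg2_L2 s p Λ) => (y.2 : A)) hx
      exact this
    have h1' : m14alg2_N s p (x : A) = 0 := h1
    have h2' : ((p : ℤ) • (LinearMap.id : A →ₗ[ℤ] A) - m14alg2_N s p) (x : A) = 0 := h2
    have e : ((p : ℤ) • (LinearMap.id : A →ₗ[ℤ] A) - m14alg2_N s p) (x : A)
        = p • (x : A) - m14alg2_N s p x := by simp
    rw [e, h1', sub_zero] at h2'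
    apply Subtype.ext
    refine h.tf x x.2 (p : ℤ) (by exact_mod_cast hp.ne_zero) ?_
    rw [natCast_zsmul]
    exact h2'
  haveI := h.tf_L1
  haveI := h.tf_L2
  have := LinearMap.finrank_le_finrank_of_injective hinj
  rwa [Module.finrank_prod] at this

end m14alg2_TF

end TorsionFree

/-- **The Herbrand quotient inequality in terms of ranks.**  If `s` has prime order `p` on the
finitely generated abelian group `A`, the invariants have rank `≤ a` and `A` has rank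
`≥ p a + p - 1`, then `p · [ker(s-1) : N A] ≤ [ker N : (s-1) A]`. -/
theorem m14alg2_core (p : ℕ) (hp : p.Prime) [Module.Finite ℤ A] (s : A →ₗ[ℤ] A)
    (hs : s ^ p = 1) (a : ℕ) (ha : finrank ℤ ↥(LinearMap.ker (m14alg2_D s)) ≤ a)
    (hn : p * a + p ≤ finrank ℤ A + 1) :
    m14alg2_ri (LinearMap.range (m14alg2_N s p)) (LinearMap.ker (m14alg2_D s)) ≠ 0 ∧
    p * m14alg2_ri (LinearMap.range (m14alg2_N s p)) (LinearMap.ker (m14alg2_D s))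
      ≤ m14alg2_ri (LinearMap.range (m14alg2_D s)) (LinearMap.ker (m14alg2_N s p)) := by
  classical
  obtain ⟨m, hm, hmtf⟩ := m14alg2_exists_torsionFree (A := A)
  set Λ : Submodule ℤ A := LinearMap.range ((m : ℤ) • (LinearMap.id : A →ₗ[ℤ] A)) with hΛ
  have hmemΛ : ∀ x : A, m • x ∈ Λ := fun x => ⟨x, by simp⟩
  have h : m14alg2_TF s p Λ :=
    { prime := hp
      pow := hs
      stable := by
        rintro _ ⟨x, rfl⟩
        refine ⟨s x, ?_⟩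
        simp
      tf := by
        rintro _ ⟨x, rfl⟩ k hk hx
        have e : ((m : ℤ) • (LinearMap.id : A →ₗ[ℤ] A)) x = m • x := by simp
        rw [e] at hx ⊢
        exact hmtf x k hk hx }
  set X : Submodule ℤ A := m14alg2_L1 s Λ ⊔ m14alg2_L2 s p Λ with hXdef
  have hX : X.toAddSubgroup.index ≠ 0 := by
    refine m14alg2_index_ne_zero (p * m) (mul_ne_zero hp.ne_zero hm) X (fun x => ?_)
    rw [mul_smul]
    exact h.smul_mem_X (hmemΛ x)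
  have herb := m14alg2_herbrand (m14alg2_D s) (m14alg2_N s p) (m14alg2_DN s p hs)
    (m14alg2_ND s p hs) X h.X_stable_D h.X_stable_N hX
  rw [h.x0_eq, h.x1_eq] at herb
  set a0 := m14alg2_ri (LinearMap.range (m14alg2_N s p)) (LinearMap.ker (m14alg2_D s)) with ha0
  set a1 := m14alg2_ri (LinearMap.range (m14alg2_D s)) (LinearMap.ker (m14alg2_N s p)) with ha1
  set c := m14alg2_ri ((m14alg2_L2 s p Λ).map (m14alg2_D s)) (m14alg2_L2 s p Λ) with hc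
  set r₁ := finrank ℤ ↥(m14alg2_L1 s Λ) with hr₁
  set r₂ := finrank ℤ ↥(m14alg2_L2 s p Λ) with hr₂
  -- ranks
  have hr₁a : r₁ ≤ a := by
    have hle : m14alg2_L1 s Λ ≤ LinearMap.ker (m14alg2_D s) := inf_le_right
    exact le_trans (Submodule.finrank_mono hle) ha
  have hΛrank : finrank ℤ ↥Λ = finrank ℤ A := m14alg2_finrank_eq m hm Λ hmemΛ
  have hsum : finrank ℤ A ≤ r₁ + r₂ := by
    rw [← hΛrank]
    exact h.finrank_le
  have hr₂ : (r₁ + 1) * (p - 1) ≤ r₂ := by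
    have hp1 : 1 ≤ p := hp.one_le
    have h1 : p * r₁ ≤ p * a := Nat.mul_le_mul_left p hr₁a
    have h2 : (r₁ + 1) * (p - 1) + (r₁ + 1) = (r₁ + 1) * p := by
      rw [← Nat.mul_succ, Nat.succ_eq_add_one, Nat.sub_add_cancel hp1]
    nlinarith
  -- the index `c`
  have hc0 : c ≠ 0 := by
    intro h0
    have := h.c_dvd
    rw [← hc, h0, zero_dvd_iff] at this
    exact pow_ne_zero _ hp.ne_zero this
  have hpc : p ^ (r₁ + 1) ≤ c := by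
    have h1 : p ^ r₂ ≤ c ^ (p - 1) :=
      Nat.le_of_dvd (Nat.pos_of_ne_zero (pow_ne_zero _ hc0)) h.dvd_c_pow
    have h2 : (p ^ (r₁ + 1)) ^ (p - 1) ≤ c ^ (p - 1) := by
      rw [← pow_mul]
      exact le_trans (Nat.pow_le_pow_right hp.pos hr₂) h1
    have hp1 : p - 1 ≠ 0 := by
      have := hp.two_le
      omega
    exact (Nat.pow_le_pow_iff_left hp1).mp h2
  -- `a0 ≠ 0`
  have ha0' : a0 ≠ 0 := by
    have hXN : X.map (m14alg2_N s p) ≤ LinearMap.ker (m14alg2_D s) ⊓ X := by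
      rintro _ ⟨x, hx, rfl⟩
      exact ⟨m14alg2_DN s p hs x, h.X_stable_N x hx⟩
    have e1 := m14alg2_ri_mul_ri hXN (inf_le_left : LinearMap.ker (m14alg2_D s) ⊓ X ≤ _)
    rw [h.x0_eq] at e1
    have e2 : m14alg2_ri (LinearMap.ker (m14alg2_D s) ⊓ X) (LinearMap.ker (m14alg2_D s)) ≠ 0 := by
      unfold m14alg2_ri
      have e3 : (LinearMap.ker (m14alg2_D s) ⊓ X).toAddSubgroup
          = (LinearMap.ker (m14alg2_D s)).toAddSubgroup ⊓ X.toAddSubgroup := rfl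
      rw [e3, AddSubgroup.inf_relIndex_left]
      intro h0
      exact hX (Nat.eq_zero_of_zero_dvd (h0 ▸ AddSubgroup.relIndex_dvd_index_of_normal _ _))
    have e4 : m14alg2_ri (X.map (m14alg2_N s p)) (LinearMap.ker (m14alg2_D s)) ≠ 0 := by
      rw [← e1]
      exact mul_ne_zero (pow_ne_zero _ hp.ne_zero) e2
    have e5 : a0 ∣ m14alg2_ri (X.map (m14alg2_N s p)) (LinearMap.ker (m14alg2_D s)) :=
      m14alg2_ri_dvd_of_le_left _ (by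
        rintro _ ⟨x, -, rfl⟩
        exact ⟨x, rfl⟩)
    intro h0
    rw [h0, zero_dvd_iff] at e5
    exact e4 e5
  refine ⟨ha0', ?_⟩
  -- combine
  have hx0 : 0 < p ^ r₁ := pow_pos hp.pos _
  have h1 : p * a0 * p ^ r₁ ≤ p ^ r₁ * a1 := by
    calc p * a0 * p ^ r₁ = a0 * p ^ (r₁ + 1) := by rw [pow_succ]; ring
      _ ≤ a0 * c := Nat.mul_le_mul_left a0 hpc
      _ = p ^ r₁ * a1 := herb
  rw [mul_comm (p ^ r₁) a1] at h1
  exact Nat.le_of_mul_le_mul_right h1 hx0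

end Fermat.Agent.M14
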