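import Mathlib

/-!
# M14 / ALG3: definitions for the unit input of the ambiguous class count

`L/K` a Galois extension of number fields, `σ ∈ Gal(L/K)`.

* `m14alg3_Nm K L : (𝓞 L)ˣ →* (𝓞 K)ˣ` : the norm on units;
* `m14alg3_act K L σ : (𝓞 L)ˣ →* (𝓞 L)ˣ` : the action of `σ` on units;
* `m14alg3_B K L σ : Subgroup (𝓞 L)ˣ` : the subgroup `{σ ε / ε}`.

In this language `H¹(G, E_L) = ker Nm / B` and `Ĥ⁰(G, E_L) = (𝓞 K)ˣ / range Nm` for `G = ⟨σ⟩`,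
and the Herbrand quotient inequality `q(E_L) ≤ 1/p` reads
`p * (m14alg3_Nm K L).range.index ≤ (m14alg3_B K L σ).relIndex (m14alg3_Nm K L).ker`.
-/

set_option autoImplicit false
set_option linter.deprecated false
set_option linter.unusedSectionVars false
set_option linter.unusedVariables false

namespace Fermat.Agent.M14

open NumberField

noncomputable section

variable (K L : Type) [Field K] [NumberField K] [Field L] [NumberField L] [Algebra K L]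

/-- The norm on units of the rings of integers. -/
def m14alg3_Nm : (𝓞 L)ˣ →* (𝓞 K)ˣ := Units.map (RingOfIntegers.norm K)

/-- The action of `σ ∈ Gal(L/K)` on the units of `𝓞 L`. -/
def m14alg3_act (σ : L ≃ₐ[K] L) : (𝓞 L)ˣ →* (𝓞 L)ˣ :=
  Units.map ((MulSemiringAction.toRingHom (L ≃ₐ[K] L) (𝓞 L) σ : 𝓞 L →+* 𝓞 L) : 𝓞 L →* 𝓞 L)

/-- The homomorphism `ε ↦ σ ε / ε` on units. -/
def m14alg3_delta (σ : L ≃ₐ[K] L) : (𝓞 L)ˣ →* (𝓞 L)ˣ :=
  m14alg3_act K L σ / MonoidHom.id _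

/-- The subgroup `{σ ε / ε}` of the units of `𝓞 L`. -/
def m14alg3_B (σ : L ≃ₐ[K] L) : Subgroup (𝓞 L)ˣ := (m14alg3_delta K L σ).range

variable {K L}

@[simp] lemma m14alg3_Nm_coe (u : (𝓞 L)ˣ) :
    ((m14alg3_Nm K L u : (𝓞 K)ˣ) : 𝓞 K) = RingOfIntegers.norm K (u : 𝓞 L) := rfl

@[simp] lemma m14alg3_act_coe (σ : L ≃ₐ[K] L) (u : (𝓞 L)ˣ) :
    ((m14alg3_act K L σ u : (𝓞 L)ˣ) : 𝓞 L) = σ • (u : 𝓞 L) := rfl

lemma m14alg3_delta_apply (σ : L ≃ₐ[K] L) (u : (𝓞 L)ˣ) :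
    m14alg3_delta K L σ u = m14alg3_act K L σ u / u := rfl

lemma m14alg3_mem_B {σ : L ≃ₐ[K] L} {u : (𝓞 L)ˣ} :
    u ∈ m14alg3_B K L σ ↔ ∃ ε : (𝓞 L)ˣ, m14alg3_act K L σ ε / ε = u := Iff.rfl

end

end Fermat.Agent.M14
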