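import Mathlib
import Fermat.Agent.M14.Alg2Rank
import Fermat.Agent.M14.Alg3Defs

/-!
# M14 (S14), package [ALG2], part 4: the Herbrand quotient of the unit group of a cyclic
extension of prime degree of a totally complex number field
-/

set_option autoImplicit false
set_option linter.style.haveILetI false
set_option linter.unusedSectionVars false

open Polynomial Finset Module NumberField

namespace Fermat.Agent.M14

noncomputable section

variable {K L : Type} [Field K] [NumberField K] [Field L] [NumberField L] [Algebra K L]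

/-- the action of `σ` on the additive version of the unit group -/
def m14alg2_s (σ : L ≃ₐ[K] L) : Additive (𝓞 L)ˣ →ₗ[ℤ] Additive (𝓞 L)ˣ :=
  (MonoidHom.toAdditive (m14alg3_act K L σ)).toIntLinearMap

theorem m14alg2_s_apply (σ : L ≃ₐ[K] L) (u : (𝓞 L)ˣ) :
    m14alg2_s σ (Additive.ofMul u) = Additive.ofMul (m14alg3_act K L σ u) := rfl

theorem m14alg2_act_one (u : (𝓞 L)ˣ) : m14alg3_act K L (1 : L ≃ₐ[K] L) u = u := by
  apply Units.ext
  rw [m14alg3_act_coe, one_smul]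

theorem m14alg2_act_mul (σ τ : L ≃ₐ[K] L) (u : (𝓞 L)ˣ) :
    m14alg3_act K L (σ * τ) u = m14alg3_act K L σ (m14alg3_act K L τ u) := by
  apply Units.ext
  rw [m14alg3_act_coe, m14alg3_act_coe, m14alg3_act_coe, mul_smul]

theorem m14alg2_s_pow (σ : L ≃ₐ[K] L) (i : ℕ) : (m14alg2_s σ) ^ i = m14alg2_s (σ ^ i) := by
  induction i with
  | zero =>
    rw [pow_zero, pow_zero]
    refine LinearMap.ext (fun u => ?_)
    change u = Additive.ofMul (m14alg3_act K L 1 (Additive.toMul u))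
    rw [m14alg2_act_one]
    rfl
  | succ i ih =>
    rw [pow_succ, pow_succ, ih]
    refine LinearMap.ext (fun u => ?_)
    change Additive.ofMul (m14alg3_act K L (σ ^ i) (m14alg3_act K L σ (Additive.toMul u)))
      = Additive.ofMul (m14alg3_act K L (σ ^ i * σ) (Additive.toMul u))
    rw [m14alg2_act_mul]

theorem m14alg2_D_s (σ : L ≃ₐ[K] L) (u : (𝓞 L)ˣ) :
    m14alg2_D (m14alg2_s σ) (Additive.ofMul u) = Additive.ofMul (m14alg3_delta K L σ u) := rfl

theorem m14alg2_N_s_apply (σ : L ≃ₐ[K] L) (p : ℕ) (u : (𝓞 L)ˣ) :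
    m14alg2_N (m14alg2_s σ) p (Additive.ofMul u)
      = Additive.ofMul (∏ i ∈ range p, m14alg3_act K L (σ ^ i) u) := by
  rw [m14alg2_N_apply, ofMul_prod]
  refine Finset.sum_congr rfl (fun i _ => ?_)
  rw [m14alg2_s_pow]
  rfl


variable [IsGalois K L]

theorem m14alg2_orderOf (p : ℕ) (hdeg : Module.finrank K L = p) (σ : L ≃ₐ[K] L)
    (hσ : ∀ τ, τ ∈ Subgroup.zpowers σ) : orderOf σ = p := by
  rw [orderOf_eq_card_of_forall_mem_zpowers hσ, IsGalois.card_aut_eq_finrank, hdeg]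

/-- a product over the cyclic Galois group as a product over the powers of a generator -/
theorem m14alg2_prod_eq {M : Type*} [CommMonoid M] (p : ℕ) (hp : 0 < p)
    (hdeg : Module.finrank K L = p) (σ : L ≃ₐ[K] L) (hσ : ∀ τ, τ ∈ Subgroup.zpowers σ)
    (f : (L ≃ₐ[K] L) → M) : ∏ τ : L ≃ₐ[K] L, f τ = ∏ i ∈ range p, f (σ ^ i) := by
  classical
  have hord := m14alg2_orderOf p hdeg σ hσ
  have hbij : Function.Bijective (fun i : Fin p => σ ^ (i : ℕ)) := by
    constructor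
    · intro i j hij
      simp only at hij
      have h1 : (i : ℕ) < orderOf σ := hord ▸ i.2
      have h2 : (j : ℕ) < orderOf σ := hord ▸ j.2
      exact Fin.ext (pow_injOn_Iio_orderOf (Set.mem_Iio.mpr h1) (Set.mem_Iio.mpr h2) hij)
    · intro τ
      obtain ⟨k, hk⟩ := (mem_powers_iff_mem_zpowers.mpr (hσ τ))
      simp only at hk
      refine ⟨⟨k % p, Nat.mod_lt _ hp⟩, ?_⟩
      simp only
      rw [← hk, ← hord, pow_mod_orderOf]
  rw [← Fin.prod_univ_eq_prod_range (fun i => f (σ ^ i)) p]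
  exact (Fintype.prod_bijective _ hbij _ _ (fun i => rfl)).symm

/-- the inclusion of the units of `K` -/
def m14alg2_iota (K L : Type) [Field K] [NumberField K] [Field L] [NumberField L]
    [Algebra K L] : (𝓞 K)ˣ →* (𝓞 L)ˣ :=
  Units.map ((algebraMap (𝓞 K) (𝓞 L) : 𝓞 K →+* 𝓞 L) : 𝓞 K →* 𝓞 L)

omit [IsGalois K L] in
theorem m14alg2_iota_coe (x : (𝓞 K)ˣ) :
    (((m14alg2_iota K L x : (𝓞 L)ˣ) : 𝓞 L) : L) = algebraMap K L ((x : 𝓞 K) : K) := rfl

omit [IsGalois K L] in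
theorem m14alg2_iota_injective : Function.Injective (m14alg2_iota K L) := by
  intro x y hxy
  have h := m14alg2_iota_coe (K := K) (L := L) x
  rw [hxy, m14alg2_iota_coe] at h
  apply Units.ext
  apply NumberField.RingOfIntegers.coe_injective
  exact (algebraMap K L).injective h.symm

omit [IsGalois K L] in
theorem m14alg2_act_coe_coe (σ : L ≃ₐ[K] L) (u : (𝓞 L)ˣ) :
    (((m14alg3_act K L σ u : (𝓞 L)ˣ) : 𝓞 L) : L) = σ ((u : 𝓞 L) : L) := rfl

/-- the norm as a product of conjugates -/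
theorem m14alg2_iota_Nm (p : ℕ) (hp : 0 < p) (hdeg : Module.finrank K L = p) (σ : L ≃ₐ[K] L)
    (hσ : ∀ τ, τ ∈ Subgroup.zpowers σ) (u : (𝓞 L)ˣ) :
    m14alg2_iota K L (m14alg3_Nm K L u) = ∏ i ∈ range p, m14alg3_act K L (σ ^ i) u := by
  apply Units.ext
  apply NumberField.RingOfIntegers.coe_injective
  change (((m14alg2_iota K L (m14alg3_Nm K L u) : (𝓞 L)ˣ) : 𝓞 L) : L)
    = algebraMap (𝓞 L) L ((∏ i ∈ range p, m14alg3_act K L (σ ^ i) u : (𝓞 L)ˣ) : 𝓞 L)
  rw [m14alg2_iota_coe, m14alg3_Nm_coe, RingOfIntegers.coe_norm,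
    Algebra.norm_eq_prod_automorphisms, m14alg2_prod_eq p hp hdeg σ hσ]
  rw [Units.coe_prod, map_prod]
  rfl


/-- units fixed by a generator of the Galois group come from `K` -/
theorem m14alg2_exists_iota_eq (σ : L ≃ₐ[K] L) (hσ : ∀ τ, τ ∈ Subgroup.zpowers σ)
    (u : (𝓞 L)ˣ) (hu : m14alg3_act K L σ u = u) : ∃ x : (𝓞 K)ˣ, m14alg2_iota K L x = u := by
  have hfix : ∀ (v : L), σ v = v → ∀ τ : L ≃ₐ[K] L, τ v = v := by
    intro v hv τ
    have h1 : Subgroup.zpowers σ ≤ MulAction.stabilizer (L ≃ₐ[K] L) v := by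
      rw [Subgroup.zpowers_le]
      exact hv
    exact h1 (hσ τ)
  have hkey : ∀ (v : L), IsIntegral ℤ v → σ v = v →
      ∃ k : 𝓞 K, algebraMap K L (k : K) = v := by
    intro v hint hv
    obtain ⟨k, hk⟩ := (IsGalois.mem_range_algebraMap_iff_fixed (F := K) (E := L) v).mpr
      (hfix v hv)
    have hkint : IsIntegral ℤ k := by
      rw [← hk] at hint
      exact (isIntegral_algebraMap_iff (algebraMap K L).injective).mp hint
    exact ⟨⟨k, hkint⟩, hk⟩
  have hu1 : σ (((u : (𝓞 L)ˣ) : 𝓞 L) : L) = ((u : 𝓞 L) : L) := by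
    have := congrArg (fun w : (𝓞 L)ˣ => ((w : 𝓞 L) : L)) hu
    exact this
  have h1 : (((u : (𝓞 L)ˣ) : 𝓞 L) : L) * (((u⁻¹ : (𝓞 L)ˣ) : 𝓞 L) : L) = 1 := by
    have e : ((u : (𝓞 L)ˣ) : 𝓞 L) * ((u⁻¹ : (𝓞 L)ˣ) : 𝓞 L) = 1 := u.mul_inv
    have := congrArg (fun w : 𝓞 L => (w : L)) e
    simp only [map_mul, map_one] at this
    exact this
  have hu2 : σ (((u⁻¹ : (𝓞 L)ˣ) : 𝓞 L) : L) = ((u⁻¹ : (𝓞 L)ˣ) : 𝓞 L) := by
    have h0 : (((u : (𝓞 L)ˣ) : 𝓞 L) : L) ≠ 0 := left_ne_zero_of_mul_eq_one h1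
    have h2 : (((u⁻¹ : (𝓞 L)ˣ) : 𝓞 L) : L) = ((((u : (𝓞 L)ˣ) : 𝓞 L) : L))⁻¹ :=
      eq_inv_of_mul_eq_one_right h1
    rw [h2, map_inv₀, hu1]
  obtain ⟨a, ha⟩ := hkey _ (NumberField.RingOfIntegers.isIntegral_coe _) hu1
  obtain ⟨b, hb⟩ := hkey _ (NumberField.RingOfIntegers.isIntegral_coe _) hu2
  have hab : a * b = 1 := by
    have h3 : algebraMap K L ((a : K) * (b : K)) = algebraMap K L 1 := by
      rw [map_mul, ha, hb, map_one]
      exact h1
    have h4 : (a : K) * (b : K) = 1 := (algebraMap K L).injective h3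
    apply NumberField.RingOfIntegers.coe_injective
    rw [map_mul, map_one]
    exact h4
  refine ⟨⟨a, b, hab, by rw [mul_comm]; exact hab⟩, ?_⟩
  apply Units.ext
  apply NumberField.RingOfIntegers.coe_injective
  change algebraMap K L ((a : 𝓞 K) : K) = _
  exact ha

end

end Fermat.Agent.M14
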