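import Mathlib

/-!
# M14 / ALG3: abstract group theory for the ambiguous class count

* `m14alg3_relIndex_le` : a relative index is bounded by the cardinality of any set which
  separates the cosets;
* `m14alg3_exists_lift` : multiplicative functions on nonzero ideals which kill the principal
  ideals induce homomorphisms on the class group;
* `m14alg3_count` : the counting argument.  `A` and `C` finite abelian groups (the class groups of
  `L` and `K`), `φ : A → A` (the action of a generator of the Galois group), `Nst : A → C` (the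
  norm) and `j : C → A` (extension of ideals).  If `p * c0 ≤ c1 ≤ #ker j` and
  `[A^φ : range j] ≤ c0` then the norm is not surjective.
-/

set_option autoImplicit false
set_option linter.deprecated false
set_option linter.unusedSectionVars false
set_option linter.unusedVariables false
set_option linter.style.haveILetI false

namespace Fermat.Agent.M14

open Ideal

/-- A relative index is bounded by the cardinality of a set separating the cosets. -/
theorem m14alg3_relIndex_le {G T : Type*} [Group G] [Finite T] (H K : Subgroup G) (f : K → T)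
    (hf : ∀ x y : K, f x = f y → (x : G)⁻¹ * y ∈ H) : H.relIndex K ≤ Nat.card T := by
  classical
  unfold Subgroup.relIndex Subgroup.index
  apply Nat.card_le_card_of_injective (fun q : K ⧸ H.subgroupOf K => f q.out)
  intro q q' h
  have h1 := hf _ _ h
  rw [← QuotientGroup.out_eq' q, ← QuotientGroup.out_eq' q']
  exact QuotientGroup.eq.mpr (by simpa [Subgroup.mem_subgroupOf] using h1)

/-- The class of an ideal, as a total function (the zero ideal has class `1`). -/
noncomputable def m14alg3_cls {R : Type*} [CommRing R] [IsDedekindDomain R] (I : Ideal R) :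
    ClassGroup R :=
  open Classical in
  if h : I = ⊥ then 1 else ClassGroup.mk0 ⟨I, mem_nonZeroDivisors_of_ne_zero h⟩

section cls

variable {R : Type*} [CommRing R] [IsDedekindDomain R]

theorem m14alg3_cls_of_ne {I : Ideal R} (h : I ≠ ⊥) :
    m14alg3_cls I = ClassGroup.mk0 ⟨I, mem_nonZeroDivisors_of_ne_zero h⟩ := by
  unfold m14alg3_cls
  rw [dif_neg h]

theorem m14alg3_cls_mk0 (I : nonZeroDivisors (Ideal R)) :
    m14alg3_cls (I : Ideal R) = ClassGroup.mk0 I := by
  rw [m14alg3_cls_of_ne (nonZeroDivisors.coe_ne_zero I)]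

theorem m14alg3_cls_surjective (c : ClassGroup R) :
    ∃ I : Ideal R, I ≠ ⊥ ∧ m14alg3_cls I = c := by
  obtain ⟨I, rfl⟩ := ClassGroup.mk0_surjective c
  exact ⟨I, nonZeroDivisors.coe_ne_zero I, m14alg3_cls_mk0 I⟩

theorem m14alg3_cls_mul {I J : Ideal R} (hI : I ≠ ⊥) (hJ : J ≠ ⊥) :
    m14alg3_cls (I * J) = m14alg3_cls I * m14alg3_cls J := by
  rw [m14alg3_cls_of_ne hI, m14alg3_cls_of_ne hJ, m14alg3_cls_of_ne (mul_ne_zero hI hJ),
    ← map_mul]
  rfl

theorem m14alg3_cls_span {x : R} (hx : x ≠ 0) : m14alg3_cls (span {x} : Ideal R) = 1 := by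
  have h : (span {x} : Ideal R) ≠ ⊥ := by rwa [Ne, Ideal.span_singleton_eq_bot]
  rw [m14alg3_cls_of_ne h, ClassGroup.mk0_eq_one_iff]
  exact ⟨⟨x, rfl⟩⟩

theorem m14alg3_cls_eq_iff {I J : Ideal R} (hI : I ≠ ⊥) (hJ : J ≠ ⊥) :
    m14alg3_cls I = m14alg3_cls J ↔
      ∃ x y : R, x ≠ 0 ∧ y ≠ 0 ∧ span {x} * I = span {y} * J := by
  rw [m14alg3_cls_of_ne hI, m14alg3_cls_of_ne hJ, ClassGroup.mk0_eq_mk0_iff]
  constructor
  · rintro ⟨x, y, hx, hy, h⟩
    exact ⟨x, y, hx, hy, h⟩
  · rintro ⟨x, y, hx, hy, h⟩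
    exact ⟨x, y, hx, hy, h⟩

/-- Multiplicative functions on nonzero ideals killing the principal ideals descend to the class
group (in terms of `m14alg3_cls`). -/
theorem m14alg3_exists_lift_cls {H : Type*} [CommGroup H] (f : Ideal R → H)
    (hmul : ∀ I J : Ideal R, I ≠ ⊥ → J ≠ ⊥ → f (I * J) = f I * f J)
    (hprinc : ∀ x : R, x ≠ 0 → f (span {x}) = 1) :
    ∃ F : ClassGroup R →* H, ∀ I : Ideal R, I ≠ ⊥ → F (m14alg3_cls I) = f I := by
  classical
  have hspan : ∀ x : R, x ≠ 0 → (span {x} : Ideal R) ≠ ⊥ := fun x hx => by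
    rwa [Ne, Ideal.span_singleton_eq_bot]
  have hwd : ∀ I J : Ideal R, I ≠ ⊥ → J ≠ ⊥ → m14alg3_cls I = m14alg3_cls J → f I = f J := by
    intro I J hI hJ h
    obtain ⟨x, y, hx, hy, hxy⟩ := (m14alg3_cls_eq_iff hI hJ).mp h
    have h1 := congrArg f hxy
    rwa [hmul _ _ (hspan x hx) hI, hmul _ _ (hspan y hy) hJ, hprinc x hx, hprinc y hy,
      one_mul, one_mul] at h1
  let g : ClassGroup R → H := fun c => f (m14alg3_cls_surjective c).choose
  have hg : ∀ I : Ideal R, I ≠ ⊥ → g (m14alg3_cls I) = f I := fun I hI =>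
    hwd _ _ (m14alg3_cls_surjective (m14alg3_cls I)).choose_spec.1 hI
      (m14alg3_cls_surjective (m14alg3_cls I)).choose_spec.2
  have htop : f (⊤ : Ideal R) = 1 := by
    have := hprinc 1 one_ne_zero
    rwa [Ideal.span_singleton_one] at this
  have hcls1 : m14alg3_cls (⊤ : Ideal R) = 1 := by
    have := m14alg3_cls_span (R := R) (x := 1) one_ne_zero
    rwa [Ideal.span_singleton_one] at this
  refine ⟨⟨⟨g, ?_⟩, ?_⟩, hg⟩
  · rw [← hcls1, hg _ top_ne_bot, htop]
  · intro a b
    obtain ⟨I, hI, rfl⟩ := m14alg3_cls_surjective a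
    obtain ⟨J, hJ, rfl⟩ := m14alg3_cls_surjective b
    show g (m14alg3_cls I * m14alg3_cls J) = g (m14alg3_cls I) * g (m14alg3_cls J)
    rw [← m14alg3_cls_mul hI hJ, hg _ (mul_ne_zero hI hJ), hg _ hI, hg _ hJ]
    exact hmul _ _ hI hJ

end cls

/-- Multiplicative functions on nonzero ideals killing the principal ideals descend to the class
group. -/
theorem m14alg3_exists_lift {R : Type*} [CommRing R] [IsDedekindDomain R]
    {H : Type*} [CommGroup H] (f : Ideal R → H)
    (hmul : ∀ I J : Ideal R, I ≠ ⊥ → J ≠ ⊥ → f (I * J) = f I * f J)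
    (hprinc : ∀ x : R, x ≠ 0 → f (span {x}) = 1) :
    ∃ F : ClassGroup R →* H, ∀ I : nonZeroDivisors (Ideal R), F (ClassGroup.mk0 I) = f I := by
  classical
  have hne : ∀ I : nonZeroDivisors (Ideal R), (I : Ideal R) ≠ ⊥ := fun I =>
    nonZeroDivisors.coe_ne_zero I
  have hspan : ∀ x : R, x ≠ 0 → (span {x} : Ideal R) ≠ ⊥ := fun x hx => by
    rwa [Ne, Ideal.span_singleton_eq_bot]
  have hwd : ∀ I J : nonZeroDivisors (Ideal R), ClassGroup.mk0 I = ClassGroup.mk0 J →
      f I = f J := by
    intro I J h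
    obtain ⟨x, y, hx, hy, hxy⟩ := ClassGroup.mk0_eq_mk0_iff.mp h
    have h1 := congrArg f hxy
    rwa [hmul _ _ (hspan x hx) (hne I), hmul _ _ (hspan y hy) (hne J), hprinc x hx, hprinc y hy,
      one_mul, one_mul] at h1
  let g : ClassGroup R → H := fun c => f (ClassGroup.mk0_surjective c).choose
  have hg : ∀ I : nonZeroDivisors (Ideal R), g (ClassGroup.mk0 I) = f I := fun I =>
    hwd _ _ (ClassGroup.mk0_surjective (ClassGroup.mk0 I)).choose_spec
  have htop : f (⊤ : Ideal R) = 1 := by
    have := hprinc 1 one_ne_zero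
    rwa [Ideal.span_singleton_one] at this
  refine ⟨⟨⟨g, ?_⟩, ?_⟩, hg⟩
  · have h1 : g (ClassGroup.mk0 1) = 1 := by
      rw [hg]; simpa using htop
    simpa using h1
  · intro a b
    obtain ⟨I, rfl⟩ := ClassGroup.mk0_surjective a
    obtain ⟨J, rfl⟩ := ClassGroup.mk0_surjective b
    show g (ClassGroup.mk0 I * ClassGroup.mk0 J) = g (ClassGroup.mk0 I) * g (ClassGroup.mk0 J)
    rw [← map_mul, hg, hg, hg]
    exact hmul _ _ (hne I) (hne J)

/-- The counting argument behind the ambiguous class number formula. -/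
theorem m14alg3_count {A C : Type*} [CommGroup A] [CommGroup C] [Finite A] [Finite C]
    (φ : A →* A) (Nst : A →* C) (j : C →* A)
    (hN : ∀ a, Nst (φ a) = Nst a) (hj : ∀ c, φ (j c) = j c)
    (p c0 c1 : ℕ) (hp : 1 < p) (hh : p * c0 ≤ c1)
    (ha : c1 ≤ Nat.card j.ker)
    (hb : j.range.relIndex (φ / MonoidHom.id A).ker ≤ c0) :
    ¬ Function.Surjective Nst := by
  intro hsurj
  set δ : A →* A := φ / MonoidHom.id A with hδ
  have hδa : ∀ a, δ a = φ a / a := fun a => rfl
  -- cardinalities
  have hA : 0 < Nat.card A := Nat.card_pos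
  have hFixpos : 0 < Nat.card δ.ker := Nat.card_pos
  have hRpos : 0 < Nat.card δ.range := Nat.card_pos
  have hjrpos : 0 < Nat.card j.range := Nat.card_pos
  -- (i) |Fix| * |range δ| = |A|
  have h1 : Nat.card δ.ker * Nat.card δ.range = Nat.card A := by
    rw [← Subgroup.index_ker]; exact Subgroup.card_mul_index _
  -- (ii) |C| ≤ |Fix|
  have h2 : Nat.card C ≤ Nat.card δ.ker := by
    have hle : δ.range ≤ Nst.ker := by
      rintro _ ⟨a, rfl⟩
      rw [MonoidHom.mem_ker, hδa, map_div, hN, div_self']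
    have hdvd := Subgroup.index_dvd_of_le hle
    have hC : Nst.ker.index = Nat.card C := by
      rw [Subgroup.index_ker, MonoidHom.range_eq_top.mpr hsurj, Subgroup.card_top]
    have hidx : δ.range.index = Nat.card δ.ker := by
      have h3 : δ.range.index * Nat.card δ.range = Nat.card A := Subgroup.index_mul_card _
      exact Nat.eq_of_mul_eq_mul_right hRpos (h3.trans h1.symm)
    rw [hC, hidx] at hdvd
    exact Nat.le_of_dvd hFixpos hdvd
  -- (iii) |C| = |ker j| * |range j|
  have h3 : Nat.card j.ker * Nat.card j.range = Nat.card C := by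
    rw [← Subgroup.index_ker]; exact Subgroup.card_mul_index _
  -- (iv) |Fix| = [Fix : range j] * |range j|
  have hle : j.range ≤ δ.ker := by
    rintro _ ⟨c, rfl⟩
    rw [MonoidHom.mem_ker, hδa, hj, div_self']
  have h4 : j.range.relIndex δ.ker * Nat.card j.range = Nat.card δ.ker := by
    have e1 := Subgroup.relIndex_mul_index hle
    have e2 : j.range.index * Nat.card j.range = Nat.card A := Subgroup.index_mul_card _
    have e3 : δ.ker.index * Nat.card δ.ker = Nat.card A := Subgroup.index_mul_card _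
    have hkpos : 0 < δ.ker.index := by
      rcases Nat.eq_zero_or_pos δ.ker.index with h | h
      · rw [h, zero_mul] at e3; omega
      · exact h
    apply Nat.eq_of_mul_eq_mul_left hkpos
    calc δ.ker.index * (j.range.relIndex δ.ker * Nat.card j.range)
        = (j.range.relIndex δ.ker * δ.ker.index) * Nat.card j.range := by ring
      _ = Nat.card A := by rw [e1, e2]
      _ = δ.ker.index * Nat.card δ.ker := e3.symm
  -- combine
  have h5 : p * Nat.card δ.ker ≤ Nat.card δ.ker := by
    calc p * Nat.card δ.ker = p * (j.range.relIndex δ.ker * Nat.card j.range) := by rw [h4]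
      _ = (p * j.range.relIndex δ.ker) * Nat.card j.range := by ring
      _ ≤ (p * c0) * Nat.card j.range := by gcongr
      _ ≤ c1 * Nat.card j.range := by gcongr
      _ ≤ Nat.card j.ker * Nat.card j.range := by gcongr
      _ = Nat.card C := h3
      _ ≤ Nat.card δ.ker := h2
  nlinarith

end Fermat.Agent.M14
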