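import Mathlib

/-!
# M14 / ALG3: Galois-invariant ideals in an unramified extension are extended

`L/K` a Galois extension of number fields such that `𝔭 𝓞_L` is a radical ideal for every nonzero
prime `𝔭` of `𝓞_K` (no finite prime ramifies).  Then every nonzero ideal `𝔄` of `𝓞_L` with
`σ • 𝔄 = 𝔄` for all `σ ∈ Gal(L/K)` is of the form `𝔞 𝓞_L`.
-/

set_option autoImplicit false
set_option linter.deprecated false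
set_option linter.unusedSectionVars false
set_option linter.unusedVariables false
set_option linter.style.haveILetI false

namespace Fermat.Agent.M14

open NumberField Ideal
open scoped Pointwise

section

variable {K L : Type} [Field K] [NumberField K] [Field L] [NumberField L] [Algebra K L]

theorem m14alg3_smul_span (σ : L ≃ₐ[K] L) (x : 𝓞 L) :
    σ • (span {x} : Ideal (𝓞 L)) = span {σ • x} := by
  rw [Ideal.pointwise_smul_def, Ideal.map_span, Set.image_singleton]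
  rfl

theorem m14alg3_smul_map (σ : L ≃ₐ[K] L) (𝔞 : Ideal (𝓞 K)) :
    σ • (𝔞.map (algebraMap (𝓞 K) (𝓞 L))) = 𝔞.map (algebraMap (𝓞 K) (𝓞 L)) := by
  rw [Ideal.pointwise_smul_def, Ideal.map_map]
  congr 1
  ext x
  show σ (algebraMap K L (x : K)) = algebraMap K L (x : K)
  exact σ.commutes _

theorem m14alg3_smul_mul (σ : L ≃ₐ[K] L) (I J : Ideal (𝓞 L)) :
    σ • (I * J) = σ • I * σ • J := smul_mul' σ I J

theorem m14alg3_smul_ne_bot (σ : L ≃ₐ[K] L) {I : Ideal (𝓞 L)} (hI : I ≠ ⊥) : σ • I ≠ ⊥ := by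
  intro h
  apply hI
  have : σ⁻¹ • (σ • I) = σ⁻¹ • (⊥ : Ideal (𝓞 L)) := by rw [h]
  rwa [inv_smul_smul, Ideal.pointwise_smul_def, Ideal.map_bot] at this

theorem m14alg3_map_ne_bot {𝔞 : Ideal (𝓞 K)} (h : 𝔞 ≠ ⊥) :
    𝔞.map (algebraMap (𝓞 K) (𝓞 L)) ≠ ⊥ := by
  rw [Ne, Ideal.map_eq_bot_iff_of_injective (FaithfulSMul.algebraMap_injective (𝓞 K) (𝓞 L))]
  exact h

/-- invariance under a generator gives invariance under the whole group -/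
theorem m14alg3_invariant_of_generator (σ : L ≃ₐ[K] L) (hσ : ∀ τ, τ ∈ Subgroup.zpowers σ)
    (𝔄 : Ideal (𝓞 L)) (h : σ • 𝔄 = 𝔄) : ∀ τ : L ≃ₐ[K] L, τ • 𝔄 = 𝔄 := by
  intro τ
  have h1 : Subgroup.zpowers σ ≤ MulAction.stabilizer (L ≃ₐ[K] L) 𝔄 := by
    rw [Subgroup.zpowers_le]
    exact h
  exact h1 (hσ τ)

variable [IsGalois K L]

/-- **Invariant ideals are extended** (no finite ramification). -/
theorem m14alg3_invariant_extended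
    (hunr : ∀ 𝔭 : Ideal (𝓞 K), 𝔭.IsPrime → 𝔭 ≠ ⊥ →
      (𝔭.map (algebraMap (𝓞 K) (𝓞 L))).IsRadical)
    (𝔄 : Ideal (𝓞 L)) (h0 : 𝔄 ≠ ⊥) (hinv : ∀ σ : L ≃ₐ[K] L, σ • 𝔄 = 𝔄) :
    ∃ 𝔞 : Ideal (𝓞 K), 𝔞 ≠ ⊥ ∧ 𝔞.map (algebraMap (𝓞 K) (𝓞 L)) = 𝔄 := by
  revert h0 hinv
  induction 𝔄 using WellFoundedGT.induction with
  | _ 𝔄 ih =>
  intro h0 hinv
  by_cases htop : 𝔄 = ⊤
  · exact ⟨⊤, top_ne_bot, by rw [Ideal.map_top, htop]⟩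
  obtain ⟨𝔓, h𝔓max, h𝔓⟩ := Ideal.exists_le_maximal 𝔄 htop
  haveI : 𝔓.IsPrime := h𝔓max.isPrime
  have h𝔓0 : 𝔓 ≠ ⊥ := fun h => h0 (le_bot_iff.mp (h ▸ h𝔓))
  set 𝔭 : Ideal (𝓞 K) := 𝔓.under (𝓞 K) with h𝔭
  haveI h𝔭prime : 𝔭.IsPrime := Ideal.IsPrime.under (𝓞 K) 𝔓
  have h𝔭0 : 𝔭 ≠ ⊥ := fun h => h𝔓0 (Ideal.eq_bot_of_comap_eq_bot h)
  haveI h𝔭max : 𝔭.IsMaximal := Ring.DimensionLEOne.maximalOfPrime h𝔭0 h𝔭prime
  haveI : 𝔓.LiesOver 𝔭 := ⟨rfl⟩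
  set P : Ideal (𝓞 L) := 𝔭.map (algebraMap (𝓞 K) (𝓞 L)) with hP
  have hPrad : P.radical = P := (hunr 𝔭 h𝔭prime h𝔭0).radical
  have hP𝔓 : P ≤ 𝔓 := Ideal.map_le_iff_le_comap.mpr le_rfl
  have hP0 : P ≠ ⊥ := m14alg3_map_ne_bot h𝔭0
  -- 𝔄 ≤ P
  have hle : 𝔄 ≤ P := by
    rw [← hPrad, Ideal.radical_eq_sInf]
    apply le_sInf
    rintro 𝔔 ⟨h𝔔, h𝔔prime⟩
    haveI := h𝔔prime
    haveI : 𝔔.LiesOver 𝔭 := by
      constructor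
      have h1 : 𝔭 ≤ 𝔔.under (𝓞 K) := Ideal.map_le_iff_le_comap.mp h𝔔
      have h2 : 𝔔.under (𝓞 K) ≠ ⊤ := (Ideal.IsPrime.under (𝓞 K) 𝔔).ne_top
      exact h𝔭max.eq_of_le h2 h1
    obtain ⟨σ, rfl⟩ := Ideal.exists_smul_eq_of_isGaloisGroup 𝔭 𝔓 𝔔 (L ≃ₐ[K] L)
    rw [← hinv σ]
    exact Ideal.pointwise_smul_le_pointwise_smul_iff.mpr h𝔓
  obtain ⟨𝔄', h𝔄'⟩ := Ideal.dvd_iff_le.mpr hle
  have h𝔄'0 : 𝔄' ≠ ⊥ := by
    rintro rfl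
    rw [Ideal.mul_bot] at h𝔄'
    exact h0 h𝔄'
  have hlt : 𝔄 < 𝔄' := by
    refine lt_of_le_of_ne (h𝔄' ▸ (Ideal.mul_le_right : P * 𝔄' ≤ 𝔄')) ?_
    intro h
    have h1 : P * 𝔄' = 1 * 𝔄' := by rw [one_mul, ← h𝔄', h]
    have h2 : P = 1 := mul_right_cancel₀ h𝔄'0 h1
    rw [Ideal.one_eq_top] at h2
    exact h𝔓max.ne_top (top_le_iff.mp (h2 ▸ hP𝔓))
  have hinv' : ∀ σ : L ≃ₐ[K] L, σ • 𝔄' = 𝔄' := by
    intro σ
    have h1 := hinv σ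
    rw [h𝔄', m14alg3_smul_mul, hP, m14alg3_smul_map] at h1
    exact mul_left_cancel₀ hP0 h1
  obtain ⟨𝔞', h𝔞'0, h𝔞'⟩ := ih 𝔄' hlt h𝔄'0 hinv'
  refine ⟨𝔭 * 𝔞', mul_ne_zero h𝔭0 h𝔞'0, ?_⟩
  rw [Ideal.map_mul, h𝔞', h𝔄']

end

end Fermat.Agent.M14
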