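import Mathlib
import Fermat.Agent.M14.Alg3Defs
import Fermat.Agent.M14.Alg3Grp
import Fermat.Agent.M14.Alg3Inv

/-!
# M14 / ALG3: the two key index inequalities of the ambiguous class count

`L/K` a cyclic extension of number fields with generator `σ` of the Galois group, unramified at
all finite primes.  With `j : Cl(K) → Cl(L)` the extension of ideals and `φ : Cl(L) → Cl(L)` the
action of `σ`:

* `m14alg3_key_a` : `[ker Nm : B] ≤ #ker j`   (`H¹(G, E_L)` injects into the capitulation kernel);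
* `m14alg3_key_b` : `[Cl(L)^σ : range j] ≤ [E_K : Nm E_L]`.
-/

set_option autoImplicit false
set_option linter.deprecated false
set_option linter.unusedSectionVars false
set_option linter.unusedVariables false
set_option linter.style.haveILetI false

namespace Fermat.Agent.M14

open NumberField Ideal
open scoped Pointwise

section

variable {K L : Type} [Field K] [NumberField K] [Field L] [NumberField L] [Algebra K L]

theorem m14alg3_intNorm_eq (x : 𝓞 L) :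
    Algebra.intNorm (𝓞 K) (𝓞 L) x = RingOfIntegers.norm K x := by
  apply RingOfIntegers.ext
  rw [RingOfIntegers.coe_norm]
  exact Algebra.algebraMap_intNorm (A := 𝓞 K) (K := K) (L := L) (B := 𝓞 L) x

theorem m14alg3_relNorm_span (x : 𝓞 L) :
    relNorm (𝓞 K) (span {x} : Ideal (𝓞 L)) = span {RingOfIntegers.norm K x} := by
  rw [relNorm_singleton, m14alg3_intNorm_eq]

theorem m14alg3_norm_ne_zero {x : 𝓞 L} (hx : x ≠ 0) : RingOfIntegers.norm K x ≠ 0 := by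
  rw [← m14alg3_intNorm_eq]
  exact Algebra.intNorm_ne_zero.mpr hx

theorem m14alg3_norm_smul (σ : L ≃ₐ[K] L) (x : 𝓞 L) :
    RingOfIntegers.norm K (σ • x) = RingOfIntegers.norm K x := by
  apply RingOfIntegers.ext
  rw [RingOfIntegers.coe_norm, RingOfIntegers.coe_norm]
  exact Algebra.norm_eq_of_algEquiv σ (x : L)

theorem m14alg3_span_ne_bot {R : Type*} [CommRing R] [IsDomain R] {x : R} (hx : x ≠ 0) :
    (span {x} : Ideal R) ≠ ⊥ := by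
  rwa [Ne, Ideal.span_singleton_eq_bot]

/-- the class-group homomorphism induced by `σ` -/
theorem m14alg3_exists_phi (σ : L ≃ₐ[K] L) :
    ∃ φ : ClassGroup (𝓞 L) →* ClassGroup (𝓞 L), ∀ I : Ideal (𝓞 L), I ≠ ⊥ →
      φ (m14alg3_cls I) = m14alg3_cls (σ • I) := by
  apply m14alg3_exists_lift_cls (fun I => m14alg3_cls (σ • I))
  · intro I J hI hJ
    show m14alg3_cls (σ • (I * J)) = _
    rw [m14alg3_smul_mul, m14alg3_cls_mul (m14alg3_smul_ne_bot σ hI) (m14alg3_smul_ne_bot σ hJ)]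
  · intro x hx
    show m14alg3_cls (σ • span {x}) = 1
    rw [m14alg3_smul_span]
    apply m14alg3_cls_span
    intro h
    apply hx
    have : σ⁻¹ • (σ • x) = σ⁻¹ • (0 : 𝓞 L) := by rw [h]
    rwa [inv_smul_smul, smul_zero] at this

/-- the class-group homomorphism induced by the relative norm -/
theorem m14alg3_exists_Nst :
    ∃ Nst : ClassGroup (𝓞 L) →* ClassGroup (𝓞 K), ∀ I : Ideal (𝓞 L), I ≠ ⊥ →
      Nst (m14alg3_cls I) = m14alg3_cls (relNorm (𝓞 K) I) := by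
  apply m14alg3_exists_lift_cls (fun I => m14alg3_cls (relNorm (𝓞 K) I))
  · intro I J hI hJ
    show m14alg3_cls (relNorm (𝓞 K) (I * J)) = _
    rw [map_mul, m14alg3_cls_mul (by rwa [Ne, relNorm_eq_bot_iff]) (by rwa [Ne, relNorm_eq_bot_iff])]
  · intro x hx
    show m14alg3_cls (relNorm (𝓞 K) (span {x})) = 1
    rw [m14alg3_relNorm_span]
    exact m14alg3_cls_span (m14alg3_norm_ne_zero hx)

/-- the class-group homomorphism induced by extension of ideals -/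
theorem m14alg3_exists_j :
    ∃ j : ClassGroup (𝓞 K) →* ClassGroup (𝓞 L), ∀ 𝔞 : Ideal (𝓞 K), 𝔞 ≠ ⊥ →
      j (m14alg3_cls 𝔞) = m14alg3_cls (𝔞.map (algebraMap (𝓞 K) (𝓞 L))) := by
  apply m14alg3_exists_lift_cls (fun 𝔞 => m14alg3_cls (𝔞.map (algebraMap (𝓞 K) (𝓞 L))))
  · intro I J hI hJ
    show m14alg3_cls ((I * J).map _) = _
    rw [Ideal.map_mul, m14alg3_cls_mul (m14alg3_map_ne_bot hI) (m14alg3_map_ne_bot hJ)]
  · intro x hx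
    show m14alg3_cls ((span {x}).map _) = 1
    rw [Ideal.map_span, Set.image_singleton]
    apply m14alg3_cls_span
    intro h
    exact hx ((FaithfulSMul.algebraMap_injective (𝓞 K) (𝓞 L)) (by rw [h, map_zero]))

variable [IsGalois K L]

/-- Hilbert 90 with an integral solution: for `z ∈ L` of norm `1` there is `g ∈ 𝓞_L`, `g ≠ 0`,
with `z * σ g = g`. -/
theorem m14alg3_h90 (σ : L ≃ₐ[K] L) (hσ : ∀ τ, τ ∈ Subgroup.zpowers σ) (z : L)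
    (hz : Algebra.norm K z = 1) : ∃ g : 𝓞 L, g ≠ 0 ∧ z * σ (g : L) = (g : L) := by
  haveI : IsCyclic (L ≃ₐ[K] L) := ⟨σ, hσ⟩
  obtain ⟨y, hy⟩ := groupCohomology.exists_div_of_norm_eq_one (K := K) (L := L) hσ hz
  haveI : IsLocalization (Algebra.algebraMapSubmonoid (𝓞 L) (nonZeroDivisors (𝓞 K))) L :=
    IsIntegralClosure.isLocalization (𝓞 K) K L (𝓞 L)
  obtain ⟨a, b, h⟩ := IsLocalization.exists_mk'_eq
    (Algebra.algebraMapSubmonoid (𝓞 L) (nonZeroDivisors (𝓞 K))) (y : L)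
  obtain ⟨t, ht, ht'⟩ := b.prop
  have ht0 : (algebraMap (𝓞 K) K t) ≠ 0 := by
    intro h0
    exact nonZeroDivisors.ne_zero ht ((FaithfulSMul.algebraMap_injective (𝓞 K) K) (by
      rw [h0, map_zero]))
  have htL : (algebraMap K L (algebraMap (𝓞 K) K t)) ≠ 0 := by
    intro h0
    exact ht0 ((algebraMap K L).injective (by rw [h0, map_zero]))
  have hb : ((b : 𝓞 L) : L) = algebraMap K L (algebraMap (𝓞 K) K t) := by
    rw [← ht']; rfl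
  have hya : (y : L) * algebraMap K L (algebraMap (𝓞 K) K t) = (a : L) := by
    rw [← h, ← hb]
    exact IsLocalization.mk'_spec L a b
  have ha0 : a ≠ 0 := by
    rintro rfl
    have : (y : L) * algebraMap K L (algebraMap (𝓞 K) K t) = 0 := by rw [hya]; rfl
    rcases mul_eq_zero.mp this with h1 | h1
    · exact y.ne_zero h1
    · exact htL h1
  refine ⟨a, ha0, ?_⟩
  rw [← hya, map_mul, σ.commutes, ← hy]
  have hσy : σ (y : L) ≠ 0 := by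
    rw [Ne, map_eq_zero]; exact y.ne_zero
  field_simp

/-- **KEY-a**: `H¹(G, E_L) = ker Nm / B` injects into the kernel of `j : Cl(K) → Cl(L)`. -/
theorem m14alg3_key_a (σ : L ≃ₐ[K] L) (hσ : ∀ τ, τ ∈ Subgroup.zpowers σ)
    (hunr : ∀ 𝔭 : Ideal (𝓞 K), 𝔭.IsPrime → 𝔭 ≠ ⊥ →
      (𝔭.map (algebraMap (𝓞 K) (𝓞 L))).IsRadical)
    (j : ClassGroup (𝓞 K) →* ClassGroup (𝓞 L))
    (hj : ∀ 𝔞 : Ideal (𝓞 K), 𝔞 ≠ ⊥ →
      j (m14alg3_cls 𝔞) = m14alg3_cls (𝔞.map (algebraMap (𝓞 K) (𝓞 L)))) :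
    (m14alg3_B K L σ).relIndex (m14alg3_Nm K L).ker ≤ Nat.card j.ker := by
  classical
  have hex : ∀ u : (m14alg3_Nm K L).ker, ∃ c : j.ker, ∃ (ε : 𝓞 L) (𝔞 : Ideal (𝓞 K)),
      ε ≠ 0 ∧ 𝔞 ≠ ⊥ ∧ ((u : (𝓞 L)ˣ) : 𝓞 L) * σ • ε = ε ∧
      𝔞.map (algebraMap (𝓞 K) (𝓞 L)) = span {ε} ∧ (c : ClassGroup (𝓞 K)) = m14alg3_cls 𝔞 := by
    rintro ⟨u, hu⟩
    have hu1 : RingOfIntegers.norm K (u : 𝓞 L) = 1 := by
      have := congrArg (fun v : (𝓞 K)ˣ => (v : 𝓞 K)) (MonoidHom.mem_ker.mp hu)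
      simpa using this
    have hu2 : Algebra.norm K ((u : 𝓞 L) : L) = 1 := by
      rw [← RingOfIntegers.coe_norm, hu1]; rfl
    obtain ⟨ε, hε0, hε⟩ := m14alg3_h90 σ hσ _ hu2
    have hε' : (u : 𝓞 L) * σ • ε = ε := by
      apply RingOfIntegers.ext
      exact hε
    have hinv : σ • (span {ε} : Ideal (𝓞 L)) = span {ε} := by
      rw [m14alg3_smul_span]
      rw [Ideal.span_singleton_eq_span_singleton]
      exact ⟨u, by rw [mul_comm]; exact hε'⟩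
    obtain ⟨𝔞, h𝔞0, h𝔞⟩ := m14alg3_invariant_extended hunr _ (m14alg3_span_ne_bot hε0)
      (m14alg3_invariant_of_generator σ hσ _ hinv)
    refine ⟨⟨m14alg3_cls 𝔞, ?_⟩, ε, 𝔞, hε0, h𝔞0, hε', h𝔞, rfl⟩
    rw [MonoidHom.mem_ker, hj 𝔞 h𝔞0, h𝔞]
    exact m14alg3_cls_span hε0
  choose f ε 𝔞 hε0 h𝔞0 hε h𝔞 hf using hex
  apply m14alg3_relIndex_le _ _ f
  intro u u' h
  have h1 : m14alg3_cls (𝔞 u) = m14alg3_cls (𝔞 u') := by
    rw [← hf, ← hf, h]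
  obtain ⟨x, y, hx, hy, hxy⟩ := (m14alg3_cls_eq_iff (h𝔞0 u) (h𝔞0 u')).mp h1
  have h2 := congrArg (Ideal.map (algebraMap (𝓞 K) (𝓞 L))) hxy
  rw [Ideal.map_mul, Ideal.map_mul, h𝔞, h𝔞, Ideal.map_span, Ideal.map_span,
    Set.image_singleton, Set.image_singleton, Ideal.span_singleton_mul_span_singleton,
    Ideal.span_singleton_mul_span_singleton, Ideal.span_singleton_eq_span_singleton] at h2
  obtain ⟨w, hw⟩ := h2
  -- `x ε w = y ε'`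
  set X : 𝓞 L := algebraMap (𝓞 K) (𝓞 L) x with hX
  set Y : 𝓞 L := algebraMap (𝓞 K) (𝓞 L) y with hY
  have hX0 : X ≠ 0 := fun h0 =>
    hx ((FaithfulSMul.algebraMap_injective (𝓞 K) (𝓞 L)) (by rw [← hX, h0, map_zero]))
  have hσX : σ • X = X := by
    apply RingOfIntegers.ext
    show σ (algebraMap K L (x : K)) = algebraMap K L (x : K)
    exact σ.commutes _
  have hσY : σ • Y = Y := by
    apply RingOfIntegers.ext
    show σ (algebraMap K L (y : K)) = algebraMap K L (y : K)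
    exact σ.commutes _
  -- apply σ
  have h3 : σ • (X * ε u * (w : 𝓞 L)) = σ • (Y * ε u') := by rw [hw]
  rw [smul_mul', smul_mul', smul_mul', hσX, hσY] at h3
  -- the unit
  rw [m14alg3_mem_B]
  refine ⟨w⁻¹, ?_⟩
  apply Units.ext
  apply mul_left_cancel₀ (mul_ne_zero (mul_ne_zero hX0 (hε0 u)) (Units.ne_zero w))
  apply mul_left_cancel₀ (Units.ne_zero (u : (𝓞 L)ˣ))
  apply mul_left_cancel₀ (smul_ne_zero_iff_ne σ |>.mpr (Units.ne_zero w))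
  have e1 : ((m14alg3_act K L σ w⁻¹ / w⁻¹ : (𝓞 L)ˣ) : 𝓞 L) * σ • (w : 𝓞 L) = (w : 𝓞 L) := by
    have h4 : (m14alg3_act K L σ w⁻¹ / w⁻¹) * m14alg3_act K L σ w = w := by
      rw [map_inv, div_eq_mul_inv, inv_inv, mul_comm ((m14alg3_act K L σ w)⁻¹), mul_assoc,
        inv_mul_cancel, mul_one]
    have h5 := congrArg (fun v : (𝓞 L)ˣ => (v : 𝓞 L)) h4
    simp only [Units.val_mul, m14alg3_act_coe] at h5
    exact h5
  have e2 : (((u : (𝓞 L)ˣ)⁻¹ * (u' : (𝓞 L)ˣ) : (𝓞 L)ˣ) : 𝓞 L) * (u : (𝓞 L)ˣ) = (u' : (𝓞 L)ˣ) := by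
    rw [← Units.val_mul]; congr 1
    rw [mul_comm, mul_inv_cancel_left]
  calc σ • (w : 𝓞 L) * (((u : (𝓞 L)ˣ) : 𝓞 L) * (X * ε u * (w : 𝓞 L) *
        ((m14alg3_act K L σ w⁻¹ / w⁻¹ : (𝓞 L)ˣ) : 𝓞 L)))
      = (((m14alg3_act K L σ w⁻¹ / w⁻¹ : (𝓞 L)ˣ) : 𝓞 L) * σ • (w : 𝓞 L)) *
          ((u : (𝓞 L)ˣ) : 𝓞 L) * (X * ε u * (w : 𝓞 L)) := by ring
    _ = (w : 𝓞 L) * ((u : (𝓞 L)ˣ) : 𝓞 L) * (Y * ε u') := by rw [e1, hw]
    _ = (w : 𝓞 L) * ((u : (𝓞 L)ˣ) : 𝓞 L) * (Y * (((u' : (𝓞 L)ˣ) : 𝓞 L) * σ • ε u')) := by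
        rw [hε u']
    _ = (w : 𝓞 L) * ((u : (𝓞 L)ˣ) : 𝓞 L) * ((u' : (𝓞 L)ˣ) : 𝓞 L) * (Y * σ • ε u') := by ring
    _ = (w : 𝓞 L) * ((u : (𝓞 L)ˣ) : 𝓞 L) * ((u' : (𝓞 L)ˣ) : 𝓞 L) *
          (X * σ • ε u * σ • (w : 𝓞 L)) := by rw [h3]
    _ = (w : 𝓞 L) * ((u' : (𝓞 L)ˣ) : 𝓞 L) * X * σ • (w : 𝓞 L) *
          (((u : (𝓞 L)ˣ) : 𝓞 L) * σ • ε u) := by ring
    _ = (w : 𝓞 L) * ((u' : (𝓞 L)ˣ) : 𝓞 L) * X * σ • (w : 𝓞 L) * ε u := by rw [hε u]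
    _ = (w : 𝓞 L) * ((((u : (𝓞 L)ˣ)⁻¹ * (u' : (𝓞 L)ˣ) : (𝓞 L)ˣ) : 𝓞 L) * (u : (𝓞 L)ˣ)) * X *
          σ • (w : 𝓞 L) * ε u := by rw [e2]
    _ = σ • (w : 𝓞 L) * (((u : (𝓞 L)ˣ) : 𝓞 L) * (X * ε u * (w : 𝓞 L) *
          ((((u : (𝓞 L)ˣ)⁻¹ * (u' : (𝓞 L)ˣ) : (𝓞 L)ˣ)) : 𝓞 L))) := by ring

/-- the separation step of KEY-b -/
theorem m14alg3_key_b_sep (σ : L ≃ₐ[K] L) (hσ : ∀ τ, τ ∈ Subgroup.zpowers σ)
    (hunr : ∀ 𝔭 : Ideal (𝓞 K), 𝔭.IsPrime → 𝔭 ≠ ⊥ →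
      (𝔭.map (algebraMap (𝓞 K) (𝓞 L))).IsRadical)
    (j : ClassGroup (𝓞 K) →* ClassGroup (𝓞 L))
    (hj : ∀ 𝔞 : Ideal (𝓞 K), 𝔞 ≠ ⊥ →
      j (m14alg3_cls 𝔞) = m14alg3_cls (𝔞.map (algebraMap (𝓞 K) (𝓞 L))))
    (𝔄 𝔄' : Ideal (𝓞 L)) (x y x' y' : 𝓞 L) (v v' : (𝓞 K)ˣ) (ε : (𝓞 L)ˣ)
    (h𝔄 : 𝔄 ≠ ⊥) (h𝔄' : 𝔄' ≠ ⊥) (hx : x ≠ 0) (hy : y ≠ 0) (hx' : x' ≠ 0) (hy' : y' ≠ 0)
    (hxy : span {x} * σ • 𝔄 = span {y} * 𝔄) (hxy' : span {x'} * σ • 𝔄' = span {y'} * 𝔄')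
    (hv : RingOfIntegers.norm K x * v = RingOfIntegers.norm K y)
    (hv' : RingOfIntegers.norm K x' * v' = RingOfIntegers.norm K y')
    (hε : m14alg3_Nm K L ε = v⁻¹ * v') :
    (m14alg3_cls 𝔄)⁻¹ * m14alg3_cls 𝔄' ∈ j.range := by
  classical
  -- an integral ideal in the inverse class of `𝔄`
  obtain ⟨b, hb𝔄, hb0⟩ := Submodule.exists_mem_ne_zero_of_ne_bot h𝔄
  obtain ⟨𝔅, h𝔅⟩ := Ideal.dvd_iff_le.mpr ((Ideal.span_singleton_le_iff_mem 𝔄).mpr hb𝔄)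
  have h𝔅0 : 𝔅 ≠ ⊥ := by
    rintro rfl
    rw [Ideal.mul_bot] at h𝔅
    exact m14alg3_span_ne_bot hb0 h𝔅
  have hcls𝔅 : m14alg3_cls 𝔅 = (m14alg3_cls 𝔄)⁻¹ := by
    have h1 := congrArg m14alg3_cls h𝔅
    rw [m14alg3_cls_span hb0, m14alg3_cls_mul h𝔄 h𝔅0] at h1
    exact eq_inv_of_mul_eq_one_right h1.symm
  -- the relation for `𝔅`
  have hσb : span {σ • b} = σ • 𝔄 * σ • 𝔅 := by
    rw [← m14alg3_smul_span, h𝔅, m14alg3_smul_mul]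
  have h𝔅rel : span {y} * span {b} * σ • 𝔅 = span {x} * span {σ • b} * 𝔅 := by
    calc span {y} * span {b} * σ • 𝔅 = (span {y} * 𝔄) * 𝔅 * σ • 𝔅 := by rw [h𝔅]; ring
      _ = (span {x} * σ • 𝔄) * 𝔅 * σ • 𝔅 := by rw [hxy]
      _ = span {x} * (σ • 𝔄 * σ • 𝔅) * 𝔅 := by ring
      _ = span {x} * span {σ • b} * 𝔅 := by rw [hσb]
  -- the ideal `ℑ = 𝔄' 𝔅` and its relation
  set ℑ : Ideal (𝓞 L) := 𝔄' * 𝔅 with hℑ
  have hℑ0 : ℑ ≠ ⊥ := mul_ne_zero h𝔄' h𝔅0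
  set X : 𝓞 L := x' * y * b with hX
  set Y : 𝓞 L := y' * x * σ • b with hY
  have hσb0 : σ • b ≠ 0 := (smul_ne_zero_iff_ne σ).mpr hb0
  have hX0 : X ≠ 0 := mul_ne_zero (mul_ne_zero hx' hy) hb0
  have hY0 : Y ≠ 0 := mul_ne_zero (mul_ne_zero hy' hx) hσb0
  have hℑrel : span {X} * σ • ℑ = span {Y} * ℑ := by
    rw [hX, hY, hℑ, m14alg3_smul_mul, ← Ideal.span_singleton_mul_span_singleton,
      ← Ideal.span_singleton_mul_span_singleton, ← Ideal.span_singleton_mul_span_singleton,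
      ← Ideal.span_singleton_mul_span_singleton]
    calc span {x'} * span {y} * span {b} * (σ • 𝔄' * σ • 𝔅)
        = (span {x'} * σ • 𝔄') * (span {y} * span {b} * σ • 𝔅) := by ring
      _ = (span {y'} * 𝔄') * (span {x} * span {σ • b} * 𝔅) := by rw [hxy', h𝔅rel]
      _ = span {y'} * span {x} * span {σ • b} * (𝔄' * 𝔅) := by ring
  -- norms
  have hNε : RingOfIntegers.norm K (ε : 𝓞 L) * v = v' := by
    have h1 := congrArg (fun t : (𝓞 K)ˣ => (t : 𝓞 K)) hε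
    simp only [m14alg3_Nm_coe] at h1
    rw [h1, ← Units.val_mul]
    congr 1
    rw [mul_comm, mul_inv_cancel_left]
  have hNXY : RingOfIntegers.norm K Y = RingOfIntegers.norm K (X * (ε : 𝓞 L)) := by
    have hv0 : ((v : (𝓞 K)ˣ) : 𝓞 K) ≠ 0 := Units.ne_zero v
    apply mul_right_cancel₀ hv0
    rw [hX, hY]
    simp only [map_mul, m14alg3_norm_smul]
    rw [← hv', ← hv, ← hNε]
    ring
  have hz : Algebra.norm K ((Y : L) / ((X : L) * ((ε : 𝓞 L) : L))) = 1 := by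
    have h1 := congrArg (fun t : 𝓞 K => (t : K)) hNXY
    simp only [RingOfIntegers.coe_norm] at h1
    rw [div_eq_mul_inv, map_mul, Algebra.norm_inv, h1]
    have h2 : Algebra.norm K (((X * (ε : 𝓞 L) : 𝓞 L)) : L) ≠ 0 := by
      rw [← RingOfIntegers.coe_norm]
      intro h0
      exact m14alg3_norm_ne_zero (K := K) (mul_ne_zero hX0 (Units.ne_zero ε))
        (RingOfIntegers.ext (by rw [h0]; rfl))
    have h3 : (((X * (ε : 𝓞 L) : 𝓞 L)) : L) = (X : L) * ((ε : 𝓞 L) : L) := rfl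
    rw [← h3]
    exact mul_inv_cancel₀ h2
  obtain ⟨g, hg0, hg⟩ := m14alg3_h90 σ hσ _ hz
  have hg' : Y * σ • g = g * X * (ε : 𝓞 L) := by
    apply RingOfIntegers.ext
    show (Y : L) * σ (g : L) = (g : L) * (X : L) * ((ε : 𝓞 L) : L)
    have hXε : (X : L) * ((ε : 𝓞 L) : L) ≠ 0 := by
      have h3 : (((X * (ε : 𝓞 L) : 𝓞 L)) : L) = (X : L) * ((ε : 𝓞 L) : L) := rfl
      rw [← h3]
      intro h0
      exact mul_ne_zero hX0 (Units.ne_zero ε) (RingOfIntegers.ext (by rw [h0]; rfl))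
    rw [div_mul_eq_mul_div, div_eq_iff hXε] at hg
    rw [hg]; ring
  -- the invariant ideal
  set ℭ : Ideal (𝓞 L) := span {g} * ℑ with hℭ
  have hℭ0 : ℭ ≠ ⊥ := mul_ne_zero (m14alg3_span_ne_bot hg0) hℑ0
  have hεtop : (span {(ε : 𝓞 L)} : Ideal (𝓞 L)) = 1 := by
    rw [Ideal.one_eq_top, Ideal.span_singleton_eq_top]
    exact ε.isUnit
  have hℭinv : σ • ℭ = ℭ := by
    apply mul_left_cancel₀ (m14alg3_span_ne_bot hX0)
    calc span {X} * σ • ℭ = span {σ • g} * (span {X} * σ • ℑ) := by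
          rw [hℭ, m14alg3_smul_mul, m14alg3_smul_span]; ring
      _ = span {Y * σ • g} * ℑ := by
          rw [hℑrel, (Ideal.span_singleton_mul_span_singleton Y (σ • g)).symm]; ring
      _ = span {X} * ℭ := by
          rw [hg', (Ideal.span_singleton_mul_span_singleton (g * X) (ε : 𝓞 L)).symm,
            (Ideal.span_singleton_mul_span_singleton g X).symm, hεtop, hℭ]; ring
  obtain ⟨𝔠, h𝔠0, h𝔠⟩ := m14alg3_invariant_extended hunr ℭ hℭ0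
    (m14alg3_invariant_of_generator σ hσ _ hℭinv)
  refine ⟨m14alg3_cls 𝔠, ?_⟩
  rw [hj 𝔠 h𝔠0, h𝔠, hℭ, m14alg3_cls_mul (m14alg3_span_ne_bot hg0) hℑ0, m14alg3_cls_span hg0,
    one_mul, hℑ, m14alg3_cls_mul h𝔄' h𝔅0, hcls𝔅, mul_comm]

/-- **KEY-b**: `[Cl(L)^σ : j(Cl(K))] ≤ [E_K : Nm E_L]`. -/
theorem m14alg3_key_b (σ : L ≃ₐ[K] L) (hσ : ∀ τ, τ ∈ Subgroup.zpowers σ)
    (hunr : ∀ 𝔭 : Ideal (𝓞 K), 𝔭.IsPrime → 𝔭 ≠ ⊥ →
      (𝔭.map (algebraMap (𝓞 K) (𝓞 L))).IsRadical)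
    (φ : ClassGroup (𝓞 L) →* ClassGroup (𝓞 L))
    (hφ : ∀ I : Ideal (𝓞 L), I ≠ ⊥ → φ (m14alg3_cls I) = m14alg3_cls (σ • I))
    (j : ClassGroup (𝓞 K) →* ClassGroup (𝓞 L))
    (hj : ∀ 𝔞 : Ideal (𝓞 K), 𝔞 ≠ ⊥ →
      j (m14alg3_cls 𝔞) = m14alg3_cls (𝔞.map (algebraMap (𝓞 K) (𝓞 L))))
    (hfin : (m14alg3_Nm K L).range.index ≠ 0) :
    j.range.relIndex (φ / MonoidHom.id (ClassGroup (𝓞 L))).ker ≤
      (m14alg3_Nm K L).range.index := by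
  classical
  haveI : (m14alg3_Nm K L).range.FiniteIndex := Subgroup.finiteIndex_iff.mpr hfin
  haveI : Finite ((𝓞 K)ˣ ⧸ (m14alg3_Nm K L).range) := Subgroup.finite_quotient_of_finiteIndex
  have hex : ∀ a : (φ / MonoidHom.id (ClassGroup (𝓞 L))).ker,
      ∃ t : (𝓞 K)ˣ ⧸ (m14alg3_Nm K L).range,
      ∃ (𝔄 : Ideal (𝓞 L)) (x y : 𝓞 L) (v : (𝓞 K)ˣ), 𝔄 ≠ ⊥ ∧ x ≠ 0 ∧ y ≠ 0 ∧
        m14alg3_cls 𝔄 = (a : ClassGroup (𝓞 L)) ∧ span {x} * σ • 𝔄 = span {y} * 𝔄 ∧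
        RingOfIntegers.norm K x * v = RingOfIntegers.norm K y ∧
        t = QuotientGroup.mk v := by
    rintro ⟨a, ha⟩
    obtain ⟨𝔄, h𝔄0, rfl⟩ := m14alg3_cls_surjective a
    have h1 : φ (m14alg3_cls 𝔄) = m14alg3_cls 𝔄 := by
      have h2 : φ (m14alg3_cls 𝔄) / m14alg3_cls 𝔄 = 1 := MonoidHom.mem_ker.mp ha
      exact div_eq_one.mp h2
    rw [hφ 𝔄 h𝔄0] at h1
    obtain ⟨x, y, hx, hy, hxy⟩ := (m14alg3_cls_eq_iff (m14alg3_smul_ne_bot σ h𝔄0) h𝔄0).mp h1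
    have h3 := congrArg (relNorm (𝓞 K)) hxy
    rw [map_mul, map_mul, relNorm_smul, m14alg3_relNorm_span, m14alg3_relNorm_span] at h3
    have h4 : relNorm (𝓞 K) 𝔄 ≠ ⊥ := by rwa [Ne, relNorm_eq_bot_iff]
    have h5 := mul_right_cancel₀ h4 h3
    rw [Ideal.span_singleton_eq_span_singleton] at h5
    obtain ⟨v, hv⟩ := h5
    exact ⟨QuotientGroup.mk v, 𝔄, x, y, v, h𝔄0, hx, hy, rfl, hxy, hv, rfl⟩
  choose f 𝔄 x y v h𝔄0 hx hy hcls hxy hv hf using hex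
  have key := m14alg3_relIndex_le j.range (φ / MonoidHom.id (ClassGroup (𝓞 L))).ker f ?_
  · exact key
  intro a a' h
  rw [hf, hf, QuotientGroup.eq] at h
  obtain ⟨ε, hε⟩ := h
  rw [← hcls a, ← hcls a']
  exact m14alg3_key_b_sep σ hσ hunr j hj (𝔄 a) (𝔄 a') (x a) (y a) (x a') (y a') (v a) (v a') ε
    (h𝔄0 a) (h𝔄0 a') (hx a) (hy a) (hx a') (hy a') (hxy a) (hxy a') (hv a) (hv a') hε

/-- **ALG3, class group form**: for a cyclic extension `L/K` of number fields which is unramified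
at all finite primes and whose unit Herbrand quotient is at most `1/p` (`p > 1`), the norm map
on class groups is not surjective. -/
theorem m14alg3_norm_not_surjective (σ : L ≃ₐ[K] L) (hσ : ∀ τ, τ ∈ Subgroup.zpowers σ)
    (hunr : ∀ 𝔭 : Ideal (𝓞 K), 𝔭.IsPrime → 𝔭 ≠ ⊥ →
      (𝔭.map (algebraMap (𝓞 K) (𝓞 L))).IsRadical)
    (p : ℕ) (hp : 1 < p)
    (hfin : (m14alg3_Nm K L).range.index ≠ 0)
    (hHQ : p * (m14alg3_Nm K L).range.index ≤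
      (m14alg3_B K L σ).relIndex (m14alg3_Nm K L).ker)
    (Nst : ClassGroup (𝓞 L) →* ClassGroup (𝓞 K))
    (hNst : ∀ I : Ideal (𝓞 L), I ≠ ⊥ →
      Nst (m14alg3_cls I) = m14alg3_cls (relNorm (𝓞 K) I)) :
    ¬ Function.Surjective Nst := by
  obtain ⟨φ, hφ⟩ := m14alg3_exists_phi σ
  obtain ⟨j, hj⟩ := m14alg3_exists_j (K := K) (L := L)
  refine m14alg3_count φ Nst j ?_ ?_ p _ _ hp hHQ (m14alg3_key_a σ hσ hunr j hj)
    (m14alg3_key_b σ hσ hunr φ hφ j hj hfin)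
  · intro a
    obtain ⟨I, hI, rfl⟩ := m14alg3_cls_surjective a
    rw [hφ I hI, hNst I hI, hNst _ (m14alg3_smul_ne_bot σ hI), relNorm_smul]
  · intro c
    obtain ⟨𝔞, h𝔞, rfl⟩ := m14alg3_cls_surjective c
    rw [hj 𝔞 h𝔞, hφ _ (m14alg3_map_ne_bot h𝔞), m14alg3_smul_map]

end

end Fermat.Agent.M14
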