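/-
M14 (S14 project), package HERB, part 1: the rational prime below a prime of the `p`-th
cyclotomic field, and the Frobenius automorphism at a prime not above `p`
(it fixes the prime and raises `p`-th roots of unity to the power `ℓ`).
-/
import Mathlib

set_option autoImplicit false

open NumberField Ideal
open scoped Pointwise

namespace Fermat.Agent.M14

variable {p : ℕ} [hp : Fact p.Prime] {K : Type*} [Field K] [NumberField K]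

/-- the rational prime below a nonzero prime of `𝓞 K` -/
theorem m14h_exists_prime (𝔮 : Ideal (𝓞 K)) [h𝔮 : 𝔮.IsPrime] (h0 : 𝔮 ≠ ⊥) :
    ∃ ℓ : ℕ, ℓ.Prime ∧ (ℓ : 𝓞 K) ∈ 𝔮 ∧ 𝔮.under ℤ = Ideal.span {(ℓ : ℤ)} := by
  have hmax : (𝔮.under ℤ).IsMaximal := by
    have : 𝔮.IsMaximal := Ring.DimensionLEOne.maximalOfPrime h0 h𝔮
    exact Ideal.isMaximal_comap_of_isIntegral_of_isMaximal 𝔮
  have hne : 𝔮.under ℤ ≠ ⊥ := by
    intro h
    exact h0 (Ideal.eq_bot_of_comap_eq_bot h)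
  obtain ⟨n, hn⟩ := IsPrincipalIdealRing.principal (𝔮.under ℤ)
  have hn' : 𝔮.under ℤ = Ideal.span {n} := hn
  have hn0 : n ≠ 0 := by
    rintro rfl
    apply hne
    rw [hn']
    simp
  have hprime : Prime n := by
    rw [← Ideal.span_singleton_prime hn0, ← hn']
    exact hmax.isPrime
  have hspan : 𝔮.under ℤ = Ideal.span {((n.natAbs : ℕ) : ℤ)} := by
    rw [hn']
    exact (Ideal.span_singleton_eq_span_singleton.mpr (Int.associated_natAbs n))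
  refine ⟨n.natAbs, Int.prime_iff_natAbs_prime.mp hprime, ?_, hspan⟩
  have h1 : ((n.natAbs : ℕ) : ℤ) ∈ 𝔮.under ℤ := by
    rw [hspan]
    exact Ideal.mem_span_singleton_self _
  have := (Ideal.mem_comap.mp h1)
  simpa using this

theorem m14h_card_quot (ℓ : ℕ) : Nat.card (ℤ ⧸ Ideal.span {(ℓ : ℤ)}) = ℓ := by
  rw [← Submodule.cardQuot_apply, ← Ideal.absNorm_apply]
  simp

omit [NumberField K] in
theorem m14h_natCast_not_mem (𝔮 : Ideal (𝓞 K)) (ℓ : ℕ)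
    (hu : 𝔮.under ℤ = Ideal.span {(ℓ : ℤ)}) (n : ℕ) (hn : ¬ ℓ ∣ n) : (n : 𝓞 K) ∉ 𝔮 := by
  intro hmem
  have h1 : (n : ℤ) ∈ 𝔮.under ℤ := by
    rw [Ideal.under_def, Ideal.mem_comap]
    simpa using hmem
  rw [hu, Ideal.mem_span_singleton] at h1
  exact hn (by exact_mod_cast h1)

variable [hK : IsCyclotomicExtension {p} ℚ K]

/-- Frobenius at `𝔮` (over `ℓ ≠ p`): fixes `𝔮` and raises `p`-th roots of unity to the `ℓ`. -/
theorem m14h_exists_frob (𝔮 : Ideal (𝓞 K)) [h𝔮 : 𝔮.IsPrime] (h0 : 𝔮 ≠ ⊥)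
    (ℓ : ℕ) (hℓ : ℓ.Prime) (hℓp : ℓ ≠ p) (hu : 𝔮.under ℤ = Ideal.span {(ℓ : ℤ)}) :
    ∃ σ : K ≃ₐ[ℚ] K, σ • 𝔮 = 𝔮 ∧ ∀ ζ : K, ζ ^ p = 1 → σ ζ = ζ ^ ℓ := by
  have : IsGalois ℚ K := IsCyclotomicExtension.isGalois {p} ℚ K
  have : Finite (𝓞 K ⧸ 𝔮) := Ideal.finiteQuotientOfFreeOfNeBot 𝔮 h0
  obtain ⟨σ, hσ⟩ := IsArithFrobAt.exists_of_isInvariant ℤ (K ≃ₐ[ℚ] K) 𝔮
  refine ⟨σ, ?_, ?_⟩
  · exact MulAction.mem_stabilizer_iff.mp hσ.mem_stabilizer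
  · intro ζ hζ
    have hint : IsIntegral ℤ ζ := by
      refine ⟨Polynomial.X ^ p - 1, Polynomial.monic_X_pow_sub_C 1 hp.out.ne_zero, ?_⟩
      simp [hζ]
    obtain ⟨z, hz⟩ : ∃ z : 𝓞 K, (z : K) = ζ := ⟨⟨ζ, hint⟩, rfl⟩
    have hzp : z ^ p = 1 := by
      apply RingOfIntegers.ext
      have : ((z ^ p : 𝓞 K) : K) = (z : K) ^ p := map_pow _ _ _
      rw [this, hz, hζ]
      exact (map_one _).symm
    have hpq : (p : 𝓞 K) ∉ 𝔮 :=
      m14h_natCast_not_mem 𝔮 ℓ hu p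
        (fun h2 => hℓp ((Nat.prime_dvd_prime_iff_eq hℓ hp.out).mp h2))
    have key := hσ.apply_of_pow_eq_one hzp hpq
    rw [hu, m14h_card_quot] at key
    have h2 : ((σ • z : 𝓞 K) : K) = ((z ^ ℓ : 𝓞 K) : K) := congrArg (fun x : 𝓞 K => (x : K)) key
    have h3 : ((z ^ ℓ : 𝓞 K) : K) = (z : K) ^ ℓ := map_pow _ _ _
    rw [h3] at h2
    rw [← hz]
    exact h2

end Fermat.Agent.M14
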