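/-
M14 (S14 project), package HERB, part 2 (JAC): Stickelberger factorisation of the Jacobi sum
`J(χ,χ)` of the `p`-th power residue character modulo a degree-one prime `𝔮` of `ℚ(ζ_p)`:
`(J) = ∏_{1 ≤ c ≤ (p-1)/2} σ_c⁻¹ 𝔮`.
-/
import Mathlib
import Fermat.Agent.M14.HerbFrob

set_option autoImplicit false

open NumberField Ideal
open scoped Pointwise

namespace Fermat.Agent.M14

section general

variable {p : ℕ} [hp : Fact p.Prime] {K : Type*} [Field K] [NumberField K]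



/-- `∑_x x^n (1-x)^n = 0` in a finite field with more than `2n + 1` elements. -/
theorem m14j_sum_eq_zero (k : Type*) [Field k] [Fintype k] (n : ℕ)
    (h : 2 * n < Fintype.card k - 1) : ∑ x : k, x ^ n * (1 - x) ^ n = 0 := by
  have h1 : ∀ x : k, x ^ n * (1 - x) ^ n =
      ∑ i ∈ Finset.range (n + 1), ((n.choose i : k) * (-1) ^ i) * x ^ (n + i) := by
    intro x
    have : (1 - x) ^ n = ∑ i ∈ Finset.range (n + 1), (-x) ^ i * 1 ^ (n - i) * (n.choose i : k) := by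
      rw [← add_pow, add_comm, sub_eq_add_neg]
    rw [this, Finset.mul_sum]
    refine Finset.sum_congr rfl (fun i _ => ?_)
    rw [neg_pow, pow_add]
    ring
  simp_rw [h1]
  rw [Finset.sum_comm]
  refine Finset.sum_eq_zero (fun i hi => ?_)
  rw [← Finset.mul_sum]
  have hi' : i ≤ n := Nat.lt_succ_iff.mp (Finset.mem_range.mp hi)
  rw [FiniteField.sum_pow_lt_card_sub_one k (n + i) (by omega), mul_zero]

/-- Galois action on a Jacobi sum of a character with values in `p`-th roots of unity. -/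
theorem m14j_smul_jacobiSum {k : Type*} [CommRing k] [Fintype k] [DecidableEq k]
    (χ : MulChar k (𝓞 K)) (hχ : ∀ u : kˣ, (χ u) ^ p = 1)
    (τ : K ≃ₐ[ℚ] K) (c : ℕ) (hτ : ∀ z : K, z ^ p = 1 → τ z = z ^ c) :
    τ • jacobiSum χ χ = jacobiSum (χ ^ c) (χ ^ c) := by
  have h1 : χ.ringHomComp (MulSemiringAction.toRingHom (K ≃ₐ[ℚ] K) (𝓞 K) τ) = χ ^ c := by
    ext u
    rw [MulChar.ringHomComp_apply, MulChar.pow_apply_coe]
    have h2 : ((χ u : 𝓞 K) : K) ^ p = 1 := by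
      have := congrArg (fun y : 𝓞 K => (y : K)) (hχ u)
      simpa using this
    have h3 := hτ _ h2
    show ((τ • (χ u : 𝓞 K) : 𝓞 K) : K) = (((χ u) ^ c : 𝓞 K) : K)
    have h4 : (((χ u) ^ c : 𝓞 K) : K) = ((χ u : 𝓞 K) : K) ^ c := map_pow _ _ _
    rw [h4, ← h3]
    rfl
  have h5 := jacobiSum_ringHomComp χ χ (MulSemiringAction.toRingHom (K ≃ₐ[ℚ] K) (𝓞 K) τ)
  rw [h1] at h5
  rw [h5]
  rfl

omit [NumberField K] in
/-- reduction of the Jacobi sum of `χ^c` modulo `𝔮` -/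
theorem m14j_mk_jacobiSum (𝔮 : Ideal (𝓞 K)) [Fintype (𝓞 K ⧸ 𝔮)] [DecidableEq (𝓞 K ⧸ 𝔮)]
    (χ : MulChar (𝓞 K ⧸ 𝔮) (𝓞 K)) (m : ℕ)
    (hχ : ∀ x : 𝓞 K ⧸ 𝔮, Ideal.Quotient.mk 𝔮 (χ x) = x ^ m) (c : ℕ) (hc : c ≠ 0) :
    Ideal.Quotient.mk 𝔮 (jacobiSum (χ ^ c) (χ ^ c)) =
      ∑ x : 𝓞 K ⧸ 𝔮, x ^ (m * c) * (1 - x) ^ (m * c) := by
  rw [jacobiSum, map_sum]
  refine Finset.sum_congr rfl (fun x _ => ?_)
  rw [map_mul, MulChar.pow_apply' χ hc, MulChar.pow_apply' χ hc, map_pow, map_pow, hχ, hχ,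
    ← pow_mul, ← pow_mul]




theorem m14j_absNorm_smul (τ : K ≃ₐ[ℚ] K) (I : Ideal (𝓞 K)) : absNorm (τ • I) = absNorm I := by
  rw [Ideal.absNorm_apply, Ideal.absNorm_apply, Submodule.cardQuot_apply, Submodule.cardQuot_apply]
  have h : τ • I = I.map ((MulSemiringAction.toRingEquiv (K ≃ₐ[ℚ] K) (𝓞 K) τ) : 𝓞 K →+* 𝓞 K) := rfl
  exact (Nat.card_congr (Ideal.quotientEquiv I (τ • I)
    (MulSemiringAction.toRingEquiv (K ≃ₐ[ℚ] K) (𝓞 K) τ) h).toEquiv).symm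

theorem m14j_smul_span (τ : K ≃ₐ[ℚ] K) (x : 𝓞 K) :
    τ • (Ideal.span {x} : Ideal (𝓞 K)) = Ideal.span {τ • x} := by
  rw [Ideal.pointwise_smul_def, Ideal.map_span, Set.image_singleton]
  rfl

theorem m14j_isMaximal_smul (τ : K ≃ₐ[ℚ] K) (I : Ideal (𝓞 K)) [hI : I.IsMaximal] :
    (τ • I).IsMaximal := by
  have h : τ • I = I.map ((MulSemiringAction.toRingEquiv (K ≃ₐ[ℚ] K) (𝓞 K) τ)) := rfl
  rw [h]
  exact Ideal.map_isMaximal_of_equiv _ 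


end general

section cyclo

variable {p : ℕ} [hp : Fact p.Prime] {K : Type*} [Field K] [NumberField K]
  [hK : IsCyclotomicExtension {p} ℚ K]



/-- The `p`-th power residue character modulo a degree-one prime `𝔮 ∤ p`. -/
theorem m14j_exists_char (hp3 : 3 ≤ p) (𝔮 : Ideal (𝓞 K)) [h𝔮 : 𝔮.IsMaximal] (ℓ : ℕ) (hℓ : ℓ.Prime)
    (hcard : Nat.card (𝓞 K ⧸ 𝔮) = ℓ) (hℓp : ℓ ≠ p) :
    p ∣ ℓ - 1 ∧
    ∃ χ : MulChar (𝓞 K ⧸ 𝔮) (𝓞 K),
      (∀ x : 𝓞 K ⧸ 𝔮, Ideal.Quotient.mk 𝔮 (χ x) = x ^ ((ℓ - 1) / p)) ∧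
      (∀ u : (𝓞 K ⧸ 𝔮)ˣ, (χ u) ^ p = 1) ∧ χ ≠ 1 ∧ χ * χ ≠ 1 := by
  classical
  let _ : Field (𝓞 K ⧸ 𝔮) := Ideal.Quotient.field 𝔮
  let _ : Fintype (𝓞 K ⧸ 𝔮) := Fintype.ofFinite _
  have hcard' : Fintype.card (𝓞 K ⧸ 𝔮) = ℓ := by rw [← Nat.card_eq_fintype_card, hcard]
  have hcardu : Fintype.card (𝓞 K ⧸ 𝔮)ˣ = ℓ - 1 := by rw [Fintype.card_units, hcard']
  have hz := (IsCyclotomicExtension.zeta_spec p ℚ K).toInteger_isPrimitiveRoot
  set ζ : 𝓞 K := (IsCyclotomicExtension.zeta_spec p ℚ K).toInteger with hζdef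
  have habs : absNorm 𝔮 = ℓ := by rw [Ideal.absNorm_apply, Submodule.cardQuot_apply]; exact hcard
  have hzbar : IsPrimitiveRoot (Ideal.Quotient.mk 𝔮 ζ) p := by
    have : NeZero p := ⟨hp.out.ne_zero⟩
    refine hz.idealQuotient_mk ?_ ?_
    · rw [habs]; exact hℓ.one_lt.ne'
    · rw [habs]; exact (Nat.coprime_primes hℓ hp.out).mpr hℓp
  -- p ∣ ℓ - 1
  have hdvd : p ∣ ℓ - 1 := by
    have h1 : (Ideal.Quotient.mk 𝔮 ζ) ^ (ℓ - 1) = 1 := by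
      have hne : (Ideal.Quotient.mk 𝔮 ζ) ≠ 0 := hzbar.ne_zero hp.out.ne_zero
      have := FiniteField.pow_card_sub_one_eq_one (Ideal.Quotient.mk 𝔮 ζ) hne
      rwa [hcard'] at this
    exact hzbar.dvd_of_pow_eq_one _ h1
  refine ⟨hdvd, ?_⟩
  obtain ⟨m, hm⟩ := hdvd
  have hm0 : 0 < m := by
    rcases Nat.eq_zero_or_pos m with h | h
    · rw [h, mul_zero] at hm
      have := hℓ.two_le
      omega
    · exact h
  have hdiv : (ℓ - 1) / p = m := by rw [hm]; exact Nat.mul_div_cancel_left m hp.out.pos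
  rw [hdiv]
  -- generator
  obtain ⟨g, hg⟩ := IsCyclic.exists_generator (α := (𝓞 K ⧸ 𝔮)ˣ)
  have hordg : orderOf g = ℓ - 1 := by
    rw [orderOf_eq_card_of_forall_mem_zpowers hg, Nat.card_eq_fintype_card, hcardu]
  -- g^m is a p-th root of unity in the residue field, hence a power of ζ̄
  have hgm : ((g : 𝓞 K ⧸ 𝔮) ^ m) ^ p = 1 := by
    rw [← pow_mul, mul_comm, ← hm, ← hordg]
    rw [← Units.val_pow_eq_pow_val, pow_orderOf_eq_one, Units.val_one]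
  have : NeZero p := ⟨hp.out.ne_zero⟩
  obtain ⟨j, -, hj⟩ := hzbar.eq_pow_of_pow_eq_one hgm
  -- the root of unity ζ₀ = ζ^j
  have hζu : IsUnit ζ := hz.isUnit hp.out.ne_zero
  let ζ₀ : (𝓞 K)ˣ := hζu.unit ^ j
  have hζ₀p : ζ₀ ^ p = 1 := by
    apply Units.ext
    simp only [ζ₀, Units.val_pow_eq_pow_val, IsUnit.unit_spec, Units.val_one]
    rw [← pow_mul, mul_comm, pow_mul, hz.pow_eq_one, one_pow]
  have hζ₀mem : ζ₀ ∈ rootsOfUnity (Fintype.card (𝓞 K ⧸ 𝔮)ˣ) (𝓞 K) := by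
    rw [mem_rootsOfUnity, hcardu, hm, pow_mul, hζ₀p, one_pow]
  have hζ₀mk : Ideal.Quotient.mk 𝔮 (ζ₀ : 𝓞 K) = (g : 𝓞 K ⧸ 𝔮) ^ m := by
    simp only [ζ₀, Units.val_pow_eq_pow_val, IsUnit.unit_spec, map_pow]
    exact hj
  let χ : MulChar (𝓞 K ⧸ 𝔮) (𝓞 K) := MulChar.ofRootOfUnity hζ₀mem hg
  have hχg : χ g = ζ₀ := MulChar.ofRootOfUnity_spec hζ₀mem hg
  have hχpow : ∀ i : ℕ, χ ((g ^ i : (𝓞 K ⧸ 𝔮)ˣ) : 𝓞 K ⧸ 𝔮) = (ζ₀ : 𝓞 K) ^ i := by
    intro i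
    rw [Units.val_pow_eq_pow_val, map_pow, hχg]
  have hunit : ∀ u : (𝓞 K ⧸ 𝔮)ˣ, ∃ i : ℕ, u = g ^ i := by
    intro u
    obtain ⟨i, hi⟩ := (mem_powers_iff_mem_zpowers.mpr (hg u))
    exact ⟨i, hi.symm⟩
  refine ⟨χ, ?_, ?_, ?_, ?_⟩
  · intro x
    by_cases hx : x = 0
    · subst hx
      rw [MulChar.map_zero, map_zero, zero_pow hm0.ne']
    · obtain ⟨i, hi⟩ := hunit (Units.mk0 x hx)
      have hxi : x = ((g ^ i : (𝓞 K ⧸ 𝔮)ˣ) : 𝓞 K ⧸ 𝔮) := by rw [← hi]; rfl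
      rw [hxi, hχpow, map_pow, hζ₀mk, Units.val_pow_eq_pow_val, ← pow_mul, ← pow_mul, mul_comm]
  · intro u
    obtain ⟨i, rfl⟩ := hunit u
    rw [hχpow, ← pow_mul, mul_comm, pow_mul]
    have : (ζ₀ : 𝓞 K) ^ p = 1 := by
      have := congrArg Units.val hζ₀p
      simpa using this
    rw [this, one_pow]
  · intro h
    have h1 : χ g = 1 := by rw [h]; exact MulChar.one_apply_coe g
    rw [hχg] at h1
    have h2 : (g : 𝓞 K ⧸ 𝔮) ^ m = 1 := by rw [← hζ₀mk, h1, map_one]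
    have h3 : orderOf g ∣ m := orderOf_dvd_of_pow_eq_one (Units.ext (by simpa using h2))
    rw [hordg, hm] at h3
    have := Nat.le_of_dvd hm0 h3
    have hp2 := hp.out.two_le
    nlinarith
  · intro h
    have h1 : (χ * χ) g = 1 := by rw [h]; exact MulChar.one_apply_coe g
    rw [MulChar.mul_apply, hχg] at h1
    have h2 : (g : 𝓞 K ⧸ 𝔮) ^ (2 * m) = 1 := by
      rw [two_mul, pow_add, ← hζ₀mk, ← map_mul, h1, map_one]
    have h3 : orderOf g ∣ 2 * m := orderOf_dvd_of_pow_eq_one (Units.ext (by simpa using h2))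
    rw [hordg, hm] at h3
    have := Nat.le_of_dvd (by omega) h3
    nlinarith




omit hp hK in
/-- `J(χ,χ) J(χ⁻¹,χ⁻¹) = ℓ` -/
theorem m14j_mul_inv (𝔮 : Ideal (𝓞 K)) [h𝔮 : 𝔮.IsMaximal] (ℓ : ℕ) (hℓ : ℓ.Prime)
    (hcard : Nat.card (𝓞 K ⧸ 𝔮) = ℓ)
    [Fintype (𝓞 K ⧸ 𝔮)] [DecidableEq (𝓞 K ⧸ 𝔮)]
    (χ : MulChar (𝓞 K ⧸ 𝔮) (𝓞 K)) (h1 : χ ≠ 1) (h2 : χ * χ ≠ 1) :
    jacobiSum χ χ * jacobiSum χ⁻¹ χ⁻¹ = (ℓ : 𝓞 K) := by
  let _ : Field (𝓞 K ⧸ 𝔮) := Ideal.Quotient.field 𝔮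
  have hcard' : Fintype.card (𝓞 K ⧸ 𝔮) = ℓ := by rw [← Nat.card_eq_fintype_card, hcard]
  have hinj : Function.Injective (algebraMap (𝓞 K) K) := RingOfIntegers.coe_injective
  apply hinj
  rw [map_mul, ← jacobiSum_ringHomComp, ← jacobiSum_ringHomComp, map_natCast,
    ← MulChar.ringHomComp_inv]
  have hchar : ringChar K ≠ ringChar (𝓞 K ⧸ 𝔮) := by
    rw [ringChar.eq_zero]
    exact (CharP.ringChar_ne_zero_of_finite (𝓞 K ⧸ 𝔮)).symm
  have := jacobiSum_mul_jacobiSum_inv hchar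
    ((MulChar.ringHomComp_ne_one_iff hinj).mpr h1) ((MulChar.ringHomComp_ne_one_iff hinj).mpr h1)
    (by rw [← MulChar.ringHomComp_mul]; exact (MulChar.ringHomComp_ne_one_iff hinj).mpr h2)
  rw [this, hcard']




omit hp hK [NumberField K] in
/-- modulo a prime with residue field of prime cardinality, everything is congruent to an integer -/
theorem m14j_exists_nat (𝔮 : Ideal (𝓞 K)) [h𝔮 : 𝔮.IsMaximal] (ℓ : ℕ) (hℓ : ℓ.Prime)
    (hcard : Nat.card (𝓞 K ⧸ 𝔮) = ℓ) (x : 𝓞 K) : ∃ a : ℕ, x - (a : 𝓞 K) ∈ 𝔮 := by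
  have : Fact ℓ.Prime := ⟨hℓ⟩
  let _ : Field (𝓞 K ⧸ 𝔮) := Ideal.Quotient.field 𝔮
  have hne : (1 : 𝓞 K ⧸ 𝔮) ≠ 0 := one_ne_zero
  have h1 := mem_multiples_of_prime_card (G := 𝓞 K ⧸ 𝔮) hcard hne (g' := Ideal.Quotient.mk 𝔮 x)
  obtain ⟨n, hn⟩ := (AddSubmonoid.mem_multiples_iff _ _).mp h1
  refine ⟨n, ?_⟩
  rw [← Ideal.Quotient.eq, ← hn]
  simp

/-- an automorphism fixing a degree-one prime `𝔮 ∤ p` acts trivially on `p`-th roots of unity -/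
theorem m14j_fix (𝔮 : Ideal (𝓞 K)) [h𝔮 : 𝔮.IsMaximal] (ℓ : ℕ) (hℓ : ℓ.Prime)
    (hcard : Nat.card (𝓞 K ⧸ 𝔮) = ℓ) (hℓp : ℓ ≠ p)
    (σ : K ≃ₐ[ℚ] K) (e : ℕ) (hσ : ∀ z : K, z ^ p = 1 → σ z = z ^ e) (hfix : σ • 𝔮 = 𝔮) :
    e ≡ 1 [MOD p] := by
  have hz := (IsCyclotomicExtension.zeta_spec p ℚ K).toInteger_isPrimitiveRoot
  set ζ : 𝓞 K := (IsCyclotomicExtension.zeta_spec p ℚ K).toInteger with hζdef
  have habs : absNorm 𝔮 = ℓ := by rw [Ideal.absNorm_apply, Submodule.cardQuot_apply]; exact hcard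
  have hzbar : IsPrimitiveRoot (Ideal.Quotient.mk 𝔮 ζ) p := by
    have : NeZero p := ⟨hp.out.ne_zero⟩
    refine hz.idealQuotient_mk ?_ ?_
    · rw [habs]; exact hℓ.one_lt.ne'
    · rw [habs]; exact (Nat.coprime_primes hℓ hp.out).mpr hℓp
  obtain ⟨a, ha⟩ := m14j_exists_nat 𝔮 ℓ hℓ hcard ζ
  have h1 : σ • (ζ - (a : 𝓞 K)) ∈ 𝔮 := by
    rw [← hfix]
    exact Ideal.smul_mem_pointwise_smul σ _ 𝔮 ha
  have h2 : σ • ζ = ζ ^ e := by
    apply RingOfIntegers.ext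
    have h3 : ((ζ ^ e : 𝓞 K) : K) = (ζ : K) ^ e := map_pow _ _ _
    rw [h3]
    have h4 : (ζ : K) ^ p = 1 := by
      have := congrArg (fun y : 𝓞 K => (y : K)) hz.pow_eq_one
      simpa using this
    exact hσ _ h4
  have h5 : σ • (a : 𝓞 K) = (a : 𝓞 K) := by
    apply RingOfIntegers.ext
    show σ ((a : 𝓞 K) : K) = ((a : 𝓞 K) : K)
    simp
  rw [smul_sub, h2, h5] at h1
  have h6 : ζ ^ e - ζ ∈ 𝔮 := by
    have := 𝔮.sub_mem h1 ha
    convert this using 1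
    ring
  rw [← Ideal.Quotient.eq, map_pow] at h6
  have hp2 := hp.out.two_le
  rcases Nat.eq_zero_or_pos e with he | he
  · exfalso
    rw [he, pow_zero] at h6
    have := hzbar.dvd_of_pow_eq_one 1 (by rw [pow_one]; exact h6.symm)
    have := Nat.le_of_dvd one_pos this
    omega
  · have hu : IsUnit (Ideal.Quotient.mk 𝔮 ζ) := hzbar.isUnit hp.out.ne_zero
    have h7 : (Ideal.Quotient.mk 𝔮 ζ) ^ (e - 1) = 1 := by
      have h8 : (Ideal.Quotient.mk 𝔮 ζ) ^ (e - 1) * (Ideal.Quotient.mk 𝔮 ζ) =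
          1 * (Ideal.Quotient.mk 𝔮 ζ) := by
        rw [← pow_succ, Nat.sub_add_cancel he, one_mul, h6]
      exact hu.mul_right_cancel h8
    have h9 := hzbar.dvd_of_pow_eq_one _ h7
    exact ((Nat.modEq_iff_dvd' he).mpr h9).symm




/-- a prime of the `p`-th cyclotomic field over `ℓ ≡ 1 mod p` has residue field of size `ℓ` -/
theorem m14j_card (𝔮 : Ideal (𝓞 K)) [h𝔮 : 𝔮.IsPrime] (h0 : 𝔮 ≠ ⊥) (ℓ : ℕ) (hℓ : ℓ.Prime)
    (hu : 𝔮.under ℤ = span {(ℓ : ℤ)}) (h1 : ℓ % p = 1) : Nat.card (𝓞 K ⧸ 𝔮) = ℓ := by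
  have hℓp : ¬ ℓ ∣ p := by
    intro h
    have := (Nat.prime_dvd_prime_iff_eq hℓ hp.out).mp h
    rw [this, Nat.mod_self] at h1
    exact absurd h1 (by norm_num)
  have : Fact ℓ.Prime := ⟨hℓ⟩
  have : 𝔮.LiesOver (span {(ℓ : ℤ)}) := ⟨hu.symm⟩
  have : NeZero p := ⟨hp.out.ne_zero⟩
  have hmax : 𝔮.IsMaximal := Ring.DimensionLEOne.maximalOfPrime h0 h𝔮
  have hmaxℓ : (span {(ℓ : ℤ)}).IsMaximal := by
    rw [← hu]; exact Ideal.isMaximal_comap_of_isIntegral_of_isMaximal 𝔮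
  have hf := IsCyclotomicExtension.Rat.inertiaDeg_eq_of_not_dvd ℓ K 𝔮 hℓp
  have hord : orderOf ((ℓ : ℕ) : ZMod p) = 1 := by
    rw [orderOf_eq_one_iff]
    have : ((ℓ : ℕ) : ZMod p) = ((ℓ % p : ℕ) : ZMod p) := by simp
    rw [this, h1, Nat.cast_one]
  rw [hord] at hf
  have h2 := Ideal.absNorm_eq_pow_inertiaDeg' 𝔮 hℓ
  rw [Ideal.inertiaDeg'_eq_inertiaDeg, hf, pow_one] at h2
  rw [← h2, Ideal.absNorm_apply, Submodule.cardQuot_apply]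




/-- existence of the automorphism `ζ ↦ ζ ^ c` for `c` prime to `p` -/
theorem m14h_exists_aut (c : ℕ) (hc : ¬ p ∣ c) :
    ∃ τ : K ≃ₐ[ℚ] K, ∀ ζ : K, ζ ^ p = 1 → τ ζ = ζ ^ c := by
  have hirr : Irreducible (Polynomial.cyclotomic p ℚ) :=
    Polynomial.cyclotomic.irreducible_rat hp.out.pos
  have hcop : Nat.Coprime c p := (Nat.Coprime.symm ((Nat.Prime.coprime_iff_not_dvd hp.out).mpr hc))
  have hz := IsCyclotomicExtension.zeta_spec p ℚ K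
  have hμ : IsPrimitiveRoot ((IsCyclotomicExtension.zeta p ℚ K) ^ c) p := hz.pow_of_coprime c hcop
  refine ⟨IsCyclotomicExtension.fromZetaAut hμ hirr, ?_⟩
  intro ζ hζ
  obtain ⟨i, -, rfl⟩ := hz.eq_pow_of_pow_eq_one hζ
  rw [map_pow, IsCyclotomicExtension.fromZetaAut_spec, ← pow_mul, ← pow_mul, mul_comm]

theorem m14h_sum_unit (hp3 : 3 ≤ p) :
    (8 : ZMod p) * (∑ c ∈ Finset.Icc 1 ((p - 1) / 2), (c : ZMod p)) = -1 := by
  have hodd : p % 2 = 1 := by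
    rcases hp.out.eq_two_or_odd with h | h
    · omega
    · exact h
  obtain ⟨k, hk⟩ : ∃ k, p = 2 * k + 1 := ⟨p / 2, by omega⟩
  have h1 : (p - 1) / 2 = k := by omega
  rw [h1]
  have h2 : ∀ n : ℕ, 2 * (∑ c ∈ Finset.Icc 1 n, c) = n * (n + 1) := by
    intro n
    induction n with
    | zero => simp
    | succ n ih =>
      rw [Finset.sum_Icc_succ_top (by omega), mul_add, ih]
      ring
  have h3 : (8 : ZMod p) * (∑ c ∈ Finset.Icc 1 k, (c : ZMod p)) =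
      ((4 * (2 * ∑ c ∈ Finset.Icc 1 k, c) : ℕ) : ZMod p) := by
    push_cast
    ring
  rw [h3, h2]
  have h4 : (4 * (k * (k + 1)) : ℕ) + 1 = p * p := by rw [hk]; ring
  have h5 : ((4 * (k * (k + 1)) : ℕ) : ZMod p) + 1 = 0 := by
    have := congrArg (fun n : ℕ => (n : ZMod p)) h4
    simp only [Nat.cast_add, Nat.cast_one, Nat.cast_mul, ZMod.natCast_self, mul_zero] at this
    simpa using this
  exact eq_neg_of_add_eq_zero_left h5


omit hK in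
theorem m14j_pow_mod {z : K} (hz : z ^ p = 1) (n : ℕ) : z ^ n = z ^ (n % p) := by
  conv_lhs => rw [← Nat.div_add_mod n p]
  rw [pow_add, pow_mul, hz, one_pow, one_mul]

/-- **Stickelberger factorisation of the Jacobi sum.** -/
theorem m14j_main (hp3 : 3 ≤ p) (𝔮 : Ideal (𝓞 K)) [h𝔮 : 𝔮.IsPrime] (h0 : 𝔮 ≠ ⊥) (ℓ : ℕ)
    (hℓ : ℓ.Prime) (hu : 𝔮.under ℤ = span {(ℓ : ℤ)}) (h1 : ℓ % p = 1)
    (τ : ℕ → (K ≃ₐ[ℚ] K))
    (hτ : ∀ c ∈ Finset.Icc 1 ((p - 1) / 2), ∀ ζ : K, ζ ^ p = 1 → τ c ζ = ζ ^ c) :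
    ∃ J : 𝓞 K, J ≠ 0 ∧ span {J} = ∏ c ∈ Finset.Icc 1 ((p - 1) / 2), ((τ c)⁻¹ • 𝔮) := by
  classical
  have hp2 := hp.out.two_le
  have hmax : 𝔮.IsMaximal := Ring.DimensionLEOne.maximalOfPrime h0 h𝔮
  have hcard := m14j_card 𝔮 h0 ℓ hℓ hu h1
  have hℓp : ℓ ≠ p := by
    intro h
    rw [h, Nat.mod_self] at h1
    exact absurd h1 (by norm_num)
  let _ : Field (𝓞 K ⧸ 𝔮) := Ideal.Quotient.field 𝔮
  let _ : Fintype (𝓞 K ⧸ 𝔮) := Fintype.ofFinite _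
  have hcard' : Fintype.card (𝓞 K ⧸ 𝔮) = ℓ := by rw [← Nat.card_eq_fintype_card, hcard]
  obtain ⟨⟨m, hm⟩, χ, hχmk, hχp, hχ1, hχ2⟩ := m14j_exists_char hp3 𝔮 ℓ hℓ hcard hℓp
  have hdiv : (ℓ - 1) / p = m := by rw [hm]; exact Nat.mul_div_cancel_left m hp.out.pos
  rw [hdiv] at hχmk
  have hm0 : 0 < m := by
    rcases Nat.eq_zero_or_pos m with h | h
    · rw [h, mul_zero] at hm
      have := hℓ.two_le
      omega
    · exact h
  have hJJ := m14j_mul_inv 𝔮 ℓ hℓ hcard χ hχ1 hχ2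
  refine ⟨jacobiSum χ χ, ?_, ?_⟩
  · intro h
    rw [h, zero_mul] at hJJ
    have : (ℓ : 𝓞 K) ≠ 0 := Nat.cast_ne_zero.mpr hℓ.ne_zero
    exact this hJJ.symm
  -- the conjugate Jacobi sum
  have hχpow : χ ^ p = 1 := by
    ext u
    rw [MulChar.pow_apply_coe, hχp, MulChar.one_apply_coe]
  have hχinv : χ ^ (p - 1) = χ⁻¹ := by
    apply eq_inv_of_mul_eq_one_left
    rw [← pow_succ, Nat.sub_add_cancel hp.out.one_le, hχpow]
  have hnd : ¬ p ∣ p - 1 := by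
    intro h
    have h2 : p ≤ p - 1 := Nat.le_of_dvd (by omega) h
    omega
  obtain ⟨τ', hτ'⟩ := m14h_exists_aut (K := K) (p - 1) hnd
  have hJ' : τ' • jacobiSum χ χ = jacobiSum χ⁻¹ χ⁻¹ := by
    rw [m14j_smul_jacobiSum χ hχp τ' (p - 1) hτ', hχinv]
  -- norm of (J)
  have hfr : Module.finrank ℤ (𝓞 K) = p - 1 := by
    rw [RingOfIntegers.rank, IsCyclotomicExtension.finrank K
      (Polynomial.cyclotomic.irreducible_rat hp.out.pos), Nat.totient_prime hp.out]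
  obtain ⟨k, hk⟩ : ∃ k, p = 2 * k + 1 := by
    rcases hp.out.eq_two_or_odd with h | h
    · omega
    · exact ⟨p / 2, by omega⟩
  have hk1 : (p - 1) / 2 = k := by omega
  have hnorm : absNorm (span {jacobiSum χ χ} : Ideal (𝓞 K)) = ℓ ^ k := by
    have h2 : absNorm (span {jacobiSum χ χ} : Ideal (𝓞 K)) *
        absNorm (span {jacobiSum χ⁻¹ χ⁻¹} : Ideal (𝓞 K)) = ℓ ^ (p - 1) := by
      rw [← map_mul, Ideal.span_singleton_mul_span_singleton, hJJ, Ideal.absNorm_span_natCast, hfr]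
    rw [← hJ', ← m14j_smul_span, m14j_absNorm_smul] at h2
    have h3 : (absNorm (span {jacobiSum χ χ} : Ideal (𝓞 K))) ^ 2 = (ℓ ^ k) ^ 2 := by
      rw [pow_two, h2, ← pow_mul]
      congr 1
      omega
    exact Nat.pow_left_injective (by norm_num : 2 ≠ 0) h3
  -- membership
  have hmem : ∀ c ∈ Finset.Icc 1 ((p - 1) / 2), jacobiSum χ χ ∈ (τ c)⁻¹ • 𝔮 := by
    intro c hc
    have hc' := Finset.mem_Icc.mp hc
    rw [Ideal.mem_inv_pointwise_smul_iff, m14j_smul_jacobiSum χ hχp (τ c) c (hτ c hc),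
      ← Ideal.Quotient.eq_zero_iff_mem, m14j_mk_jacobiSum 𝔮 χ m hχmk c (by omega)]
    apply m14j_sum_eq_zero
    rw [hcard', hm]
    have : 2 * c < p := by omega
    calc 2 * (m * c) = m * (2 * c) := by ring
      _ < m * p := Nat.mul_lt_mul_of_pos_left this hm0
      _ = p * m := mul_comm _ _
  -- the factors
  have habs : absNorm 𝔮 = ℓ := by rw [Ideal.absNorm_apply, Submodule.cardQuot_apply]; exact hcard
  have hfmax : ∀ c, ((τ c)⁻¹ • 𝔮).IsMaximal := fun c => m14j_isMaximal_smul _ 𝔮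
  have hfabs : ∀ c, absNorm ((τ c)⁻¹ • 𝔮) = ℓ := by
    intro c; rw [m14j_absNorm_smul, habs]
  have hfne : ∀ c, (τ c)⁻¹ • 𝔮 ≠ ⊥ := by
    intro c h
    have := hfabs c
    rw [h, Ideal.absNorm_bot] at this
    exact hℓ.ne_zero this.symm
  -- distinctness
  have hinj : Set.InjOn (fun c => (τ c)⁻¹ • 𝔮) (Finset.Icc 1 ((p - 1) / 2) : Finset ℕ) := by
    intro c hc d hd hcd
    have hc' := Finset.mem_Icc.mp (Finset.mem_coe.mp hc)
    have hd' := Finset.mem_Icc.mp (Finset.mem_coe.mp hd)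
    simp only at hcd
    have hcne : (c : ZMod p) ≠ 0 := by
      intro h
      have := (ZMod.natCast_eq_zero_iff c p).mp h
      have := Nat.le_of_dvd (by omega) this
      omega
    set c' : ℕ := ((c : ZMod p)⁻¹).val with hc'def
    have hcc' : ((c * c' : ℕ) : ZMod p) = 1 := by
      rw [Nat.cast_mul, hc'def, ZMod.natCast_zmod_val]
      exact mul_inv_cancel₀ hcne
    have hcc'mod : (c' * c) % p = 1 := by
      have h3 : ((c' * c : ℕ) : ZMod p) = ((1 : ℕ) : ZMod p) := by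
        rw [mul_comm, hcc', Nat.cast_one]
      have h4 := (ZMod.natCast_eq_natCast_iff' _ _ _).mp h3
      rw [h4]
      exact Nat.mod_eq_of_lt (by omega)
    have hinv : ∀ z : K, z ^ p = 1 → (τ c)⁻¹ z = z ^ c' := by
      intro z hz
      have h3 : (z ^ c') ^ p = 1 := by rw [← pow_mul, mul_comm, pow_mul, hz, one_pow]
      have h4 : τ c (z ^ c') = z := by
        rw [hτ c (Finset.mem_coe.mp hc) _ h3, ← pow_mul, m14j_pow_mod hz, hcc'mod, pow_one]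
      calc (τ c)⁻¹ z = (τ c)⁻¹ (τ c (z ^ c')) := by rw [h4]
        _ = z ^ c' := by
            show ((τ c)⁻¹ * τ c) (z ^ c') = z ^ c'
            rw [inv_mul_cancel]
            rfl
    have hσ : ∀ z : K, z ^ p = 1 → (τ d * (τ c)⁻¹) z = z ^ (c' * d) := by
      intro z hz
      have h3 : (z ^ c') ^ p = 1 := by rw [← pow_mul, mul_comm, pow_mul, hz, one_pow]
      show τ d ((τ c)⁻¹ z) = _
      rw [hinv z hz, hτ d (Finset.mem_coe.mp hd) _ h3, ← pow_mul]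
    have hfix : (τ d * (τ c)⁻¹) • 𝔮 = 𝔮 := by
      rw [mul_smul, hcd, smul_inv_smul]
    have h5 := m14j_fix 𝔮 ℓ hℓ hcard hℓp _ _ hσ hfix
    have h6 : ((c' * d : ℕ) : ZMod p) = 1 := by
      have := (ZMod.natCast_eq_natCast_iff _ _ _).mpr h5
      simpa using this
    have h7 : (c : ZMod p) = (d : ZMod p) := by
      have h8 : (c : ZMod p) * ((c' : ZMod p) * (d : ZMod p)) = (c : ZMod p) := by
        rw [← Nat.cast_mul c' d, h6, mul_one]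
      rw [← mul_assoc, ← Nat.cast_mul c c', hcc', one_mul] at h8
      exact h8.symm
    have h9 := (ZMod.natCast_eq_natCast_iff' _ _ _).mp h7
    rw [Nat.mod_eq_of_lt (by omega), Nat.mod_eq_of_lt (by omega)] at h9
    exact h9
  -- divisibility
  have hdvdprod : (∏ c ∈ Finset.Icc 1 ((p - 1) / 2), ((τ c)⁻¹ • 𝔮)) ∣
      (span {jacobiSum χ χ} : Ideal (𝓞 K)) := by
    rw [← Finset.prod_image (s := Finset.Icc 1 ((p - 1) / 2)) (g := fun c => (τ c)⁻¹ • 𝔮)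
      (f := fun a => a) hinj]
    apply Finset.prod_primes_dvd
    · intro a ha
      obtain ⟨c, hc, rfl⟩ := Finset.mem_image.mp ha
      exact Ideal.prime_of_isPrime (hfne c) (hfmax c).isPrime
    · intro a ha
      obtain ⟨c, hc, rfl⟩ := Finset.mem_image.mp ha
      exact Ideal.dvd_iff_le.mpr ((Ideal.span_singleton_le_iff_mem _).mpr (hmem c hc))
  obtain ⟨𝔄, h𝔄⟩ := hdvdprod
  have hnprod : absNorm (∏ c ∈ Finset.Icc 1 ((p - 1) / 2), ((τ c)⁻¹ • 𝔮)) = ℓ ^ k := by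
    rw [map_prod, Finset.prod_congr rfl (fun c _ => hfabs c), Finset.prod_const, Nat.card_Icc, hk1]
    simp
  have h𝔄1 : absNorm 𝔄 = 1 := by
    have h3 := congrArg absNorm h𝔄
    rw [map_mul, hnorm, hnprod] at h3
    have h4 : 0 < ℓ ^ k := pow_pos hℓ.pos k
    exact (Nat.eq_of_mul_eq_mul_left h4 (by rw [mul_one]; exact h3)).symm
  rw [Ideal.absNorm_eq_one_iff] at h𝔄1
  rw [h𝔄, h𝔄1, Ideal.mul_top]


end cyclo

end Fermat.Agent.M14
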