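/-
M14 (S14 project), package HERB, end theorem: an additive function `ψ` on the nonzero ideals
of the `p`-th cyclotomic field with values in `ZMod p` which
  * is multiplicative,
  * is equivariant for the INVERSE cyclotomic character (`c • ψ (τ 𝔮) = ψ 𝔮` if `τ ζ = ζ ^ c`),
  * kills principal ideals,
vanishes on every prime ideal.  (This is Herbrand's theorem for the `ω⁻¹`-eigenspace: the
relevant Stickelberger coefficient is `∑_{c < p/2} c = (p² - 1)/8`, a unit modulo `p`.)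
-/
import Mathlib
import Fermat.Agent.M14.HerbFrob
import Fermat.Agent.M14.HerbJac

set_option autoImplicit false

open NumberField Ideal
open scoped Pointwise

namespace Fermat.Agent.M14

variable {p : ℕ} [hp : Fact p.Prime] {K : Type*} [Field K] [NumberField K]
  [hK : IsCyclotomicExtension {p} ℚ K]

omit hp hK [NumberField K] in
theorem m14h_map_top {A : Type*} [AddCommGroup A] (ψ : Ideal (𝓞 K) → A)
    (hmul : ∀ I J : Ideal (𝓞 K), I ≠ ⊥ → J ≠ ⊥ → ψ (I * J) = ψ I + ψ J) : ψ ⊤ = 0 := by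
  have h := hmul ⊤ ⊤ top_ne_bot top_ne_bot
  rw [Ideal.mul_top] at h
  exact (add_eq_left.mp h.symm)

omit hp hK [NumberField K] in
theorem m14h_map_prod {A : Type*} [AddCommGroup A] (ψ : Ideal (𝓞 K) → A)
    (hmul : ∀ I J : Ideal (𝓞 K), I ≠ ⊥ → J ≠ ⊥ → ψ (I * J) = ψ I + ψ J)
    {ι : Type*} (s : Finset ι) (f : ι → Ideal (𝓞 K)) (hf : ∀ i ∈ s, f i ≠ ⊥) :
    ψ (∏ i ∈ s, f i) = ∑ i ∈ s, ψ (f i) := by
  classical
  induction s using Finset.induction_on with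
  | empty =>
    rw [Finset.prod_empty, Finset.sum_empty, Ideal.one_eq_top]
    exact m14h_map_top ψ hmul
  | insert a s ha ih =>
    rw [Finset.prod_insert ha, Finset.sum_insert ha,
      hmul _ _ (hf a (Finset.mem_insert_self a s)) ?_, ih (fun i hi => hf i (Finset.mem_insert_of_mem hi))]
    rw [Ne, ← Ideal.zero_eq_bot, Finset.prod_eq_zero_iff]
    rintro ⟨i, hi, h0⟩
    exact hf i (Finset.mem_insert_of_mem hi) h0

/-- **Herbrand-type vanishing for the `ω⁻¹`-eigenspace.** -/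
theorem m14h_main (hp3 : 3 ≤ p)
    (ψ : Ideal (𝓞 K) → ZMod p)
    (hmul : ∀ I J : Ideal (𝓞 K), I ≠ ⊥ → J ≠ ⊥ → ψ (I * J) = ψ I + ψ J)
    (heq : ∀ (τ : K ≃ₐ[ℚ] K) (c : ℕ), (∀ ζ : K, ζ ^ p = 1 → τ ζ = ζ ^ c) →
       ∀ 𝔮 : Ideal (𝓞 K), 𝔮.IsPrime → 𝔮 ≠ ⊥ → (c : ZMod p) * ψ (τ • 𝔮) = ψ 𝔮)
    (hprinc : ∀ α : 𝓞 K, α ≠ 0 → ψ (span {α}) = 0) :
    ∀ 𝔮 : Ideal (𝓞 K), 𝔮.IsPrime → 𝔮 ≠ ⊥ → ψ 𝔮 = 0 := by
  intro 𝔮 h𝔮 h0
  obtain ⟨ℓ, hℓ, hmem, hu⟩ := m14h_exists_prime 𝔮 h0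
  by_cases hℓp : ℓ = p
  · -- 𝔮 lies over p, hence is principal
    subst hℓp
    have hz := IsCyclotomicExtension.zeta_spec ℓ ℚ K
    have : 𝔮.LiesOver (span {(ℓ : ℤ)}) := ⟨hu.symm⟩
    have := IsCyclotomicExtension.Rat.eq_span_zeta_sub_one_of_liesOver' ℓ K hz 𝔮
    rw [this]
    apply hprinc
    intro h
    have h2 : span {hz.toInteger - 1} = (⊥ : Ideal (𝓞 K)) := by rw [h]; simp
    exact h0 (this.trans h2)
  by_cases h1 : ℓ % p = 1
  · -- degree one: Jacobi sums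
    have hmax : 𝔮.IsMaximal := Ring.DimensionLEOne.maximalOfPrime h0 h𝔮
    have hp2 := hp.out.two_le
    have hex : ∀ c : ℕ, ∃ τ : K ≃ₐ[ℚ] K, c ∈ Finset.Icc 1 ((p - 1) / 2) →
        ∀ ζ : K, ζ ^ p = 1 → τ ζ = ζ ^ c := by
      intro c
      by_cases hc : c ∈ Finset.Icc 1 ((p - 1) / 2)
      · have hc' := Finset.mem_Icc.mp hc
        have hnd : ¬ p ∣ c := by
          intro h
          have h2 : p ≤ c := Nat.le_of_dvd (by omega) h
          omega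
        obtain ⟨τ, hτ⟩ := m14h_exists_aut (K := K) c hnd
        exact ⟨τ, fun _ => hτ⟩
      · exact ⟨1, fun h => absurd h hc⟩
    choose τ hτ using hex
    obtain ⟨J, hJ0, hJ⟩ := m14j_main hp3 𝔮 h0 ℓ hℓ hu h1 τ hτ
    have h2 := hprinc J hJ0
    have hne : ∀ c ∈ Finset.Icc 1 ((p - 1) / 2), (τ c)⁻¹ • 𝔮 ≠ ⊥ := by
      intro c _ h
      apply h0
      have := congrArg (fun I => τ c • I) h
      simpa using this
    rw [hJ, m14h_map_prod ψ hmul _ _ hne] at h2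
    have h3 : ∀ c ∈ Finset.Icc 1 ((p - 1) / 2), ψ ((τ c)⁻¹ • 𝔮) = (c : ZMod p) * ψ 𝔮 := by
      intro c hc
      have hprime : ((τ c)⁻¹ • 𝔮).IsPrime := (m14j_isMaximal_smul _ 𝔮).isPrime
      have := heq (τ c) c (hτ c hc) ((τ c)⁻¹ • 𝔮) hprime (hne c hc)
      rw [smul_inv_smul] at this
      exact this.symm
    rw [Finset.sum_congr rfl h3, ← Finset.sum_mul] at h2
    have h4 := m14h_sum_unit (p := p) hp3
    have h5 : (8 : ZMod p) * ((∑ c ∈ Finset.Icc 1 ((p - 1) / 2), (c : ZMod p)) * ψ 𝔮) = 0 := by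
      rw [h2, mul_zero]
    rw [← mul_assoc, h4] at h5
    simpa using h5
  · -- Frobenius trick
    obtain ⟨σ, hσ, hζ⟩ := m14h_exists_frob 𝔮 h0 ℓ hℓ hℓp hu
    have := heq σ ℓ hζ 𝔮 h𝔮 h0
    rw [hσ] at this
    have h2 : ((ℓ : ZMod p) - 1) * ψ 𝔮 = 0 := by rw [sub_mul, this]; ring
    rcases mul_eq_zero.mp h2 with h3 | h3
    · exfalso
      apply h1
      have h4 : (ℓ : ZMod p) = ((1 : ℕ) : ZMod p) := by
        rw [Nat.cast_one]; exact sub_eq_zero.mp h3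
      have h5 := (ZMod.natCast_eq_natCast_iff' _ _ _).mp h4
      rw [h5]
      exact Nat.mod_eq_of_lt hp.out.one_lt
    · exact h3

end Fermat.Agent.M14
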