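/-
M14 (S14 project), top level of the number-field side:
`M14NoExt p` from the two package end results
  * (ALG)  not every ideal of `K` is (principal) × (norm from `L`)            [second inequality]
  * (PSI)  there is `ψ : Ideal (𝓞 K) → ZMod p`, multiplicative, `ω⁻¹`-equivariant, whose
           kernel consists of (principal) × (norm) ideals     [Artin symbol + Artin's crossing]
via the Herbrand-type theorem `m14h_main`.
-/
import Mathlib
import Fermat.Agent.M14.Target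
import Fermat.Agent.M14.Herb

set_option autoImplicit false

open NumberField Ideal
open scoped Pointwise

namespace Fermat.Agent.M14

/-- `𝔞` is (principal) × (norm from `L`), in integral form:
`(α) 𝔞 = (β) N_{L/K}(𝔄)` with `α, β ≠ 0`, `𝔄 ≠ 0`. -/
def m14f_PN {K : Type*} (L : Type*) [Field K] [NumberField K] [Field L] [NumberField L]
    [Algebra K L] (𝔞 : Ideal (𝓞 K)) : Prop :=
  ∃ (α β : 𝓞 K) (𝔄 : Ideal (𝓞 L)), α ≠ 0 ∧ β ≠ 0 ∧ 𝔄 ≠ ⊥ ∧
    span {α} * 𝔞 = span {β} * Ideal.relNorm (𝓞 K) 𝔄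

/-- the end result of package ALG, for one field extension -/
def m14f_ALG (K L : Type*) [Field K] [NumberField K] [Field L] [NumberField L]
    [Algebra K L] : Prop :=
  ∃ 𝔞 : Ideal (𝓞 K), 𝔞 ≠ ⊥ ∧ ¬ m14f_PN L 𝔞

/-- the end result of package PSI (Artin symbol + crossing), for one field extension
`L / K` with `K` the `p`-th cyclotomic field -/
def m14f_PSI (p : ℕ) (K L : Type*) [Field K] [NumberField K] [Field L] [NumberField L]
    [Algebra K L] : Prop :=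
  ∃ ψ : Ideal (𝓞 K) → ZMod p,
    (∀ I J : Ideal (𝓞 K), I ≠ ⊥ → J ≠ ⊥ → ψ (I * J) = ψ I + ψ J) ∧
    (∀ (τ : K ≃ₐ[ℚ] K) (c : ℕ), (∀ z : K, z ^ p = 1 → τ z = z ^ c) →
       ∀ 𝔮 : Ideal (𝓞 K), 𝔮.IsPrime → 𝔮 ≠ ⊥ → (c : ZMod p) * ψ (τ • 𝔮) = ψ 𝔮) ∧
    (∀ 𝔞 : Ideal (𝓞 K), 𝔞 ≠ ⊥ → ψ 𝔞 = 0 → m14f_PN L 𝔞)

section abstract

variable {p : ℕ} [hp : Fact p.Prime] {K L : Type*} [Field K] [NumberField K]
  [Field L] [NumberField L] [Algebra K L]

theorem m14f_map_pow (ψ : Ideal (𝓞 K) → ZMod p)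
    (hmul : ∀ I J : Ideal (𝓞 K), I ≠ ⊥ → J ≠ ⊥ → ψ (I * J) = ψ I + ψ J)
    (I : Ideal (𝓞 K)) (hI : I ≠ ⊥) (k : ℕ) : ψ (I ^ k) = k * ψ I := by
  induction k with
  | zero =>
    rw [pow_zero, Ideal.one_eq_top, Nat.cast_zero, zero_mul]
    exact m14h_map_top ψ hmul
  | succ k ih =>
    rw [pow_succ, hmul _ _ (pow_ne_zero k hI) hI, ih]
    push_cast
    ring

/-- multiplicative functions vanishing on primes vanish on all nonzero ideals -/
theorem m14f_eq_zero_of_primes (ψ : Ideal (𝓞 K) → ZMod p)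
    (hmul : ∀ I J : Ideal (𝓞 K), I ≠ ⊥ → J ≠ ⊥ → ψ (I * J) = ψ I + ψ J)
    (hprime : ∀ 𝔮 : Ideal (𝓞 K), 𝔮.IsPrime → 𝔮 ≠ ⊥ → ψ 𝔮 = 0)
    (𝔞 : Ideal (𝓞 K)) (h𝔞 : 𝔞 ≠ ⊥) : ψ 𝔞 = 0 := by
  revert h𝔞
  induction 𝔞 using UniqueFactorizationMonoid.induction_on_prime with
  | h₁ => intro h; exact absurd rfl h
  | h₂ x hx =>
    intro _
    rw [Ideal.isUnit_iff.mp hx]
    exact m14h_map_top ψ hmul
  | h₃ a q ha hq ih =>
    intro _
    rw [hmul q a hq.ne_zero ha, ih ha, add_zero]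
    exact hprime q (Ideal.isPrime_of_prime hq) hq.ne_zero

variable [hK : IsCyclotomicExtension {p} ℚ K]

/-- **Top level**: (ALG) and (PSI) are contradictory. -/
theorem m14f_false (hp3 : 3 ≤ p) (hALG : m14f_ALG K L) (hPSI : m14f_PSI p K L) : False := by
  obtain ⟨𝔟, h𝔟0, h𝔟⟩ := hALG
  obtain ⟨ψ, hmul, heq, hker⟩ := hPSI
  -- step 1: ψ kills principal ideals
  have hprinc : ∀ α : 𝓞 K, α ≠ 0 → ψ (span {α}) = 0 := by
    intro α₀ hα₀
    by_contra hg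
    apply h𝔟
    -- choose k with ψ 𝔟 + k * ψ (α₀) = 0
    set g := ψ (span {α₀}) with hgdef
    set k : ℕ := (-(ψ 𝔟) * g⁻¹).val with hkdef
    have hk : ψ 𝔟 + (k : ZMod p) * g = 0 := by
      rw [hkdef, ZMod.natCast_zmod_val, mul_assoc, inv_mul_cancel₀ hg]
      ring
    have hspan0 : (span {α₀} : Ideal (𝓞 K)) ≠ ⊥ := by
      rw [Ne, Ideal.span_singleton_eq_bot]; exact hα₀
    have h1 : ψ (𝔟 * span {α₀} ^ k) = 0 := by
      rw [hmul _ _ h𝔟0 (pow_ne_zero k hspan0), m14f_map_pow ψ hmul _ hspan0]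
      exact hk
    have h2 : 𝔟 * span {α₀} ^ k ≠ ⊥ := mul_ne_zero h𝔟0 (pow_ne_zero k hspan0)
    obtain ⟨α, β, 𝔄, hα, hβ, h𝔄, h3⟩ := hker _ h2 h1
    refine ⟨α * α₀ ^ k, β, 𝔄, mul_ne_zero hα (pow_ne_zero k hα₀), hβ, h𝔄, ?_⟩
    rw [← h3, ← Ideal.span_singleton_mul_span_singleton, ← Ideal.span_singleton_pow]
    ring
  -- step 2: Herbrand
  have hprime := m14h_main hp3 ψ hmul heq hprinc
  -- step 3: ψ = 0 everywhere, so everything is in P·N
  exact h𝔟 (hker 𝔟 h𝔟0 (m14f_eq_zero_of_primes ψ hmul hprime 𝔟 h𝔟0))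

end abstract

/-- **Reduction of `M14NoExt` to the packages (ALG) and (PSI).** -/
theorem m14f_noExt (p : ℕ) [hp : Fact p.Prime] (hp3 : 3 ≤ p)
    (hALG : ∀ (L : Type) [Field L] [NumberField L] (K : IntermediateField ℚ L) (ζ : L),
      M14Data p L K ζ → m14f_ALG K L)
    (hPSI : ∀ (L : Type) [Field L] [NumberField L] (K : IntermediateField ℚ L) (ζ : L),
      M14Data p L K ζ → m14f_PSI p K L) : M14NoExt p := by
  intro L _ _ K ζ D
  have : NeZero p := ⟨hp.out.ne_zero⟩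
  have hcyc : IsCyclotomicExtension {p} ℚ (IntermediateField.adjoin ℚ {ζ}) :=
    D.prim.intermediateField_adjoin_isCyclotomicExtension ℚ
  have hK := D.hK
  subst hK
  exact m14f_false hp3 (hALG L _ ζ D) (hPSI L _ ζ D)

end Fermat.Agent.M14
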