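import Mathlib

set_option autoImplicit false

open scoped NumberField

namespace Fermat.Agent.M14

/-- The number-field data extracted from a non-split admissible extension:
`L/ℚ` finite Galois, `K = ℚ(ζ_p) ⊆ L`, `[L : K] = p`, `L/K` has trivial inertia at every prime,
trivial decomposition groups at the primes over `p`, and `Gal(K/ℚ)` acts on `Gal(L/K)` through
`ω⁻¹`. -/
structure M14Data (p : ℕ) (L : Type) [Field L] [NumberField L]
    (K : IntermediateField ℚ L) (ζ : L) : Prop where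
  isGalois : IsGalois ℚ L
  prim : IsPrimitiveRoot ζ p
  hK : K = IntermediateField.adjoin ℚ {ζ}
  finrank : Module.finrank K L = p
  inertia : ∀ (P : Ideal (𝓞 L)), P.IsPrime → ∀ σ : L ≃ₐ[K] L,
    (∀ x : 𝓞 L, ∃ y ∈ P, (y : L) = σ x - x) → σ = 1
  split : ∀ (P : Ideal (𝓞 L)), P.IsPrime → (p : 𝓞 L) ∈ P → ∀ σ : L ≃ₐ[K] L,
    (∀ x ∈ P, ∃ y ∈ P, (y : L) = σ x) → σ = 1
  conj : ∀ (τ : L ≃ₐ[ℚ] L) (σ : L ≃ₐ[K] L) (n : ℕ), τ ζ = ζ ^ n →
    ∀ x : L, τ ((σ ^ n) (τ.symm x)) = σ x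

/-- the number-field statement to which S14 is reduced -/
def M14NoExt (p : ℕ) : Prop :=
  ∀ (L : Type) [Field L] [NumberField L] (K : IntermediateField ℚ L) (ζ : L),
    M14Data p L K ζ → False

end Fermat.Agent.M14
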