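import Mathlib
import Fermat.Agent.M14.Target
import Fermat.Agent.M14.Fin
import Fermat.Agent.M14.Alg3Key

/-!
# M14 / ALG3: end results

* `m14alg3_main` : for a cyclic extension `L/K` of number fields with generator `σ`, unramified at
  all finite primes, with unit Herbrand quotient at most `1/p` (`p > 1`) in the form
  `p * [E_K : Nm E_L] ≤ [ker Nm : B]`, the statement `m14f_ALG K L` holds: some nonzero ideal of
  `𝓞 K` is not (principal) × (norm from `L`).
* `m14alg3_unramified` : trivial inertia groups give `𝔭 𝓞_L` radical.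
* `m14alg3_of_data` : the same for the fields of an `M14Data`, with the unit Herbrand quotient
  inequality as only remaining hypothesis.
-/

set_option autoImplicit false
set_option linter.deprecated false
set_option linter.unusedSectionVars false
set_option linter.unusedVariables false
set_option linter.style.haveILetI false

namespace Fermat.Agent.M14

open NumberField Ideal
open scoped Pointwise

section

variable {K L : Type} [Field K] [NumberField K] [Field L] [NumberField L] [Algebra K L]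
  [IsGalois K L]

/-- **ALG3**. -/
theorem m14alg3_main (σ : L ≃ₐ[K] L) (hσ : ∀ τ, τ ∈ Subgroup.zpowers σ)
    (hunr : ∀ 𝔭 : Ideal (𝓞 K), 𝔭.IsPrime → 𝔭 ≠ ⊥ →
      (𝔭.map (algebraMap (𝓞 K) (𝓞 L))).IsRadical)
    (p : ℕ) (hp : 1 < p)
    (hfin : (m14alg3_Nm K L).range.index ≠ 0)
    (hHQ : p * (m14alg3_Nm K L).range.index ≤
      (m14alg3_B K L σ).relIndex (m14alg3_Nm K L).ker) :
    m14f_ALG K L := by
  obtain ⟨Nst, hNst⟩ := m14alg3_exists_Nst (K := K) (L := L)
  have hns := m14alg3_norm_not_surjective σ hσ hunr p hp hfin hHQ Nst hNst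
  unfold Function.Surjective at hns
  push Not at hns
  obtain ⟨c, hc⟩ := hns
  obtain ⟨𝔞, h𝔞0, rfl⟩ := m14alg3_cls_surjective c
  refine ⟨𝔞, h𝔞0, ?_⟩
  rintro ⟨α, β, 𝔄, hα, hβ, h𝔄, h⟩
  apply hc (m14alg3_cls 𝔄)
  rw [hNst 𝔄 h𝔄]
  have h𝔄' : relNorm (𝓞 K) 𝔄 ≠ ⊥ := by rwa [Ne, relNorm_eq_bot_iff]
  exact ((m14alg3_cls_eq_iff h𝔞0 h𝔄').mpr ⟨α, β, hα, hβ, h⟩).symm

/-- trivial inertia groups imply that no finite prime ramifies -/
theorem m14alg3_unramified
    (hin : ∀ (P : Ideal (𝓞 L)), P.IsPrime → ∀ σ : L ≃ₐ[K] L,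
      (∀ x : 𝓞 L, ∃ y ∈ P, (y : L) = σ x - x) → σ = 1)
    (𝔭 : Ideal (𝓞 K)) (h𝔭 : 𝔭.IsPrime) (h𝔭0 : 𝔭 ≠ ⊥) :
    (𝔭.map (algebraMap (𝓞 K) (𝓞 L))).IsRadical := by
  classical
  haveI := h𝔭
  haveI h𝔭max : 𝔭.IsMaximal := Ring.DimensionLEOne.maximalOfPrime h𝔭0 h𝔭
  set I : Ideal (𝓞 L) := 𝔭.map (algebraMap (𝓞 K) (𝓞 L)) with hI
  have hI0 : I ≠ ⊥ := m14alg3_map_ne_bot h𝔭0
  rw [← Ideal.radical_eq_iff]
  refine le_antisymm ?_ Ideal.le_radical
  have hprod := Ideal.prod_normalizedFactors_eq_self hI0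
  suffices hdvd : (UniqueFactorizationMonoid.normalizedFactors I).prod ∣ I.radical by
    rw [hprod] at hdvd
    exact Ideal.dvd_iff_le.mp hdvd
  apply Multiset.prod_primes_dvd
  · intro P hP
    exact UniqueFactorizationMonoid.prime_of_normalized_factor P hP
  · intro P hP
    rw [Ideal.dvd_iff_le]
    have hPprime : P.IsPrime :=
      Ideal.isPrime_of_prime (UniqueFactorizationMonoid.prime_of_normalized_factor P hP)
    have hle : I ≤ P := Ideal.le_of_dvd (UniqueFactorizationMonoid.dvd_of_mem_normalizedFactors hP)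
    exact (Ideal.IsPrime.radical_le_iff hPprime).mpr hle
  · intro P
    have hcount : Multiset.countP (Associated P) (UniqueFactorizationMonoid.normalizedFactors I)
        = Multiset.count P (UniqueFactorizationMonoid.normalizedFactors I) := by
      rw [Multiset.count]
      apply Multiset.countP_congr rfl
      intro Q _
      simp only [associated_iff_eq]
    rw [hcount]
    by_cases hP : P ∈ UniqueFactorizationMonoid.normalizedFactors I
    · have hPprime : P.IsPrime :=
        Ideal.isPrime_of_prime (UniqueFactorizationMonoid.prime_of_normalized_factor P hP)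
      haveI := hPprime
      have hle : I ≤ P :=
        Ideal.le_of_dvd (UniqueFactorizationMonoid.dvd_of_mem_normalizedFactors hP)
      haveI hlies : P.LiesOver 𝔭 := by
        constructor
        have h1 : 𝔭 ≤ P.under (𝓞 K) := Ideal.map_le_iff_le_comap.mp hle
        have h2 : P.under (𝓞 K) ≠ ⊤ := (Ideal.IsPrime.under (𝓞 K) P).ne_top
        exact h𝔭max.eq_of_le h2 h1
      have hcard : Nat.card (P.inertia (L ≃ₐ[K] L)) = 1 := by
        have hbot : P.inertia (L ≃ₐ[K] L) = ⊥ := by
          rw [eq_bot_iff]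
          intro σ hσ
          rw [Subgroup.mem_bot]
          apply hin P hPprime σ
          intro x
          exact ⟨σ • x - x, hσ x, rfl⟩
        rw [hbot]
        exact Subgroup.card_bot
      rw [Ideal.card_inertia_eq_ramificationIdxIn 𝔭 P,
        Ideal.ramificationIdxIn_eq_ramificationIdx 𝔭 P (L ≃ₐ[K] L),
        Ideal.IsDedekindDomain.ramificationIdx_eq_normalizedFactors_count 𝔭 P hI0] at hcard
      exact hcard.le
    · rw [Multiset.count_eq_zero_of_notMem hP]
      exact Nat.zero_le _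

end

/-- **ALG3 for an `M14Data`**: `m14f_ALG K L` follows from the unit Herbrand quotient
inequality. -/
theorem m14alg3_of_data (p : ℕ) (hp : p.Prime) (L : Type) [Field L] [NumberField L]
    (K : IntermediateField ℚ L) (ζ : L) (D : M14Data p L K ζ)
    (hHQ : ∀ σ : L ≃ₐ[K] L, (∀ τ, τ ∈ Subgroup.zpowers σ) →
      (m14alg3_Nm K L).range.index ≠ 0 ∧
      p * (m14alg3_Nm K L).range.index ≤ (m14alg3_B K L σ).relIndex (m14alg3_Nm K L).ker) :
    m14f_ALG K L := by
  haveI := D.isGalois
  haveI : IsGalois K L := inferInstance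
  haveI : Fact p.Prime := ⟨hp⟩
  have hcard : Nat.card (L ≃ₐ[K] L) = p := by
    rw [IsGalois.card_aut_eq_finrank, D.finrank]
  haveI : IsCyclic (L ≃ₐ[K] L) := isCyclic_of_prime_card hcard
  obtain ⟨σ, hσ⟩ := IsCyclic.exists_generator (α := L ≃ₐ[K] L)
  obtain ⟨hfin, hq⟩ := hHQ σ hσ
  exact m14alg3_main σ hσ (m14alg3_unramified D.inertia) p hp.one_lt hfin hq

end Fermat.Agent.M14
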