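import Mathlib
import Fermat.Agent.M14.Alg2Units
import Fermat.Agent.M14.Alg3Main

/-!
# M14 (S14), package [ALG2], part 5: the unit Herbrand quotient inequality
-/

set_option autoImplicit false
set_option linter.style.haveILetI false
set_option linter.unusedSectionVars false

open Polynomial Finset Module NumberField

namespace Fermat.Agent.M14

noncomputable section

variable {K L : Type} [Field K] [NumberField K] [Field L] [NumberField L] [Algebra K L]
  [IsGalois K L]

theorem m14alg2_ker_D (σ : L ≃ₐ[K] L) (hσ : ∀ τ, τ ∈ Subgroup.zpowers σ) :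
    (LinearMap.ker (m14alg2_D (m14alg2_s σ))).toAddSubgroup
      = Subgroup.toAddSubgroup (m14alg2_iota K L).range := by
  ext u
  obtain ⟨u, rfl⟩ := Additive.ofMul.surjective u
  rw [Submodule.mem_toAddSubgroup, LinearMap.mem_ker, m14alg2_D_s]
  change m14alg3_delta K L σ u = 1 ↔ u ∈ (m14alg2_iota K L).range
  rw [m14alg3_delta_apply, div_eq_one]
  constructor
  · intro h
    obtain ⟨x, hx⟩ := m14alg2_exists_iota_eq σ hσ u h
    exact ⟨x, hx⟩
  · rintro ⟨x, rfl⟩
    apply Units.ext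
    apply NumberField.RingOfIntegers.coe_injective
    change σ (algebraMap K L ((x : 𝓞 K) : K)) = algebraMap K L ((x : 𝓞 K) : K)
    exact σ.commutes _

theorem m14alg2_range_D (σ : L ≃ₐ[K] L) :
    (LinearMap.range (m14alg2_D (m14alg2_s σ))).toAddSubgroup
      = Subgroup.toAddSubgroup (m14alg3_B K L σ) := by
  ext u
  obtain ⟨u, rfl⟩ := Additive.ofMul.surjective u
  rw [Submodule.mem_toAddSubgroup, LinearMap.mem_range]
  change _ ↔ u ∈ m14alg3_B K L σ
  rw [m14alg3_mem_B]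
  constructor
  · rintro ⟨v, hv⟩
    obtain ⟨v, rfl⟩ := Additive.ofMul.surjective v
    rw [m14alg2_D_s] at hv
    exact ⟨v, Additive.ofMul.injective hv⟩
  · rintro ⟨v, hv⟩
    refine ⟨Additive.ofMul v, ?_⟩
    rw [m14alg2_D_s, m14alg3_delta_apply, hv]

theorem m14alg2_range_N (p : ℕ) (hp : 0 < p) (hdeg : Module.finrank K L = p)
    (σ : L ≃ₐ[K] L) (hσ : ∀ τ, τ ∈ Subgroup.zpowers σ) :
    (LinearMap.range (m14alg2_N (m14alg2_s σ) p)).toAddSubgroup
      = Subgroup.toAddSubgroup ((m14alg3_Nm K L).range.map (m14alg2_iota K L)) := by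
  ext u
  obtain ⟨u, rfl⟩ := Additive.ofMul.surjective u
  rw [Submodule.mem_toAddSubgroup, LinearMap.mem_range]
  change _ ↔ u ∈ (m14alg3_Nm K L).range.map (m14alg2_iota K L)
  rw [Subgroup.mem_map]
  constructor
  · rintro ⟨v, hv⟩
    obtain ⟨v, rfl⟩ := Additive.ofMul.surjective v
    rw [m14alg2_N_s_apply, ← m14alg2_iota_Nm p hp hdeg σ hσ] at hv
    exact ⟨m14alg3_Nm K L v, ⟨v, rfl⟩, Additive.ofMul.injective hv⟩
  · rintro ⟨_, ⟨v, rfl⟩, hv⟩
    refine ⟨Additive.ofMul v, ?_⟩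
    rw [m14alg2_N_s_apply, ← m14alg2_iota_Nm p hp hdeg σ hσ, hv]

theorem m14alg2_ker_N (p : ℕ) (hp : 0 < p) (hdeg : Module.finrank K L = p)
    (σ : L ≃ₐ[K] L) (hσ : ∀ τ, τ ∈ Subgroup.zpowers σ) :
    (LinearMap.ker (m14alg2_N (m14alg2_s σ) p)).toAddSubgroup
      = Subgroup.toAddSubgroup (m14alg3_Nm K L).ker := by
  ext u
  obtain ⟨u, rfl⟩ := Additive.ofMul.surjective u
  rw [Submodule.mem_toAddSubgroup, LinearMap.mem_ker, m14alg2_N_s_apply,
    ← m14alg2_iota_Nm p hp hdeg σ hσ]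
  change m14alg2_iota K L (m14alg3_Nm K L u) = 1 ↔ u ∈ (m14alg3_Nm K L).ker
  rw [MonoidHom.mem_ker]
  constructor
  · intro h
    apply m14alg2_iota_injective (K := K) (L := L)
    rw [h, map_one]
  · intro h
    rw [h, map_one]

/-- `[ker D : N A] = [E_K : Nm E_L]` -/
theorem m14alg2_a0_eq (p : ℕ) (hp : 0 < p) (hdeg : Module.finrank K L = p)
    (σ : L ≃ₐ[K] L) (hσ : ∀ τ, τ ∈ Subgroup.zpowers σ) :
    m14alg2_ri (LinearMap.range (m14alg2_N (m14alg2_s σ) p))
      (LinearMap.ker (m14alg2_D (m14alg2_s σ))) = (m14alg3_Nm K L).range.index := by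
  unfold m14alg2_ri
  rw [m14alg2_range_N p hp hdeg σ hσ, m14alg2_ker_D σ hσ, Subgroup.relIndex_toAddSubgroup,
    MonoidHom.range_eq_map (m14alg2_iota K L),
    Subgroup.relIndex_map_map_of_injective _ _ m14alg2_iota_injective,
    Subgroup.relIndex_top_right]

/-- `[ker N : D A] = [ker Nm : B]` -/
theorem m14alg2_a1_eq (p : ℕ) (hp : 0 < p) (hdeg : Module.finrank K L = p)
    (σ : L ≃ₐ[K] L) (hσ : ∀ τ, τ ∈ Subgroup.zpowers σ) :
    m14alg2_ri (LinearMap.range (m14alg2_D (m14alg2_s σ)))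
      (LinearMap.ker (m14alg2_N (m14alg2_s σ) p))
      = (m14alg3_B K L σ).relIndex (m14alg3_Nm K L).ker := by
  unfold m14alg2_ri
  rw [m14alg2_range_D, m14alg2_ker_N p hp hdeg σ hσ, Subgroup.relIndex_toAddSubgroup]


theorem m14alg2_finrank_ker_D_le (σ : L ≃ₐ[K] L) (hσ : ∀ τ, τ ∈ Subgroup.zpowers σ) :
    finrank ℤ ↥(LinearMap.ker (m14alg2_D (m14alg2_s σ))) ≤ Units.rank K := by
  let j : Additive (𝓞 K)ˣ →ₗ[ℤ] Additive (𝓞 L)ˣ :=
    (MonoidHom.toAdditive (m14alg2_iota K L)).toIntLinearMap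
  have hle : LinearMap.ker (m14alg2_D (m14alg2_s σ)) ≤ LinearMap.range j := by
    intro u hu
    have h1 : u ∈ (LinearMap.ker (m14alg2_D (m14alg2_s σ))).toAddSubgroup := hu
    rw [m14alg2_ker_D σ hσ] at h1
    obtain ⟨x, hx⟩ := h1
    exact ⟨Additive.ofMul x, hx⟩
  calc finrank ℤ ↥(LinearMap.ker (m14alg2_D (m14alg2_s σ)))
      ≤ finrank ℤ ↥(LinearMap.range j) := Submodule.finrank_mono hle
    _ ≤ finrank ℤ (Additive (𝓞 K)ˣ) := LinearMap.finrank_range_le j
    _ = Units.rank K := Units.finrank_eq K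

omit [IsGalois K L] in
theorem m14alg2_card_places [IsTotallyComplex K] (p : ℕ) (hdeg : Module.finrank K L = p) :
    Fintype.card (InfinitePlace L) = p * Fintype.card (InfinitePlace K) := by
  haveI : IsTotallyComplex L := isTotallyComplex_of_algebra K L
  have h1 := IsTotallyComplex.finrank (K := K)
  have h2 := IsTotallyComplex.finrank (K := L)
  have h3 := InfinitePlace.card_eq_nrRealPlaces_add_nrComplexPlaces (K := K)
  have h4 := InfinitePlace.card_eq_nrRealPlaces_add_nrComplexPlaces (K := L)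
  rw [IsTotallyComplex.nrRealPlaces_eq_zero, zero_add] at h3 h4
  have h5 : finrank ℚ K * finrank K L = finrank ℚ L := Module.finrank_mul_finrank ℚ K L
  rw [hdeg, h1, h2] at h5
  rw [h3, h4]
  nlinarith

/-- **[ALG2]** the unit Herbrand quotient inequality for a cyclic extension of prime degree of
a totally complex number field. -/
theorem m14alg2_main [IsTotallyComplex K] (p : ℕ) (hp : p.Prime)
    (hdeg : Module.finrank K L = p) (σ : L ≃ₐ[K] L) (hσ : ∀ τ, τ ∈ Subgroup.zpowers σ) :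
    (m14alg3_Nm K L).range.index ≠ 0 ∧
    p * (m14alg3_Nm K L).range.index ≤ (m14alg3_B K L σ).relIndex (m14alg3_Nm K L).ker := by
  have hs : (m14alg2_s σ) ^ p = 1 := by
    rw [m14alg2_s_pow, ← m14alg2_orderOf p hdeg σ hσ, pow_orderOf_eq_one]
    refine LinearMap.ext (fun u => ?_)
    change Additive.ofMul (m14alg3_act K L 1 (Additive.toMul u)) = u
    rw [m14alg2_act_one]
    rfl
  have hrankL : finrank ℤ (Additive (𝓞 L)ˣ) = Units.rank L := Units.finrank_eq L
  have hcard := m14alg2_card_places (K := K) (L := L) p hdeg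
  have hpos : 0 < Fintype.card (InfinitePlace K) := Fintype.card_pos
  have hn : p * Units.rank K + p ≤ finrank ℤ (Additive (𝓞 L)ˣ) + 1 := by
    rw [hrankL]
    unfold Units.rank
    rw [hcard]
    have h1 : 0 < p * Fintype.card (InfinitePlace K) := Nat.mul_pos hp.pos hpos
    have h2 : p * (Fintype.card (InfinitePlace K) - 1) + p = p * Fintype.card (InfinitePlace K) := by
      rw [← Nat.mul_succ, Nat.succ_eq_add_one, Nat.sub_add_cancel hpos]
    omega
  have := m14alg2_core p hp (m14alg2_s σ) hs (Units.rank K)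
    (m14alg2_finrank_ker_D_le σ hσ) hn
  rwa [m14alg2_a0_eq p hp.pos hdeg σ hσ, m14alg2_a1_eq p hp.pos hdeg σ hσ] at this


end

/-- the cyclotomic field of an `M14Data` is totally complex -/
theorem m14alg2_isTotallyComplex (p : ℕ) (hp3 : 3 ≤ p) (L : Type) [Field L] [NumberField L]
    (K : IntermediateField ℚ L) (ζ : L) (D : M14Data p L K ζ) : IsTotallyComplex ↥K := by
  have hmem : ζ ∈ K := by
    rw [D.hK]
    exact IntermediateField.subset_adjoin ℚ _ (Set.mem_singleton ζ)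
  have hprim : IsPrimitiveRoot (⟨ζ, hmem⟩ : ↥K) p :=
    IsPrimitiveRoot.of_map_of_injective (f := algebraMap ↥K L) D.prim
      (algebraMap ↥K L).injective
  rw [← nrRealPlaces_eq_zero_iff]
  exact NumberField.InfinitePlace.IsPrimitiveRoot.nrRealPlaces_eq_zero_of_two_lt (by omega) hprim

/-- **[ALG2] for an `M14Data`**: the hypothesis `hHQ` of `m14alg3_of_data`. -/
theorem m14alg2_of_data (p : ℕ) (hp : p.Prime) (hp3 : 3 ≤ p) (L : Type) [Field L]
    [NumberField L] (K : IntermediateField ℚ L) (ζ : L) (D : M14Data p L K ζ)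
    (σ : L ≃ₐ[K] L) (hσ : ∀ τ, τ ∈ Subgroup.zpowers σ) :
    (m14alg3_Nm K L).range.index ≠ 0 ∧
      p * (m14alg3_Nm K L).range.index ≤ (m14alg3_B K L σ).relIndex (m14alg3_Nm K L).ker := by
  haveI := D.isGalois
  haveI : IsGalois K L := inferInstance
  haveI := m14alg2_isTotallyComplex p hp3 L K ζ D
  exact m14alg2_main p hp D.finrank σ hσ

/-- **[ALG]**: for the fields of an `M14Data`, not every ideal of `K` is
(principal) × (norm from `L`). -/
theorem m14alg_main (p : ℕ) (hp : p.Prime) (hp3 : 3 ≤ p) (L : Type) [Field L]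
    [NumberField L] (K : IntermediateField ℚ L) (ζ : L) (D : M14Data p L K ζ) :
    m14f_ALG K L :=
  m14alg3_of_data p hp L K ζ D (fun σ hσ => m14alg2_of_data p hp hp3 L K ζ D σ hσ)

end Fermat.Agent.M14
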