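import Mathlib
import Fermat.Agent.M14.Alg2Rank
import Fermat.Agent.M14.Alg3Defs

/-!
# M14 / ALG4: the unit Herbrand quotient inequality for a cyclic extension of odd prime degree

Instantiation of the abstract core `m14alg2_core` for `A = Additive (𝓞 L)ˣ` with the action of a
generator `σ` of `Gal(L/K)`, `[L : K] = p` an odd prime:

`[E_K : Nm E_L] ≠ 0` and `p * [E_K : Nm E_L] ≤ [ker Nm : {σ ε / ε}]`.
-/

set_option autoImplicit false
set_option linter.deprecated false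
set_option linter.unusedSectionVars false
set_option linter.unusedVariables false
set_option linter.style.haveILetI false

namespace Fermat.Agent.M14

open NumberField Module

section

variable {K L : Type} [Field K] [NumberField K] [Field L] [NumberField L] [Algebra K L]

/-- `σ` as a `ℤ`-linear endomorphism of the additive group of units -/
noncomputable def m14alg4_s (σ : L ≃ₐ[K] L) : Additive (𝓞 L)ˣ →ₗ[ℤ] Additive (𝓞 L)ˣ :=
  (MonoidHom.toAdditive (m14alg3_act K L σ)).toIntLinearMap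

theorem m14alg4_s_apply (σ : L ≃ₐ[K] L) (x : Additive (𝓞 L)ˣ) :
    m14alg4_s σ x = Additive.ofMul (m14alg3_act K L σ x.toMul) := rfl

theorem m14alg4_act_mul (σ τ : L ≃ₐ[K] L) (u : (𝓞 L)ˣ) :
    m14alg3_act K L (σ * τ) u = m14alg3_act K L σ (m14alg3_act K L τ u) := by
  apply Units.ext
  simp only [m14alg3_act_coe]
  exact mul_smul σ τ (u : 𝓞 L)

theorem m14alg4_act_one (u : (𝓞 L)ˣ) : m14alg3_act K L (1 : L ≃ₐ[K] L) u = u := by
  apply Units.ext
  simp only [m14alg3_act_coe]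
  exact one_smul _ (u : 𝓞 L)

theorem m14alg4_s_one : m14alg4_s (1 : L ≃ₐ[K] L) = 1 := by
  ext x
  rw [m14alg4_s_apply, m14alg4_act_one]
  rfl

theorem m14alg4_s_mul (σ τ : L ≃ₐ[K] L) : m14alg4_s (σ * τ) = m14alg4_s σ * m14alg4_s τ := by
  ext x
  rw [m14alg4_s_apply, m14alg4_act_mul]
  rfl

theorem m14alg4_s_pow (σ : L ≃ₐ[K] L) (n : ℕ) : m14alg4_s σ ^ n = m14alg4_s (σ ^ n) := by
  induction n with
  | zero => rw [pow_zero, pow_zero, m14alg4_s_one]
  | succ n ih => rw [pow_succ, pow_succ, m14alg4_s_mul, ih]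

/-- the inclusion of the units of `K` -/
noncomputable def m14alg4_iota : (𝓞 K)ˣ →* (𝓞 L)ˣ :=
  Units.map ((algebraMap (𝓞 K) (𝓞 L) : 𝓞 K →+* 𝓞 L) : 𝓞 K →* 𝓞 L)

theorem m14alg4_iota_coe (v : (𝓞 K)ˣ) :
    ((m14alg4_iota (K := K) (L := L) v : (𝓞 L)ˣ) : 𝓞 L) = algebraMap (𝓞 K) (𝓞 L) (v : 𝓞 K) := rfl

theorem m14alg4_iota_injective : Function.Injective (m14alg4_iota (K := K) (L := L)) := by
  intro v w h
  apply Units.ext
  apply FaithfulSMul.algebraMap_injective (𝓞 K) (𝓞 L)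
  have := congrArg (fun u : (𝓞 L)ˣ => (u : 𝓞 L)) h
  exact this

theorem m14alg4_act_iota (σ : L ≃ₐ[K] L) (v : (𝓞 K)ˣ) :
    m14alg3_act K L σ (m14alg4_iota v) = m14alg4_iota v := by
  apply Units.ext
  rw [m14alg3_act_coe, m14alg4_iota_coe]
  apply RingOfIntegers.ext
  show σ (algebraMap K L ((v : 𝓞 K) : K)) = algebraMap K L ((v : 𝓞 K) : K)
  exact σ.commutes _

variable [IsGalois K L]

/-- **Galois descent for integers**: an element of `𝓞 L` fixed by the Galois group comes from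
`𝓞 K`. -/
theorem m14alg4_descent_int (x : 𝓞 L) (hx : ∀ τ : L ≃ₐ[K] L, τ • x = x) :
    ∃ y : 𝓞 K, algebraMap (𝓞 K) (𝓞 L) y = x := by
  have h1 : (x : L) ∈ Set.range (algebraMap K L) := by
    rw [IsGalois.mem_range_algebraMap_iff_fixed]
    intro τ
    have := congrArg (fun z : 𝓞 L => (z : L)) (hx τ)
    exact this
  obtain ⟨y, hy⟩ := h1
  have hyint : IsIntegral ℤ y := by
    rw [← isIntegral_algebraMap_iff (algebraMap K L).injective (R := ℤ), hy]
    exact x.isIntegral_coe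
  refine ⟨⟨y, hyint⟩, ?_⟩
  apply RingOfIntegers.ext
  exact hy

/-- **Galois descent for units.** -/
theorem m14alg4_descent (σ : L ≃ₐ[K] L) (hσ : ∀ τ, τ ∈ Subgroup.zpowers σ) (u : (𝓞 L)ˣ)
    (hu : m14alg3_act K L σ u = u) : ∃ v : (𝓞 K)ˣ, m14alg4_iota v = u := by
  have hfix : ∀ w : (𝓞 L)ˣ, m14alg3_act K L σ w = w → ∀ τ : L ≃ₐ[K] L, τ • (w : 𝓞 L) = w := by
    intro w hw τ
    have h1 : Subgroup.zpowers σ ≤ MulAction.stabilizer (L ≃ₐ[K] L) (w : 𝓞 L) := by
      rw [Subgroup.zpowers_le, MulAction.mem_stabilizer_iff]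
      have := congrArg (fun z : (𝓞 L)ˣ => (z : 𝓞 L)) hw
      exact this
    exact h1 (hσ τ)
  obtain ⟨y, hy⟩ := m14alg4_descent_int (K := K) (u : 𝓞 L) (hfix u hu)
  have hu' : m14alg3_act K L σ u⁻¹ = u⁻¹ := by rw [map_inv, hu]
  obtain ⟨z, hz⟩ := m14alg4_descent_int (K := K) ((u⁻¹ : (𝓞 L)ˣ) : 𝓞 L) (hfix u⁻¹ hu')
  have hyz : y * z = 1 := by
    apply FaithfulSMul.algebraMap_injective (𝓞 K) (𝓞 L)
    rw [map_mul, hy, hz, map_one, Units.mul_inv]
  refine ⟨⟨y, z, hyz, by rw [mul_comm]; exact hyz⟩, ?_⟩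
  apply Units.ext
  exact hy

/-- the product over the powers of a generator is the norm -/
theorem m14alg4_prod_pow (σ : L ≃ₐ[K] L) (hσ : ∀ τ, τ ∈ Subgroup.zpowers σ) (u : (𝓞 L)ˣ) :
    ∏ i ∈ Finset.range (orderOf σ), m14alg3_act K L (σ ^ i) u
      = m14alg4_iota (m14alg3_Nm K L u) := by
  classical
  apply Units.ext
  rw [m14alg4_iota_coe, m14alg3_Nm_coe]
  apply RingOfIntegers.ext
  have h1 : ((algebraMap (𝓞 K) (𝓞 L) (RingOfIntegers.norm K (u : 𝓞 L)) : 𝓞 L) : L)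
      = algebraMap K L (Algebra.norm K ((u : 𝓞 L) : L)) := by
    rw [← RingOfIntegers.coe_norm]
    rfl
  rw [h1, Algebra.norm_eq_prod_automorphisms]
  have h2 : ((((∏ i ∈ Finset.range (orderOf σ), m14alg3_act K L (σ ^ i) u : (𝓞 L)ˣ)) : 𝓞 L) : L)
      = ∏ i ∈ Finset.range (orderOf σ), (σ ^ i) ((u : 𝓞 L) : L) := by
    rw [Units.coe_prod]
    rw [show (((∏ i ∈ Finset.range (orderOf σ), ((m14alg3_act K L (σ ^ i) u : (𝓞 L)ˣ) : 𝓞 L)
        : 𝓞 L)) : L) = algebraMap (𝓞 L) L (∏ i ∈ Finset.range (orderOf σ),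
          ((m14alg3_act K L (σ ^ i) u : (𝓞 L)ˣ) : 𝓞 L)) from rfl]
    rw [map_prod]
    rfl
  rw [h2]
  haveI : Fintype (L ≃ₐ[K] L) := Fintype.ofFinite _
  rw [← Finset.prod_image (s := Finset.range (orderOf σ)) (g := fun i => σ ^ i)
    (f := fun τ : L ≃ₐ[K] L => τ ((u : 𝓞 L) : L))]
  · rw [IsCyclic.image_range_orderOf hσ]
    apply Finset.prod_congr
    · ext τ; simp
    · intro τ _; rfl
  · intro i hi j hj hij
    exact pow_injOn_Iio_orderOf (by simpa using hi) (by simpa using hj) hij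

theorem m14alg4_N_apply (σ : L ≃ₐ[K] L) (hσ : ∀ τ, τ ∈ Subgroup.zpowers σ)
    (x : Additive (𝓞 L)ˣ) :
    m14alg2_N (m14alg4_s σ) (orderOf σ) x
      = Additive.ofMul (m14alg4_iota (m14alg3_Nm K L x.toMul)) := by
  rw [m14alg2_N_apply, ← m14alg4_prod_pow σ hσ, ofMul_prod]
  apply Finset.sum_congr rfl
  intro i _
  rw [m14alg4_s_pow, m14alg4_s_apply]

theorem m14alg4_D_apply (σ : L ≃ₐ[K] L) (x : Additive (𝓞 L)ˣ) :
    m14alg2_D (m14alg4_s σ) x = Additive.ofMul (m14alg3_act K L σ x.toMul / x.toMul) := rfl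

theorem m14alg4_s_pow_orderOf (σ : L ≃ₐ[K] L) : m14alg4_s σ ^ orderOf σ = 1 := by
  rw [m14alg4_s_pow, pow_orderOf_eq_one, m14alg4_s_one]

/-! ### translation of the four subgroups -/

theorem m14alg4_range_D (σ : L ≃ₐ[K] L) :
    (LinearMap.range (m14alg2_D (m14alg4_s σ))).toAddSubgroup
      = Subgroup.toAddSubgroup (m14alg3_B K L σ) := by
  ext x
  constructor
  · rintro ⟨y, rfl⟩
    exact ⟨y.toMul, rfl⟩
  · rintro ⟨ε, hε⟩
    exact ⟨Additive.ofMul ε, congrArg Additive.ofMul hε⟩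

theorem m14alg4_ker_N (σ : L ≃ₐ[K] L) (hσ : ∀ τ, τ ∈ Subgroup.zpowers σ) :
    (LinearMap.ker (m14alg2_N (m14alg4_s σ) (orderOf σ))).toAddSubgroup
      = Subgroup.toAddSubgroup (m14alg3_Nm K L).ker := by
  ext x
  show m14alg2_N (m14alg4_s σ) (orderOf σ) x = 0 ↔ m14alg3_Nm K L x.toMul = 1
  rw [m14alg4_N_apply σ hσ]
  constructor
  · intro h
    have h1 : m14alg4_iota (m14alg3_Nm K L x.toMul) = m14alg4_iota (K := K) (L := L) 1 := by
      rw [map_one]; exact h
    exact m14alg4_iota_injective h1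
  · intro h
    rw [h, map_one]; rfl

theorem m14alg4_range_N (σ : L ≃ₐ[K] L) (hσ : ∀ τ, τ ∈ Subgroup.zpowers σ) :
    (LinearMap.range (m14alg2_N (m14alg4_s σ) (orderOf σ))).toAddSubgroup
      = Subgroup.toAddSubgroup ((m14alg3_Nm K L).range.map m14alg4_iota) := by
  ext x
  constructor
  · rintro ⟨y, rfl⟩
    show m14alg2_N (m14alg4_s σ) (orderOf σ) y ∈ _
    rw [m14alg4_N_apply σ hσ]
    exact ⟨m14alg3_Nm K L y.toMul, ⟨y.toMul, rfl⟩, rfl⟩
  · rintro ⟨v, ⟨u, rfl⟩, hv⟩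
    refine ⟨Additive.ofMul u, ?_⟩
    show m14alg2_N (m14alg4_s σ) (orderOf σ) (Additive.ofMul u) = x
    rw [m14alg4_N_apply σ hσ]
    exact congrArg Additive.ofMul hv

theorem m14alg4_ker_D (σ : L ≃ₐ[K] L) (hσ : ∀ τ, τ ∈ Subgroup.zpowers σ) :
    (LinearMap.ker (m14alg2_D (m14alg4_s σ))).toAddSubgroup
      = Subgroup.toAddSubgroup ((⊤ : Subgroup (𝓞 K)ˣ).map m14alg4_iota) := by
  ext x
  constructor
  · intro hx
    have h1 : m14alg3_act K L σ x.toMul / x.toMul = 1 := hx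
    obtain ⟨v, hv⟩ := m14alg4_descent σ hσ x.toMul (div_eq_one.mp h1)
    exact ⟨v, Subgroup.mem_top v, hv⟩
  · rintro ⟨v, -, hv⟩
    show m14alg3_act K L σ x.toMul / x.toMul = 1
    have hv' : x.toMul = m14alg4_iota v := hv.symm
    rw [hv', m14alg4_act_iota, div_self']

theorem m14alg4_ri_range_D (σ : L ≃ₐ[K] L) (hσ : ∀ τ, τ ∈ Subgroup.zpowers σ) :
    m14alg2_ri (LinearMap.range (m14alg2_D (m14alg4_s σ)))
        (LinearMap.ker (m14alg2_N (m14alg4_s σ) (orderOf σ)))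
      = (m14alg3_B K L σ).relIndex (m14alg3_Nm K L).ker := by
  unfold m14alg2_ri
  rw [m14alg4_range_D, m14alg4_ker_N σ hσ, Subgroup.relIndex_toAddSubgroup]

theorem m14alg4_ri_range_N (σ : L ≃ₐ[K] L) (hσ : ∀ τ, τ ∈ Subgroup.zpowers σ) :
    m14alg2_ri (LinearMap.range (m14alg2_N (m14alg4_s σ) (orderOf σ)))
        (LinearMap.ker (m14alg2_D (m14alg4_s σ)))
      = (m14alg3_Nm K L).range.index := by
  unfold m14alg2_ri
  rw [m14alg4_range_N σ hσ, m14alg4_ker_D σ hσ, Subgroup.relIndex_toAddSubgroup,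
    Subgroup.relIndex_map_map_of_injective _ _ m14alg4_iota_injective,
    Subgroup.relIndex_top_right]

/-! ### ranks -/

/-- in a Galois extension of odd degree every infinite place is unramified, so the number of
infinite places is multiplied by the degree -/
theorem m14alg4_card_infinitePlace (hodd : Odd (finrank K L)) :
    Fintype.card (InfinitePlace L) = Fintype.card (InfinitePlace K) * finrank K L := by
  classical
  rw [InfinitePlace.card_eq_card_isUnramifiedIn K L]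
  have h1 : (Finset.univ.filter fun w : InfinitePlace K => w.IsUnramifiedIn L) = Finset.univ := by
    rw [Finset.filter_eq_self]
    intro w _
    by_contra hw
    exact (Nat.not_even_iff_odd.mpr hodd) (InfinitePlace.even_finrank_of_not_isUnramifiedIn hw)
  rw [h1, Finset.compl_univ, Finset.card_empty, zero_mul, add_zero, Finset.card_univ]

/-- the rank of the invariants -/
theorem m14alg4_finrank_ker_D (σ : L ≃ₐ[K] L) (hσ : ∀ τ, τ ∈ Subgroup.zpowers σ) :
    finrank ℤ ↥(LinearMap.ker (m14alg2_D (m14alg4_s σ))) ≤ Units.rank K := by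
  set ιl : Additive (𝓞 K)ˣ →ₗ[ℤ] Additive (𝓞 L)ˣ :=
    (MonoidHom.toAdditive (m14alg4_iota (K := K) (L := L))).toIntLinearMap with hιl
  have hle : LinearMap.ker (m14alg2_D (m14alg4_s σ)) ≤ LinearMap.range ιl := by
    intro x hx
    have hx' : x ∈ (LinearMap.ker (m14alg2_D (m14alg4_s σ))).toAddSubgroup := hx
    rw [m14alg4_ker_D σ hσ] at hx'
    obtain ⟨v, -, hv⟩ := hx'
    exact ⟨Additive.ofMul v, hv⟩
  calc finrank ℤ ↥(LinearMap.ker (m14alg2_D (m14alg4_s σ)))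
      ≤ finrank ℤ ↥(LinearMap.range ιl) := Submodule.finrank_mono hle
    _ ≤ finrank ℤ (Additive (𝓞 K)ˣ) := LinearMap.finrank_range_le ιl
    _ = Units.rank K := Units.finrank_eq K

/-- **The unit Herbrand quotient inequality** for a cyclic extension of odd prime degree. -/
theorem m14alg4_main (p : ℕ) (hp : p.Prime) (hp2 : p ≠ 2) (hdeg : finrank K L = p)
    (σ : L ≃ₐ[K] L) (hσ : ∀ τ, τ ∈ Subgroup.zpowers σ) :
    (m14alg3_Nm K L).range.index ≠ 0 ∧
      p * (m14alg3_Nm K L).range.index ≤ (m14alg3_B K L σ).relIndex (m14alg3_Nm K L).ker := by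
  have hord : orderOf σ = p := by
    rw [orderOf_eq_card_of_forall_mem_zpowers hσ, IsGalois.card_aut_eq_finrank, hdeg]
  have hodd : Odd (finrank K L) := by
    rw [hdeg]; exact hp.odd_of_ne_two hp2
  have hcard := m14alg4_card_infinitePlace (K := K) (L := L) hodd
  rw [hdeg] at hcard
  have hrK : 0 < Fintype.card (InfinitePlace K) := Fintype.card_pos
  have hs : m14alg4_s σ ^ p = 1 := by rw [← hord]; exact m14alg4_s_pow_orderOf σ
  have hn : p * Units.rank K + p ≤ finrank ℤ (Additive (𝓞 L)ˣ) + 1 := by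
    rw [Units.finrank_eq L]
    unfold Units.rank
    rw [hcard]
    have h1 : 0 < Fintype.card (InfinitePlace K) * p := Nat.mul_pos hrK hp.pos
    have h2 : p * (Fintype.card (InfinitePlace K) - 1) + p = Fintype.card (InfinitePlace K) * p := by
      obtain ⟨r, hr⟩ := Nat.exists_eq_succ_of_ne_zero hrK.ne'
      rw [hr]; simp; ring
    omega
  have key := m14alg2_core p hp (m14alg4_s σ) hs (Units.rank K)
    (m14alg4_finrank_ker_D σ hσ) hn
  rw [← hord] at key
  rw [m14alg4_ri_range_N σ hσ, m14alg4_ri_range_D σ hσ] at key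
  rw [hord] at key
  exact key

end

end Fermat.Agent.M14
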