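import Mathlib
import Fermat.Agent.M14.Alg3Main
import Fermat.Agent.M14.Alg4Units

/-!
# M14 / ALG: the end result of package (ALG)

`m14alg_hALG` : for every `M14Data p L K ζ` (with `p ≥ 3`), some nonzero ideal of `𝓞 K` is not
(principal) × (norm from `L`).  This is exactly the hypothesis `hALG` of `m14f_noExt`.
-/

set_option autoImplicit false
set_option linter.deprecated false
set_option linter.unusedSectionVars false
set_option linter.unusedVariables false
set_option linter.style.haveILetI false

namespace Fermat.Agent.M14

open NumberField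

/-- **Package (ALG), end result.** -/
theorem m14alg_hALG (p : ℕ) [hp : Fact p.Prime] (hp3 : 3 ≤ p) :
    ∀ (L : Type) [Field L] [NumberField L] (K : IntermediateField ℚ L) (ζ : L),
      M14Data p L K ζ → m14f_ALG K L := by
  intro L _ _ K ζ D
  haveI := D.isGalois
  haveI : IsGalois K L := inferInstance
  exact m14alg3_of_data p hp.out L K ζ D
    (fun σ hσ => m14alg4_main p hp.out (by omega) D.finrank σ hσ)

/-- `M14NoExt p` from package (PSI) alone. -/
theorem m14alg_noExt_of_PSI (p : ℕ) [hp : Fact p.Prime] (hp3 : 3 ≤ p)
    (hPSI : ∀ (L : Type) [Field L] [NumberField L] (K : IntermediateField ℚ L) (ζ : L),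
      M14Data p L K ζ → m14f_PSI p K L) : M14NoExt p :=
  m14f_noExt p hp3 (m14alg_hALG p hp3) hPSI

end Fermat.Agent.M14
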