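import Mathlib

/-!
# M14 / AN1 : quantitative lattice point counting

Let `E` be a finite dimensional real normed space with a Haar measure `μ` and `L` a `ℤ`-lattice
in `E`.  There is a constant `M` (depending only on `E`, `μ`, `L`) such that for every bounded
set `S` whose frontier is covered by `N` closed balls of radius `1`, and every shift `v`,
`|#{x ∈ S | x - v ∈ L} - μ S / covolume L| ≤ M * N`.
-/

set_option autoImplicit false
set_option linter.unusedSectionVars false

open MeasureTheory Module Submodule ZSpan Metric Set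
open scoped Pointwise

namespace Fermat.Agent.M14

section An1

variable {E : Type*} [NormedAddCommGroup E] [NormedSpace ℝ E] [FiniteDimensional ℝ E]
  (L : Submodule ℤ E) [DiscreteTopology L] [IsZLattice ℝ L]

/-- A real basis of `E` which is a `ℤ`-basis of `L`. -/
noncomputable def m14an1_basis : Basis (Free.ChooseBasisIndex ℤ L) ℝ E :=
  (Free.chooseBasis ℤ L).ofZLatticeBasis ℝ L

theorem m14an1_span : span ℤ (Set.range (m14an1_basis L)) = L :=
  (Free.chooseBasis ℤ L).ofZLatticeBasis_span ℝ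

/-- The fundamental cell. -/
noncomputable def m14an1_F : Set E := fundamentalDomain (m14an1_basis L)

theorem m14an1_zero_mem_F : (0 : E) ∈ m14an1_F L := by
  rw [m14an1_F, mem_fundamentalDomain]
  intro i
  simp

theorem m14an1_F_convex : Convex ℝ (m14an1_F L) := by
  have h : m14an1_F L =
      ⋂ i, ((m14an1_basis L).coord i) ⁻¹' (Set.Ico (0 : ℝ) 1) := by
    ext x
    simp [m14an1_F, mem_fundamentalDomain]
  rw [h]
  exact convex_iInter fun i => (convex_Ico 0 1).linear_preimage _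

theorem m14an1_F_isBounded : Bornology.IsBounded (m14an1_F L) :=
  fundamentalDomain_isBounded _

/-- every point lies in a cell `x + F` with `x ∈ v + L`. -/
theorem m14an1_exists_cell (v y : E) : ∃ x : E, x - v ∈ L ∧ y - x ∈ m14an1_F L := by
  obtain ⟨w, hw, -⟩ := exist_unique_vadd_mem_fundamentalDomain (m14an1_basis L) (y - v)
  refine ⟨v - (w : E), ?_, ?_⟩
  · have hwL : (w : E) ∈ L := (m14an1_span L).le w.2
    have : v - (w : E) - v = -(w : E) := by abel
    rw [this]
    exact L.neg_mem hwL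
  · have : y - (v - (w : E)) = (w : E) + (y - v) := by abel
    rw [this]
    exact hw

/-- cells are disjoint. -/
theorem m14an1_cell_unique {x x' y : E} (hxx' : x - x' ∈ L)
    (hx : y - x ∈ m14an1_F L) (hx' : y - x' ∈ m14an1_F L) : x = x' := by
  have hmem : x - x' ∈ span ℤ (Set.range (m14an1_basis L)) := by
    rw [m14an1_span]; exact hxx'
  obtain ⟨w, -, hw⟩ := exist_unique_vadd_mem_fundamentalDomain (m14an1_basis L) (y - x)
  have h0 : (0 : span ℤ (Set.range (m14an1_basis L))) = w := by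
    apply hw
    show (0 : E) + (y - x) ∈ _
    rw [zero_add]
    exact hx
  have h1 : (⟨x - x', hmem⟩ : span ℤ (Set.range (m14an1_basis L))) = w := by
    apply hw
    show (x - x') + (y - x) ∈ _
    have : (x - x') + (y - x) = y - x' := by abel
    rw [this]
    exact hx'
  have h2 : (⟨x - x', hmem⟩ : span ℤ (Set.range (m14an1_basis L))) = 0 := h1.trans h0.symm
  have h3 : x - x' = 0 := congrArg Subtype.val h2
  exact sub_eq_zero.mp h3

/-- The cell at `x`. -/
def m14an1_cell (x : E) : Set E := {y | y - x ∈ m14an1_F L}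

theorem m14an1_mem_cell_self (x : E) : x ∈ m14an1_cell L x := by
  show x - x ∈ m14an1_F L
  rw [sub_self]
  exact m14an1_zero_mem_F L

theorem m14an1_cell_eq_preimage (x : E) :
    m14an1_cell L x = (fun y => -x + y) ⁻¹' (m14an1_F L) := by
  ext y
  show y - x ∈ m14an1_F L ↔ -x + y ∈ m14an1_F L
  rw [neg_add_eq_sub]

theorem m14an1_cell_convex (x : E) : Convex ℝ (m14an1_cell L x) := by
  have h : m14an1_cell L x = (fun y => x + y) '' (m14an1_F L) := by
    ext y
    constructor
    · intro hy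
      exact ⟨y - x, hy, by simp⟩
    · rintro ⟨f, hf, rfl⟩
      show x + f - x ∈ m14an1_F L
      simpa using hf
  rw [h]
  exact (m14an1_F_convex L).translate x

theorem m14an1_cell_disjoint {v x x' : E} (hx : x - v ∈ L) (hx' : x' - v ∈ L) (hne : x ≠ x') :
    Disjoint (m14an1_cell L x) (m14an1_cell L x') := by
  rw [Set.disjoint_left]
  intro y hy hy'
  apply hne
  refine m14an1_cell_unique L ?_ hy hy'
  have : x - x' = (x - v) - (x' - v) := by abel
  rw [this]
  exact L.sub_mem hx hx'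

/-- a radius bounding the fundamental cell -/
theorem m14an1_exists_radius : ∃ ρ : ℝ, 0 ≤ ρ ∧ ∀ f ∈ m14an1_F L, ‖f‖ ≤ ρ := by
  obtain ⟨C, hC⟩ := isBounded_iff_forall_norm_le.1 (m14an1_F_isBounded L)
  exact ⟨max C 0, le_max_right _ _, fun f hf => (hC f hf).trans (le_max_left _ _)⟩

variable [MeasurableSpace E] [BorelSpace E] (μ : Measure E) [μ.IsAddHaarMeasure]

theorem m14an1_F_measurable : MeasurableSet (m14an1_F L) :=
  fundamentalDomain_measurableSet _

theorem m14an1_cell_measurable (x : E) : MeasurableSet (m14an1_cell L x) := by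
  rw [m14an1_cell_eq_preimage]
  exact (measurable_const_add (-x)) (m14an1_F_measurable L)

theorem m14an1_measure_cell (x : E) : μ (m14an1_cell L x) = μ (m14an1_F L) := by
  rw [m14an1_cell_eq_preimage]
  exact measure_preimage_add μ (-x) _

theorem m14an1_covolume_eq : ZLattice.covolume L μ = μ.real (m14an1_F L) :=
  ZLattice.covolume_eq_measure_fundamentalDomain L μ
    (ZLattice.isAddFundamentalDomain (Free.chooseBasis ℤ L) μ)

theorem m14an1_measure_F_ne_top : μ (m14an1_F L) ≠ ⊤ :=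
  (m14an1_F_isBounded L).measure_lt_top.ne

theorem m14an1_measure_F_pos : 0 < μ.real (m14an1_F L) := by
  rw [← m14an1_covolume_eq]
  exact ZLattice.covolume_pos L μ

/-- Claim A: disjoint cells inside `S`. -/
theorem m14an1_card_mul_le (v : E) (S : Set E) (T : Finset E) (hT : ∀ x ∈ T, x - v ∈ L)
    (hS : ∀ x ∈ T, m14an1_cell L x ⊆ S) :
    (T.card : ENNReal) * μ (m14an1_F L) ≤ μ S := by
  have hdisj : Set.PairwiseDisjoint (↑T) (fun x => m14an1_cell L x) := by
    intro x hx x' hx' hne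
    exact m14an1_cell_disjoint L (hT x hx) (hT x' hx') hne
  have h1 : μ (⋃ x ∈ T, m14an1_cell L x) = ∑ x ∈ T, μ (m14an1_cell L x) :=
    measure_biUnion_finset hdisj (fun x _ => m14an1_cell_measurable L x)
  have h2 : ∑ x ∈ T, μ (m14an1_cell L x) = (T.card : ENNReal) * μ (m14an1_F L) := by
    simp [m14an1_measure_cell]
  rw [← h2, ← h1]
  exact measure_mono (Set.iUnion₂_subset hS)

/-- Claim B: cells covering `S`. -/
theorem m14an1_le_card_mul (S : Set E) (T : Finset E)
    (hS : S ⊆ ⋃ x ∈ T, m14an1_cell L x) :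
    μ S ≤ (T.card : ENNReal) * μ (m14an1_F L) := by
  have h2 : ∑ x ∈ T, μ (m14an1_cell L x) = (T.card : ENNReal) * μ (m14an1_F L) := by
    simp [m14an1_measure_cell]
  rw [← h2]
  exact (measure_mono hS).trans (measure_biUnion_finset_le T _)

omit [MeasurableSpace E] [BorelSpace E] in
theorem m14an1_finite (v : E) {B : Set E} (hB : Bornology.IsBounded B) :
    {x : E | x ∈ B ∧ x - v ∈ L}.Finite := by
  obtain ⟨R, hR⟩ := isBounded_iff_forall_norm_le.1 hB
  have hfin : ((closedBall (0 : E) (R + ‖v‖)) ∩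
      (span ℤ (Set.range (m14an1_basis L)) : Set E)).Finite :=
    setFinite_inter _ isBounded_closedBall
  have hsub : {x : E | x ∈ B ∧ x - v ∈ L} ⊆ (fun x => x - v) ⁻¹'
      ((closedBall (0 : E) (R + ‖v‖)) ∩ (span ℤ (Set.range (m14an1_basis L)) : Set E)) := by
    rintro x ⟨hxB, hxL⟩
    refine ⟨?_, ?_⟩
    · rw [mem_closedBall_zero_iff]
      exact (norm_sub_le _ _).trans (add_le_add (hR x hxB) le_rfl)
    · rw [SetLike.mem_coe, m14an1_span]
      exact hxL
  exact (hfin.preimage ((sub_left_injective (b := v)).injOn)).subset hsub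

/-- Claim A, real form. -/
theorem m14an1_ncard_mul_le (v : E) (S : Set E) (hμS : μ S ≠ ⊤) (T : Set E) (hTfin : T.Finite)
    (hT : ∀ x ∈ T, x - v ∈ L) (hS : ∀ x ∈ T, m14an1_cell L x ⊆ S) :
    (T.ncard : ℝ) * μ.real (m14an1_F L) ≤ μ.real S := by
  have h := m14an1_card_mul_le L μ v S hTfin.toFinset
    (fun x hx => hT x (hTfin.mem_toFinset.1 hx)) (fun x hx => hS x (hTfin.mem_toFinset.1 hx))
  have h' := ENNReal.toReal_mono hμS h
  rw [ENNReal.toReal_mul, ENNReal.toReal_natCast, ← Set.ncard_eq_toFinset_card T hTfin] at h'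
  exact h'

/-- Claim B, real form. -/
theorem m14an1_le_ncard_mul (S : Set E) (T : Set E) (hTfin : T.Finite)
    (hS : S ⊆ ⋃ x ∈ T, m14an1_cell L x) :
    μ.real S ≤ (T.ncard : ℝ) * μ.real (m14an1_F L) := by
  have h := m14an1_le_card_mul L μ S hTfin.toFinset (by simpa using hS)
  have hne : (hTfin.toFinset.card : ENNReal) * μ (m14an1_F L) ≠ ⊤ :=
    ENNReal.mul_ne_top (ENNReal.natCast_ne_top _) (m14an1_measure_F_ne_top L μ)
  have h' := ENNReal.toReal_mono hne h
  rw [ENNReal.toReal_mul, ENNReal.toReal_natCast, ← Set.ncard_eq_toFinset_card T hTfin] at h'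
  exact h'

omit [MeasurableSpace E] [BorelSpace E] in
/-- a cell meeting `S` but not contained in `S` meets the frontier of `S`. -/
theorem m14an1_cell_meets_frontier (x : E) (S : Set E)
    (h1 : (m14an1_cell L x ∩ S).Nonempty) (h2 : ¬ m14an1_cell L x ⊆ S) :
    (m14an1_cell L x ∩ frontier S).Nonempty := by
  by_contra hcon
  rw [Set.not_nonempty_iff_eq_empty] at hcon
  have hpre : IsPreconnected (m14an1_cell L x) := (m14an1_cell_convex L x).isPreconnected
  have hcov : m14an1_cell L x ⊆ interior S ∪ interior Sᶜ := by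
    intro y hy
    by_contra hy'
    have hyf : y ∈ frontier S := by
      rw [frontier, Set.mem_sdiff]
      constructor
      · by_contra hcl
        apply hy'
        right
        rw [interior_compl]
        exact hcl
      · intro hint
        exact hy' (Or.inl hint)
    have : y ∈ m14an1_cell L x ∩ frontier S := ⟨hy, hyf⟩
    rw [hcon] at this
    exact this
  have hdisj : Disjoint (interior S) (interior Sᶜ) :=
    Set.disjoint_left.2 fun y hy hy' => (interior_subset hy') (interior_subset hy)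
  rcases hpre.subset_or_subset isOpen_interior isOpen_interior hdisj hcov with h | h
  · exact h2 (h.trans interior_subset)
  · obtain ⟨y, hy, hyS⟩ := h1
    exact (interior_subset (h hy)) hyS

/-- the number of cells meeting a unit ball is bounded. -/
theorem m14an1_ball_count (ρ : ℝ) (hρ : ∀ f ∈ m14an1_F L, ‖f‖ ≤ ρ) (v c : E) :
    {x : E | x - v ∈ L ∧ (m14an1_cell L x ∩ closedBall c 1).Nonempty}.Finite ∧
    ({x : E | x - v ∈ L ∧ (m14an1_cell L x ∩ closedBall c 1).Nonempty}.ncard : ℝ) *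
        μ.real (m14an1_F L) ≤ μ.real (closedBall (0 : E) (1 + 2 * ρ)) := by
  set T := {x : E | x - v ∈ L ∧ (m14an1_cell L x ∩ closedBall c 1).Nonempty} with hTdef
  have hTsub : T ⊆ {x | x ∈ closedBall c (1 + ρ) ∧ x - v ∈ L} := by
    rintro x ⟨hxL, y, hy, hyc⟩
    refine ⟨?_, hxL⟩
    rw [mem_closedBall, dist_eq_norm] at hyc ⊢
    have h1 : ‖y - x‖ ≤ ρ := hρ _ hy
    calc ‖x - c‖ = ‖(y - c) - (y - x)‖ := by congr 1; abel
      _ ≤ ‖y - c‖ + ‖y - x‖ := norm_sub_le _ _
      _ ≤ 1 + ρ := add_le_add hyc h1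
  have hTfin : T.Finite := (m14an1_finite L v isBounded_closedBall).subset hTsub
  refine ⟨hTfin, ?_⟩
  have hcell : ∀ x ∈ T, m14an1_cell L x ⊆ closedBall c (1 + 2 * ρ) := by
    intro x hx y hy
    have hxc := (hTsub hx).1
    rw [mem_closedBall, dist_eq_norm] at hxc ⊢
    have h1 : ‖y - x‖ ≤ ρ := hρ _ hy
    calc ‖y - c‖ = ‖(y - x) + (x - c)‖ := by congr 1; abel
      _ ≤ ‖y - x‖ + ‖x - c‖ := norm_add_le _ _
      _ ≤ ρ + (1 + ρ) := add_le_add h1 hxc
      _ = 1 + 2 * ρ := by ring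
  have hne : μ (closedBall c (1 + 2 * ρ)) ≠ ⊤ := isBounded_closedBall.measure_lt_top.ne
  have h := m14an1_ncard_mul_le L μ v (closedBall c (1 + 2 * ρ)) hne T hTfin
    (fun x hx => hx.1) hcell
  rwa [Measure.addHaar_real_closedBall_center] at h

/-- **AN1, unscaled form.**  `M` depends only on `E`, `μ`, `L`. -/
theorem m14an1_card_sub_le :
    ∃ M : ℝ, 0 ≤ M ∧ ∀ (S : Set E) (v : E) (N : ℕ) (c : Fin N → E),
      Bornology.IsBounded S →
      frontier S ⊆ ⋃ i, closedBall (c i) 1 →
      |(Nat.card ↥{x : E | x ∈ S ∧ x - v ∈ L} : ℝ) - μ.real S / ZLattice.covolume L μ|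
        ≤ M * N := by
  obtain ⟨ρ, hρ0, hρ⟩ := m14an1_exists_radius L
  set V := μ.real (m14an1_F L) with hV
  have hVpos : 0 < V := m14an1_measure_F_pos L μ
  set W := μ.real (closedBall (0 : E) (1 + 2 * ρ)) with hW
  have hW0 : 0 ≤ W := measureReal_nonneg
  refine ⟨W / V, div_nonneg hW0 hVpos.le, ?_⟩
  intro S v N c hSb hfr
  rw [m14an1_covolume_eq L μ, ← hV]
  set X := {x : E | x ∈ S ∧ x - v ∈ L} with hX
  set Xin := {x : E | x - v ∈ L ∧ m14an1_cell L x ⊆ S} with hXin
  set Xmeet := {x : E | x - v ∈ L ∧ (m14an1_cell L x ∩ S).Nonempty} with hXmeet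
  set Xbd := {x : E | x - v ∈ L ∧ (m14an1_cell L x ∩ frontier S).Nonempty} with hXbd
  have hXfin : X.Finite := m14an1_finite L v hSb
  have hXin_sub : Xin ⊆ X := fun x hx => ⟨hx.2 (m14an1_mem_cell_self L x), hx.1⟩
  have hX_sub : X ⊆ Xmeet := fun x hx => ⟨hx.2, x, m14an1_mem_cell_self L x, hx.1⟩
  have hXmeet_fin : Xmeet.Finite := by
    obtain ⟨R, hR⟩ := isBounded_iff_forall_norm_le.1 hSb
    refine (m14an1_finite L v (isBounded_closedBall (x := (0 : E)) (r := R + ρ))).subset ?_
    rintro x ⟨hxL, y, hy, hyS⟩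
    refine ⟨?_, hxL⟩
    rw [mem_closedBall_zero_iff]
    calc ‖x‖ = ‖y - (y - x)‖ := by congr 1; abel
      _ ≤ ‖y‖ + ‖y - x‖ := norm_sub_le _ _
      _ ≤ R + ρ := add_le_add (hR y hyS) (hρ _ hy)
  have hXin_fin : Xin.Finite := hXfin.subset hXin_sub
  have hmeet_sub : Xmeet ⊆ Xin ∪ Xbd := by
    rintro x ⟨hxL, hne⟩
    by_cases h : m14an1_cell L x ⊆ S
    · exact Or.inl ⟨hxL, h⟩
    · exact Or.inr ⟨hxL, m14an1_cell_meets_frontier L x S hne h⟩
  -- the boundary cells
  set T : Fin N → Set E :=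
    fun i => {x : E | x - v ∈ L ∧ (m14an1_cell L x ∩ closedBall (c i) 1).Nonempty} with hT
  have hTfin : ∀ i, (T i).Finite := fun i => (m14an1_ball_count L μ ρ hρ v (c i)).1
  have hTcard : ∀ i, ((T i).ncard : ℝ) * V ≤ W := fun i => (m14an1_ball_count L μ ρ hρ v (c i)).2
  have hbd_sub : Xbd ⊆ ⋃ i, T i := by
    rintro x ⟨hxL, y, hy, hyf⟩
    obtain ⟨i, hi⟩ := Set.mem_iUnion.1 (hfr hyf)
    exact Set.mem_iUnion.2 ⟨i, hxL, y, hy, hi⟩
  have hUfin : (⋃ i, T i).Finite := Set.finite_iUnion hTfin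
  have hXbd_fin : Xbd.Finite := hUfin.subset hbd_sub
  have hXbd_card : (Xbd.ncard : ℝ) * V ≤ N * W := by
    have h1 : Xbd.ncard ≤ ∑ i, (T i).ncard :=
      (Set.ncard_le_ncard hbd_sub hUfin).trans (Set.ncard_iUnion_le_of_fintype T)
    have h2 : (Xbd.ncard : ℝ) ≤ ∑ i, ((T i).ncard : ℝ) := by exact_mod_cast h1
    calc (Xbd.ncard : ℝ) * V ≤ (∑ i, ((T i).ncard : ℝ)) * V :=
          mul_le_mul_of_nonneg_right h2 hVpos.le
      _ = ∑ i, ((T i).ncard : ℝ) * V := Finset.sum_mul _ _ _
      _ ≤ ∑ _i : Fin N, W := Finset.sum_le_sum fun i _ => hTcard i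
      _ = N * W := by simp
  -- measure bounds
  have hμS : μ S ≠ ⊤ := hSb.measure_lt_top.ne
  have hA : (Xin.ncard : ℝ) * V ≤ μ.real S :=
    m14an1_ncard_mul_le L μ v S hμS Xin hXin_fin (fun x hx => hx.1) (fun x hx => hx.2)
  have hcover : S ⊆ ⋃ x ∈ Xmeet, m14an1_cell L x := by
    intro y hy
    obtain ⟨x, hxL, hyx⟩ := m14an1_exists_cell L v y
    exact Set.mem_iUnion₂.2 ⟨x, ⟨hxL, y, hyx, hy⟩, hyx⟩
  have hB : μ.real S ≤ (Xmeet.ncard : ℝ) * V :=
    m14an1_le_ncard_mul L μ S Xmeet hXmeet_fin hcover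
  have h1 : (Xin.ncard : ℝ) ≤ X.ncard := by
    exact_mod_cast Set.ncard_le_ncard hXin_sub hXfin
  have h2 : (X.ncard : ℝ) ≤ Xmeet.ncard := by
    exact_mod_cast Set.ncard_le_ncard hX_sub hXmeet_fin
  have h3 : (Xmeet.ncard : ℝ) ≤ Xin.ncard + Xbd.ncard := by
    exact_mod_cast (Set.ncard_le_ncard hmeet_sub (hXin_fin.union hXbd_fin)).trans
      (Set.ncard_union_le _ _)
  rw [Nat.card_coe_set_eq]
  have key : |(X.ncard : ℝ) * V - μ.real S| ≤ N * W := by
    rw [abs_le]
    constructor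
    · nlinarith
    · nlinarith
  have hdiv : (X.ncard : ℝ) - μ.real S / V = ((X.ncard : ℝ) * V - μ.real S) / V := by
    field_simp
  rw [hdiv, abs_div, abs_of_pos hVpos, div_le_iff₀ hVpos]
  calc |(X.ncard : ℝ) * V - μ.real S| ≤ N * W := key
    _ = W / V * N * V := by field_simp

omit [FiniteDimensional ℝ E] [MeasurableSpace E] [BorelSpace E] in
theorem m14an1_frontier_smul {t : ℝ} (ht : t ≠ 0) (D : Set E) :
    frontier (t • D) = t • frontier D := by
  have h := (Homeomorph.smulOfNeZero t ht).image_frontier D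
  simpa [Set.image_smul] using h.symm

/-- **AN1, scaled form.**  If the frontier of the bounded set `D` is covered by `N` closed balls
of radius `1 / t`, then the number of points of `v + L` in `t • D` is
`μ D * t ^ d / covolume L` up to an error `M * N`, with `M` depending only on `E`, `μ`, `L`. -/
theorem m14an1_card_smul_sub_le :
    ∃ M : ℝ, 0 ≤ M ∧ ∀ (D : Set E) (v : E) (t : ℝ) (N : ℕ) (c : Fin N → E),
      0 < t → Bornology.IsBounded D →
      frontier D ⊆ ⋃ i, closedBall (c i) (1 / t) →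
      |(Nat.card ↥{x : E | x ∈ t • D ∧ x - v ∈ L} : ℝ) -
          μ.real D * t ^ Module.finrank ℝ E / ZLattice.covolume L μ| ≤ M * N := by
  obtain ⟨M, hM0, hM⟩ := m14an1_card_sub_le L μ
  refine ⟨M, hM0, ?_⟩
  intro D v t N c ht hDb hfr
  have hfr' : frontier (t • D) ⊆ ⋃ i, closedBall (t • c i) 1 := by
    rw [m14an1_frontier_smul ht.ne']
    rintro _ ⟨y, hy, rfl⟩
    obtain ⟨i, hi⟩ := Set.mem_iUnion.1 (hfr hy)
    refine Set.mem_iUnion.2 ⟨i, ?_⟩
    rw [mem_closedBall, dist_eq_norm] at hi ⊢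
    have h1 : t • y - t • c i = t • (y - c i) := (smul_sub t y (c i)).symm
    rw [h1, norm_smul, Real.norm_of_nonneg ht.le]
    calc t * ‖y - c i‖ ≤ t * (1 / t) := mul_le_mul_of_nonneg_left hi ht.le
      _ = 1 := by field_simp
  have h := hM (t • D) v N (fun i => t • c i) (hDb.smul₀ t) hfr'
  have hμ : μ.real (t • D) = μ.real D * t ^ Module.finrank ℝ E := by
    rw [measureReal_def, Measure.addHaar_smul_of_nonneg μ ht.le, ENNReal.toReal_mul,
      ENNReal.toReal_ofReal (pow_nonneg ht.le _), measureReal_def, mul_comm]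
  rw [hμ] at h
  exact h

end An1

end Fermat.Agent.M14
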