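import Mathlib
import Fermat.Agent.M14.An1Count

/-!
# M14 / AN2 (generic part): covering numbers

`m14an2_Covered S k` : the set `S` can be covered by `≤ C * t ^ k` closed balls of radius `1 / t`,
for every `t ≥ 1`.  Lipschitz images of faces of a cube have this property, and a bounded set
whose frontier is `Covered (d - 1)` satisfies the lattice point count with error `O(t ^ (d - 1))`.
-/

set_option autoImplicit false
set_option linter.unusedSectionVars false

open MeasureTheory Module Metric Set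
open scoped Pointwise NNReal

namespace Fermat.Agent.M14

/-- `S` is covered by `≤ C * t ^ k` closed balls of radius `1 / t` for all `t ≥ 1`. -/
def m14an2_Covered {E : Type*} [PseudoMetricSpace E] (S : Set E) (k : ℕ) : Prop :=
  ∃ C : ℝ, 0 ≤ C ∧ ∀ t : ℝ, 1 ≤ t →
    ∃ (N : ℕ) (c : Fin N → E), (N : ℝ) ≤ C * t ^ k ∧ S ⊆ ⋃ i, closedBall (c i) (1 / t)

section Basic

variable {E : Type*} [PseudoMetricSpace E]

theorem m14an2_Covered.mono {S T : Set E} {k : ℕ} (h : m14an2_Covered T k) (hST : S ⊆ T) :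
    m14an2_Covered S k := by
  obtain ⟨C, hC0, hC⟩ := h
  refine ⟨C, hC0, fun t ht => ?_⟩
  obtain ⟨N, c, hN, hc⟩ := hC t ht
  exact ⟨N, c, hN, hST.trans hc⟩

theorem m14an2_covered_empty (k : ℕ) : m14an2_Covered (∅ : Set E) k :=
  ⟨0, le_rfl, fun t _ => ⟨0, Fin.elim0, by simp, Set.empty_subset _⟩⟩

theorem m14an2_Covered.union {S T : Set E} {k : ℕ} (hS : m14an2_Covered S k)
    (hT : m14an2_Covered T k) : m14an2_Covered (S ∪ T) k := by
  obtain ⟨C, hC0, hC⟩ := hS
  obtain ⟨D, hD0, hD⟩ := hT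
  refine ⟨C + D, add_nonneg hC0 hD0, fun t ht => ?_⟩
  obtain ⟨N, c, hN, hc⟩ := hC t ht
  obtain ⟨M, d, hM, hd⟩ := hD t ht
  refine ⟨N + M, Fin.append c d, ?_, ?_⟩
  · push_cast
    rw [add_mul]
    exact add_le_add hN hM
  · rintro x (hx | hx)
    · obtain ⟨i, hi⟩ := Set.mem_iUnion.1 (hc hx)
      refine Set.mem_iUnion.2 ⟨Fin.castAdd M i, ?_⟩
      rwa [Fin.append_left]
    · obtain ⟨i, hi⟩ := Set.mem_iUnion.1 (hd hx)
      refine Set.mem_iUnion.2 ⟨Fin.natAdd N i, ?_⟩
      rwa [Fin.append_right]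

theorem m14an2_covered_biUnion {ι : Type*} (s : Finset ι) (S : ι → Set E) (k : ℕ)
    (h : ∀ i ∈ s, m14an2_Covered (S i) k) : m14an2_Covered (⋃ i ∈ s, S i) k := by
  classical
  induction s using Finset.induction_on with
  | empty => simpa using m14an2_covered_empty (E := E) k
  | insert a s ha ih =>
    rw [Finset.set_biUnion_insert]
    exact (h a (Finset.mem_insert_self a s)).union
      (ih fun i hi => h i (Finset.mem_insert_of_mem hi))

theorem m14an2_covered_iUnion {ι : Type*} [Fintype ι] (S : ι → Set E) (k : ℕ)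
    (h : ∀ i, m14an2_Covered (S i) k) : m14an2_Covered (⋃ i, S i) k := by
  have := m14an2_covered_biUnion Finset.univ S k (fun i _ => h i)
  simpa using this

end Basic

section Lipschitz

variable {E : Type*} [PseudoMetricSpace E] {ι : Type*} [Fintype ι] [DecidableEq ι]

/-- the grid point attached to a multi-index. -/
noncomputable def m14an2_grid (j : ι) (c : ℝ) (n : ℕ) (m : {i // i ≠ j} → Fin (n + 1)) :
    ι → ℝ :=
  fun i => if h : i = j then c else ((m ⟨i, h⟩ : ℕ) : ℝ) / n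

theorem m14an2_grid_mem (j : ι) {c : ℝ} (hc : c ∈ Set.Icc (0 : ℝ) 1) {n : ℕ} (hn : 0 < n)
    (m : {i // i ≠ j} → Fin (n + 1)) :
    m14an2_grid j c n m ∈ Set.Icc (0 : ι → ℝ) 1 := by
  have hn' : (0 : ℝ) < n := by exact_mod_cast hn
  constructor
  · intro i
    simp only [m14an2_grid, Pi.zero_apply]
    split_ifs with h
    · exact hc.1
    · positivity
  · intro i
    simp only [m14an2_grid, Pi.one_apply]
    split_ifs with h
    · exact hc.2
    · rw [div_le_one hn']
      have := (m ⟨i, h⟩).2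
      exact_mod_cast Nat.lt_succ_iff.mp this

/-- Lipschitz images of faces of the unit cube. -/
theorem m14an2_covered_lipschitz_face (f : (ι → ℝ) → E) (K : ℝ≥0)
    (hf : LipschitzOnWith K f (Set.Icc (0 : ι → ℝ) 1)) (j : ι) (c : ℝ)
    (hc : c ∈ Set.Icc (0 : ℝ) 1) :
    m14an2_Covered (f '' {p | p ∈ Set.Icc (0 : ι → ℝ) 1 ∧ p j = c})
      (Fintype.card {i // i ≠ j}) := by
  set k := Fintype.card {i // i ≠ j} with hk
  refine ⟨((K : ℝ) + 3) ^ k, by positivity, fun t ht => ?_⟩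
  have ht0 : (0 : ℝ) < t := lt_of_lt_of_le one_pos ht
  set n : ℕ := ⌈(K : ℝ) * t⌉₊ + 1 with hn
  have hn0 : 0 < n := Nat.succ_pos _
  have hn' : (0 : ℝ) < n := by exact_mod_cast hn0
  have hKn : (K : ℝ) * t ≤ n := by
    have h1 : (K : ℝ) * t ≤ ⌈(K : ℝ) * t⌉₊ := Nat.le_ceil _
    have h2 : ((⌈(K : ℝ) * t⌉₊ : ℕ) : ℝ) ≤ n := by
      rw [hn]; push_cast; linarith
    exact h1.trans h2
  let e := Fintype.equivFin ({i // i ≠ j} → Fin (n + 1))
  refine ⟨Fintype.card ({i // i ≠ j} → Fin (n + 1)),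
    fun a => f (m14an2_grid j c n (e.symm a)), ?_, ?_⟩
  · rw [Fintype.card_fun, Fintype.card_fin, ← hk, ← mul_pow]
    push_cast
    refine pow_le_pow_left₀ (by positivity) ?_ k
    have h1 : ((⌈(K : ℝ) * t⌉₊ : ℕ) : ℝ) ≤ (K : ℝ) * t + 1 :=
      (Nat.ceil_lt_add_one (by positivity)).le
    have h3 : (n : ℝ) = (⌈(K : ℝ) * t⌉₊ : ℕ) + 1 := by rw [hn]; push_cast; rfl
    rw [h3]
    nlinarith
  · rintro _ ⟨p, ⟨hp, hpj⟩, rfl⟩
    -- the multi-index of `p`
    have hfloor : ∀ i : ι, ⌊(n : ℝ) * p i⌋₊ < n + 1 := by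
      intro i
      rw [Nat.lt_succ_iff]
      apply Nat.floor_le_of_le
      calc (n : ℝ) * p i ≤ n * 1 := mul_le_mul_of_nonneg_left (hp.2 i) hn'.le
        _ = n := mul_one _
    let m : {i // i ≠ j} → Fin (n + 1) := fun i => ⟨⌊(n : ℝ) * p i.1⌋₊, hfloor i.1⟩
    refine Set.mem_iUnion.2 ⟨e m, ?_⟩
    simp only [Equiv.symm_apply_apply]
    have hg : m14an2_grid j c n m ∈ Set.Icc (0 : ι → ℝ) 1 := m14an2_grid_mem j hc hn0 m
    have hdist : dist p (m14an2_grid j c n m) ≤ 1 / n := by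
      rw [dist_pi_le_iff (by positivity)]
      intro i
      simp only [m14an2_grid]
      split_ifs with h
      · rw [h, hpj, dist_self]; positivity
      · rw [Real.dist_eq]
        have h0 : 0 ≤ (n : ℝ) * p i := mul_nonneg hn'.le (hp.1 i)
        have h1 : ((⌊(n : ℝ) * p i⌋₊ : ℕ) : ℝ) ≤ n * p i := Nat.floor_le h0
        have h2 : (n : ℝ) * p i < ⌊(n : ℝ) * p i⌋₊ + 1 := Nat.lt_floor_add_one _
        have h3 : p i - ((⌊(n : ℝ) * p i⌋₊ : ℕ) : ℝ) / n =
            ((n : ℝ) * p i - ⌊(n : ℝ) * p i⌋₊) / n := by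
          field_simp
        show |p i - ((⌊(n : ℝ) * p i⌋₊ : ℕ) : ℝ) / n| ≤ 1 / n
        rw [h3, abs_div, abs_of_pos hn', abs_of_nonneg (by linarith)]
        exact div_le_div_of_nonneg_right (by linarith) hn'.le
    rw [mem_closedBall]
    calc dist (f p) (f (m14an2_grid j c n m))
        ≤ K * dist p (m14an2_grid j c n m) := hf.dist_le_mul p hp _ hg
      _ ≤ K * (1 / n) := mul_le_mul_of_nonneg_left hdist K.2
      _ ≤ 1 / t := by
          rw [mul_one_div, div_le_div_iff₀ hn' ht0]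
          linarith

end Lipschitz

section Count

variable {E : Type*} [NormedAddCommGroup E] [NormedSpace ℝ E] [FiniteDimensional ℝ E]
  [MeasurableSpace E] [BorelSpace E] (μ : Measure E) [μ.IsAddHaarMeasure]
  (L : Submodule ℤ E) [DiscreteTopology L] [IsZLattice ℝ L]

/-- **AN1 + covering**: lattice point count with error term `O(t ^ k)` when the frontier of `D`
is `Covered k` (in the application `k = finrank ℝ E - 1`). -/
theorem m14an2_count {D : Set E} (hD : Bornology.IsBounded D) {k : ℕ}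
    (hcov : m14an2_Covered (frontier D) k) :
    ∃ C : ℝ, 0 ≤ C ∧ ∀ (v : E) (t : ℝ), 1 ≤ t →
      |(Nat.card ↥{x : E | x ∈ t • D ∧ x - v ∈ L} : ℝ) -
          μ.real D * t ^ Module.finrank ℝ E / ZLattice.covolume L μ| ≤ C * t ^ k := by
  obtain ⟨M, hM0, hM⟩ := m14an1_card_smul_sub_le L μ
  obtain ⟨C, hC0, hC⟩ := hcov
  refine ⟨M * C, mul_nonneg hM0 hC0, fun v t ht => ?_⟩
  obtain ⟨N, c, hN, hc⟩ := hC t ht
  have h := hM D v t N c (lt_of_lt_of_le one_pos ht) hD hc
  calc _ ≤ M * N := h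
    _ ≤ M * (C * t ^ k) := mul_le_mul_of_nonneg_left hN hM0
    _ = M * C * t ^ k := by ring

end Count

end Fermat.Agent.M14
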