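import Mathlib
import Fermat.Agent.M14.An2Cover

/-!
# M14 / AN2b: the frontier of `normLeOne K` has covering dimension `≤ d - 1`

We parametrise the closure of `normLeOne K` (the part of the fundamental cone of norm `≤ 1`)
by `2 ^ r₁` maps `G ε : (ι → ℝ) → mixedSpace K` of class `C¹` defined on the unit cube, in such a way
that the frontier is contained in the images of the faces `p (inl w) ∈ {0, 1}`.
-/

set_option autoImplicit false
set_option linter.unusedSectionVars false

open MeasureTheory Module Metric Set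
open NumberField NumberField.InfinitePlace NumberField.mixedEmbedding
open NumberField.mixedEmbedding.fundamentalCone
open NumberField.Units NumberField.Units.dirichletUnitTheorem
open scoped Pointwise NNReal Classical

namespace Fermat.Agent.M14

variable (K : Type*) [Field K] [NumberField K]

/-- The parameter index type: one parameter per infinite place and one angle per complex place. -/
abbrev m14an2_Idx : Type _ := InfinitePlace K ⊕ {w : InfinitePlace K // IsComplex w}

variable {K}

/-- The modulus at the place `w` of the point with parameter `p`. -/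
noncomputable def m14an2_mod (p : m14an2_Idx K → ℝ) (w : InfinitePlace K) : ℝ :=
  p (Sum.inl w₀) * Real.exp (∑ i : {w : InfinitePlace K // w ≠ w₀},
    p (Sum.inl i.1) * Real.log (w (fundSystem K (equivFinRank.symm i) : K)))

/-- The parametrisation. -/
noncomputable def m14an2_G (ε : {w : InfinitePlace K // IsReal w} → Bool)
    (p : m14an2_Idx K → ℝ) : mixedSpace K :=
  (fun w => (if ε w then 1 else -1) * m14an2_mod p w.1,
   fun w => (m14an2_mod p w.1 : ℂ) *
      Complex.exp (((2 * Real.pi * p (Sum.inr w) - Real.pi : ℝ) : ℂ) * Complex.I))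

theorem m14an2_contDiff_mod (w : InfinitePlace K) :
    ContDiff ℝ 1 (fun p : m14an2_Idx K → ℝ => m14an2_mod p w) := by
  unfold m14an2_mod
  fun_prop

theorem m14an2_contDiff_G (ε : {w : InfinitePlace K // IsReal w} → Bool) :
    ContDiff ℝ 1 (m14an2_G ε) := by
  unfold m14an2_G
  refine ContDiff.prodMk ?_ ?_
  · refine contDiff_pi.2 fun w => ?_
    exact contDiff_const.mul (m14an2_contDiff_mod w.1)
  · refine contDiff_pi.2 fun w => ?_
    refine ContDiff.mul ?_ ?_
    · exact Complex.ofRealCLM.contDiff.comp (m14an2_contDiff_mod w.1)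
    · refine ContDiff.cexp ?_
      refine ContDiff.mul ?_ contDiff_const
      refine Complex.ofRealCLM.contDiff.comp ?_
      exact (contDiff_const.mul (contDiff_apply ℝ ℝ (Sum.inr w))).sub contDiff_const

theorem m14an2_lipschitz_G (ε : {w : InfinitePlace K // IsReal w} → Bool) :
    ∃ C : ℝ≥0, LipschitzOnWith C (m14an2_G ε) (Set.Icc (0 : m14an2_Idx K → ℝ) 1) :=
  (m14an2_contDiff_G ε).contDiffOn.exists_lipschitzOnWith one_ne_zero (convex_Icc _ _)
    isCompact_Icc

/-- The modulus in terms of `expMapBasis`. -/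
theorem m14an2_mod_eq (p : m14an2_Idx K → ℝ) (y : realSpace K) (hy0 : y w₀ = 0)
    (hy : ∀ w, w ≠ w₀ → p (Sum.inl w) = y w) (w : InfinitePlace K) :
    m14an2_mod p w = p (Sum.inl w₀) * expMapBasis y w := by
  unfold m14an2_mod
  congr 1
  rw [expMapBasis_apply', hy0, Real.exp_zero, one_smul, Real.exp_sum]
  refine Finset.prod_congr rfl fun i _ => ?_
  have hpos : (0 : ℝ) < w (fundSystem K (equivFinRank.symm i) : K) := by
    refine lt_of_le_of_ne (apply_nonneg _ _) (Ne.symm ?_)
    simp
  rw [Real.rpow_def_of_pos hpos, hy i.1 i.2, mul_comm]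

/-- Every point whose vector of absolute values is `c • expMapBasis y` is in the image of some
`G ε`. -/
theorem m14an2_exists_param (x : mixedSpace K) (c : ℝ) (y : realSpace K) (hy0 : y w₀ = 0)
    (hx : normAtAllPlaces x = c • expMapBasis y) :
    ∃ (ε : {w : InfinitePlace K // IsReal w} → Bool) (p : m14an2_Idx K → ℝ),
      p (Sum.inl w₀) = c ∧ (∀ w, w ≠ w₀ → p (Sum.inl w) = y w) ∧
      (∀ w, p (Sum.inr w) ∈ Set.Icc (0 : ℝ) 1) ∧ m14an2_G ε p = x := by
  set p : m14an2_Idx K → ℝ := Sum.elim (fun w => if w = w₀ then c else y w)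
    (fun w => (Complex.arg (x.2 w) + Real.pi) / (2 * Real.pi)) with hp
  have hp0 : p (Sum.inl w₀) = c := by simp [hp]
  have hp1 : ∀ w, w ≠ w₀ → p (Sum.inl w) = y w := fun w hw => by simp [hp, hw]
  have hmod : ∀ w, m14an2_mod p w = normAtPlace w x := fun w => by
    rw [m14an2_mod_eq p y hy0 hp1 w, hp0, ← normAtAllPlaces_apply, hx]
    rfl
  refine ⟨fun w => decide (0 ≤ x.1 w), p, hp0, hp1, fun w => ?_, ?_⟩
  · have h1 := Complex.neg_pi_lt_arg (x.2 w)
    have h2 := Complex.arg_le_pi (x.2 w)
    have hpi := Real.pi_pos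
    simp only [hp, Sum.elim_inr, Set.mem_Icc]
    constructor
    · exact div_nonneg (by linarith) (by positivity)
    · rw [div_le_one (by positivity)]
      linarith
  · refine Prod.ext (funext fun w => ?_) (funext fun w => ?_)
    · simp only [m14an2_G]
      rw [hmod w.1, normAtPlace_apply_of_isReal w.2, Real.norm_eq_abs]
      by_cases h : 0 ≤ x.1 w
      · simp [h, abs_of_nonneg h]
      · simp only [h, decide_false, Bool.false_eq_true, if_false]
        rw [abs_of_neg (not_le.1 h)]
        ring
    · simp only [m14an2_G]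
      rw [hmod w.1, normAtPlace_apply_of_isComplex w.2]
      have hang : ((2 * Real.pi * p (Sum.inr w) - Real.pi : ℝ) : ℂ) = (Complex.arg (x.2 w) : ℂ) := by
        congr 1
        simp only [hp, Sum.elim_inr]
        field_simp
        ring
      rw [hang]
      exact Complex.norm_mul_exp_arg_mul_I _

/-- The frontier of `normLeOne K` is contained in the union of the images of the faces. -/
theorem m14an2_frontier_subset :
    frontier (normLeOne K) ⊆ ⋃ (a : ({w : InfinitePlace K // IsReal w} → Bool) ×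
      InfinitePlace K × Bool),
        m14an2_G a.1 '' {p | p ∈ Set.Icc (0 : m14an2_Idx K → ℝ) 1 ∧
          p (Sum.inl a.2.1) = if a.2.2 then 1 else 0} := by
  intro x hx
  have hx1 : normAtAllPlaces x ∈ compactSet K := closure_normLeOne_subset K hx.1
  have hx2 : normAtAllPlaces x ∉ expMapBasis '' interior (paramSet K) := fun h =>
    hx.2 (subset_interior_normLeOne K h)
  obtain ⟨c, hc, z, ⟨y, hy, rfl⟩, hcz⟩ := hx1
  have hy0 : y w₀ = 0 := by
    have := hy w₀ (Set.mem_univ _)
    simpa using this
  have hy1 : ∀ w, w ≠ w₀ → y w ∈ Set.Icc (0 : ℝ) 1 := fun w hw => by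
    have := hy w (Set.mem_univ _)
    simpa [hw] using this
  obtain ⟨ε, p, hp0, hp1, hp2, hG⟩ := m14an2_exists_param x c y hy0 hcz.symm
  have hpI : p ∈ Set.Icc (0 : m14an2_Idx K → ℝ) 1 := by
    rw [Set.mem_Icc, Pi.le_def, Pi.le_def]
    constructor
    · rintro (w | w)
      · by_cases hw : w = w₀
        · rw [hw, hp0]; exact hc.1
        · rw [hp1 w hw]; exact (hy1 w hw).1
      · exact (hp2 w).1
    · rintro (w | w)
      · by_cases hw : w = w₀
        · rw [hw, hp0]; exact hc.2
        · rw [hp1 w hw]; exact (hy1 w hw).2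
      · exact (hp2 w).2
  -- find the face
  by_cases h0 : c = 0
  · exact Set.mem_iUnion.2 ⟨(ε, w₀, false), p, ⟨hpI, by simp [hp0, h0]⟩, hG⟩
  by_cases h1 : c = 1
  · exact Set.mem_iUnion.2 ⟨(ε, w₀, true), p, ⟨hpI, by simp [hp0, h1]⟩, hG⟩
  by_cases h2 : ∃ w, w ≠ w₀ ∧ (y w = 0 ∨ y w = 1)
  · obtain ⟨w, hw, h | h⟩ := h2
    · exact Set.mem_iUnion.2 ⟨(ε, w, false), p, ⟨hpI, by simp [hp1 w hw, h]⟩, hG⟩
    · exact Set.mem_iUnion.2 ⟨(ε, w, true), p, ⟨hpI, by simp [hp1 w hw, h]⟩, hG⟩
  exfalso
  push Not at h2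
  have hc0 : 0 < c := lt_of_le_of_ne hc.1 (Ne.symm h0)
  have hc1 : c < 1 := lt_of_le_of_ne hc.2 h1
  apply hx2
  refine ⟨fun w => if w = w₀ then Real.log c else y w, ?_, ?_⟩
  · rw [interior_paramSet, Set.mem_univ_pi]
    intro w
    by_cases hw : w = w₀
    · simp only [hw, if_true, Set.mem_Iio]
      exact Real.log_neg hc0 hc1
    · simp only [hw, if_false, Set.mem_Ioo]
      exact ⟨lt_of_le_of_ne (hy1 w hw).1 (Ne.symm (h2 w hw).1),
        lt_of_le_of_ne (hy1 w hw).2 (h2 w hw).2⟩
  · rw [expMapBasis_apply'', if_pos rfl, Real.exp_log hc0, ← hcz]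
    congr 2
    funext w
    by_cases hw : w = w₀
    · simp [hw, hy0]
    · simp [hw]

theorem m14an2_card_idx (w : InfinitePlace K) :
    Fintype.card {i : m14an2_Idx K // i ≠ Sum.inl w} = Module.finrank ℚ K - 1 := by
  rw [Fintype.card_subtype_compl, Fintype.card_subtype_eq, Fintype.card_sum,
    ← card_add_two_mul_card_eq_rank K, card_eq_nrRealPlaces_add_nrComplexPlaces K]
  unfold nrComplexPlaces nrRealPlaces
  omega

/-- **AN2b.** The frontier of `normLeOne K` can be covered by `O(t ^ (d - 1))` balls of radius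
`1 / t`. -/
theorem m14an2_covered_frontier_normLeOne :
    m14an2_Covered (frontier (normLeOne K)) (Module.finrank ℚ K - 1) := by
  refine m14an2_Covered.mono ?_ (m14an2_frontier_subset (K := K))
  refine m14an2_covered_iUnion _ _ fun a => ?_
  obtain ⟨C, hC⟩ := m14an2_lipschitz_G (K := K) a.1
  have := m14an2_covered_lipschitz_face (m14an2_G a.1) C hC (Sum.inl a.2.1)
    (if a.2.2 then 1 else 0) (by split_ifs <;> simp)
  rwa [m14an2_card_idx] at this

end Fermat.Agent.M14
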