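import Mathlib
import Fermat.Agent.M14.An2Norm

/-!
# M14 / AN3 (part 1): points of a shifted ideal lattice in the fundamental cone

For a fractional ideal `Λ` and any shift `v`, the number of `a ∈ v + Λ` in the fundamental cone with
`norm a ≤ y` is `vol(normLeOne) * y / covol(Λ) + O(y ^ (1 - 1/d))`, uniformly in `v`.
-/

set_option autoImplicit false
set_option linter.unusedSectionVars false

open MeasureTheory Module Metric Set
open NumberField NumberField.InfinitePlace NumberField.mixedEmbedding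
open NumberField.mixedEmbedding.fundamentalCone
open scoped Pointwise NNReal nonZeroDivisors Classical

namespace Fermat.Agent.M14

variable (K : Type*) [Field K] [NumberField K]

theorem m14an3_smul_normLeOne {t : ℝ} (ht : 0 < t) :
    t • normLeOne K =
      {a : mixedSpace K | a ∈ fundamentalCone K ∧
        mixedEmbedding.norm a ≤ t ^ (finrank ℚ K)} := by
  ext a
  rw [Set.mem_smul_set_iff_inv_smul_mem₀ ht.ne', mem_normLeOne,
    smul_mem_iff_mem (inv_ne_zero ht.ne'), mixedEmbedding.norm_smul, abs_of_pos (inv_pos.2 ht),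
    inv_pow, inv_mul_le_iff₀ (pow_pos ht _), mul_one]
  rfl

theorem m14an3_coset_count (Λ : (FractionalIdeal (𝓞 K)⁰ K)ˣ) :
    ∃ E : ℝ, 0 ≤ E ∧ ∀ (v : mixedSpace K) (y : ℝ), 1 ≤ y →
      |(Nat.card {a : mixedSpace K | (a ∈ fundamentalCone K ∧ mixedEmbedding.norm a ≤ y) ∧
            a - v ∈ idealLattice K Λ} : ℝ)
        - (volume : Measure (mixedSpace K)).real (normLeOne K) * y /
            ZLattice.covolume (idealLattice K Λ)|
        ≤ E * y ^ (1 - 1 / (finrank ℚ K : ℝ)) := by
  obtain ⟨E, hE0, hE⟩ := m14an2_count (volume : Measure (mixedSpace K)) (idealLattice K Λ)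
    (isBounded_normLeOne K) (m14an2_covered_frontier_normLeOne (K := K))
  refine ⟨E, hE0, fun v y hy => ?_⟩
  have hd : 0 < finrank ℚ K := finrank_pos
  have hd' : (0 : ℝ) < (finrank ℚ K : ℝ) := by exact_mod_cast hd
  have hy0 : 0 < y := lt_of_lt_of_le one_pos hy
  set t : ℝ := y ^ (1 / (finrank ℚ K : ℝ)) with ht
  have ht1 : 1 ≤ t := Real.one_le_rpow hy (by positivity)
  have ht0 : 0 < t := lt_of_lt_of_le one_pos ht1
  have htd : t ^ (finrank ℚ K) = y := by
    rw [ht, ← Real.rpow_natCast, ← Real.rpow_mul hy0.le, one_div, inv_mul_cancel₀ hd'.ne',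
      Real.rpow_one]
  have htd1 : t ^ (finrank ℚ K - 1) = y ^ (1 - 1 / (finrank ℚ K : ℝ)) := by
    rw [ht, ← Real.rpow_natCast, ← Real.rpow_mul hy0.le]
    congr 1
    rw [Nat.cast_sub hd, Nat.cast_one]
    field_simp
  have := hE v t ht1
  rw [m14an3_smul_normLeOne K ht0, mixedEmbedding.finrank, htd, htd1] at this
  exact this

end Fermat.Agent.M14
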