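import Mathlib
import Fermat.Agent.M14.An3Lat

/-!
# M14 / AN3 (part 2): from principal ideals to elements of the fundamental cone

`m14an3_card_principal`: for every predicate `P` on ideals, the number of nonzero principal ideals
`I` with `P I` and `N I ≤ y`, multiplied by the number of roots of unity, is the number of
`α ∈ 𝓞 K` in the fundamental cone with `P (span {α})` and `|N α| ≤ y`.
-/

set_option autoImplicit false
set_option linter.unusedSectionVars false

open MeasureTheory Module Metric Set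
open NumberField NumberField.InfinitePlace NumberField.mixedEmbedding
open NumberField.mixedEmbedding.fundamentalCone NumberField.Units
open scoped Pointwise NNReal nonZeroDivisors Classical

namespace Fermat.Agent.M14

variable (K : Type*) [Field K] [NumberField K]

/-- The elements of `𝓞 K` in the fundamental cone with norm `≤ y`. -/
def m14an3_X (y : ℝ) : Set (𝓞 K) :=
  {α | mixedEmbedding K (α : K) ∈ fundamentalCone K ∧
    mixedEmbedding.norm (mixedEmbedding K (α : K)) ≤ y}

variable {K}

theorem m14an3_ne_zero_of_mem_X {y : ℝ} {α : 𝓞 K} (h : α ∈ m14an3_X K y) : α ≠ 0 := by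
  rintro rfl
  have := h.1.2
  simp at this

theorem m14an3_norm_eq (α : 𝓞 K) :
    mixedEmbedding.norm (mixedEmbedding K (α : K)) = (Ideal.absNorm (Ideal.span {α}) : ℝ) := by
  rw [mixedEmbedding.norm_eq_norm, Ideal.absNorm_span_singleton, Nat.cast_natAbs,
    ← Algebra.coe_norm_int]
  push_cast
  rfl

variable (K)

/-- `integerSet K` as a subtype of `𝓞 K`. -/
noncomputable def m14an3_integerSetEquiv :
    integerSet K ≃ {α : 𝓞 K // mixedEmbedding K (α : K) ∈ fundamentalCone K} where
  toFun a := ⟨(preimageOfMemIntegerSet a : 𝓞 K), by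
    rw [mixedEmbedding_preimageOfMemIntegerSet]; exact a.2.1⟩
  invFun α := ⟨mixedEmbedding K (α.1 : K), mem_integerSet.2 ⟨α.2, α.1, rfl⟩⟩
  left_inv a := by
    apply Subtype.ext
    simp
  right_inv α := by
    apply Subtype.ext
    have := preimageOfMemIntegerSet_mixedEmbedding (x := α.1) (mem_integerSet.2 ⟨α.2, α.1, rfl⟩)
    simpa using this

theorem m14an3_card_principal (P : Ideal (𝓞 K) → Prop) :
    Nat.card {I : Ideal (𝓞 K) // I ≠ ⊥ ∧ I.IsPrincipal ∧ P I} * torsionOrder K =
      Nat.card {α : 𝓞 K // mixedEmbedding K (α : K) ∈ fundamentalCone K ∧ P (Ideal.span {α})} := by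
  rw [torsionOrder, ← Nat.card_prod]
  refine Nat.card_congr ?_
  -- right side to `integerSet`
  have e1 : {α : 𝓞 K // mixedEmbedding K (α : K) ∈ fundamentalCone K ∧ P (Ideal.span {α})} ≃
      {a : integerSet K // P (Ideal.span {(preimageOfMemIntegerSet a : 𝓞 K)})} :=
    ((Equiv.subtypeSubtypeEquivSubtypeInter
      (fun α : 𝓞 K => mixedEmbedding K (α : K) ∈ fundamentalCone K)
      (fun α => P (Ideal.span {α}))).symm).trans
      ((Equiv.subtypeEquiv (m14an3_integerSetEquiv K) (fun a => Iff.rfl)).symm)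
  have e2 : {a : integerSet K // P (Ideal.span {(preimageOfMemIntegerSet a : 𝓞 K)})} ≃
      {b : {I : (Ideal (𝓞 K))⁰ // Submodule.IsPrincipal I.1} × torsion K // P b.1.1.1} :=
    Equiv.subtypeEquiv (integerSetEquiv K) (fun a => by rw [integerSetEquiv_apply_fst])
  have e3 : {b : {I : (Ideal (𝓞 K))⁰ // Submodule.IsPrincipal I.1} × torsion K // P b.1.1.1} ≃
      {x : {I : (Ideal (𝓞 K))⁰ // Submodule.IsPrincipal I.1} // P x.1.1} × torsion K :=
    Equiv.prodSubtypeFstEquivSubtypeProd
      (p := fun x : {I : (Ideal (𝓞 K))⁰ // Submodule.IsPrincipal I.1} => P x.1.1)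
  have e4 : {x : {I : (Ideal (𝓞 K))⁰ // Submodule.IsPrincipal I.1} // P x.1.1} ≃
      {I : Ideal (𝓞 K) // I ≠ ⊥ ∧ I.IsPrincipal ∧ P I} :=
    { toFun := fun x => ⟨x.1.1.1, by
        have := x.1.1.2
        exact ⟨nonZeroDivisors.ne_zero this, x.1.2, x.2⟩⟩
      invFun := fun I => ⟨⟨⟨I.1, mem_nonZeroDivisors_of_ne_zero I.2.1⟩, I.2.2.1⟩, I.2.2.2⟩
      left_inv := fun x => rfl
      right_inv := fun I => rfl }
  exact ((e1.trans e2).trans e3).trans (Equiv.prodCongrLeft fun _ => e4) |>.symm

end Fermat.Agent.M14
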