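import Mathlib
import Fermat.Agent.M14.An3Elt

/-!
# M14 / AN3 (part 3): counting elements of a saturated set in the fundamental cone

If `A ⊆ 𝓞 K` is a union of classes modulo a nonzero ideal `Λ` (away from `0`), then the number of
elements of `A` in the fundamental cone of norm `≤ y` is
`ρ * vol(normLeOne) * y / covol(Λ) + O(y ^ (1 - 1/d))`, `ρ` the number of classes.
-/

set_option autoImplicit false
set_option linter.unusedSectionVars false

open MeasureTheory Module Metric Set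
open NumberField NumberField.InfinitePlace NumberField.mixedEmbedding
open NumberField.mixedEmbedding.fundamentalCone NumberField.Units
open scoped Pointwise NNReal nonZeroDivisors Classical

namespace Fermat.Agent.M14

variable (K : Type*) [Field K] [NumberField K]

/-- The ideal lattice of a nonzero integral ideal. -/
noncomputable abbrev m14an3_L (Λ : Ideal (𝓞 K)) (hΛ : Λ ≠ ⊥) : Submodule ℤ (mixedSpace K) :=
  idealLattice K (FractionalIdeal.mk0 K ⟨Λ, mem_nonZeroDivisors_of_ne_zero hΛ⟩)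

variable {K}

theorem m14an3_mem_L (Λ : Ideal (𝓞 K)) (hΛ : Λ ≠ ⊥) (α ρ : 𝓞 K) :
    mixedEmbedding K (α : K) - mixedEmbedding K (ρ : K) ∈ m14an3_L K Λ hΛ ↔ α - ρ ∈ Λ := by
  rw [m14an3_L, mem_idealLattice]
  constructor
  · rintro ⟨y, hy, hyx⟩
    rw [← map_sub] at hyx
    have h1 := mixedEmbedding_injective K hyx
    rw [SetLike.mem_coe, FractionalIdeal.coe_mk0, FractionalIdeal.mem_coeIdeal] at hy
    obtain ⟨x', hx', hx'y⟩ := hy
    have : x' = α - ρ := by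
      apply RingOfIntegers.coe_injective
      rw [hx'y, h1]
      simp
    rwa [← this]
  · intro h
    refine ⟨((α - ρ : 𝓞 K) : K), ?_, by simp⟩
    rw [SetLike.mem_coe, FractionalIdeal.coe_mk0, FractionalIdeal.mem_coeIdeal]
    exact ⟨α - ρ, h, rfl⟩

theorem m14an3_mem_L' (Λ : Ideal (𝓞 K)) (hΛ : Λ ≠ ⊥) (a : mixedSpace K) (ρ : 𝓞 K)
    (h : a - mixedEmbedding K (ρ : K) ∈ m14an3_L K Λ hΛ) :
    ∃ α : 𝓞 K, mixedEmbedding K (α : K) = a := by
  rw [m14an3_L, mem_idealLattice] at h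
  obtain ⟨y, hy, hyx⟩ := h
  rw [SetLike.mem_coe, FractionalIdeal.coe_mk0, FractionalIdeal.mem_coeIdeal] at hy
  obtain ⟨x', -, hx'y⟩ := hy
  refine ⟨x' + ρ, ?_⟩
  have : a = mixedEmbedding K y + mixedEmbedding K (ρ : K) := by rw [hyx]; abel
  rw [this, ← hx'y]
  simp

theorem m14an3_coset_image (Λ : Ideal (𝓞 K)) (hΛ : Λ ≠ ⊥) (ρ : 𝓞 K) (y : ℝ) :
    (fun α : 𝓞 K => mixedEmbedding K (α : K)) '' ({α | α - ρ ∈ Λ} ∩ m14an3_X K y) =
      {a : mixedSpace K | (a ∈ fundamentalCone K ∧ mixedEmbedding.norm a ≤ y) ∧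
        a - mixedEmbedding K (ρ : K) ∈ m14an3_L K Λ hΛ} := by
  ext a
  constructor
  · rintro ⟨α, ⟨hα1, hα2⟩, rfl⟩
    exact ⟨hα2, (m14an3_mem_L Λ hΛ α ρ).2 hα1⟩
  · rintro ⟨h1, h2⟩
    obtain ⟨α, rfl⟩ := m14an3_mem_L' Λ hΛ a ρ h2
    exact ⟨α, ⟨(m14an3_mem_L Λ hΛ α ρ).1 h2, h1⟩, rfl⟩

theorem m14an3_inj : Function.Injective (fun α : 𝓞 K => mixedEmbedding K (α : K)) :=
  (mixedEmbedding_injective K).comp RingOfIntegers.coe_injective

variable (K)

theorem m14an3_X_finite (y : ℝ) : (m14an3_X K y).Finite := by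
  have hsub : m14an3_X K y ⊆ m14an3_X K (max y 1) := fun α hα => ⟨hα.1, hα.2.trans (le_max_left _ _)⟩
  refine Set.Finite.subset ?_ hsub
  have hy1 : (1 : ℝ) ≤ max y 1 := le_max_right _ _
  have hy0 : (0 : ℝ) < max y 1 := lt_of_lt_of_le one_pos hy1
  refine Set.Finite.of_finite_image (f := fun α : 𝓞 K => mixedEmbedding K (α : K)) ?_
    m14an3_inj.injOn
  have htop : (⊤ : Ideal (𝓞 K)) ≠ ⊥ := top_ne_bot
  have h := m14an3_coset_image (K := K) ⊤ htop 0 (max y 1)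
  have h2 : ({α : 𝓞 K | α - 0 ∈ (⊤ : Ideal (𝓞 K))} ∩ m14an3_X K (max y 1)) =
      m14an3_X K (max y 1) := by
    ext α; simp
  rw [h2] at h
  rw [h]
  set t : ℝ := (max y 1) ^ (1 / (finrank ℚ K : ℝ)) with ht
  have hd : (0 : ℝ) < (finrank ℚ K : ℝ) := by exact_mod_cast finrank_pos
  have ht0 : 0 < t := Real.rpow_pos_of_pos hy0 _
  have htd : t ^ (finrank ℚ K) = max y 1 := by
    rw [ht, ← Real.rpow_natCast, ← Real.rpow_mul hy0.le, one_div, inv_mul_cancel₀ hd.ne',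
      Real.rpow_one]
  have hB : Bornology.IsBounded (t • normLeOne K) := (isBounded_normLeOne K).smul₀ t
  have := m14an1_finite (m14an3_L K ⊤ htop) (mixedEmbedding K ((0 : 𝓞 K) : K)) hB
  rw [m14an3_smul_normLeOne K ht0, htd] at this
  exact this

/-- The count for one residue class. -/
theorem m14an3_coset (Λ : Ideal (𝓞 K)) (hΛ : Λ ≠ ⊥) :
    ∃ E : ℝ, 0 ≤ E ∧ ∀ (ρ : 𝓞 K) (y : ℝ), 1 ≤ y →
      |((({α | α - ρ ∈ Λ} ∩ m14an3_X K y).ncard : ℕ) : ℝ)
        - (volume : Measure (mixedSpace K)).real (normLeOne K) * y /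
            ZLattice.covolume (m14an3_L K Λ hΛ)|
        ≤ E * y ^ (1 - 1 / (finrank ℚ K : ℝ)) := by
  obtain ⟨E, hE0, hE⟩ := m14an3_coset_count K
    (FractionalIdeal.mk0 K ⟨Λ, mem_nonZeroDivisors_of_ne_zero hΛ⟩)
  refine ⟨E, hE0, fun ρ y hy => ?_⟩
  have := hE (mixedEmbedding K (ρ : K)) y hy
  rw [Nat.card_coe_set_eq] at this
  rw [← Set.ncard_image_of_injective _ m14an3_inj, m14an3_coset_image Λ hΛ ρ y]
  exact this

/-- The count for a saturated set. -/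
theorem m14an3_saturated (Λ : Ideal (𝓞 K)) (hΛ : Λ ≠ ⊥) :
    ∃ E : ℝ, 0 ≤ E ∧ ∀ (A : Set (𝓞 K)),
      (∀ α α' : 𝓞 K, α ≠ 0 → α' ≠ 0 → α - α' ∈ Λ → α ∈ A → α' ∈ A) →
      ∀ (y : ℝ), 1 ≤ y →
      |(((A ∩ m14an3_X K y).ncard : ℕ) : ℝ)
        - ((Ideal.Quotient.mk Λ '' (A \ {0})).ncard : ℝ) *
          ((volume : Measure (mixedSpace K)).real (normLeOne K) * y /
            ZLattice.covolume (m14an3_L K Λ hΛ))|
        ≤ E * y ^ (1 - 1 / (finrank ℚ K : ℝ)) := by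
  obtain ⟨E, hE0, hE⟩ := m14an3_coset K Λ hΛ
  have : Finite (𝓞 K ⧸ Λ) := Ideal.finiteQuotientOfFreeOfNeBot Λ hΛ
  have : Fintype (𝓞 K ⧸ Λ) := Fintype.ofFinite _
  refine ⟨Fintype.card (𝓞 K ⧸ Λ) * E, by positivity, fun A hA y hy => ?_⟩
  set R : Set (𝓞 K ⧸ Λ) := Ideal.Quotient.mk Λ '' (A \ {0}) with hR
  set main : ℝ := (volume : Measure (mixedSpace K)).real (normLeOne K) * y /
            ZLattice.covolume (m14an3_L K Λ hΛ) with hmain
  have hfin : (A ∩ m14an3_X K y).Finite := (m14an3_X_finite K y).subset Set.inter_subset_right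
  -- fiberwise decomposition
  have h1 : (A ∩ m14an3_X K y).ncard =
      ∑ b ∈ R.toFinset, ((A ∩ m14an3_X K y) ∩ {α | Ideal.Quotient.mk Λ α = b}).ncard := by
    rw [Set.ncard_eq_toFinset_card _ hfin]
    rw [Finset.card_eq_sum_card_fiberwise (f := Ideal.Quotient.mk Λ) (t := R.toFinset)]
    · refine Finset.sum_congr rfl fun b _ => ?_
      rw [← Set.ncard_coe_finset]
      congr 1
      ext α
      simp
      tauto
    · intro α hα
      simp only [Set.Finite.coe_toFinset] at hα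
      simp only [Set.coe_toFinset]
      exact ⟨α, ⟨hα.1, m14an3_ne_zero_of_mem_X hα.2⟩, rfl⟩
  have h2 : ∀ b ∈ R.toFinset,
      |((((A ∩ m14an3_X K y) ∩ {α | Ideal.Quotient.mk Λ α = b}).ncard : ℕ) : ℝ) - main| ≤
        E * y ^ (1 - 1 / (finrank ℚ K : ℝ)) := by
    intro b hb
    rw [Set.mem_toFinset] at hb
    obtain ⟨ρ, ⟨hρA, hρ0⟩, rfl⟩ := hb
    have hset : (A ∩ m14an3_X K y) ∩ {α | Ideal.Quotient.mk Λ α = Ideal.Quotient.mk Λ ρ} =
        {α | α - ρ ∈ Λ} ∩ m14an3_X K y := by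
      ext α
      simp only [Set.mem_inter_iff, Set.mem_ofPred_eq, Ideal.Quotient.eq]
      constructor
      · rintro ⟨⟨-, h2⟩, h3⟩
        exact ⟨h3, h2⟩
      · rintro ⟨h3, h2⟩
        refine ⟨⟨?_, h2⟩, h3⟩
        refine hA ρ α hρ0 (m14an3_ne_zero_of_mem_X h2) ?_ hρA
        have : ρ - α = -(α - ρ) := by ring
        rw [this]
        exact Λ.neg_mem h3
    rw [hset]
    exact hE ρ y hy
  have h3 : (((A ∩ m14an3_X K y).ncard : ℕ) : ℝ) - (R.ncard : ℝ) * main =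
      ∑ b ∈ R.toFinset,
        (((((A ∩ m14an3_X K y) ∩ {α | Ideal.Quotient.mk Λ α = b}).ncard : ℕ) : ℝ) - main) := by
    rw [Finset.sum_sub_distrib, h1, Finset.sum_const, nsmul_eq_mul, Set.ncard_eq_toFinset_card' R]
    push_cast
    rfl
  rw [h3]
  refine (Finset.abs_sum_le_sum_abs _ _).trans ?_
  refine (Finset.sum_le_sum h2).trans ?_
  rw [Finset.sum_const, nsmul_eq_mul, mul_assoc]
  refine mul_le_mul_of_nonneg_right ?_ (by positivity)
  exact_mod_cast Finset.card_le_univ _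

end Fermat.Agent.M14
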