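import Mathlib
import Fermat.Agent.M14.An3Sat

/-!
# M14 / AN3 (part 4): residue classes modulo `m` and the character `χ`

`χ : Ideal (𝓞 K) → G` is multiplicative and trivial on principal ideals with a generator `≡ 1 mod m`.
The set `m14an3_A m χ J g` of `α ∈ J` with `(α)` prime to `m` and `χ (α) = g` is a union of classes
modulo `m * J`, and the number of these classes does not change when `J` is replaced by `𝔞 * J`,
`𝔞` prime to `m` (Chinese remainder theorem).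
-/

set_option autoImplicit false
set_option linter.unusedSectionVars false

open NumberField
open scoped nonZeroDivisors Classical

namespace Fermat.Agent.M14

variable {K : Type*} [Field K] [NumberField K]
variable (m : ℕ) {G : Type*} [AddCommGroup G] (χ : Ideal (𝓞 K) → G)

/-- The elements `α ∈ J` with `(α)` prime to `m` and `χ (α) = g`. -/
def m14an3_A (J : Ideal (𝓞 K)) (g : G) : Set (𝓞 K) :=
  {α | α ∈ J ∧ IsCoprime (Ideal.span {α}) (Ideal.span {(m : 𝓞 K)}) ∧ χ (Ideal.span {α}) = g}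

variable {m}

theorem m14an3_cop_congr {α α' : 𝓞 K} (h : α - α' ∈ Ideal.span {(m : 𝓞 K)})
    (hc : IsCoprime (Ideal.span {α}) (Ideal.span {(m : 𝓞 K)})) :
    IsCoprime (Ideal.span {α'}) (Ideal.span {(m : 𝓞 K)}) := by
  rw [Ideal.isCoprime_iff_exists] at hc ⊢
  obtain ⟨i, hi, j, hj, hij⟩ := hc
  obtain ⟨β, rfl⟩ := Ideal.mem_span_singleton'.1 hi
  refine ⟨β * α', Ideal.mem_span_singleton'.2 ⟨β, rfl⟩, j + β * (α - α'),
    Ideal.add_mem _ hj (Ideal.mul_mem_left _ _ h), ?_⟩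
  rw [← hij]
  ring

variable {χ}

theorem m14an3_chi_congr
    (hmul : ∀ I J : Ideal (𝓞 K), I ≠ ⊥ → J ≠ ⊥ → χ (I * J) = χ I + χ J)
    (hprinc : ∀ γ : 𝓞 K, γ ≠ 0 → γ - 1 ∈ Ideal.span {(m : 𝓞 K)} → χ (Ideal.span {γ}) = 0)
    {α α' : 𝓞 K} (hα : α ≠ 0) (hα' : α' ≠ 0) (h : α - α' ∈ Ideal.span {(m : 𝓞 K)})
    (hc : IsCoprime (Ideal.span {α}) (Ideal.span {(m : 𝓞 K)})) :
    χ (Ideal.span {α}) = χ (Ideal.span {α'}) := by
  rw [Ideal.isCoprime_iff_exists] at hc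
  obtain ⟨i, hi, j, hj, hij⟩ := hc
  obtain ⟨β, rfl⟩ := Ideal.mem_span_singleton'.1 hi
  by_cases hβ : β = 0
  · -- then `m` is a unit
    have h1 : (1 : 𝓞 K) ∈ Ideal.span {(m : 𝓞 K)} := by
      rw [← hij, hβ]; simpa using hj
    have htop : Ideal.span {(m : 𝓞 K)} = ⊤ := (Ideal.eq_top_iff_one _).2 h1
    rw [hprinc α hα (by rw [htop]; trivial), hprinc α' hα' (by rw [htop]; trivial)]
  · have e1 : χ (Ideal.span {β * α}) = 0 := by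
      refine hprinc _ (mul_ne_zero hβ hα) ?_
      have : β * α - 1 = -j := by rw [← hij]; ring
      rw [this]
      exact neg_mem hj
    have e2 : χ (Ideal.span {β * α'}) = 0 := by
      refine hprinc _ (mul_ne_zero hβ hα') ?_
      have : β * α' - 1 = -(j + β * (α - α')) := by rw [← hij]; ring
      rw [this]
      exact neg_mem (Ideal.add_mem _ hj (Ideal.mul_mem_left _ _ h))
    have hsβ : Ideal.span {β} ≠ (⊥ : Ideal (𝓞 K)) := by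
      rwa [Ne, Ideal.span_singleton_eq_bot]
    have hsα : Ideal.span {α} ≠ (⊥ : Ideal (𝓞 K)) := by
      rwa [Ne, Ideal.span_singleton_eq_bot]
    have hsα' : Ideal.span {α'} ≠ (⊥ : Ideal (𝓞 K)) := by
      rwa [Ne, Ideal.span_singleton_eq_bot]
    rw [← Ideal.span_singleton_mul_span_singleton, hmul _ _ hsβ hsα] at e1
    rw [← Ideal.span_singleton_mul_span_singleton, hmul _ _ hsβ hsα'] at e2
    have := e1.trans e2.symm
    exact add_left_cancel this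

theorem m14an3_A_saturated
    (hmul : ∀ I J : Ideal (𝓞 K), I ≠ ⊥ → J ≠ ⊥ → χ (I * J) = χ I + χ J)
    (hprinc : ∀ γ : 𝓞 K, γ ≠ 0 → γ - 1 ∈ Ideal.span {(m : 𝓞 K)} → χ (Ideal.span {γ}) = 0)
    (J : Ideal (𝓞 K)) (g : G) (α α' : 𝓞 K) (hα : α ≠ 0) (hα' : α' ≠ 0)
    (h : α - α' ∈ Ideal.span {(m : 𝓞 K)} * J) (hA : α ∈ m14an3_A m χ J g) :
    α' ∈ m14an3_A m χ J g := by
  obtain ⟨h1, h2, h3⟩ := hA
  have hm : α - α' ∈ Ideal.span {(m : 𝓞 K)} := Ideal.mul_le_left h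
  have hJ : α - α' ∈ J := Ideal.mul_le_right h
  refine ⟨?_, m14an3_cop_congr hm h2, ?_⟩
  · have : α' = α - (α - α') := by ring
    rw [this]
    exact J.sub_mem h1 hJ
  · rw [← m14an3_chi_congr hmul hprinc hα hα' hm h2, h3]

/-- A nonzero element of `𝔞` which is `≡ 1 mod m`. -/
theorem m14an3_exists_one_mod {𝔞 : Ideal (𝓞 K)} (h𝔞 : 𝔞 ≠ ⊥)
    (hcop : IsCoprime 𝔞 (Ideal.span {(m : 𝓞 K)})) :
    ∃ a ∈ 𝔞, a ≠ 0 ∧ 1 - a ∈ Ideal.span {(m : 𝓞 K)} := by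
  rw [Ideal.isCoprime_iff_exists] at hcop
  obtain ⟨a, ha, j, hj, haj⟩ := hcop
  by_cases ha0 : a = 0
  · have h1 : (1 : 𝓞 K) ∈ Ideal.span {(m : 𝓞 K)} := by
      rw [← haj, ha0]; simpa using hj
    have htop : Ideal.span {(m : 𝓞 K)} = ⊤ := (Ideal.eq_top_iff_one _).2 h1
    obtain ⟨b, hb, hb0⟩ := Submodule.exists_mem_ne_zero_of_ne_bot h𝔞
    exact ⟨b, hb, hb0, by rw [htop]; trivial⟩
  · refine ⟨a, ha, ha0, ?_⟩
    have : 1 - a = j := by rw [← haj]; ring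
    rwa [this]

/-- Chinese remainder theorem: the number of classes does not change when `J` is replaced
by `𝔞 * J`. -/
theorem m14an3_crt
    (hmul : ∀ I J : Ideal (𝓞 K), I ≠ ⊥ → J ≠ ⊥ → χ (I * J) = χ I + χ J)
    (hprinc : ∀ γ : 𝓞 K, γ ≠ 0 → γ - 1 ∈ Ideal.span {(m : 𝓞 K)} → χ (Ideal.span {γ}) = 0)
    (𝔞 J : Ideal (𝓞 K)) (h𝔞 : 𝔞 ≠ ⊥) (hcop : IsCoprime 𝔞 (Ideal.span {(m : 𝓞 K)})) (g : G) :
    (Ideal.Quotient.mk (Ideal.span {(m : 𝓞 K)} * (𝔞 * J)) '' (m14an3_A m χ (𝔞 * J) g \ {0})).ncard =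
      (Ideal.Quotient.mk (Ideal.span {(m : 𝓞 K)} * J) '' (m14an3_A m χ J g \ {0})).ncard := by
  have hle : Ideal.span {(m : 𝓞 K)} * (𝔞 * J) ≤ Ideal.span {(m : 𝓞 K)} * J :=
    Ideal.mul_mono_right Ideal.mul_le_right
  obtain ⟨a₀, ha₀, ha₀0, ha₀1⟩ := m14an3_exists_one_mod h𝔞 hcop
  have himage : Ideal.Quotient.factor hle ''
      (Ideal.Quotient.mk (Ideal.span {(m : 𝓞 K)} * (𝔞 * J)) '' (m14an3_A m χ (𝔞 * J) g \ {0})) =
      Ideal.Quotient.mk (Ideal.span {(m : 𝓞 K)} * J) '' (m14an3_A m χ J g \ {0}) := by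
    ext r
    constructor
    · rintro ⟨_, ⟨α, ⟨⟨h1, h2, h3⟩, h0⟩, rfl⟩, rfl⟩
      exact ⟨α, ⟨⟨Ideal.mul_le_right h1, h2, h3⟩, h0⟩, by simp⟩
    · rintro ⟨α, ⟨hA, h0⟩, rfl⟩
      have h0' : α ≠ 0 := h0
      have hne : α * a₀ ≠ 0 := mul_ne_zero h0' ha₀0
      have hdiff : α - α * a₀ ∈ Ideal.span {(m : 𝓞 K)} * J := by
        have : α - α * a₀ = (1 - a₀) * α := by ring
        rw [this]
        exact Ideal.mul_mem_mul ha₀1 hA.1
      have hA' := m14an3_A_saturated hmul hprinc J g α (α * a₀) h0' hne hdiff hA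
      refine ⟨Ideal.Quotient.mk _ (α * a₀), ⟨α * a₀, ⟨⟨?_, hA'.2.1, hA'.2.2⟩, hne⟩, rfl⟩, ?_⟩
      · rw [mul_comm α a₀]
        exact Ideal.mul_mem_mul ha₀ hA.1
      · rw [Ideal.Quotient.factor_mk, Ideal.Quotient.eq]
        have : α * a₀ - α = -(α - α * a₀) := by ring
        rw [this]
        exact neg_mem hdiff
  rw [← himage]
  refine (Set.InjOn.ncard_image ?_).symm
  rintro _ ⟨α, ⟨⟨h1, -, -⟩, -⟩, rfl⟩ _ ⟨α', ⟨⟨h1', -, -⟩, -⟩, rfl⟩ heq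
  rw [Ideal.Quotient.factor_mk, Ideal.Quotient.factor_mk, Ideal.Quotient.eq] at heq
  rw [Ideal.Quotient.eq]
  -- `z ∈ mJ ∩ 𝔞J → z ∈ m𝔞J`
  have hz1 : α - α' ∈ 𝔞 * J := Ideal.sub_mem _ h1 h1'
  have hsplit : α - α' = (α - α') * a₀ + (1 - a₀) * (α - α') := by ring
  rw [hsplit]
  refine Ideal.add_mem _ ?_ ?_
  · have : (α - α') * a₀ ∈ (Ideal.span {(m : 𝓞 K)} * J) * 𝔞 := Ideal.mul_mem_mul heq ha₀
    have e : Ideal.span {(m : 𝓞 K)} * J * 𝔞 = Ideal.span {(m : 𝓞 K)} * (𝔞 * J) := by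
      rw [mul_assoc, mul_comm J 𝔞]
    rwa [e] at this
  · exact Ideal.mul_mem_mul ha₀1 hz1

/-- Every ideal class contains an integral ideal prime to `m`. -/
theorem m14an3_exists_cop (hm : m ≠ 0) (C : ClassGroup (𝓞 K)) :
    ∃ J : Ideal (𝓞 K), ∃ hJ : J ≠ ⊥, IsCoprime J (Ideal.span {(m : 𝓞 K)}) ∧
      ClassGroup.mk0 ⟨J, mem_nonZeroDivisors_of_ne_zero hJ⟩ = C := by
  obtain ⟨J₀, hJ₀⟩ := ClassGroup.mk0_surjective (R := 𝓞 K) C⁻¹
  have hJ₀0 : (J₀ : Ideal (𝓞 K)) ≠ ⊥ := nonZeroDivisors.ne_zero J₀.2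
  have hm0 : (m : 𝓞 K) ≠ 0 := by exact_mod_cast hm
  have hsm : Ideal.span {(m : 𝓞 K)} ≠ ⊥ := by rwa [Ne, Ideal.span_singleton_eq_bot]
  by_cases htop : Ideal.span {(m : 𝓞 K)} = ⊤
  · obtain ⟨J, hJ⟩ := ClassGroup.mk0_surjective (R := 𝓞 K) C
    refine ⟨J, nonZeroDivisors.ne_zero J.2, ?_, hJ⟩
    rw [htop, Ideal.isCoprime_iff_sup_eq]
    simp
  have hΛ : Ideal.span {(m : 𝓞 K)} * (J₀ : Ideal (𝓞 K)) ≠ 0 := mul_ne_zero hsm hJ₀0
  obtain ⟨a, ha⟩ := IsDedekindDomain.exists_sup_span_eq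
    (I := Ideal.span {(m : 𝓞 K)} * (J₀ : Ideal (𝓞 K))) (J := J₀) Ideal.mul_le_right hΛ
  have haJ : a ∈ (J₀ : Ideal (𝓞 K)) := by
    rw [← ha]
    exact Ideal.mem_sup_right (Ideal.mem_span_singleton_self a)
  obtain ⟨I, hI⟩ := Ideal.dvd_span_singleton.2 haJ
  have hcop : Ideal.span {(m : 𝓞 K)} ⊔ I = ⊤ := by
    have h1 : (J₀ : Ideal (𝓞 K)) * (Ideal.span {(m : 𝓞 K)} ⊔ I) = (J₀ : Ideal (𝓞 K)) * ⊤ := by
      rw [Ideal.mul_sup, ← hI, mul_comm, ha, Ideal.mul_top]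
    exact mul_right_injective₀ hJ₀0 h1
  have hI0 : I ≠ ⊥ := by
    rintro rfl
    apply htop
    simpa using hcop
  refine ⟨I, hI0, ?_, ?_⟩
  · rw [Ideal.isCoprime_iff_sup_eq, sup_comm]
    exact hcop
  · have h2 : ClassGroup.mk0 (J₀ * ⟨I, mem_nonZeroDivisors_of_ne_zero hI0⟩) = 1 := by
      have hprod : ((J₀ * ⟨I, mem_nonZeroDivisors_of_ne_zero hI0⟩ : (Ideal (𝓞 K))⁰) : Ideal (𝓞 K))
          = Ideal.span {a} := by
        rw [hI]; rfl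
      rw [ClassGroup.mk0_eq_one_iff (SetLike.coe_mem _), hprod]
      exact ⟨⟨a, rfl⟩⟩
    rw [map_mul, hJ₀] at h2
    exact (inv_mul_eq_one.1 h2).symm

end Fermat.Agent.M14
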