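import Mathlib
import Fermat.Agent.M14.An3Cls

/-!
# M14 / AN3 (part 5): ideals prime to `m` with given `χ`-value in one ideal class
-/

set_option autoImplicit false
set_option linter.unusedSectionVars false

open MeasureTheory Module Set
open NumberField NumberField.InfinitePlace NumberField.mixedEmbedding
open NumberField.mixedEmbedding.fundamentalCone NumberField.Units
open scoped nonZeroDivisors Classical

namespace Fermat.Agent.M14

variable (K : Type*) [Field K] [NumberField K]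
variable (m : ℕ) {G : Type*} [AddCommGroup G] (χ : Ideal (𝓞 K) → G)

/-- Nonzero ideals prime to `m` with `χ I = g` and norm `≤ x`. -/
def m14an3_S (g : G) (x : ℝ) : Set (Ideal (𝓞 K)) :=
  {I | I ≠ ⊥ ∧ IsCoprime I (Ideal.span {(m : 𝓞 K)}) ∧ χ I = g ∧ (Ideal.absNorm I : ℝ) ≤ x}

/-- The part of `m14an3_S` in the ideal class inverse to the class of `J`. -/
def m14an3_SJ (J : Ideal (𝓞 K)) (g : G) (x : ℝ) : Set (Ideal (𝓞 K)) :=
  {I | I ∈ m14an3_S K m χ g x ∧ (I * J).IsPrincipal}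

/-- The number of residue classes modulo `m * J` attached to `(J, g)`. -/
noncomputable def m14an3_rho (J : Ideal (𝓞 K)) (g : G) : ℕ :=
  (Ideal.Quotient.mk (Ideal.span {(m : 𝓞 K)} * J) '' (m14an3_A m χ J (g + χ J) \ {0})).ncard

/-- The universal constant `vol(normLeOne) / (N(m) * 2^(-r₂) * √|disc|)`. -/
noncomputable def m14an3_kappa : ℝ :=
  (volume : Measure (mixedSpace K)).real (normLeOne K) /
    ((Ideal.absNorm (Ideal.span {(m : 𝓞 K)}) : ℝ) * ((2⁻¹ : ℝ) ^ nrComplexPlaces K * √|(discr K : ℝ)|))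

variable {K m χ}

theorem m14an3_S_finite (g : G) (x : ℝ) : (m14an3_S K m χ g x).Finite := by
  refine (Ideal.finite_setOfPred_absNorm_le (S := 𝓞 K) ⌊x⌋₊).subset ?_
  rintro I ⟨-, -, -, h⟩
  exact Nat.le_floor h

theorem m14an3_kappa_pos (hm : m ≠ 0) : 0 < m14an3_kappa K m := by
  unfold m14an3_kappa
  have hV : 0 < (volume : Measure (mixedSpace K)).real (normLeOne K) := by
    rw [measureReal_def, volume_normLeOne]
    simp only [ENNReal.toReal_mul, ENNReal.toReal_pow, ENNReal.toReal_ofNat, ENNReal.coe_toReal,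
      NNReal.coe_real_pi]
    rw [ENNReal.toReal_ofReal (regulator_pos K).le]
    have := regulator_pos K
    positivity
  have hN : (0 : ℝ) < (Ideal.absNorm (Ideal.span {(m : 𝓞 K)}) : ℝ) := by
    have h0 : Ideal.absNorm (Ideal.span {(m : 𝓞 K)}) ≠ 0 := by
      rw [Ne, Ideal.absNorm_eq_zero_iff, Ideal.span_singleton_eq_bot]
      exact_mod_cast hm
    exact_mod_cast Nat.pos_of_ne_zero h0
  have hD : (0 : ℝ) < √|(discr K : ℝ)| :=
    Real.sqrt_pos.2 (abs_pos.2 (Int.cast_ne_zero.2 (discr_ne_zero K)))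
  positivity

/-- Step 1: from ideals to elements. -/
theorem m14an3_SJ_card
    (hmul : ∀ I J : Ideal (𝓞 K), I ≠ ⊥ → J ≠ ⊥ → χ (I * J) = χ I + χ J)
    (J : Ideal (𝓞 K)) (hJ : J ≠ ⊥) (hJc : IsCoprime J (Ideal.span {(m : 𝓞 K)})) (g : G) (x : ℝ) :
    (m14an3_SJ K m χ J g x).ncard * torsionOrder K =
      (m14an3_A m χ J (g + χ J) ∩ m14an3_X K (x * Ideal.absNorm J)).ncard := by
  set P : Ideal (𝓞 K) → Prop := fun I' => J ∣ I' ∧ IsCoprime I' (Ideal.span {(m : 𝓞 K)}) ∧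
    χ I' = g + χ J ∧ (Ideal.absNorm I' : ℝ) ≤ x * Ideal.absNorm J with hP
  have hNJ : (0 : ℝ) < (Ideal.absNorm J : ℝ) := by
    have : Ideal.absNorm J ≠ 0 := by rwa [Ne, Ideal.absNorm_eq_zero_iff]
    exact_mod_cast Nat.pos_of_ne_zero this
  have h1 : (fun I : Ideal (𝓞 K) => I * J) '' (m14an3_SJ K m χ J g x) =
      {I' | I' ≠ ⊥ ∧ I'.IsPrincipal ∧ P I'} := by
    ext I'
    constructor
    · rintro ⟨I, ⟨⟨hI0, hIc, hIg, hIx⟩, hIp⟩, rfl⟩
      refine ⟨mul_ne_zero hI0 hJ, hIp, Dvd.intro_left I rfl, hIc.mul_left hJc, ?_, ?_⟩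
      · rw [hmul I J hI0 hJ, hIg]
      · rw [map_mul, Nat.cast_mul]
        exact mul_le_mul_of_nonneg_right hIx hNJ.le
    · rintro ⟨hI'0, hI'p, ⟨I, rfl⟩, hI'c, hI'g, hI'x⟩
      have hI0 : I ≠ ⊥ := fun h => hI'0 (by rw [h]; simp)
      refine ⟨I, ⟨⟨hI0, hI'c.of_mul_left_right, ?_, ?_⟩, ?_⟩, mul_comm I J⟩
      · rw [mul_comm, hmul I J hI0 hJ] at hI'g
        exact add_right_cancel hI'g
      · rw [map_mul, Nat.cast_mul, mul_comm] at hI'x
        exact le_of_mul_le_mul_right hI'x hNJ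
      · rwa [mul_comm]
  have h2 : (m14an3_SJ K m χ J g x).ncard = {I' | I' ≠ ⊥ ∧ I'.IsPrincipal ∧ P I'}.ncard := by
    rw [← h1]
    exact (Set.ncard_image_of_injective _ (mul_left_injective₀ hJ)).symm
  have h3 : (m14an3_A m χ J (g + χ J) ∩ m14an3_X K (x * Ideal.absNorm J)) =
      {α : 𝓞 K | mixedEmbedding K (α : K) ∈ fundamentalCone K ∧ P (Ideal.span {α})} := by
    ext α
    simp only [m14an3_A, m14an3_X, hP, Set.mem_inter_iff, Set.mem_ofPred_eq,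
      Ideal.dvd_span_singleton, m14an3_norm_eq]
    tauto
  rw [h2, h3, ← Nat.card_coe_set_eq, ← Nat.card_coe_set_eq]
  exact m14an3_card_principal K P

/-- Step 2: the asymptotic count in one class. -/
theorem m14an3_SJ_count (hm : m ≠ 0)
    (hmul : ∀ I J : Ideal (𝓞 K), I ≠ ⊥ → J ≠ ⊥ → χ (I * J) = χ I + χ J)
    (hprinc : ∀ γ : 𝓞 K, γ ≠ 0 → γ - 1 ∈ Ideal.span {(m : 𝓞 K)} → χ (Ideal.span {γ}) = 0)
    (J : Ideal (𝓞 K)) (hJ : J ≠ ⊥) (hJc : IsCoprime J (Ideal.span {(m : 𝓞 K)})) :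
    ∃ E : ℝ, 0 ≤ E ∧ ∀ (g : G) (x : ℝ), 1 ≤ x →
      |((m14an3_SJ K m χ J g x).ncard : ℝ) -
          (m14an3_rho K m χ J g : ℝ) * (m14an3_kappa K m / torsionOrder K) * x| ≤
        E * x ^ (1 - 1 / (finrank ℚ K : ℝ)) := by
  have hm0 : (m : 𝓞 K) ≠ 0 := by exact_mod_cast hm
  have hsm : Ideal.span {(m : 𝓞 K)} ≠ ⊥ := by rwa [Ne, Ideal.span_singleton_eq_bot]
  have hΛ : Ideal.span {(m : 𝓞 K)} * J ≠ ⊥ := mul_ne_zero hsm hJ
  obtain ⟨E, hE0, hE⟩ := m14an3_saturated K (Ideal.span {(m : 𝓞 K)} * J) hΛ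
  have hNJ : (1 : ℝ) ≤ (Ideal.absNorm J : ℝ) := by
    have : Ideal.absNorm J ≠ 0 := by rwa [Ne, Ideal.absNorm_eq_zero_iff]
    exact_mod_cast Nat.one_le_iff_ne_zero.2 this
  have hNJ0 : (0 : ℝ) < (Ideal.absNorm J : ℝ) := lt_of_lt_of_le one_pos hNJ
  have hNm : (0 : ℝ) < (Ideal.absNorm (Ideal.span {(m : 𝓞 K)}) : ℝ) := by
    have h0 : Ideal.absNorm (Ideal.span {(m : 𝓞 K)}) ≠ 0 := by
      rwa [Ne, Ideal.absNorm_eq_zero_iff]
    exact_mod_cast Nat.pos_of_ne_zero h0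
  have hw : (0 : ℝ) < (torsionOrder K : ℝ) := by exact_mod_cast torsionOrder_pos K
  have hD : (0 : ℝ) < (2⁻¹ : ℝ) ^ nrComplexPlaces K * √|(discr K : ℝ)| := by
    have : (0 : ℝ) < √|(discr K : ℝ)| :=
      Real.sqrt_pos.2 (abs_pos.2 (Int.cast_ne_zero.2 (discr_ne_zero K)))
    positivity
  have hθ : (0 : ℝ) ≤ 1 - 1 / (finrank ℚ K : ℝ) := by
    have hd : (1 : ℝ) ≤ (finrank ℚ K : ℝ) := by exact_mod_cast finrank_pos
    rw [sub_nonneg, div_le_one (by linarith)]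
    exact hd
  refine ⟨E * (Ideal.absNorm J : ℝ) ^ (1 - 1 / (finrank ℚ K : ℝ)) / torsionOrder K,
    by positivity, fun g x hx => ?_⟩
  have hx0 : (0 : ℝ) < x := lt_of_lt_of_le one_pos hx
  have hy : (1 : ℝ) ≤ x * Ideal.absNorm J := by nlinarith
  have h := hE (m14an3_A m χ J (g + χ J))
    (m14an3_A_saturated hmul hprinc J (g + χ J)) (x * Ideal.absNorm J) hy
  rw [← m14an3_SJ_card hmul J hJ hJc g x] at h
  have hcov : ZLattice.covolume (m14an3_L K (Ideal.span {(m : 𝓞 K)} * J) hΛ) =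
      (Ideal.absNorm (Ideal.span {(m : 𝓞 K)}) : ℝ) * (Ideal.absNorm J : ℝ) *
        ((2⁻¹ : ℝ) ^ nrComplexPlaces K * √|(discr K : ℝ)|) := by
    rw [m14an3_L, covolume_idealLattice, FractionalIdeal.coe_mk0,
      FractionalIdeal.coeIdeal_absNorm]
    simp only [map_mul, Nat.cast_mul, Rat.cast_mul, Rat.cast_natCast]
    ring
  have hmain : (volume : Measure (mixedSpace K)).real (normLeOne K) * (x * Ideal.absNorm J) /
      ZLattice.covolume (m14an3_L K (Ideal.span {(m : 𝓞 K)} * J) hΛ) = m14an3_kappa K m * x := by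
    rw [hcov, m14an3_kappa]
    field_simp
  rw [hmain] at h
  have hrho : ((Ideal.Quotient.mk (Ideal.span {(m : 𝓞 K)} * J) ''
      (m14an3_A m χ J (g + χ J) \ {0})).ncard : ℝ) = (m14an3_rho K m χ J g : ℝ) := rfl
  rw [hrho, Real.mul_rpow hx0.le hNJ0.le] at h
  have key : ((m14an3_SJ K m χ J g x).ncard : ℝ) -
      (m14an3_rho K m χ J g : ℝ) * (m14an3_kappa K m / torsionOrder K) * x =
      ((((m14an3_SJ K m χ J g x).ncard * torsionOrder K : ℕ) : ℝ) -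
        (m14an3_rho K m χ J g : ℝ) * (m14an3_kappa K m * x)) / torsionOrder K := by
    push_cast
    field_simp
  rw [key, abs_div, abs_of_pos hw, div_le_iff₀ hw]
  calc _ ≤ E * (x ^ (1 - 1 / (finrank ℚ K : ℝ)) * (Ideal.absNorm J : ℝ) ^ (1 - 1 / (finrank ℚ K : ℝ))) := h
    _ = _ := by field_simp

end Fermat.Agent.M14
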