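import Mathlib
import Fermat.Agent.M14.An3Per

/-!
# M14 / AN3: ideals prime to `m` with a given value of `χ`, with error term

`m14an3_main`: if `χ : Ideal (𝓞 K) → G` is multiplicative, trivial on principal ideals `(γ)` with
`γ ≡ 1 mod m` and surjective on ideals prime to `m`, then there are `c > 0` and `C` such that for all
`g` and `x ≥ 1`
`|#{I ≠ ⊥ prime to m, χ I = g, N I ≤ x} - c * x| ≤ C * x ^ (1 - 1/d)`.
-/

set_option autoImplicit false
set_option linter.unusedSectionVars false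

open MeasureTheory Module Set Filter
open NumberField NumberField.InfinitePlace NumberField.mixedEmbedding
open NumberField.mixedEmbedding.fundamentalCone NumberField.Units
open scoped nonZeroDivisors Classical

namespace Fermat.Agent.M14

/-- Uniqueness of the linear term. -/
theorem m14an3_unique {f : ℝ → ℝ} {a b E E' θ : ℝ} (hθ : θ < 1)
    (h1 : ∀ x, 1 ≤ x → |f x - a * x| ≤ E * x ^ θ)
    (h2 : ∀ x, 1 ≤ x → |f x - b * x| ≤ E' * x ^ θ) : a = b := by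
  by_contra hab
  have hpos : 0 < |a - b| := abs_pos.2 (sub_ne_zero.2 hab)
  have htend : Tendsto (fun x : ℝ => x ^ (1 - θ)) atTop atTop :=
    tendsto_rpow_atTop (by linarith)
  have hev := (htend.eventually_gt_atTop ((E + E') / |a - b|)).and (eventually_ge_atTop (1 : ℝ))
  obtain ⟨x, hx1, hx2⟩ := hev.exists
  have hx0 : 0 < x := lt_of_lt_of_le one_pos hx2
  have h3 : |a - b| * x ≤ (E + E') * x ^ θ := by
    have e : (a - b) * x = (f x - b * x) - (f x - a * x) := by ring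
    calc |a - b| * x = |(a - b) * x| := by rw [abs_mul, abs_of_pos hx0]
      _ = |(f x - b * x) - (f x - a * x)| := by rw [e]
      _ ≤ |f x - b * x| + |f x - a * x| := abs_sub _ _
      _ ≤ E' * x ^ θ + E * x ^ θ := add_le_add (h2 x hx2) (h1 x hx2)
      _ = (E + E') * x ^ θ := by ring
  have hxθ : 0 < x ^ θ := Real.rpow_pos_of_pos hx0 _
  have h4 : x = x ^ (1 - θ) * x ^ θ := by
    rw [← Real.rpow_add hx0]
    simp
  rw [div_lt_iff₀ hpos] at hx1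
  have h5 : (E + E') * x ^ θ < |a - b| * x := by
    calc (E + E') * x ^ θ < (x ^ (1 - θ) * |a - b|) * x ^ θ :=
          mul_lt_mul_of_pos_right hx1 hxθ
      _ = |a - b| * (x ^ (1 - θ) * x ^ θ) := by ring
      _ = |a - b| * x := by rw [← h4]
  linarith

variable {K : Type*} [Field K] [NumberField K]
variable {m : ℕ} {G : Type*} [AddCommGroup G] {χ : Ideal (𝓞 K) → G}

theorem m14an3_principal_iff {I J : Ideal (𝓞 K)} (hI : I ≠ ⊥) (hJ : J ≠ ⊥) :
    (I * J).IsPrincipal ↔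
      ClassGroup.mk0 ⟨I, mem_nonZeroDivisors_of_ne_zero hI⟩ *
        ClassGroup.mk0 ⟨J, mem_nonZeroDivisors_of_ne_zero hJ⟩ = 1 := by
  rw [← map_mul]
  exact (ClassGroup.mk0_eq_one_iff (I := I * J)
    (mem_nonZeroDivisors_of_ne_zero (mul_ne_zero hI hJ))).symm

/-- The class of an ideal (junk value for `⊥`). -/
noncomputable def m14an3_cls (I : Ideal (𝓞 K)) : ClassGroup (𝓞 K) :=
  if h : I = ⊥ then 1 else ClassGroup.mk0 ⟨I, mem_nonZeroDivisors_of_ne_zero h⟩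

theorem m14an3_cls_of_ne {I : Ideal (𝓞 K)} (h : I ≠ ⊥) :
    m14an3_cls I = ClassGroup.mk0 ⟨I, mem_nonZeroDivisors_of_ne_zero h⟩ := by
  rw [m14an3_cls, dif_neg h]

theorem m14an3_cls_mul {I J : Ideal (𝓞 K)} (hI : I ≠ ⊥) (hJ : J ≠ ⊥) :
    m14an3_cls (I * J) = m14an3_cls I * m14an3_cls J := by
  rw [m14an3_cls_of_ne hI, m14an3_cls_of_ne hJ, m14an3_cls_of_ne (mul_ne_zero hI hJ), ← map_mul]
  rfl

theorem m14an3_SJ_eq {J : Ideal (𝓞 K)} (hJ : J ≠ ⊥) (g : G) (x : ℝ) :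
    m14an3_SJ K m χ J g x = m14an3_S K m χ g x ∩ {I | m14an3_cls I = (m14an3_cls J)⁻¹} := by
  ext I
  simp only [m14an3_SJ, Set.mem_ofPred_eq, Set.mem_inter_iff]
  refine and_congr_right fun hI => ?_
  have hI0 : I ≠ ⊥ := hI.1
  rw [m14an3_principal_iff hI0 hJ, m14an3_cls_of_ne hI0, m14an3_cls_of_ne hJ, mul_eq_one_iff_eq_inv]

/-- The number of classes only depends on the ideal class of `J`. -/
theorem m14an3_rho_congr (hm : m ≠ 0)
    (hmul : ∀ I J : Ideal (𝓞 K), I ≠ ⊥ → J ≠ ⊥ → χ (I * J) = χ I + χ J)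
    (hprinc : ∀ γ : 𝓞 K, γ ≠ 0 → γ - 1 ∈ Ideal.span {(m : 𝓞 K)} → χ (Ideal.span {γ}) = 0)
    {J J' : Ideal (𝓞 K)} (hJ : J ≠ ⊥) (hJc : IsCoprime J (Ideal.span {(m : 𝓞 K)}))
    (hJ' : J' ≠ ⊥) (hJ'c : IsCoprime J' (Ideal.span {(m : 𝓞 K)}))
    (hcls : m14an3_cls J = m14an3_cls J') (g : G) :
    m14an3_rho K m χ J g = m14an3_rho K m χ J' g := by
  obtain ⟨E, -, hE⟩ := m14an3_SJ_count hm hmul hprinc J hJ hJc
  obtain ⟨E', -, hE'⟩ := m14an3_SJ_count hm hmul hprinc J' hJ' hJ'c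
  have hd : (1 : ℝ) ≤ (finrank ℚ K : ℝ) := by exact_mod_cast finrank_pos
  have hθ : 1 - 1 / (finrank ℚ K : ℝ) < 1 := by
    have : 0 < 1 / (finrank ℚ K : ℝ) := by positivity
    linarith
  have hset : ∀ x, m14an3_SJ K m χ J g x = m14an3_SJ K m χ J' g x := fun x => by
    rw [m14an3_SJ_eq hJ, m14an3_SJ_eq hJ', hcls]
  have h := m14an3_unique (f := fun x => ((m14an3_SJ K m χ J g x).ncard : ℝ)) hθ
    (fun x hx => hE g x hx) (fun x hx => by rw [hset x]; exact hE' g x hx)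
  have hw : (0 : ℝ) < (torsionOrder K : ℝ) := by exact_mod_cast torsionOrder_pos K
  have hk : 0 < m14an3_kappa K m / torsionOrder K := div_pos (m14an3_kappa_pos hm) hw
  have := mul_right_cancel₀ hk.ne' h
  exact_mod_cast this

/-- Translation by an ideal `𝔞` prime to `m`. -/
theorem m14an3_rho_mul
    (hmul : ∀ I J : Ideal (𝓞 K), I ≠ ⊥ → J ≠ ⊥ → χ (I * J) = χ I + χ J)
    (hprinc : ∀ γ : 𝓞 K, γ ≠ 0 → γ - 1 ∈ Ideal.span {(m : 𝓞 K)} → χ (Ideal.span {γ}) = 0)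
    {𝔞 J : Ideal (𝓞 K)} (h𝔞 : 𝔞 ≠ ⊥) (h𝔞c : IsCoprime 𝔞 (Ideal.span {(m : 𝓞 K)}))
    (hJ : J ≠ ⊥) (g : G) :
    m14an3_rho K m χ (𝔞 * J) g = m14an3_rho K m χ J (g + χ 𝔞) := by
  unfold m14an3_rho
  rw [hmul 𝔞 J h𝔞 hJ, m14an3_crt hmul hprinc 𝔞 J h𝔞 h𝔞c]
  congr 3
  rw [add_assoc]

theorem m14an3_main (hm : m ≠ 0)
    (hmul : ∀ I J : Ideal (𝓞 K), I ≠ ⊥ → J ≠ ⊥ → χ (I * J) = χ I + χ J)
    (hprinc : ∀ γ : 𝓞 K, γ ≠ 0 → γ - 1 ∈ Ideal.span {(m : 𝓞 K)} → χ (Ideal.span {γ}) = 0)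
    (hsurj : ∀ g : G, ∃ I : Ideal (𝓞 K), I ≠ ⊥ ∧ IsCoprime I (Ideal.span {(m : 𝓞 K)}) ∧ χ I = g) :
    ∃ c C : ℝ, 0 < c ∧ 0 ≤ C ∧ ∀ (g : G) (x : ℝ), 1 ≤ x →
      |((m14an3_S K m χ g x).ncard : ℝ) - c * x| ≤ C * x ^ (1 - 1 / (finrank ℚ K : ℝ)) := by
  -- representatives
  have hrep : ∀ C : ClassGroup (𝓞 K), ∃ J : Ideal (𝓞 K), J ≠ ⊥ ∧
      IsCoprime J (Ideal.span {(m : 𝓞 K)}) ∧ m14an3_cls J = C⁻¹ := fun C => by
    obtain ⟨J, hJ, hJc, hJC⟩ := m14an3_exists_cop (K := K) hm C⁻¹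
    exact ⟨J, hJ, hJc, by rw [m14an3_cls_of_ne hJ, hJC]⟩
  choose Jr hJr0 hJrc hJrcls using hrep
  have hcount := fun C => m14an3_SJ_count hm hmul hprinc (Jr C) (hJr0 C) (hJrc C)
  choose E hE0 hE using hcount
  have hw : (0 : ℝ) < (torsionOrder K : ℝ) := by exact_mod_cast torsionOrder_pos K
  have hk : 0 < m14an3_kappa K m / torsionOrder K := div_pos (m14an3_kappa_pos hm) hw
  set cg : G → ℝ := fun g => (∑ C : ClassGroup (𝓞 K), (m14an3_rho K m χ (Jr C) g : ℝ)) *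
    (m14an3_kappa K m / torsionOrder K) with hcg
  -- fiberwise decomposition
  have hfib : ∀ g x, (m14an3_S K m χ g x).ncard =
      ∑ C : ClassGroup (𝓞 K), (m14an3_SJ K m χ (Jr C) g x).ncard := by
    intro g x
    have hfin := m14an3_S_finite (K := K) (m := m) (χ := χ) g x
    rw [Set.ncard_eq_toFinset_card _ hfin]
    rw [Finset.card_eq_sum_card_fiberwise (f := m14an3_cls) (t := Finset.univ)
      (fun _ _ => Finset.mem_coe.2 (Finset.mem_univ _))]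
    refine Finset.sum_congr rfl fun C _ => ?_
    rw [← Set.ncard_coe_finset, m14an3_SJ_eq (hJr0 C), hJrcls C, inv_inv]
    congr 1
    ext I
    simp
  -- the estimate for every `g`
  have hest : ∀ g x, 1 ≤ x → |((m14an3_S K m χ g x).ncard : ℝ) - cg g * x| ≤
      (∑ C : ClassGroup (𝓞 K), E C) * x ^ (1 - 1 / (finrank ℚ K : ℝ)) := by
    intro g x hx
    have e : ((m14an3_S K m χ g x).ncard : ℝ) - cg g * x =
        ∑ C : ClassGroup (𝓞 K), (((m14an3_SJ K m χ (Jr C) g x).ncard : ℝ) -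
          (m14an3_rho K m χ (Jr C) g : ℝ) * (m14an3_kappa K m / torsionOrder K) * x) := by
      rw [Finset.sum_sub_distrib, hfib]
      simp only [hcg, Finset.sum_mul]
      push_cast
      rfl
    rw [e, Finset.sum_mul]
    refine (Finset.abs_sum_le_sum_abs _ _).trans (Finset.sum_le_sum fun C _ => hE C g x hx)
  -- independence of `g`
  have hind : ∀ g h : G, cg (g + h) = cg g := by
    intro g h
    obtain ⟨𝔞, h𝔞, h𝔞c, h𝔞χ⟩ := hsurj h
    simp only [hcg]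
    congr 1
    have e1 : ∀ C : ClassGroup (𝓞 K), m14an3_rho K m χ (Jr C) (g + h) =
        m14an3_rho K m χ (Jr (C * (m14an3_cls 𝔞)⁻¹)) g := by
      intro C
      rw [← h𝔞χ, ← m14an3_rho_mul hmul hprinc h𝔞 h𝔞c (hJr0 C) g]
      refine m14an3_rho_congr hm hmul hprinc (mul_ne_zero h𝔞 (hJr0 C)) (h𝔞c.mul_left (hJrc C))
        (hJr0 _) (hJrc _) ?_ g
      rw [m14an3_cls_mul h𝔞 (hJr0 C), hJrcls, hJrcls, mul_inv, inv_inv, mul_comm]
    simp_rw [e1]
    exact Fintype.sum_equiv (Equiv.mulRight (m14an3_cls 𝔞)⁻¹) _ _ (fun C => rfl)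
  -- positivity
  have hpos : 0 < cg 0 := by
    refine mul_pos ?_ hk
    have hnonneg : ∀ C ∈ (Finset.univ : Finset (ClassGroup (𝓞 K))),
        (0 : ℝ) ≤ (m14an3_rho K m χ (Jr C) 0 : ℝ) := fun C _ => Nat.cast_nonneg _
    refine lt_of_lt_of_le ?_ (Finset.single_le_sum hnonneg (Finset.mem_univ 1))
    have hprin : (Jr 1).IsPrincipal := by
      have h1 := hJrcls 1
      rw [m14an3_cls_of_ne (hJr0 1), inv_one, ClassGroup.mk0_eq_one_iff] at h1
      exact h1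
    obtain ⟨β, hβ⟩ := hprin.principal
    have hβ' : Jr 1 = Ideal.span {β} := hβ
    have hβ0 : β ≠ 0 := by
      rintro rfl
      apply hJr0 1
      rw [hβ']
      simp
    have hm0 : (m : 𝓞 K) ≠ 0 := by exact_mod_cast hm
    have hsm : Ideal.span {(m : 𝓞 K)} ≠ ⊥ := by rwa [Ne, Ideal.span_singleton_eq_bot]
    have hfinq : Finite (𝓞 K ⧸ (Ideal.span {(m : 𝓞 K)} * Jr 1)) :=
      Ideal.finiteQuotientOfFreeOfNeBot _ (mul_ne_zero hsm (hJr0 1))
    have hne : (Ideal.Quotient.mk (Ideal.span {(m : 𝓞 K)} * Jr 1) ''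
        (m14an3_A m χ (Jr 1) (0 + χ (Jr 1)) \ {0})).Nonempty := by
      refine ⟨_, β, ⟨⟨?_, ?_, ?_⟩, hβ0⟩, rfl⟩
      · rw [hβ']; exact Ideal.mem_span_singleton_self β
      · rw [← hβ']; exact hJrc 1
      · rw [← hβ', zero_add]
    have : 0 < m14an3_rho K m χ (Jr 1) 0 :=
      (Set.ncard_pos (Set.toFinite _)).2 hne
    exact_mod_cast this
  refine ⟨cg 0, ∑ C : ClassGroup (𝓞 K), E C, hpos, Finset.sum_nonneg fun C _ => hE0 C,
    fun g x hx => ?_⟩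
  have h := hest g x hx
  have e : cg g = cg 0 := by
    have := hind 0 g
    rwa [zero_add] at this
  rw [e] at h
  exact h

end Fermat.Agent.M14
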