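import Mathlib
import Fermat.Agent.M14.An3Main

/-!
# M14 / AN3, restricted form

The same as `An3Cls` / `An3Per` / `An3Main`, but the multiplicativity of `χ` is only assumed on
ideals prime to `m` (this is the shape consumed by the first inequality `m14an6_core`).
End results: `m14an3r_main` and `m14an3r_hcount`.
-/

set_option autoImplicit false
set_option linter.unusedSectionVars false

open MeasureTheory Module Set Filter
open NumberField NumberField.InfinitePlace NumberField.mixedEmbedding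
open NumberField.mixedEmbedding.fundamentalCone NumberField.Units
open scoped nonZeroDivisors Classical

namespace Fermat.Agent.M14

variable {K : Type*} [Field K] [NumberField K]
variable {m : ℕ} {G : Type*} [AddCommGroup G] {χ : Ideal (𝓞 K) → G}

theorem m14an3r_chi_congr
    (hmul : ∀ I J : Ideal (𝓞 K), I ≠ ⊥ → J ≠ ⊥ → IsCoprime I (Ideal.span {(m : 𝓞 K)}) →
      IsCoprime J (Ideal.span {(m : 𝓞 K)}) → χ (I * J) = χ I + χ J)
    (hprinc : ∀ γ : 𝓞 K, γ ≠ 0 → γ - 1 ∈ Ideal.span {(m : 𝓞 K)} → χ (Ideal.span {γ}) = 0)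
    {α α' : 𝓞 K} (hα : α ≠ 0) (hα' : α' ≠ 0) (h : α - α' ∈ Ideal.span {(m : 𝓞 K)})
    (hc : IsCoprime (Ideal.span {α}) (Ideal.span {(m : 𝓞 K)})) :
    χ (Ideal.span {α}) = χ (Ideal.span {α'}) := by
  rw [Ideal.isCoprime_iff_exists] at hc
  obtain ⟨i, hi, j, hj, hij⟩ := hc
  obtain ⟨β, rfl⟩ := Ideal.mem_span_singleton'.1 hi
  by_cases hβ : β = 0
  · -- then `m` is a unit
    have h1 : (1 : 𝓞 K) ∈ Ideal.span {(m : 𝓞 K)} := by
      rw [← hij, hβ]; simpa using hj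
    have htop : Ideal.span {(m : 𝓞 K)} = ⊤ := (Ideal.eq_top_iff_one _).2 h1
    rw [hprinc α hα (by rw [htop]; trivial), hprinc α' hα' (by rw [htop]; trivial)]
  · have e1 : χ (Ideal.span {β * α}) = 0 := by
      refine hprinc _ (mul_ne_zero hβ hα) ?_
      have : β * α - 1 = -j := by rw [← hij]; ring
      rw [this]
      exact neg_mem hj
    have e2 : χ (Ideal.span {β * α'}) = 0 := by
      refine hprinc _ (mul_ne_zero hβ hα') ?_
      have : β * α' - 1 = -(j + β * (α - α')) := by rw [← hij]; ring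
      rw [this]
      exact neg_mem (Ideal.add_mem _ hj (Ideal.mul_mem_left _ _ h))
    have hsβ : Ideal.span {β} ≠ (⊥ : Ideal (𝓞 K)) := by
      rwa [Ne, Ideal.span_singleton_eq_bot]
    have hsα : Ideal.span {α} ≠ (⊥ : Ideal (𝓞 K)) := by
      rwa [Ne, Ideal.span_singleton_eq_bot]
    have hsα' : Ideal.span {α'} ≠ (⊥ : Ideal (𝓞 K)) := by
      rwa [Ne, Ideal.span_singleton_eq_bot]
    have hcβ : IsCoprime (Ideal.span {β}) (Ideal.span {(m : 𝓞 K)}) := by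
      rw [Ideal.isCoprime_iff_exists]
      exact ⟨β * α, Ideal.mem_span_singleton'.2 ⟨α, mul_comm _ _⟩, j, hj, hij⟩
    have hcα : IsCoprime (Ideal.span {α}) (Ideal.span {(m : 𝓞 K)}) := by
      rw [Ideal.isCoprime_iff_exists]
      exact ⟨β * α, Ideal.mem_span_singleton'.2 ⟨β, rfl⟩, j, hj, hij⟩
    rw [← Ideal.span_singleton_mul_span_singleton, hmul _ _ hsβ hsα hcβ hcα] at e1
    rw [← Ideal.span_singleton_mul_span_singleton,
      hmul _ _ hsβ hsα' hcβ (m14an3_cop_congr h hcα)] at e2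
    have := e1.trans e2.symm
    exact add_left_cancel this

theorem m14an3r_A_saturated
    (hmul : ∀ I J : Ideal (𝓞 K), I ≠ ⊥ → J ≠ ⊥ → IsCoprime I (Ideal.span {(m : 𝓞 K)}) →
      IsCoprime J (Ideal.span {(m : 𝓞 K)}) → χ (I * J) = χ I + χ J)
    (hprinc : ∀ γ : 𝓞 K, γ ≠ 0 → γ - 1 ∈ Ideal.span {(m : 𝓞 K)} → χ (Ideal.span {γ}) = 0)
    (J : Ideal (𝓞 K)) (g : G) (α α' : 𝓞 K) (hα : α ≠ 0) (hα' : α' ≠ 0)
    (h : α - α' ∈ Ideal.span {(m : 𝓞 K)} * J) (hA : α ∈ m14an3_A m χ J g) :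
    α' ∈ m14an3_A m χ J g := by
  obtain ⟨h1, h2, h3⟩ := hA
  have hm : α - α' ∈ Ideal.span {(m : 𝓞 K)} := Ideal.mul_le_left h
  have hJ : α - α' ∈ J := Ideal.mul_le_right h
  refine ⟨?_, m14an3_cop_congr hm h2, ?_⟩
  · have : α' = α - (α - α') := by ring
    rw [this]
    exact J.sub_mem h1 hJ
  · rw [← m14an3r_chi_congr hmul hprinc hα hα' hm h2, h3]

/-- Chinese remainder theorem: the number of classes does not change when `J` is replaced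
by `𝔞 * J`. -/
theorem m14an3r_crt
    (hmul : ∀ I J : Ideal (𝓞 K), I ≠ ⊥ → J ≠ ⊥ → IsCoprime I (Ideal.span {(m : 𝓞 K)}) →
      IsCoprime J (Ideal.span {(m : 𝓞 K)}) → χ (I * J) = χ I + χ J)
    (hprinc : ∀ γ : 𝓞 K, γ ≠ 0 → γ - 1 ∈ Ideal.span {(m : 𝓞 K)} → χ (Ideal.span {γ}) = 0)
    (𝔞 J : Ideal (𝓞 K)) (h𝔞 : 𝔞 ≠ ⊥) (hcop : IsCoprime 𝔞 (Ideal.span {(m : 𝓞 K)})) (g : G) :
    (Ideal.Quotient.mk (Ideal.span {(m : 𝓞 K)} * (𝔞 * J)) '' (m14an3_A m χ (𝔞 * J) g \ {0})).ncard =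
      (Ideal.Quotient.mk (Ideal.span {(m : 𝓞 K)} * J) '' (m14an3_A m χ J g \ {0})).ncard := by
  have hle : Ideal.span {(m : 𝓞 K)} * (𝔞 * J) ≤ Ideal.span {(m : 𝓞 K)} * J :=
    Ideal.mul_mono_right Ideal.mul_le_right
  obtain ⟨a₀, ha₀, ha₀0, ha₀1⟩ := m14an3_exists_one_mod h𝔞 hcop
  have himage : Ideal.Quotient.factor hle ''
      (Ideal.Quotient.mk (Ideal.span {(m : 𝓞 K)} * (𝔞 * J)) '' (m14an3_A m χ (𝔞 * J) g \ {0})) =
      Ideal.Quotient.mk (Ideal.span {(m : 𝓞 K)} * J) '' (m14an3_A m χ J g \ {0}) := by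
    ext r
    constructor
    · rintro ⟨_, ⟨α, ⟨⟨h1, h2, h3⟩, h0⟩, rfl⟩, rfl⟩
      exact ⟨α, ⟨⟨Ideal.mul_le_right h1, h2, h3⟩, h0⟩, by simp⟩
    · rintro ⟨α, ⟨hA, h0⟩, rfl⟩
      have h0' : α ≠ 0 := h0
      have hne : α * a₀ ≠ 0 := mul_ne_zero h0' ha₀0
      have hdiff : α - α * a₀ ∈ Ideal.span {(m : 𝓞 K)} * J := by
        have : α - α * a₀ = (1 - a₀) * α := by ring
        rw [this]
        exact Ideal.mul_mem_mul ha₀1 hA.1
      have hA' := m14an3r_A_saturated hmul hprinc J g α (α * a₀) h0' hne hdiff hA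
      refine ⟨Ideal.Quotient.mk _ (α * a₀), ⟨α * a₀, ⟨⟨?_, hA'.2.1, hA'.2.2⟩, hne⟩, rfl⟩, ?_⟩
      · rw [mul_comm α a₀]
        exact Ideal.mul_mem_mul ha₀ hA.1
      · rw [Ideal.Quotient.factor_mk, Ideal.Quotient.eq]
        have : α * a₀ - α = -(α - α * a₀) := by ring
        rw [this]
        exact neg_mem hdiff
  rw [← himage]
  refine (Set.InjOn.ncard_image ?_).symm
  rintro _ ⟨α, ⟨⟨h1, -, -⟩, -⟩, rfl⟩ _ ⟨α', ⟨⟨h1', -, -⟩, -⟩, rfl⟩ heq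
  rw [Ideal.Quotient.factor_mk, Ideal.Quotient.factor_mk, Ideal.Quotient.eq] at heq
  rw [Ideal.Quotient.eq]
  -- `z ∈ mJ ∩ 𝔞J → z ∈ m𝔞J`
  have hz1 : α - α' ∈ 𝔞 * J := Ideal.sub_mem _ h1 h1'
  have hsplit : α - α' = (α - α') * a₀ + (1 - a₀) * (α - α') := by ring
  rw [hsplit]
  refine Ideal.add_mem _ ?_ ?_
  · have : (α - α') * a₀ ∈ (Ideal.span {(m : 𝓞 K)} * J) * 𝔞 := Ideal.mul_mem_mul heq ha₀
    have e : Ideal.span {(m : 𝓞 K)} * J * 𝔞 = Ideal.span {(m : 𝓞 K)} * (𝔞 * J) := by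
      rw [mul_assoc, mul_comm J 𝔞]
    rwa [e] at this
  · exact Ideal.mul_mem_mul ha₀1 hz1

/-- Step 1: from ideals to elements. -/
theorem m14an3r_SJ_card
    (hmul : ∀ I J : Ideal (𝓞 K), I ≠ ⊥ → J ≠ ⊥ → IsCoprime I (Ideal.span {(m : 𝓞 K)}) →
      IsCoprime J (Ideal.span {(m : 𝓞 K)}) → χ (I * J) = χ I + χ J)
    (J : Ideal (𝓞 K)) (hJ : J ≠ ⊥) (hJc : IsCoprime J (Ideal.span {(m : 𝓞 K)})) (g : G) (x : ℝ) :
    (m14an3_SJ K m χ J g x).ncard * torsionOrder K =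
      (m14an3_A m χ J (g + χ J) ∩ m14an3_X K (x * Ideal.absNorm J)).ncard := by
  set P : Ideal (𝓞 K) → Prop := fun I' => J ∣ I' ∧ IsCoprime I' (Ideal.span {(m : 𝓞 K)}) ∧
    χ I' = g + χ J ∧ (Ideal.absNorm I' : ℝ) ≤ x * Ideal.absNorm J with hP
  have hNJ : (0 : ℝ) < (Ideal.absNorm J : ℝ) := by
    have : Ideal.absNorm J ≠ 0 := by rwa [Ne, Ideal.absNorm_eq_zero_iff]
    exact_mod_cast Nat.pos_of_ne_zero this
  have h1 : (fun I : Ideal (𝓞 K) => I * J) '' (m14an3_SJ K m χ J g x) =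
      {I' | I' ≠ ⊥ ∧ I'.IsPrincipal ∧ P I'} := by
    ext I'
    constructor
    · rintro ⟨I, ⟨⟨hI0, hIc, hIg, hIx⟩, hIp⟩, rfl⟩
      refine ⟨mul_ne_zero hI0 hJ, hIp, Dvd.intro_left I rfl, hIc.mul_left hJc, ?_, ?_⟩
      · rw [hmul I J hI0 hJ hIc hJc, hIg]
      · rw [map_mul, Nat.cast_mul]
        exact mul_le_mul_of_nonneg_right hIx hNJ.le
    · rintro ⟨hI'0, hI'p, ⟨I, rfl⟩, hI'c, hI'g, hI'x⟩
      have hI0 : I ≠ ⊥ := fun h => hI'0 (by rw [h]; simp)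
      refine ⟨I, ⟨⟨hI0, hI'c.of_mul_left_right, ?_, ?_⟩, ?_⟩, mul_comm I J⟩
      · rw [mul_comm, hmul I J hI0 hJ hI'c.of_mul_left_right hJc] at hI'g
        exact add_right_cancel hI'g
      · rw [map_mul, Nat.cast_mul, mul_comm] at hI'x
        exact le_of_mul_le_mul_right hI'x hNJ
      · rwa [mul_comm]
  have h2 : (m14an3_SJ K m χ J g x).ncard = {I' | I' ≠ ⊥ ∧ I'.IsPrincipal ∧ P I'}.ncard := by
    rw [← h1]
    exact (Set.ncard_image_of_injective _ (mul_left_injective₀ hJ)).symm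
  have h3 : (m14an3_A m χ J (g + χ J) ∩ m14an3_X K (x * Ideal.absNorm J)) =
      {α : 𝓞 K | mixedEmbedding K (α : K) ∈ fundamentalCone K ∧ P (Ideal.span {α})} := by
    ext α
    simp only [m14an3_A, m14an3_X, hP, Set.mem_inter_iff, Set.mem_ofPred_eq,
      Ideal.dvd_span_singleton, m14an3_norm_eq]
    tauto
  rw [h2, h3, ← Nat.card_coe_set_eq, ← Nat.card_coe_set_eq]
  exact m14an3_card_principal K P

/-- Step 2: the asymptotic count in one class. -/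
theorem m14an3r_SJ_count (hm : m ≠ 0)
    (hmul : ∀ I J : Ideal (𝓞 K), I ≠ ⊥ → J ≠ ⊥ → IsCoprime I (Ideal.span {(m : 𝓞 K)}) →
      IsCoprime J (Ideal.span {(m : 𝓞 K)}) → χ (I * J) = χ I + χ J)
    (hprinc : ∀ γ : 𝓞 K, γ ≠ 0 → γ - 1 ∈ Ideal.span {(m : 𝓞 K)} → χ (Ideal.span {γ}) = 0)
    (J : Ideal (𝓞 K)) (hJ : J ≠ ⊥) (hJc : IsCoprime J (Ideal.span {(m : 𝓞 K)})) :
    ∃ E : ℝ, 0 ≤ E ∧ ∀ (g : G) (x : ℝ), 1 ≤ x →
      |((m14an3_SJ K m χ J g x).ncard : ℝ) -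
          (m14an3_rho K m χ J g : ℝ) * (m14an3_kappa K m / torsionOrder K) * x| ≤
        E * x ^ (1 - 1 / (finrank ℚ K : ℝ)) := by
  have hm0 : (m : 𝓞 K) ≠ 0 := by exact_mod_cast hm
  have hsm : Ideal.span {(m : 𝓞 K)} ≠ ⊥ := by rwa [Ne, Ideal.span_singleton_eq_bot]
  have hΛ : Ideal.span {(m : 𝓞 K)} * J ≠ ⊥ := mul_ne_zero hsm hJ
  obtain ⟨E, hE0, hE⟩ := m14an3_saturated K (Ideal.span {(m : 𝓞 K)} * J) hΛ
  have hNJ : (1 : ℝ) ≤ (Ideal.absNorm J : ℝ) := by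
    have : Ideal.absNorm J ≠ 0 := by rwa [Ne, Ideal.absNorm_eq_zero_iff]
    exact_mod_cast Nat.one_le_iff_ne_zero.2 this
  have hNJ0 : (0 : ℝ) < (Ideal.absNorm J : ℝ) := lt_of_lt_of_le one_pos hNJ
  have hNm : (0 : ℝ) < (Ideal.absNorm (Ideal.span {(m : 𝓞 K)}) : ℝ) := by
    have h0 : Ideal.absNorm (Ideal.span {(m : 𝓞 K)}) ≠ 0 := by
      rwa [Ne, Ideal.absNorm_eq_zero_iff]
    exact_mod_cast Nat.pos_of_ne_zero h0
  have hw : (0 : ℝ) < (torsionOrder K : ℝ) := by exact_mod_cast torsionOrder_pos K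
  have hD : (0 : ℝ) < (2⁻¹ : ℝ) ^ nrComplexPlaces K * √|(discr K : ℝ)| := by
    have : (0 : ℝ) < √|(discr K : ℝ)| :=
      Real.sqrt_pos.2 (abs_pos.2 (Int.cast_ne_zero.2 (discr_ne_zero K)))
    positivity
  have hθ : (0 : ℝ) ≤ 1 - 1 / (finrank ℚ K : ℝ) := by
    have hd : (1 : ℝ) ≤ (finrank ℚ K : ℝ) := by exact_mod_cast finrank_pos
    rw [sub_nonneg, div_le_one (by linarith)]
    exact hd
  refine ⟨E * (Ideal.absNorm J : ℝ) ^ (1 - 1 / (finrank ℚ K : ℝ)) / torsionOrder K,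
    by positivity, fun g x hx => ?_⟩
  have hx0 : (0 : ℝ) < x := lt_of_lt_of_le one_pos hx
  have hy : (1 : ℝ) ≤ x * Ideal.absNorm J := by nlinarith
  have h := hE (m14an3_A m χ J (g + χ J))
    (m14an3r_A_saturated hmul hprinc J (g + χ J)) (x * Ideal.absNorm J) hy
  rw [← m14an3r_SJ_card hmul J hJ hJc g x] at h
  have hcov : ZLattice.covolume (m14an3_L K (Ideal.span {(m : 𝓞 K)} * J) hΛ) =
      (Ideal.absNorm (Ideal.span {(m : 𝓞 K)}) : ℝ) * (Ideal.absNorm J : ℝ) *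
        ((2⁻¹ : ℝ) ^ nrComplexPlaces K * √|(discr K : ℝ)|) := by
    rw [m14an3_L, covolume_idealLattice, FractionalIdeal.coe_mk0,
      FractionalIdeal.coeIdeal_absNorm]
    simp only [map_mul, Nat.cast_mul, Rat.cast_mul, Rat.cast_natCast]
    ring
  have hmain : (volume : Measure (mixedSpace K)).real (normLeOne K) * (x * Ideal.absNorm J) /
      ZLattice.covolume (m14an3_L K (Ideal.span {(m : 𝓞 K)} * J) hΛ) = m14an3_kappa K m * x := by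
    rw [hcov, m14an3_kappa]
    field_simp
  rw [hmain] at h
  have hrho : ((Ideal.Quotient.mk (Ideal.span {(m : 𝓞 K)} * J) ''
      (m14an3_A m χ J (g + χ J) \ {0})).ncard : ℝ) = (m14an3_rho K m χ J g : ℝ) := rfl
  rw [hrho, Real.mul_rpow hx0.le hNJ0.le] at h
  have key : ((m14an3_SJ K m χ J g x).ncard : ℝ) -
      (m14an3_rho K m χ J g : ℝ) * (m14an3_kappa K m / torsionOrder K) * x =
      ((((m14an3_SJ K m χ J g x).ncard * torsionOrder K : ℕ) : ℝ) -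
        (m14an3_rho K m χ J g : ℝ) * (m14an3_kappa K m * x)) / torsionOrder K := by
    push_cast
    field_simp
  rw [key, abs_div, abs_of_pos hw, div_le_iff₀ hw]
  calc _ ≤ E * (x ^ (1 - 1 / (finrank ℚ K : ℝ)) * (Ideal.absNorm J : ℝ) ^ (1 - 1 / (finrank ℚ K : ℝ))) := h
    _ = _ := by field_simp

/-- The number of classes only depends on the ideal class of `J`. -/
theorem m14an3r_rho_congr (hm : m ≠ 0)
    (hmul : ∀ I J : Ideal (𝓞 K), I ≠ ⊥ → J ≠ ⊥ → IsCoprime I (Ideal.span {(m : 𝓞 K)}) →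
      IsCoprime J (Ideal.span {(m : 𝓞 K)}) → χ (I * J) = χ I + χ J)
    (hprinc : ∀ γ : 𝓞 K, γ ≠ 0 → γ - 1 ∈ Ideal.span {(m : 𝓞 K)} → χ (Ideal.span {γ}) = 0)
    {J J' : Ideal (𝓞 K)} (hJ : J ≠ ⊥) (hJc : IsCoprime J (Ideal.span {(m : 𝓞 K)}))
    (hJ' : J' ≠ ⊥) (hJ'c : IsCoprime J' (Ideal.span {(m : 𝓞 K)}))
    (hcls : m14an3_cls J = m14an3_cls J') (g : G) :
    m14an3_rho K m χ J g = m14an3_rho K m χ J' g := by
  obtain ⟨E, -, hE⟩ := m14an3r_SJ_count hm hmul hprinc J hJ hJc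
  obtain ⟨E', -, hE'⟩ := m14an3r_SJ_count hm hmul hprinc J' hJ' hJ'c
  have hd : (1 : ℝ) ≤ (finrank ℚ K : ℝ) := by exact_mod_cast finrank_pos
  have hθ : 1 - 1 / (finrank ℚ K : ℝ) < 1 := by
    have : 0 < 1 / (finrank ℚ K : ℝ) := by positivity
    linarith
  have hset : ∀ x, m14an3_SJ K m χ J g x = m14an3_SJ K m χ J' g x := fun x => by
    rw [m14an3_SJ_eq hJ, m14an3_SJ_eq hJ', hcls]
  have h := m14an3_unique (f := fun x => ((m14an3_SJ K m χ J g x).ncard : ℝ)) hθ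
    (fun x hx => hE g x hx) (fun x hx => by rw [hset x]; exact hE' g x hx)
  have hw : (0 : ℝ) < (torsionOrder K : ℝ) := by exact_mod_cast torsionOrder_pos K
  have hk : 0 < m14an3_kappa K m / torsionOrder K := div_pos (m14an3_kappa_pos hm) hw
  have := mul_right_cancel₀ hk.ne' h
  exact_mod_cast this

/-- Translation by an ideal `𝔞` prime to `m`. -/
theorem m14an3r_rho_mul
    (hmul : ∀ I J : Ideal (𝓞 K), I ≠ ⊥ → J ≠ ⊥ → IsCoprime I (Ideal.span {(m : 𝓞 K)}) →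
      IsCoprime J (Ideal.span {(m : 𝓞 K)}) → χ (I * J) = χ I + χ J)
    (hprinc : ∀ γ : 𝓞 K, γ ≠ 0 → γ - 1 ∈ Ideal.span {(m : 𝓞 K)} → χ (Ideal.span {γ}) = 0)
    {𝔞 J : Ideal (𝓞 K)} (h𝔞 : 𝔞 ≠ ⊥) (h𝔞c : IsCoprime 𝔞 (Ideal.span {(m : 𝓞 K)}))
    (hJ : J ≠ ⊥) (hJc : IsCoprime J (Ideal.span {(m : 𝓞 K)})) (g : G) :
    m14an3_rho K m χ (𝔞 * J) g = m14an3_rho K m χ J (g + χ 𝔞) := by
  unfold m14an3_rho
  rw [hmul 𝔞 J h𝔞 hJ h𝔞c hJc, m14an3r_crt hmul hprinc 𝔞 J h𝔞 h𝔞c]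
  congr 3
  rw [add_assoc]

theorem m14an3r_main (hm : m ≠ 0)
    (hmul : ∀ I J : Ideal (𝓞 K), I ≠ ⊥ → J ≠ ⊥ → IsCoprime I (Ideal.span {(m : 𝓞 K)}) →
      IsCoprime J (Ideal.span {(m : 𝓞 K)}) → χ (I * J) = χ I + χ J)
    (hprinc : ∀ γ : 𝓞 K, γ ≠ 0 → γ - 1 ∈ Ideal.span {(m : 𝓞 K)} → χ (Ideal.span {γ}) = 0)
    (hsurj : ∀ g : G, ∃ I : Ideal (𝓞 K), I ≠ ⊥ ∧ IsCoprime I (Ideal.span {(m : 𝓞 K)}) ∧ χ I = g) :
    ∃ c C : ℝ, 0 < c ∧ 0 ≤ C ∧ ∀ (g : G) (x : ℝ), 1 ≤ x →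
      |((m14an3_S K m χ g x).ncard : ℝ) - c * x| ≤ C * x ^ (1 - 1 / (finrank ℚ K : ℝ)) := by
  -- representatives
  have hrep : ∀ C : ClassGroup (𝓞 K), ∃ J : Ideal (𝓞 K), J ≠ ⊥ ∧
      IsCoprime J (Ideal.span {(m : 𝓞 K)}) ∧ m14an3_cls J = C⁻¹ := fun C => by
    obtain ⟨J, hJ, hJc, hJC⟩ := m14an3_exists_cop (K := K) hm C⁻¹
    exact ⟨J, hJ, hJc, by rw [m14an3_cls_of_ne hJ, hJC]⟩
  choose Jr hJr0 hJrc hJrcls using hrep
  have hcount := fun C => m14an3r_SJ_count hm hmul hprinc (Jr C) (hJr0 C) (hJrc C)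
  choose E hE0 hE using hcount
  have hw : (0 : ℝ) < (torsionOrder K : ℝ) := by exact_mod_cast torsionOrder_pos K
  have hk : 0 < m14an3_kappa K m / torsionOrder K := div_pos (m14an3_kappa_pos hm) hw
  set cg : G → ℝ := fun g => (∑ C : ClassGroup (𝓞 K), (m14an3_rho K m χ (Jr C) g : ℝ)) *
    (m14an3_kappa K m / torsionOrder K) with hcg
  -- fiberwise decomposition
  have hfib : ∀ g x, (m14an3_S K m χ g x).ncard =
      ∑ C : ClassGroup (𝓞 K), (m14an3_SJ K m χ (Jr C) g x).ncard := by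
    intro g x
    have hfin := m14an3_S_finite (K := K) (m := m) (χ := χ) g x
    rw [Set.ncard_eq_toFinset_card _ hfin]
    rw [Finset.card_eq_sum_card_fiberwise (f := m14an3_cls) (t := Finset.univ)
      (fun _ _ => Finset.mem_coe.2 (Finset.mem_univ _))]
    refine Finset.sum_congr rfl fun C _ => ?_
    rw [← Set.ncard_coe_finset, m14an3_SJ_eq (hJr0 C), hJrcls C, inv_inv]
    congr 1
    ext I
    simp
  -- the estimate for every `g`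
  have hest : ∀ g x, 1 ≤ x → |((m14an3_S K m χ g x).ncard : ℝ) - cg g * x| ≤
      (∑ C : ClassGroup (𝓞 K), E C) * x ^ (1 - 1 / (finrank ℚ K : ℝ)) := by
    intro g x hx
    have e : ((m14an3_S K m χ g x).ncard : ℝ) - cg g * x =
        ∑ C : ClassGroup (𝓞 K), (((m14an3_SJ K m χ (Jr C) g x).ncard : ℝ) -
          (m14an3_rho K m χ (Jr C) g : ℝ) * (m14an3_kappa K m / torsionOrder K) * x) := by
      rw [Finset.sum_sub_distrib, hfib]
      simp only [hcg, Finset.sum_mul]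
      push_cast
      rfl
    rw [e, Finset.sum_mul]
    refine (Finset.abs_sum_le_sum_abs _ _).trans (Finset.sum_le_sum fun C _ => hE C g x hx)
  -- independence of `g`
  have hind : ∀ g h : G, cg (g + h) = cg g := by
    intro g h
    obtain ⟨𝔞, h𝔞, h𝔞c, h𝔞χ⟩ := hsurj h
    simp only [hcg]
    congr 1
    have e1 : ∀ C : ClassGroup (𝓞 K), m14an3_rho K m χ (Jr C) (g + h) =
        m14an3_rho K m χ (Jr (C * (m14an3_cls 𝔞)⁻¹)) g := by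
      intro C
      rw [← h𝔞χ, ← m14an3r_rho_mul hmul hprinc h𝔞 h𝔞c (hJr0 C) (hJrc C) g]
      refine m14an3r_rho_congr hm hmul hprinc (mul_ne_zero h𝔞 (hJr0 C)) (h𝔞c.mul_left (hJrc C))
        (hJr0 _) (hJrc _) ?_ g
      rw [m14an3_cls_mul h𝔞 (hJr0 C), hJrcls, hJrcls, mul_inv, inv_inv, mul_comm]
    simp_rw [e1]
    exact Fintype.sum_equiv (Equiv.mulRight (m14an3_cls 𝔞)⁻¹) _ _ (fun C => rfl)
  -- positivity
  have hpos : 0 < cg 0 := by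
    refine mul_pos ?_ hk
    have hnonneg : ∀ C ∈ (Finset.univ : Finset (ClassGroup (𝓞 K))),
        (0 : ℝ) ≤ (m14an3_rho K m χ (Jr C) 0 : ℝ) := fun C _ => Nat.cast_nonneg _
    refine lt_of_lt_of_le ?_ (Finset.single_le_sum hnonneg (Finset.mem_univ 1))
    have hprin : (Jr 1).IsPrincipal := by
      have h1 := hJrcls 1
      rw [m14an3_cls_of_ne (hJr0 1), inv_one, ClassGroup.mk0_eq_one_iff] at h1
      exact h1
    obtain ⟨β, hβ⟩ := hprin.principal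
    have hβ' : Jr 1 = Ideal.span {β} := hβ
    have hβ0 : β ≠ 0 := by
      rintro rfl
      apply hJr0 1
      rw [hβ']
      simp
    have hm0 : (m : 𝓞 K) ≠ 0 := by exact_mod_cast hm
    have hsm : Ideal.span {(m : 𝓞 K)} ≠ ⊥ := by rwa [Ne, Ideal.span_singleton_eq_bot]
    have hfinq : Finite (𝓞 K ⧸ (Ideal.span {(m : 𝓞 K)} * Jr 1)) :=
      Ideal.finiteQuotientOfFreeOfNeBot _ (mul_ne_zero hsm (hJr0 1))
    have hne : (Ideal.Quotient.mk (Ideal.span {(m : 𝓞 K)} * Jr 1) ''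
        (m14an3_A m χ (Jr 1) (0 + χ (Jr 1)) \ {0})).Nonempty := by
      refine ⟨_, β, ⟨⟨?_, ?_, ?_⟩, hβ0⟩, rfl⟩
      · rw [hβ']; exact Ideal.mem_span_singleton_self β
      · rw [← hβ']; exact hJrc 1
      · rw [← hβ', zero_add]
    have : 0 < m14an3_rho K m χ (Jr 1) 0 :=
      (Set.ncard_pos (Set.toFinite _)).2 hne
    exact_mod_cast this
  refine ⟨cg 0, ∑ C : ClassGroup (𝓞 K), E C, hpos, Finset.sum_nonneg fun C _ => hE0 C,
    fun g x hx => ?_⟩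
  have h := hest g x hx
  have e : cg g = cg 0 := by
    have := hind 0 g
    rwa [zero_add] at this
  rw [e] at h
  exact h


/-- **AN3** in the shape consumed by `m14an6_core`. -/
theorem m14an3r_hcount {F : Type} [Field F] [NumberField F] (m : ℕ) (hm : m ≠ 0)
    (G : Type) [AddCommGroup G] (χ : Ideal (𝓞 F) → G)
    (hmul : ∀ I J : Ideal (𝓞 F), I ≠ ⊥ → J ≠ ⊥ → IsCoprime I (Ideal.span {(m : 𝓞 F)}) →
      IsCoprime J (Ideal.span {(m : 𝓞 F)}) → χ (I * J) = χ I + χ J)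
    (hprinc : ∀ γ : 𝓞 F, γ ≠ 0 → γ - 1 ∈ Ideal.span {(m : 𝓞 F)} → χ (Ideal.span {γ}) = 0)
    (hsurj : ∀ g : G, ∃ I : Ideal (𝓞 F), I ≠ ⊥ ∧ IsCoprime I (Ideal.span {(m : 𝓞 F)}) ∧ χ I = g) :
    ∃ c C : ℝ, 0 < c ∧ ∃ δ : ℝ, 0 < δ ∧ ∀ (g : G) (x : ℝ), 1 ≤ x →
      |(Nat.card {I : Ideal (𝓞 F) // I ≠ ⊥ ∧ IsCoprime I (Ideal.span {(m : 𝓞 F)}) ∧ χ I = g ∧
          (Ideal.absNorm I : ℝ) ≤ x} : ℝ) - c * x| ≤ C * x ^ (1 - δ) := by
  obtain ⟨c, C, hc, -, h⟩ := m14an3r_main (K := F) hm hmul hprinc hsurj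
  have hd : (0 : ℝ) < (finrank ℚ F : ℝ) := by exact_mod_cast finrank_pos
  refine ⟨c, C, hc, 1 / (finrank ℚ F : ℝ), by positivity, fun g x hx => ?_⟩
  have := h g x hx
  rw [← Nat.card_coe_set_eq] at this
  exact this

end Fermat.Agent.M14
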