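/-
S14, package AN4 (helper8): Abel summation bound for L-series.

If the partial sums of `a : ℕ → ℂ` are bounded by `K * n ^ r` (`0 ≤ r`), then for real `s > r`
at which the L-series converges, `‖L(a, s)‖ ≤ s * K / (s - r)`.
-/
import Mathlib

set_option autoImplicit false

namespace Fermat.Agent.M14

open Finset MeasureTheory

/-- **Abel summation bound**. -/
theorem m14an4_abel (a : ℕ → ℂ) (K r : ℝ) (hr0 : 0 ≤ r) (hK : 0 ≤ K)
    (hA : ∀ n : ℕ, ‖∑ k ∈ Icc 1 n, a k‖ ≤ K * (n : ℝ) ^ r)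
    (s : ℝ) (hs : r < s) (hsum : LSeriesSummable a (s : ℂ)) :
    ‖LSeries a (s : ℂ)‖ ≤ s * K / (s - r) := by
  have hs0 : 0 < s := lt_of_le_of_lt hr0 hs
  have hO : (fun n : ℕ => ∑ k ∈ Icc 1 n, a k) =O[Filter.atTop] fun n : ℕ => (n : ℝ) ^ r := by
    refine Asymptotics.IsBigO.of_bound K (Filter.Eventually.of_forall fun n => ?_)
    rw [Real.norm_of_nonneg (Real.rpow_nonneg (Nat.cast_nonneg n) r)]
    exact hA n
  have hint := LSeries_eq_mul_integral a hr0 (s := (s : ℂ)) (by simpa using hs) hsum hO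
  rw [hint, norm_mul, Complex.norm_real, Real.norm_of_nonneg hs0.le, mul_div_assoc]
  refine mul_le_mul_of_nonneg_left ?_ hs0.le
  have hlt : r - s - 1 < -1 := by linarith
  have hg : IntegrableOn (fun t : ℝ => K * t ^ (r - s - 1)) (Set.Ioi (1 : ℝ)) :=
    (integrableOn_Ioi_rpow_of_lt hlt zero_lt_one).const_mul K
  have hval : ∫ t in Set.Ioi (1 : ℝ), K * t ^ (r - s - 1) = K / (s - r) := by
    rw [integral_const_mul, integral_Ioi_rpow_of_lt hlt zero_lt_one]
    simp only [Real.one_rpow]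
    have h1 : r - s - 1 + 1 = -(s - r) := by ring
    rw [h1, neg_div_neg_eq, mul_one_div]
  rw [← hval]
  refine norm_integral_le_of_norm_le hg ?_
  refine (ae_restrict_iff' measurableSet_Ioi).mpr (Filter.Eventually.of_forall fun t ht => ?_)
  have ht1 : (1 : ℝ) < t := ht
  have ht0 : 0 < t := zero_lt_one.trans ht1
  rw [norm_mul]
  have h2 : ‖(t : ℂ) ^ (-((s : ℂ) + 1))‖ = t ^ (-(s + 1)) := by
    rw [Complex.norm_cpow_eq_rpow_re_of_pos ht0]
    simp
  rw [h2]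
  have h3 : ‖∑ k ∈ Icc 1 ⌊t⌋₊, a k‖ ≤ K * t ^ r := by
    refine (hA _).trans (mul_le_mul_of_nonneg_left ?_ hK)
    exact Real.rpow_le_rpow (Nat.cast_nonneg _) (Nat.floor_le ht0.le) hr0
  calc ‖∑ k ∈ Icc 1 ⌊t⌋₊, a k‖ * t ^ (-(s + 1))
      ≤ K * t ^ r * t ^ (-(s + 1)) :=
        mul_le_mul_of_nonneg_right h3 (Real.rpow_nonneg ht0.le _)
    _ = K * t ^ (r - s - 1) := by
        rw [mul_assoc, ← Real.rpow_add ht0]
        congr 2
        ring

end Fermat.Agent.M14
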