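/-
S14, package AN4 (helper8): sums over ideals as L-series.

For `c : Ideal (𝓞 F) → ℂ` and real `s ≠ 0` with `∑_I ‖c I‖ N(I)^(-s) < ∞`:
`∑'_I c I * N(I)^(-s) = LSeries (n ↦ ∑_{N I = n} c I) s`.
-/
import Mathlib

set_option autoImplicit false

namespace Fermat.Agent.M14

open Finset NumberField

variable {F : Type} [Field F] [NumberField F]

/-- The finset of ideals of norm `n`. -/
noncomputable def m14an4_fib (F : Type) [Field F] [NumberField F] (n : ℕ) :
    Finset (Ideal (𝓞 F)) :=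
  (Ideal.finite_setOfPred_absNorm_eq (S := 𝓞 F) n).toFinset

theorem m14an4_mem_fib {n : ℕ} {I : Ideal (𝓞 F)} :
    I ∈ m14an4_fib F n ↔ Ideal.absNorm I = n := by
  simp [m14an4_fib]

/-- The coefficient sequence attached to a function on ideals. -/
noncomputable def m14an4_coeff (c : Ideal (𝓞 F) → ℂ) (n : ℕ) : ℂ :=
  ∑ I ∈ m14an4_fib F n, c I

/-- The summand `c I * N(I)^(-s)`. -/
noncomputable def m14an4_term (c : Ideal (𝓞 F) → ℂ) (s : ℝ) (I : Ideal (𝓞 F)) : ℂ :=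
  c I * (((Ideal.absNorm I : ℝ) ^ (-s) : ℝ) : ℂ)

theorem m14an4_term_bot (c : Ideal (𝓞 F) → ℂ) {s : ℝ} (hs : s ≠ 0) :
    m14an4_term c s ⊥ = 0 := by
  rw [m14an4_term, Ideal.absNorm_bot, Nat.cast_zero, Real.zero_rpow (neg_ne_zero.mpr hs)]
  simp

theorem m14an4_norm_term (c : Ideal (𝓞 F) → ℂ) (s : ℝ) (I : Ideal (𝓞 F)) :
    ‖m14an4_term c s I‖ = ‖c I‖ * (Ideal.absNorm I : ℝ) ^ (-s) := by
  rw [m14an4_term, norm_mul, Complex.norm_real,
    Real.norm_of_nonneg (Real.rpow_nonneg (Nat.cast_nonneg _) _)]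

/-- The fibre sums of `m14an4_term` are the terms of the L-series of `m14an4_coeff`. -/
theorem m14an4_fiber_sum (c : Ideal (𝓞 F) → ℂ) {s : ℝ} (hs : s ≠ 0) (n : ℕ) :
    ∑ I ∈ m14an4_fib F n, m14an4_term c s I = LSeries.term (m14an4_coeff c) (s : ℂ) n := by
  rcases Nat.eq_zero_or_pos n with hn | hn
  · subst hn
    rw [LSeries.term_zero]
    refine Finset.sum_eq_zero fun I hI => ?_
    have hI' : Ideal.absNorm I = 0 := m14an4_mem_fib.mp hI
    rw [Ideal.absNorm_eq_zero_iff] at hI'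
    rw [hI', m14an4_term_bot c hs]
  · rw [LSeries.term_of_ne_zero hn.ne', m14an4_coeff, Finset.sum_div]
    refine Finset.sum_congr rfl fun I hI => ?_
    have hI' : Ideal.absNorm I = n := m14an4_mem_fib.mp hI
    rw [m14an4_term, hI', div_eq_mul_inv]
    congr 1
    rw [Complex.ofReal_cpow (Nat.cast_nonneg n), Complex.ofReal_neg, Complex.cpow_neg,
      Complex.ofReal_natCast]

/-- **sums over ideals as L-series**. -/
theorem m14an4_hasSum (c : Ideal (𝓞 F) → ℂ) {s : ℝ} (hs : s ≠ 0)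
    (hsum : Summable fun I : Ideal (𝓞 F) => ‖c I‖ * (Ideal.absNorm I : ℝ) ^ (-s)) :
    HasSum (fun n : ℕ => LSeries.term (m14an4_coeff c) (s : ℂ) n)
      (∑' I : Ideal (𝓞 F), m14an4_term c s I) := by
  have hsum' : Summable (m14an4_term c s) := by
    refine Summable.of_norm ?_
    simpa only [m14an4_norm_term] using hsum
  have h1 := hsum'.hasSum.tsum_fiberwise (fun I : Ideal (𝓞 F) => Ideal.absNorm I)
  have h2 : (fun n : ℕ => ∑' b : ((fun I : Ideal (𝓞 F) => Ideal.absNorm I) ⁻¹' {n} :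
      Set (Ideal (𝓞 F))), m14an4_term c s b)
      = fun n : ℕ => LSeries.term (m14an4_coeff c) (s : ℂ) n := by
    funext n
    have hset : ((fun I : Ideal (𝓞 F) => Ideal.absNorm I) ⁻¹' {n} : Set (Ideal (𝓞 F)))
        = ↑(m14an4_fib F n) := by
      ext I
      simp [m14an4_mem_fib]
    rw [hset, Finset.tsum_subtype', m14an4_fiber_sum c hs]
  rw [← h2]
  exact h1

/-- **sums over ideals as L-series**, `tsum` form. -/
theorem m14an4_LSeries_eq (c : Ideal (𝓞 F) → ℂ) {s : ℝ} (hs : s ≠ 0)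
    (hsum : Summable fun I : Ideal (𝓞 F) => ‖c I‖ * (Ideal.absNorm I : ℝ) ^ (-s)) :
    LSeriesSummable (m14an4_coeff c) (s : ℂ) ∧
      LSeries (m14an4_coeff c) (s : ℂ) = ∑' I : Ideal (𝓞 F), m14an4_term c s I :=
  ⟨(m14an4_hasSum c hs hsum).summable, (m14an4_hasSum c hs hsum).tsum_eq⟩

end Fermat.Agent.M14
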