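/-
S14, package AN4 (helper8): partial sums of the coefficients of the twisted L-series in terms of
the counting functions of the classes.
-/
import Mathlib
import Fermat.Agent.M14.An4Fiber

set_option autoImplicit false
set_option linter.unusedSectionVars false

namespace Fermat.Agent.M14

open Finset NumberField

variable {F : Type} [Field F] [NumberField F]

/-- The finset of nonzero ideals of norm at most `n`. -/
noncomputable def m14an4_le (F : Type) [Field F] [NumberField F] (n : ℕ) :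
    Finset (Ideal (𝓞 F)) :=
  (Finset.Icc 1 n).biUnion (m14an4_fib F)

theorem m14an4_mem_le {n : ℕ} {I : Ideal (𝓞 F)} :
    I ∈ m14an4_le F n ↔ I ≠ ⊥ ∧ Ideal.absNorm I ≤ n := by
  rw [m14an4_le, Finset.mem_biUnion]
  constructor
  · rintro ⟨k, hk, hI⟩
    rw [m14an4_mem_fib] at hI
    rw [Finset.mem_Icc] at hk
    refine ⟨?_, hI ▸ hk.2⟩
    intro h
    rw [h, Ideal.absNorm_bot] at hI
    omega
  · rintro ⟨h0, hn⟩
    refine ⟨Ideal.absNorm I, Finset.mem_Icc.mpr ⟨?_, hn⟩, m14an4_mem_fib.mpr rfl⟩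
    have : Ideal.absNorm I ≠ 0 := fun h => h0 (Ideal.absNorm_eq_zero_iff.mp h)
    omega

/-- Partial sums of the coefficients are sums over the ideals of bounded norm. -/
theorem m14an4_sum_coeff (c : Ideal (𝓞 F) → ℂ) (n : ℕ) :
    ∑ k ∈ Finset.Icc 1 n, m14an4_coeff c k = ∑ I ∈ m14an4_le F n, c I := by
  rw [m14an4_le, Finset.sum_biUnion]
  · rfl
  · intro a _ b _ hab
    rw [Function.onFun, Finset.disjoint_left]
    intro I hIa hIb
    exact hab ((m14an4_mem_fib.mp hIa).symm.trans (m14an4_mem_fib.mp hIb))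

variable {G : Type} [AddCommGroup G]

/-- The counting function of the class `g`: the number of nonzero ideals `I` coprime to `m` with
`χ I = g` and norm at most `x`. -/
noncomputable def m14an4_N (m : ℕ) (χ : Ideal (𝓞 F) → G) (g : G) (x : ℝ) : ℕ :=
  Nat.card {I : Ideal (𝓞 F) // I ≠ ⊥ ∧ IsCoprime I (Ideal.span {(m : 𝓞 F)}) ∧ χ I = g ∧
    (Ideal.absNorm I : ℝ) ≤ x}

open scoped Classical in
theorem m14an4_N_eq (m : ℕ) (χ : Ideal (𝓞 F) → G) (g : G) (n : ℕ) :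
    m14an4_N m χ g (n : ℝ) = ((m14an4_le F n).filter
      (fun I => IsCoprime I (Ideal.span {(m : 𝓞 F)}) ∧ χ I = g)).card := by
  rw [m14an4_N, ← Nat.card_eq_finsetCard]
  refine Nat.card_congr (Equiv.subtypeEquivRight fun I => ?_)
  simp only [Finset.mem_filter, m14an4_mem_le, Nat.cast_le]
  tauto

/-- The twisted coefficient function on ideals: `ψ (χ I)` on the nonzero ideals coprime to `m`,
zero elsewhere. -/
noncomputable def m14an4_c (m : ℕ) (χ : Ideal (𝓞 F) → G) (ψ : AddChar G ℂ)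
    (I : Ideal (𝓞 F)) : ℂ :=
  open scoped Classical in
  if I ≠ ⊥ ∧ IsCoprime I (Ideal.span {(m : 𝓞 F)}) then ψ (χ I) else 0

theorem m14an4_c_of (m : ℕ) (χ : Ideal (𝓞 F) → G) (ψ : AddChar G ℂ) {I : Ideal (𝓞 F)}
    (h0 : I ≠ ⊥) (h : IsCoprime I (Ideal.span {(m : 𝓞 F)})) :
    m14an4_c m χ ψ I = ψ (χ I) := by
  rw [m14an4_c, if_pos ⟨h0, h⟩]

theorem m14an4_c_of_not (m : ℕ) (χ : Ideal (𝓞 F) → G) (ψ : AddChar G ℂ) {I : Ideal (𝓞 F)}
    (h : ¬ IsCoprime I (Ideal.span {(m : 𝓞 F)})) :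
    m14an4_c m χ ψ I = 0 := by
  rw [m14an4_c, if_neg (fun h' => h h'.2)]

theorem m14an4_c_bot (m : ℕ) (χ : Ideal (𝓞 F) → G) (ψ : AddChar G ℂ) :
    m14an4_c m χ ψ ⊥ = 0 := by
  rw [m14an4_c, if_neg (fun h' => h'.1 rfl)]

theorem m14an4_norm_c_le [Finite G] (m : ℕ) (χ : Ideal (𝓞 F) → G) (ψ : AddChar G ℂ)
    (I : Ideal (𝓞 F)) : ‖m14an4_c m χ ψ I‖ ≤ 1 := by
  rw [m14an4_c]
  split_ifs
  · rw [AddChar.norm_apply]
  · simp

/-- Partial sums of the twisted coefficients in terms of the counting functions. -/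
theorem m14an4_sum_c [Fintype G] (m : ℕ) (χ : Ideal (𝓞 F) → G) (ψ : AddChar G ℂ) (n : ℕ) :
    ∑ k ∈ Finset.Icc 1 n, m14an4_coeff (m14an4_c m χ ψ) k
      = ∑ g : G, ψ g * (m14an4_N m χ g (n : ℝ) : ℂ) := by
  classical
  rw [m14an4_sum_coeff, ← Finset.sum_fiberwise (m14an4_le F n) χ]
  refine Finset.sum_congr rfl fun g _ => ?_
  rw [m14an4_N_eq, Finset.card_eq_sum_ones, Nat.cast_sum, Finset.mul_sum, Finset.sum_filter,
    Finset.sum_filter]
  refine Finset.sum_congr rfl fun I hI => ?_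
  have h0 : I ≠ ⊥ := (m14an4_mem_le.mp hI).1
  by_cases hg : χ I = g
  · by_cases hc : IsCoprime I (Ideal.span {(m : 𝓞 F)})
    · rw [if_pos hg, if_pos ⟨hc, hg⟩, m14an4_c_of m χ ψ h0 hc, hg]
      simp
    · rw [if_pos hg, if_neg (fun h => hc h.1), m14an4_c_of_not m χ ψ hc]
  · rw [if_neg hg, if_neg (fun h => hg h.2)]

end Fermat.Agent.M14
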