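/-
S14, package AN4 (helper8): bounds for the twisted L-series near `s = 1` from the counting
hypothesis (AN3).

`m14an4_Count m χ c C δ`: every class `g` contains `c x + O(x^(1-δ))` ideals of norm `≤ x`.
Then for real `s ∈ (1, 2]`:
* `‖L(s, ψ)‖ ≤ 2 |G| C / min δ 1` for every nontrivial character `ψ` (`m14an4_bound`);
* `‖L(s, ψ)‖ ≤ 2 |G| (|c| + C) / (s - 1)` for every character (`m14an4_bound_all`).
Here `L(s, ψ) = ∑'_I m14an4_term (m14an4_c m χ ψ) s I`.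
-/
import Mathlib
import Fermat.Agent.M14.An4Abel
import Fermat.Agent.M14.An4Count

set_option autoImplicit false
set_option linter.unusedSectionVars false

namespace Fermat.Agent.M14

open Finset NumberField

variable {F : Type} [Field F] [NumberField F] {G : Type} [AddCommGroup G]

/-- The counting hypothesis (output of AN3). -/
def m14an4_Count (m : ℕ) (χ : Ideal (𝓞 F) → G) (c C δ : ℝ) : Prop :=
  ∀ (g : G) (x : ℝ), 1 ≤ x → |(m14an4_N m χ g x : ℝ) - c * x| ≤ C * x ^ (1 - δ)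

theorem m14an4_Count_nonneg {m : ℕ} {χ : Ideal (𝓞 F) → G} {c C δ : ℝ}
    (h : m14an4_Count m χ c C δ) : 0 ≤ C := by
  have := h 0 1 le_rfl
  simp only [Real.one_rpow, mul_one] at this
  exact (abs_nonneg _).trans this

/-- Partial sums for a nontrivial character. -/
theorem m14an4_partial [Finite G] {m : ℕ} {χ : Ideal (𝓞 F) → G} {c C δ : ℝ}
    (hcount : m14an4_Count m χ c C δ) (ψ : AddChar G ℂ) (hψ : ψ ≠ 0) (n : ℕ) :
    ‖∑ k ∈ Finset.Icc 1 n, m14an4_coeff (m14an4_c m χ ψ) k‖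
      ≤ (Nat.card G * C) * (n : ℝ) ^ (1 - min δ 1) := by
  classical
  have : Fintype G := Fintype.ofFinite G
  have hC := m14an4_Count_nonneg hcount
  rcases Nat.eq_zero_or_pos n with hn | hn
  · subst hn
    simp only [Finset.Icc_eq_empty_of_lt Nat.zero_lt_one, Finset.sum_empty, norm_zero]
    exact mul_nonneg (mul_nonneg (Nat.cast_nonneg _) hC) (Real.rpow_nonneg (Nat.cast_nonneg _) _)
  have hn1 : (1 : ℝ) ≤ (n : ℝ) := by exact_mod_cast hn
  rw [m14an4_sum_c]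
  have h0 : ∑ g : G, ψ g = 0 := AddChar.sum_eq_zero_iff_ne_zero.mpr hψ
  have h1 : ∑ g : G, ψ g * (m14an4_N m χ g (n : ℝ) : ℂ)
      = ∑ g : G, ψ g * (((m14an4_N m χ g (n : ℝ) : ℝ) - c * (n : ℝ) : ℝ) : ℂ) := by
    have : ∑ g : G, ψ g * (((m14an4_N m χ g (n : ℝ) : ℝ) - c * (n : ℝ) : ℝ) : ℂ)
        = ∑ g : G, ψ g * (m14an4_N m χ g (n : ℝ) : ℂ) - (∑ g : G, ψ g) * ((c * n : ℝ) : ℂ) := by
      rw [Finset.sum_mul, ← Finset.sum_sub_distrib]
      refine Finset.sum_congr rfl fun g _ => ?_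
      push_cast
      ring
    rw [this, h0, zero_mul, sub_zero]
  rw [h1]
  refine (norm_sum_le _ _).trans ?_
  have h2 : ∀ g ∈ (Finset.univ : Finset G),
      ‖ψ g * (((m14an4_N m χ g (n : ℝ) : ℝ) - c * (n : ℝ) : ℝ) : ℂ)‖
        ≤ C * (n : ℝ) ^ (1 - min δ 1) := by
    intro g _
    rw [norm_mul, AddChar.norm_apply, one_mul, Complex.norm_real, Real.norm_eq_abs]
    refine (hcount g n hn1).trans (mul_le_mul_of_nonneg_left ?_ hC)
    exact Real.rpow_le_rpow_of_exponent_le hn1 (by linarith [min_le_left δ 1])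
  refine (Finset.sum_le_card_nsmul _ _ _ h2).trans ?_
  rw [Finset.card_univ, ← Nat.card_eq_fintype_card, nsmul_eq_mul, mul_assoc]

/-- Partial sums for an arbitrary character. -/
theorem m14an4_partial_all [Finite G] {m : ℕ} {χ : Ideal (𝓞 F) → G} {c C δ : ℝ} (hδ : 0 ≤ δ)
    (hcount : m14an4_Count m χ c C δ) (ψ : AddChar G ℂ) (n : ℕ) :
    ‖∑ k ∈ Finset.Icc 1 n, m14an4_coeff (m14an4_c m χ ψ) k‖
      ≤ (Nat.card G * (|c| + C)) * (n : ℝ) ^ (1 : ℝ) := by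
  classical
  have : Fintype G := Fintype.ofFinite G
  have hC := m14an4_Count_nonneg hcount
  rcases Nat.eq_zero_or_pos n with hn | hn
  · subst hn
    simp only [Finset.Icc_eq_empty_of_lt Nat.zero_lt_one, Finset.sum_empty, norm_zero]
    exact mul_nonneg (mul_nonneg (Nat.cast_nonneg _) (add_nonneg (abs_nonneg _) hC))
      (Real.rpow_nonneg (Nat.cast_nonneg _) _)
  have hn1 : (1 : ℝ) ≤ (n : ℝ) := by exact_mod_cast hn
  have hn0 : (0 : ℝ) ≤ (n : ℝ) := Nat.cast_nonneg n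
  rw [m14an4_sum_c]
  refine (norm_sum_le _ _).trans ?_
  have h2 : ∀ g ∈ (Finset.univ : Finset G),
      ‖ψ g * (m14an4_N m χ g (n : ℝ) : ℂ)‖ ≤ (|c| + C) * (n : ℝ) ^ (1 : ℝ) := by
    intro g _
    rw [norm_mul, AddChar.norm_apply, one_mul, Complex.norm_natCast, Real.rpow_one]
    have h3 := hcount g n hn1
    have h4 : (n : ℝ) ^ (1 - δ) ≤ (n : ℝ) := by
      calc (n : ℝ) ^ (1 - δ) ≤ (n : ℝ) ^ (1 : ℝ) :=
            Real.rpow_le_rpow_of_exponent_le hn1 (by linarith)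
        _ = n := Real.rpow_one _
    have h5 : (m14an4_N m χ g (n : ℝ) : ℝ) ≤ c * n + C * (n : ℝ) ^ (1 - δ) := by
      have := (abs_le.mp h3).2
      linarith
    have h6 : c * (n : ℝ) ≤ |c| * n := mul_le_mul_of_nonneg_right (le_abs_self c) hn0
    have h7 : C * (n : ℝ) ^ (1 - δ) ≤ C * n := mul_le_mul_of_nonneg_left h4 hC
    linarith
  refine (Finset.sum_le_card_nsmul _ _ _ h2).trans ?_
  rw [Finset.card_univ, ← Nat.card_eq_fintype_card, nsmul_eq_mul, mul_assoc]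

/-- Summability of the twisted terms from the summability of `N(I)^(-s)`. -/
theorem m14an4_summable_c [Finite G] (m : ℕ) (χ : Ideal (𝓞 F) → G) (ψ : AddChar G ℂ) {s : ℝ}
    (hZ : Summable fun I : Ideal (𝓞 F) => (Ideal.absNorm I : ℝ) ^ (-s)) :
    Summable fun I : Ideal (𝓞 F) => ‖m14an4_c m χ ψ I‖ * (Ideal.absNorm I : ℝ) ^ (-s) := by
  refine Summable.of_nonneg_of_le (fun I => mul_nonneg (norm_nonneg _)
    (Real.rpow_nonneg (Nat.cast_nonneg _) _)) (fun I => ?_) hZ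
  calc ‖m14an4_c m χ ψ I‖ * (Ideal.absNorm I : ℝ) ^ (-s)
      ≤ 1 * (Ideal.absNorm I : ℝ) ^ (-s) :=
        mul_le_mul_of_nonneg_right (m14an4_norm_c_le m χ ψ I)
          (Real.rpow_nonneg (Nat.cast_nonneg _) _)
    _ = (Ideal.absNorm I : ℝ) ^ (-s) := one_mul _

/-- **AN4, nontrivial characters**: `L(s, ψ)` is bounded on `(1, 2]`. -/
theorem m14an4_bound [Finite G] {m : ℕ} {χ : Ideal (𝓞 F) → G} {c C δ : ℝ} (hδ : 0 < δ)
    (hcount : m14an4_Count m χ c C δ) (ψ : AddChar G ℂ) (hψ : ψ ≠ 0)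
    {s : ℝ} (hs1 : 1 < s) (hs2 : s ≤ 2)
    (hZ : Summable fun I : Ideal (𝓞 F) => (Ideal.absNorm I : ℝ) ^ (-s)) :
    ‖∑' I : Ideal (𝓞 F), m14an4_term (m14an4_c m χ ψ) s I‖
      ≤ 2 * (Nat.card G * C) / min δ 1 := by
  have hC := m14an4_Count_nonneg hcount
  have hs0 : s ≠ 0 := by linarith
  obtain ⟨hL1, hL2⟩ := m14an4_LSeries_eq (m14an4_c m χ ψ) hs0 (m14an4_summable_c m χ ψ hZ)
  rw [← hL2]
  have hmin : 0 < min δ 1 := lt_min hδ one_pos
  have hr0 : (0 : ℝ) ≤ 1 - min δ 1 := by linarith [min_le_right δ 1]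
  have hK : (0 : ℝ) ≤ Nat.card G * C := mul_nonneg (Nat.cast_nonneg _) hC
  have h := m14an4_abel _ (Nat.card G * C) (1 - min δ 1) hr0 hK
    (m14an4_partial hcount ψ hψ) s (by linarith) hL1
  refine h.trans ?_
  have h1 : min δ 1 ≤ s - (1 - min δ 1) := by linarith
  have h2 : 0 < s - (1 - min δ 1) := by linarith
  rw [div_le_div_iff₀ h2 hmin]
  calc s * (Nat.card G * C) * min δ 1 ≤ 2 * (Nat.card G * C) * (s - (1 - min δ 1)) := by
        apply mul_le_mul _ h1 hmin.le (by positivity)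
        exact mul_le_mul_of_nonneg_right hs2 hK

/-- **AN4, all characters**: `(s - 1) L(s, ψ)` is bounded on `(1, 2]`. -/
theorem m14an4_bound_all [Finite G] {m : ℕ} {χ : Ideal (𝓞 F) → G} {c C δ : ℝ} (hδ : 0 ≤ δ)
    (hcount : m14an4_Count m χ c C δ) (ψ : AddChar G ℂ)
    {s : ℝ} (hs1 : 1 < s) (hs2 : s ≤ 2)
    (hZ : Summable fun I : Ideal (𝓞 F) => (Ideal.absNorm I : ℝ) ^ (-s)) :
    ‖∑' I : Ideal (𝓞 F), m14an4_term (m14an4_c m χ ψ) s I‖
      ≤ 2 * (Nat.card G * (|c| + C)) / (s - 1) := by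
  have hC := m14an4_Count_nonneg hcount
  have hs0 : s ≠ 0 := by linarith
  obtain ⟨hL1, hL2⟩ := m14an4_LSeries_eq (m14an4_c m χ ψ) hs0 (m14an4_summable_c m χ ψ hZ)
  rw [← hL2]
  have hK : (0 : ℝ) ≤ Nat.card G * (|c| + C) :=
    mul_nonneg (Nat.cast_nonneg _) (add_nonneg (abs_nonneg _) hC)
  have h := m14an4_abel _ (Nat.card G * (|c| + C)) 1 zero_le_one hK
    (m14an4_partial_all hδ hcount ψ) s hs1 hL1
  refine h.trans ?_
  have h2 : 0 < s - 1 := by linarith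
  exact div_le_div_of_nonneg_right (mul_le_mul_of_nonneg_right hs2 hK) h2.le

end Fermat.Agent.M14
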