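import Mathlib

/-!
# S14, package AN5: Euler products over the prime ideals of a Dedekind domain

For a completely multiplicative function `f : Ideal R →*₀ 𝕜` (`R` a Dedekind domain, `𝕜` a complete
normed field) with `‖f ·‖` summable:

`HasProd (fun v : HeightOneSpectrum R ↦ (1 - f v.asIdeal)⁻¹) (∑' I, f I)`.

The proof follows Mathlib's `EulerProduct` for `ℕ`, with the `T`-smooth ideals
(`m14an5_smooth T`, `T` a finite set of primes) in place of the factored numbers.
-/

set_option autoImplicit false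

namespace Fermat.Agent.M14

open IsDedekindDomain

open scoped Classical

noncomputable section

variable {R : Type*} [CommRing R] [IsDedekindDomain R]

/-- The nonzero ideals all of whose prime factors lie in `T`. -/
def m14an5_smooth (T : Finset (HeightOneSpectrum R)) : Set (Ideal R) :=
  {I | I ≠ ⊥ ∧ ∀ v : HeightOneSpectrum R, v.asIdeal ∣ I → v ∈ T}

omit [IsDedekindDomain R] in
theorem m14an5_mem_smooth {T : Finset (HeightOneSpectrum R)} {I : Ideal R} :
    I ∈ m14an5_smooth T ↔ I ≠ ⊥ ∧ ∀ v : HeightOneSpectrum R, v.asIdeal ∣ I → v ∈ T := Iff.rfl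

omit [IsDedekindDomain R] in
theorem m14an5_smooth_mono {T T' : Finset (HeightOneSpectrum R)} (h : T ⊆ T') :
    m14an5_smooth T ⊆ m14an5_smooth T' := fun _ hI => ⟨hI.1, fun v hv => h (hI.2 v hv)⟩

/-- A proper nonzero ideal has a prime factor. -/
theorem m14an5_exists_dvd {I : Ideal R} (h0 : I ≠ ⊥) (h1 : I ≠ ⊤) :
    ∃ v : HeightOneSpectrum R, v.asIdeal ∣ I := by
  obtain ⟨M, hM, hIM⟩ := Ideal.exists_le_maximal I h1
  have hM0 : M ≠ ⊥ := fun h => h0 (le_bot_iff.mp (h ▸ hIM))
  exact ⟨⟨M, hM.isPrime, hM0⟩, Ideal.dvd_iff_le.mpr hIM⟩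

theorem m14an5_not_dvd_top (v : HeightOneSpectrum R) : ¬ v.asIdeal ∣ (⊤ : Ideal R) := by
  intro h
  have := Ideal.dvd_iff_le.mp h
  exact v.isPrime.ne_top (top_le_iff.mp this)

theorem m14an5_smooth_empty :
    m14an5_smooth (∅ : Finset (HeightOneSpectrum R)) = {(⊤ : Ideal R)} := by
  ext I
  simp only [m14an5_mem_smooth, Finset.notMem_empty, imp_false, Set.mem_singleton_iff]
  constructor
  · rintro ⟨h0, h⟩
    by_contra h1
    obtain ⟨v, hv⟩ := m14an5_exists_dvd h0 h1
    exact h v hv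
  · rintro rfl
    exact ⟨top_ne_bot, fun v => m14an5_not_dvd_top v⟩

/-- The prime factors of a nonzero ideal, as a finite set. -/
theorem m14an5_finite_factors {I : Ideal R} (hI : I ≠ ⊥) :
    {v : HeightOneSpectrum R | v.asIdeal ∣ I}.Finite :=
  Ideal.finite_factors hI

/-- Every nonzero ideal is `T`-smooth for `T` large enough. -/
theorem m14an5_exists_smooth {I : Ideal R} (hI : I ≠ ⊥) :
    ∃ T : Finset (HeightOneSpectrum R), I ∈ m14an5_smooth T :=
  ⟨(m14an5_finite_factors hI).toFinset, hI, fun v hv => by simpa using hv⟩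

/-- The map `(e, I) ↦ v ^ e * I`. -/
def m14an5_mulPow (v : HeightOneSpectrum R) (T : Finset (HeightOneSpectrum R))
    (x : ℕ × m14an5_smooth T) : m14an5_smooth (insert v T) :=
  ⟨v.asIdeal ^ x.1 * (x.2 : Ideal R), by
    refine ⟨mul_ne_zero (pow_ne_zero _ v.ne_bot) x.2.2.1, fun w hw => ?_⟩
    rcases (w.prime.dvd_mul).mp hw with h | h
    · have h1 := w.prime.dvd_of_dvd_pow h
      have h2 : w = v := by
        have hle : v.asIdeal ≤ w.asIdeal := Ideal.dvd_iff_le.mp h1
        have hmax : v.asIdeal.IsMaximal := v.isMaximal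
        have := hmax.eq_of_le w.isPrime.ne_top hle
        exact HeightOneSpectrum.ext this.symm
      rw [h2]; exact Finset.mem_insert_self _ _
    · exact Finset.mem_insert_of_mem (x.2.2.2 w h)⟩

theorem m14an5_mulPow_coe (v : HeightOneSpectrum R) (T : Finset (HeightOneSpectrum R))
    (x : ℕ × m14an5_smooth T) :
    (m14an5_mulPow v T x : Ideal R) = v.asIdeal ^ x.1 * (x.2 : Ideal R) := rfl

theorem m14an5_mulPow_injective {v : HeightOneSpectrum R} {T : Finset (HeightOneSpectrum R)}
    (hv : v ∉ T) : Function.Injective (m14an5_mulPow v T) := by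
  have key : ∀ (e e' : ℕ) (I I' : m14an5_smooth T), e ≤ e' →
      v.asIdeal ^ e * (I : Ideal R) = v.asIdeal ^ e' * (I' : Ideal R) → e = e' ∧ I = I' := by
    intro e e' I I' hle h
    obtain ⟨d, rfl⟩ := Nat.exists_eq_add_of_le hle
    rw [pow_add, mul_assoc] at h
    have h1 : (I : Ideal R) = v.asIdeal ^ d * (I' : Ideal R) :=
      mul_left_cancel₀ (pow_ne_zero e v.ne_bot) h
    rcases Nat.eq_zero_or_pos d with rfl | hd
    · rw [pow_zero, one_mul] at h1
      exact ⟨rfl, Subtype.ext h1⟩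
    · exfalso
      apply hv
      apply I.2.2 v
      rw [h1]
      exact Dvd.dvd.mul_right (dvd_pow_self _ hd.ne') _
  rintro ⟨e, I⟩ ⟨e', I'⟩ h
  have h' : v.asIdeal ^ e * (I : Ideal R) = v.asIdeal ^ e' * (I' : Ideal R) :=
    congrArg Subtype.val h
  rcases le_total e e' with hle | hle
  · obtain ⟨h1, h2⟩ := key e e' I I' hle h'
    rw [h1, h2]
  · obtain ⟨h1, h2⟩ := key e' e I' I hle h'.symm
    rw [h1, h2]

theorem m14an5_mulPow_surjective {v : HeightOneSpectrum R} {T : Finset (HeightOneSpectrum R)}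
    (hv : v ∉ T) : Function.Surjective (m14an5_mulPow v T) := by
  rintro ⟨J, hJ0, hJ⟩
  obtain ⟨n, I, hnI, hJI⟩ := WfDvdMonoid.max_power_factor hJ0 v.irreducible
  have hI0 : I ≠ ⊥ := by
    rintro rfl
    exact hJ0 (by rw [hJI]; simp)
  have hIT : I ∈ m14an5_smooth T := by
    refine ⟨hI0, fun w hw => ?_⟩
    have h1 : w ∈ insert v T := hJ w (by rw [hJI]; exact Dvd.dvd.mul_left hw _)
    rcases Finset.mem_insert.mp h1 with rfl | h
    · exact absurd hw hnI
    · exact h
  exact ⟨(n, ⟨I, hIT⟩), Subtype.ext hJI.symm⟩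

/-- `ℕ × (T-smooth ideals) ≃ (insert v T)-smooth ideals`, for `v ∉ T`. -/
def m14an5_equiv {v : HeightOneSpectrum R} {T : Finset (HeightOneSpectrum R)} (hv : v ∉ T) :
    ℕ × m14an5_smooth T ≃ m14an5_smooth (insert v T) :=
  Equiv.ofBijective (m14an5_mulPow v T)
    ⟨m14an5_mulPow_injective hv, m14an5_mulPow_surjective hv⟩

theorem m14an5_equiv_apply {v : HeightOneSpectrum R} {T : Finset (HeightOneSpectrum R)}
    (hv : v ∉ T) (x : ℕ × m14an5_smooth T) :
    (m14an5_equiv hv x : Ideal R) = v.asIdeal ^ x.1 * (x.2 : Ideal R) := rfl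

section euler

variable {𝕜 : Type*} [NormedField 𝕜] [CompleteSpace 𝕜]

/-- The finite Euler product: the sum of `f` over the `T`-smooth ideals. -/
theorem m14an5_summable_and_hasSum_smooth (f : Ideal R →*₀ 𝕜)
    (h : ∀ v : HeightOneSpectrum R, ‖f v.asIdeal‖ < 1) (T : Finset (HeightOneSpectrum R)) :
    Summable (fun I : m14an5_smooth T => ‖f I‖) ∧
      HasSum (fun I : m14an5_smooth T => f I) (∏ v ∈ T, (1 - f v.asIdeal)⁻¹) := by
  induction T using Finset.induction with
  | empty =>
    rw [m14an5_smooth_empty]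
    simp only [Finset.prod_empty]
    have h1 : f (⊤ : Ideal R) = 1 := by
      rw [← Ideal.one_eq_top]; exact map_one f
    exact ⟨(Set.finite_singleton _).summable (fun I : Ideal R => ‖f I‖),
      h1 ▸ hasSum_singleton (⊤ : Ideal R) (fun I : Ideal R => f I)⟩
  | insert v T hv ih =>
    have hgeo : Summable (fun n : ℕ => ‖f v.asIdeal ^ n‖) := by
      refine Summable.of_nonneg_of_le (fun _ => norm_nonneg _) (fun _ => norm_pow_le _ _) ?_
      exact summable_geometric_of_lt_one (norm_nonneg _) (h v)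
    have hgeo' : HasSum (fun n : ℕ => f v.asIdeal ^ n) (1 - f v.asIdeal)⁻¹ :=
      hasSum_geometric_of_norm_lt_one (h v)
    constructor
    · rw [← (m14an5_equiv hv).summable_iff]
      simp only [Function.comp_def, m14an5_equiv_apply, map_mul, map_pow]
      refine Summable.of_nonneg_of_le (fun _ => norm_nonneg _) (fun _ => norm_mul_le _ _) ?_
      apply Summable.mul_of_nonneg hgeo ih.1 <;> exact fun n => norm_nonneg _
    · rw [Finset.prod_insert hv, ← (m14an5_equiv hv).hasSum_iff]
      simp only [Function.comp_def, m14an5_equiv_apply, map_mul, map_pow]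
      have : T3Space 𝕜 := inferInstance
      apply hgeo'.mul ih.2
      apply summable_mul_of_summable_norm hgeo ih.1

theorem m14an5_norm_lt_one (f : Ideal R →*₀ 𝕜) (hsum : Summable (fun I : Ideal R => ‖f I‖))
    (v : HeightOneSpectrum R) : ‖f v.asIdeal‖ < 1 := by
  refine summable_geometric_iff_norm_lt_one.mp ?_
  have hinj : Function.Injective (fun n : ℕ => v.asIdeal ^ n) :=
    pow_injective_of_not_isUnit v.irreducible.not_isUnit v.ne_bot
  have := (hsum.of_norm).comp_injective hinj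
  simpa only [Function.comp_def, map_pow] using this

/-- Summing over the `T`-smooth ideals, `T` large, approximates the full sum. -/
theorem m14an5_norm_tsum_sub_lt (f : Ideal R →*₀ 𝕜) (hsum : Summable (fun I : Ideal R => f I))
    {ε : ℝ} (hε : 0 < ε) :
    ∃ T₀ : Finset (HeightOneSpectrum R), ∀ T : Finset (HeightOneSpectrum R), T₀ ⊆ T →
      ‖(∑' I : Ideal R, f I) - ∑' I : m14an5_smooth T, f I‖ < ε := by
  obtain ⟨s, hs⟩ := hsum.tsum_vanishing (Metric.ball_mem_nhds (0 : 𝕜) hε)
  -- the prime factors of the nonzero ideals in `s`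
  let T₀ : Finset (HeightOneSpectrum R) :=
    s.biUnion fun I => if hI : I = ⊥ then ∅ else (m14an5_finite_factors hI).toFinset
  refine ⟨T₀, fun T hT => ?_⟩
  have hdisj : Disjoint ((m14an5_smooth T)ᶜ \ {⊥}) (s : Set (Ideal R)) := by
    rw [Set.disjoint_left]
    rintro I ⟨hI, hI0⟩ hIs
    apply hI
    have hI0' : I ≠ ⊥ := hI0
    refine ⟨hI0', fun v hv => hT ?_⟩
    refine Finset.mem_biUnion.mpr ⟨I, hIs, ?_⟩
    rw [dif_neg hI0']
    simpa using hv
  have h1 := hs _ hdisj
  rw [mem_ball_zero_iff] at h1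
  rw [← hsum.tsum_subtype_add_tsum_subtype_compl (m14an5_smooth T), add_sub_cancel_left,
    tsum_eq_tsum_sdiff_singleton (m14an5_smooth T)ᶜ (map_zero f)]
  exact h1

/-- **Euler product** for completely multiplicative functions on the ideals of a Dedekind
domain. -/
theorem m14an5_eulerProduct_hasProd (f : Ideal R →*₀ 𝕜)
    (hsum : Summable (fun I : Ideal R => ‖f I‖)) :
    HasProd (fun v : HeightOneSpectrum R => (1 - f v.asIdeal)⁻¹) (∑' I : Ideal R, f I) := by
  rw [HasProd, SummationFilter.unconditional, Metric.tendsto_atTop]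
  intro ε hε
  obtain ⟨T₀, hT₀⟩ := m14an5_norm_tsum_sub_lt f hsum.of_norm hε
  refine ⟨T₀, fun T hT => ?_⟩
  rw [dist_eq_norm,
    ← (m14an5_summable_and_hasSum_smooth f (m14an5_norm_lt_one f hsum) T).2.tsum_eq, norm_sub_rev]
  exact hT₀ T hT

/-- The partial Euler products converge to the sum. -/
theorem m14an5_tendsto_prod (f : Ideal R →*₀ 𝕜) (hsum : Summable (fun I : Ideal R => ‖f I‖)) :
    Filter.Tendsto (fun T : Finset (HeightOneSpectrum R) => ∏ v ∈ T, (1 - f v.asIdeal)⁻¹)
      Filter.atTop (nhds (∑' I : Ideal R, f I)) :=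
  m14an5_eulerProduct_hasProd f hsum

/-- The sum over the `T`-smooth ideals is the partial Euler product. -/
theorem m14an5_tsum_smooth (f : Ideal R →*₀ 𝕜) (hsum : Summable (fun I : Ideal R => ‖f I‖))
    (T : Finset (HeightOneSpectrum R)) :
    ∑' I : m14an5_smooth T, f I = ∏ v ∈ T, (1 - f v.asIdeal)⁻¹ :=
  (m14an5_summable_and_hasSum_smooth f (m14an5_norm_lt_one f hsum) T).2.tsum_eq

end euler

end

end Fermat.Agent.M14
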