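import Mathlib
import Fermat.Agent.M14.An5Euler

/-!
# S14, AN5b — the Dedekind zeta function as a sum over ideals (prefix `m14an5z_`)

For a number field `F` and real `s > 1`:

* `m14an5z_f F s : Ideal (𝓞 F) →*₀ ℝ`, `I ↦ N(I) ^ (-s)` (and `⊥ ↦ 0`);
* `m14an5z_summable`: `I ↦ N(I) ^ (-s)` is summable;
* `m14an5z_Z F s = ∑' I, N(I) ^ (-s)` and `m14an5z_Z_eq : (Z s : ℂ) = dedekindZeta F s`;
* `m14an5z_lower`, `m14an5z_upper`: `c / (s - 1) ≤ Z s ≤ C / (s - 1)` on `(1, 2]`.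
-/

set_option autoImplicit false

noncomputable section

namespace Fermat.Agent.M14

open NumberField Filter Topology IsDedekindDomain

open scoped Classical

section

variable (F : Type*) [Field F] [NumberField F]

/-- `I ↦ N(I) ^ (-s)` (and `⊥ ↦ 0`) as a monoid-with-zero homomorphism. -/
def m14an5z_f (s : ℝ) : Ideal (𝓞 F) →*₀ ℝ where
  toFun I := if I = ⊥ then 0 else ((Ideal.absNorm I : ℕ) : ℝ) ^ (-s)
  map_zero' := by
    rw [Ideal.zero_eq_bot, if_pos rfl]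
  map_one' := by
    rw [Ideal.one_eq_top, if_neg top_ne_bot, Ideal.absNorm_top, Nat.cast_one, Real.one_rpow]
  map_mul' I J := by
    by_cases hI : I = ⊥
    · rw [hI, Ideal.bot_mul, if_pos rfl, zero_mul]
    by_cases hJ : J = ⊥
    · rw [hJ, Ideal.mul_bot, if_pos rfl, mul_zero]
    have hIJ : I * J ≠ ⊥ := by
      rw [← Ideal.zero_eq_bot]
      exact mul_ne_zero hI hJ
    rw [if_neg hI, if_neg hJ, if_neg hIJ, map_mul, Nat.cast_mul,
      Real.mul_rpow (Nat.cast_nonneg _) (Nat.cast_nonneg _)]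

theorem m14an5z_f_apply (s : ℝ) (I : Ideal (𝓞 F)) :
    m14an5z_f F s I = if I = ⊥ then 0 else ((Ideal.absNorm I : ℕ) : ℝ) ^ (-s) := rfl

theorem m14an5z_f_of_ne (s : ℝ) {I : Ideal (𝓞 F)} (hI : I ≠ ⊥) :
    m14an5z_f F s I = ((Ideal.absNorm I : ℕ) : ℝ) ^ (-s) := by
  rw [m14an5z_f_apply, if_neg hI]

theorem m14an5z_f_bot (s : ℝ) : m14an5z_f F s ⊥ = 0 := by
  rw [m14an5z_f_apply, if_pos rfl]

theorem m14an5z_f_nonneg (s : ℝ) (I : Ideal (𝓞 F)) : 0 ≤ m14an5z_f F s I := by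
  rw [m14an5z_f_apply]
  split_ifs
  · exact le_rfl
  · exact Real.rpow_nonneg (Nat.cast_nonneg _) _

theorem m14an5z_absNorm_pos {I : Ideal (𝓞 F)} (hI : I ≠ ⊥) : 0 < Ideal.absNorm I :=
  Nat.pos_of_ne_zero fun h => hI (Ideal.absNorm_eq_zero_iff.mp h)

theorem m14an5z_f_pos (s : ℝ) {I : Ideal (𝓞 F)} (hI : I ≠ ⊥) : 0 < m14an5z_f F s I := by
  rw [m14an5z_f_of_ne F s hI]
  exact Real.rpow_pos_of_pos (Nat.cast_pos.mpr (m14an5z_absNorm_pos F hI)) _

/-- the number of ideals of norm `n`. -/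
def m14an5z_a (n : ℕ) : ℕ := Nat.card {I : Ideal (𝓞 F) // Ideal.absNorm I = n}

theorem m14an5z_dedekindZeta (s : ℂ) :
    dedekindZeta F s = LSeries (fun n => (m14an5z_a F n : ℂ)) s := rfl

/-- The asymptotic count of ideals (from Mathlib's proof of the class number formula). -/
theorem m14an5z_tendsto_count :
    Tendsto (fun n : ℕ => (∑ k ∈ Finset.Icc 1 n, (m14an5z_a F k : ℝ)) / (n : ℝ)) atTop
      (𝓝 (dedekindZeta_residue F)) := by
  refine ((Ideal.tendsto_norm_le_div_atTop₀ F).comp tendsto_natCast_atTop_atTop).congr fun n ↦ ?_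
  simp only [Function.comp_apply, Nat.cast_le, ← Nat.cast_sum, m14an5z_a]
  congr
  rw [← add_left_inj 1, ← Ideal.card_norm_le_eq_card_norm_le_add_one,
    show Finset.Icc 1 n = Finset.Ioc 0 n from Finset.Icc_succ_left_eq_Ioc _ _,
    show 1 = Nat.card {I : Ideal (𝓞 F) // Ideal.absNorm I = 0} by
      simp [Ideal.absNorm_eq_zero_iff],
    Finset.sum_Ioc_add_eq_sum_Icc (n.zero_le),
    ← Finset.card_preimage_eq_sum_card_image_eq
      (fun k _ ↦ Ideal.finite_setOfPred_absNorm_eq k)]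
  simp [Set.coe_eq_subtype]

theorem m14an5z_lseriesSummable {s : ℝ} (hs : 1 < s) :
    LSeriesSummable (fun n => (m14an5z_a F n : ℂ)) s := by
  have h := LSeriesSummable_of_sum_norm_bigO_and_nonneg (f := fun n => (m14an5z_a F n : ℝ))
    (r := 1) (s := (s : ℂ)) ?_ (fun n => Nat.cast_nonneg _) zero_le_one
    (by simpa using hs)
  · simpa using h
  · exact Asymptotics.isBigO_atTop_natCast_rpow_of_tendsto_div_rpow
      (by simpa using m14an5z_tendsto_count F)

/-- the real term of the Dedekind zeta series -/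
def m14an5z_t (s : ℝ) (n : ℕ) : ℝ := if n = 0 then 0 else (m14an5z_a F n : ℝ) * (n : ℝ) ^ (-s)

theorem m14an5z_t_nonneg (s : ℝ) (n : ℕ) : 0 ≤ m14an5z_t F s n := by
  rw [m14an5z_t]
  split_ifs
  · exact le_rfl
  · exact mul_nonneg (Nat.cast_nonneg _) (Real.rpow_nonneg (Nat.cast_nonneg _) _)

theorem m14an5z_term (s : ℝ) (n : ℕ) :
    LSeries.term (fun n => (m14an5z_a F n : ℂ)) s n = ((m14an5z_t F s n : ℝ) : ℂ) := by
  rw [LSeries.term_def, m14an5z_t]
  split_ifs with h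
  · rw [Complex.ofReal_zero]
  · rw [Complex.ofReal_mul, Complex.ofReal_natCast, Complex.ofReal_cpow (Nat.cast_nonneg _),
      Complex.ofReal_neg, Complex.cpow_neg, Complex.ofReal_natCast, div_eq_mul_inv]

theorem m14an5z_summable_t {s : ℝ} (hs : 1 < s) : Summable (m14an5z_t F s) := by
  have h := m14an5z_lseriesSummable F hs
  rw [LSeriesSummable] at h
  have h2 : LSeries.term (fun n => (m14an5z_a F n : ℂ)) s =
      fun n => ((m14an5z_t F s n : ℝ) : ℂ) := funext (m14an5z_term F s)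
  rw [h2] at h
  exact Complex.summable_ofReal.mp h

theorem m14an5z_tsum_t {s : ℝ} (_hs : 1 < s) :
    ((∑' n, m14an5z_t F s n : ℝ) : ℂ) = dedekindZeta F s := by
  rw [m14an5z_dedekindZeta, LSeries, Complex.ofReal_tsum]
  exact tsum_congr fun n => (m14an5z_term F s n).symm

/-- the sum of `N(I)^(-s)` over the ideals of norm `n`. -/
theorem m14an5z_fibre_tsum (s : ℝ) (n : ℕ) :
    ∑' y : {I : Ideal (𝓞 F) // Ideal.absNorm I = n}, m14an5z_f F s (y : Ideal (𝓞 F)) =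
      m14an5z_t F s n := by
  rw [m14an5z_t]
  split_ifs with h
  · have : ∀ y : {I : Ideal (𝓞 F) // Ideal.absNorm I = n},
        m14an5z_f F s (y : Ideal (𝓞 F)) = 0 := by
      intro y
      have hy : (y : Ideal (𝓞 F)) = ⊥ := Ideal.absNorm_eq_zero_iff.mp (y.2.trans h)
      rw [hy, m14an5z_f_bot]
    simp only [this, tsum_zero]
  · have : ∀ y : {I : Ideal (𝓞 F) // Ideal.absNorm I = n},
        m14an5z_f F s (y : Ideal (𝓞 F)) = (n : ℝ) ^ (-s) := by
      intro y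
      have hy : (y : Ideal (𝓞 F)) ≠ ⊥ := fun h0 =>
        h (by rw [← y.2, h0, Ideal.absNorm_bot])
      rw [m14an5z_f_of_ne F s hy, y.2]
    simp only [this, tsum_const, nsmul_eq_mul]
    rfl

theorem m14an5z_fibre_summable (s : ℝ) (n : ℕ) :
    Summable fun y : {I : Ideal (𝓞 F) // Ideal.absNorm I = n} =>
      m14an5z_f F s (y : Ideal (𝓞 F)) := by
  have : Finite {I : Ideal (𝓞 F) // Ideal.absNorm I = n} :=
    (Ideal.finite_setOfPred_absNorm_eq (S := 𝓞 F) n).to_subtype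
  exact Summable.of_finite

/-- the fibration of the ideals by their norm. -/
def m14an5z_e : (Σ n : ℕ, {I : Ideal (𝓞 F) // Ideal.absNorm I = n}) ≃ Ideal (𝓞 F) :=
  Equiv.sigmaFiberEquiv (fun I : Ideal (𝓞 F) => Ideal.absNorm I)

theorem m14an5z_e_apply (n : ℕ) (y : {I : Ideal (𝓞 F) // Ideal.absNorm I = n}) :
    m14an5z_e F ⟨n, y⟩ = (y : Ideal (𝓞 F)) := rfl

theorem m14an5z_summable_sigma {s : ℝ} (hs : 1 < s) :
    Summable (fun x : (Σ n : ℕ, {I : Ideal (𝓞 F) // Ideal.absNorm I = n}) =>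
      m14an5z_f F s (m14an5z_e F x)) := by
  refine (summable_sigma_of_nonneg (fun x => m14an5z_f_nonneg F s _)).mpr ⟨?_, ?_⟩
  · intro n
    exact m14an5z_fibre_summable F s n
  · refine (m14an5z_summable_t F hs).congr fun n => ?_
    exact (m14an5z_fibre_tsum F s n).symm

/-- **AN5b (i)**: `I ↦ N(I) ^ (-s)` is summable for `s > 1`. -/
theorem m14an5z_summable {s : ℝ} (hs : 1 < s) :
    Summable (fun I : Ideal (𝓞 F) => m14an5z_f F s I) :=
  (m14an5z_e F).summable_iff.mp (m14an5z_summable_sigma F hs)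

/-- the Dedekind zeta function at real `s` as a sum over ideals. -/
def m14an5z_Z (s : ℝ) : ℝ := ∑' I : Ideal (𝓞 F), m14an5z_f F s I

theorem m14an5z_Z_eq_tsum_t {s : ℝ} (hs : 1 < s) : m14an5z_Z F s = ∑' n, m14an5z_t F s n := by
  have h1 : m14an5z_Z F s =
      ∑' x : (Σ n : ℕ, {I : Ideal (𝓞 F) // Ideal.absNorm I = n}),
        m14an5z_f F s (m14an5z_e F x) :=
    ((m14an5z_e F).tsum_eq (fun I : Ideal (𝓞 F) => m14an5z_f F s I)).symm
  rw [h1, Summable.tsum_sigma' (fun n => m14an5z_fibre_summable F s n)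
    (m14an5z_summable_sigma F hs)]
  exact tsum_congr fun n => m14an5z_fibre_tsum F s n

/-- **AN5b (ii)**. -/
theorem m14an5z_Z_eq {s : ℝ} (hs : 1 < s) : ((m14an5z_Z F s : ℝ) : ℂ) = dedekindZeta F s := by
  rw [m14an5z_Z_eq_tsum_t F hs, m14an5z_tsum_t F hs]

theorem m14an5z_f_top (s : ℝ) : m14an5z_f F s ⊤ = 1 := by
  rw [← Ideal.one_eq_top]
  exact map_one _

theorem m14an5z_one_le_Z {s : ℝ} (hs : 1 < s) : 1 ≤ m14an5z_Z F s := by
  have h := (m14an5z_summable F hs).le_tsum ⊤ (fun j _ => m14an5z_f_nonneg F s j)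
  rw [m14an5z_f_top] at h
  exact h

theorem m14an5z_Z_pos {s : ℝ} (hs : 1 < s) : 0 < m14an5z_Z F s :=
  lt_of_lt_of_le one_pos (m14an5z_one_le_Z F hs)

/-- `N(I)^(-s)` is antitone in `s`. -/
theorem m14an5z_f_antitone {a b : ℝ} (hab : a ≤ b) (I : Ideal (𝓞 F)) :
    m14an5z_f F b I ≤ m14an5z_f F a I := by
  by_cases hI : I = ⊥
  · rw [hI, m14an5z_f_bot, m14an5z_f_bot]
  · rw [m14an5z_f_of_ne F b hI, m14an5z_f_of_ne F a hI]
    apply Real.rpow_le_rpow_of_exponent_le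
    · exact_mod_cast m14an5z_absNorm_pos F hI
    · exact neg_le_neg hab

theorem m14an5z_Z_antitone {a b : ℝ} (ha : 1 < a) (hab : a ≤ b) :
    m14an5z_Z F b ≤ m14an5z_Z F a :=
  (m14an5z_summable F (lt_of_lt_of_le ha hab)).tsum_le_tsum (m14an5z_f_antitone F hab)
    (m14an5z_summable F ha)

/-- the class number formula for the sum over ideals. -/
theorem m14an5z_tendsto :
    Tendsto (fun s : ℝ => (s - 1) * m14an5z_Z F s) (𝓝[>] 1) (𝓝 (dedekindZeta_residue F)) := by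
  have h := tendsto_sub_one_mul_dedekindZeta_nhdsGT F
  have h2 : Tendsto (fun s : ℝ => (((s - 1) * m14an5z_Z F s : ℝ) : ℂ)) (𝓝[>] 1)
      (𝓝 ((dedekindZeta_residue F : ℝ) : ℂ)) := by
    refine h.congr' ?_
    filter_upwards [self_mem_nhdsWithin] with s hs
    rw [Complex.ofReal_mul, Complex.ofReal_sub, Complex.ofReal_one, m14an5z_Z_eq F hs]
  have h3 := (Complex.continuous_re.tendsto _).comp h2
  rw [Complex.ofReal_re] at h3
  refine h3.congr fun s => ?_
  rw [Function.comp_apply, Complex.ofReal_re]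

/-- **AN5b (iii), lower bound** (for all `s > 1`). -/
theorem m14an5z_lower' : ∃ c : ℝ, 0 < c ∧ ∀ s : ℝ, 1 < s → c / (s - 1) ≤ m14an5z_Z F s := by
  have hρ := dedekindZeta_residue_pos F
  have hev := (m14an5z_tendsto F).eventually_const_lt (half_lt_self hρ)
  obtain ⟨u, hu, hsub⟩ := mem_nhdsGT_iff_exists_Ioo_subset.mp hev
  have hu1 : (1 : ℝ) < u := hu
  refine ⟨min (dedekindZeta_residue F / 2) (u - 1), lt_min (half_pos hρ) (sub_pos.mpr hu1), ?_⟩
  intro s hs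
  have hs0 : 0 < s - 1 := sub_pos.mpr hs
  rw [div_le_iff₀ hs0]
  by_cases hsu : s < u
  · have h1 : dedekindZeta_residue F / 2 < (s - 1) * m14an5z_Z F s := hsub ⟨hs, hsu⟩
    calc min (dedekindZeta_residue F / 2) (u - 1) ≤ dedekindZeta_residue F / 2 := min_le_left _ _
      _ ≤ (s - 1) * m14an5z_Z F s := h1.le
      _ = m14an5z_Z F s * (s - 1) := mul_comm _ _
  · have h1 : u - 1 ≤ s - 1 := by linarith [not_lt.mp hsu]
    have h2 := m14an5z_one_le_Z F hs
    calc min (dedekindZeta_residue F / 2) (u - 1) ≤ u - 1 := min_le_right _ _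
      _ ≤ s - 1 := h1
      _ = 1 * (s - 1) := (one_mul _).symm
      _ ≤ m14an5z_Z F s * (s - 1) := mul_le_mul_of_nonneg_right h2 hs0.le

/-- **AN5b (iii), lower bound** on `(1, 2]`. -/
theorem m14an5z_lower :
    ∃ c : ℝ, 0 < c ∧ ∀ s : ℝ, 1 < s → s ≤ 2 → c / (s - 1) ≤ m14an5z_Z F s := by
  obtain ⟨c, hc, h⟩ := m14an5z_lower' F
  exact ⟨c, hc, fun s hs _ => h s hs⟩

/-- **AN5b (iii), upper bound** on `(1, 2]`. -/
theorem m14an5z_upper :
    ∃ C : ℝ, 0 < C ∧ ∀ s : ℝ, 1 < s → s ≤ 2 → m14an5z_Z F s ≤ C / (s - 1) := by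
  have hρ := dedekindZeta_residue_pos F
  have hev := (m14an5z_tendsto F).eventually_lt_const (lt_add_one (dedekindZeta_residue F))
  obtain ⟨u, hu, hsub⟩ := mem_nhdsGT_iff_exists_Ioo_subset.mp hev
  have hu1 : (1 : ℝ) < u := hu
  have ha1 : (1 : ℝ) < (1 + u) / 2 := by linarith
  have hau : (1 + u) / 2 < u := by linarith
  have hZa := m14an5z_Z_pos F ha1
  refine ⟨max (dedekindZeta_residue F + 1) (m14an5z_Z F ((1 + u) / 2)),
    lt_max_of_lt_left (by linarith), ?_⟩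
  intro s hs hs2
  have hs0 : 0 < s - 1 := sub_pos.mpr hs
  rw [le_div_iff₀ hs0]
  by_cases hsa : s < (1 + u) / 2
  · have h1 : (s - 1) * m14an5z_Z F s < dedekindZeta_residue F + 1 :=
      hsub ⟨hs, hsa.trans hau⟩
    calc m14an5z_Z F s * (s - 1) = (s - 1) * m14an5z_Z F s := mul_comm _ _
      _ ≤ dedekindZeta_residue F + 1 := h1.le
      _ ≤ _ := le_max_left _ _
  · have h1 := m14an5z_Z_antitone F ha1 (not_lt.mp hsa)
    have h2 : s - 1 ≤ 1 := by linarith
    calc m14an5z_Z F s * (s - 1) ≤ m14an5z_Z F s * 1 :=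
          mul_le_mul_of_nonneg_left h2 (m14an5z_Z_pos F hs).le
      _ = m14an5z_Z F s := mul_one _
      _ ≤ m14an5z_Z F ((1 + u) / 2) := h1
      _ ≤ _ := le_max_right _ _

/-- the sum over the nonzero ideals (subtype form). -/
theorem m14an5z_summable_subtype {s : ℝ} (hs : 1 < s) :
    Summable fun I : {I : Ideal (𝓞 F) // I ≠ ⊥} =>
      ((Ideal.absNorm (I : Ideal (𝓞 F)) : ℕ) : ℝ) ^ (-s) := by
  have h := (m14an5z_summable F hs).comp_injective
    (Subtype.val_injective (p := fun I : Ideal (𝓞 F) => I ≠ ⊥))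
  refine h.congr fun I => ?_
  simp only [Function.comp_apply]
  rw [m14an5z_f_of_ne F s I.2]

theorem m14an5z_Z_eq_subtype (s : ℝ) :
    m14an5z_Z F s =
      ∑' I : {I : Ideal (𝓞 F) // I ≠ ⊥}, ((Ideal.absNorm (I : Ideal (𝓞 F)) : ℕ) : ℝ) ^ (-s) := by
  have hinj : Function.Injective (Subtype.val : {I : Ideal (𝓞 F) // I ≠ ⊥} → Ideal (𝓞 F)) :=
    Subtype.val_injective
  rw [m14an5z_Z, ← hinj.tsum_eq]
  · refine tsum_congr fun I => ?_
    rw [m14an5z_f_of_ne F s I.2]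
  · intro I hI
    rw [Function.mem_support] at hI
    by_contra h
    apply hI
    have hI' : I = ⊥ := by
      by_contra h'
      exact h ⟨⟨I, h'⟩, rfl⟩
    rw [hI', m14an5z_f_bot]

end

end Fermat.Agent.M14

end
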