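import Mathlib
import Fermat.Agent.M14.An5Zeta

/-!
# S14, AN5c — comparison of Dedekind zeta functions near `s = 1` (prefix `m14an5d_`)

`m14an5d_false`: for number fields `F`, `M` there is no `n ≥ 2` and `B` with
`Z_F(s) ^ n ≤ B * Z_M(s)` for all `s ∈ (1, 2]` (both have a simple pole at `s = 1`).
More generally `m14an5d_le`: `Z_F(s) ^ a ≤ B * Z_M(s) ^ b` on `(1, 2]` forces `a ≤ b`.
-/

set_option autoImplicit false

noncomputable section

namespace Fermat.Agent.M14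

open NumberField Filter Topology

section

variable (F : Type*) [Field F] [NumberField F] (M : Type*) [Field M] [NumberField M]

/-- If `Z_F(s) ^ a ≤ B * Z_M(s) ^ b` for all `s ∈ (1, 2]`, then `a ≤ b`. -/
theorem m14an5d_le (a b : ℕ) (B : ℝ)
    (h : ∀ s : ℝ, 1 < s → s ≤ 2 → m14an5z_Z F s ^ a ≤ B * m14an5z_Z M s ^ b) : a ≤ b := by
  by_contra hab
  rw [not_le] at hab
  obtain ⟨c, hc, hlow⟩ := m14an5z_lower' F
  obtain ⟨C, hC, hup⟩ := m14an5z_upper M
  -- for `t = s - 1 ∈ (0, 1]`: `c ^ a ≤ B * C ^ b * t ^ (a - b)`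
  have key : ∀ t : ℝ, 0 < t → t ≤ 1 → c ^ a ≤ B * C ^ b * t ^ (a - b) := by
    intro t ht ht1
    have hs1 : (1 : ℝ) < 1 + t := by linarith
    have hs2 : 1 + t ≤ 2 := by linarith
    have h1 := hlow (1 + t) hs1
    have h2 := hup (1 + t) hs1 hs2
    have h3 := h (1 + t) hs1 hs2
    rw [add_sub_cancel_left] at h1 h2
    have hZF : 0 ≤ m14an5z_Z F (1 + t) := (m14an5z_Z_pos F hs1).le
    have hZM : 0 ≤ m14an5z_Z M (1 + t) := (m14an5z_Z_pos M hs1).le
    have h4 : (c / t) ^ a ≤ m14an5z_Z F (1 + t) ^ a :=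
      pow_le_pow_left₀ (div_pos hc ht).le h1 a
    have h5 : m14an5z_Z M (1 + t) ^ b ≤ (C / t) ^ b := pow_le_pow_left₀ hZM h2 b
    have hB : 0 ≤ B := by
      by_contra hB
      rw [not_le] at hB
      have h6 : B * m14an5z_Z M (1 + t) ^ b ≤ 0 :=
        mul_nonpos_of_nonpos_of_nonneg hB.le (pow_nonneg hZM b)
      have h7 : 0 < m14an5z_Z F (1 + t) ^ a := pow_pos (m14an5z_Z_pos F hs1) a
      linarith
    have h8 : (c / t) ^ a ≤ B * (C / t) ^ b :=
      h4.trans (h3.trans (mul_le_mul_of_nonneg_left h5 hB))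
    rw [div_pow, div_pow] at h8
    have hta : 0 < t ^ a := pow_pos ht a
    have htb : 0 < t ^ b := pow_pos ht b
    have h9 : c ^ a = c ^ a / t ^ a * t ^ a := by field_simp
    have h10 : t ^ a = t ^ b * t ^ (a - b) := by
      rw [← pow_add, Nat.add_sub_cancel' hab.le]
    calc c ^ a = c ^ a / t ^ a * t ^ a := h9
      _ ≤ B * (C ^ b / t ^ b) * t ^ a := mul_le_mul_of_nonneg_right h8 hta.le
      _ = B * C ^ b * t ^ (a - b) := by
        rw [h10]
        field_simp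
  -- let `t → 0`
  have hpos : 0 < c ^ a := pow_pos hc a
  have hBC : 0 < B * C ^ b := by
    by_contra hBC
    rw [not_lt] at hBC
    have := key 1 one_pos le_rfl
    rw [one_pow, mul_one] at this
    linarith
  have hd : 0 < a - b := Nat.sub_pos_of_lt hab
  -- choose `t` with `t ^ (a - b) ≤ t < c ^ a / (B * C ^ b)`
  set t : ℝ := min 1 (c ^ a / (2 * (B * C ^ b))) with ht_def
  have ht0 : 0 < t := lt_min one_pos (div_pos hpos (by positivity))
  have ht1 : t ≤ 1 := min_le_left _ _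
  have h1 := key t ht0 ht1
  have h2 : t ^ (a - b) ≤ t := by
    calc t ^ (a - b) ≤ t ^ 1 := pow_le_pow_of_le_one ht0.le ht1 hd
      _ = t := pow_one t
  have h3 : t ≤ c ^ a / (2 * (B * C ^ b)) := min_le_right _ _
  have h4 : B * C ^ b * t ^ (a - b) ≤ B * C ^ b * (c ^ a / (2 * (B * C ^ b))) :=
    mul_le_mul_of_nonneg_left (h2.trans h3) hBC.le
  have h5 : B * C ^ b * (c ^ a / (2 * (B * C ^ b))) = c ^ a / 2 := by
    have hne : B * C ^ b ≠ 0 := hBC.ne'
    rw [mul_div_assoc', mul_comm (B * C ^ b) (c ^ a), mul_div_mul_right _ _ hne]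
  rw [h5] at h4
  linarith

/-- There is no `n ≥ 2` with `Z_F(s) ^ n ≤ B * Z_M(s)` on `(1, 2]`. -/
theorem m14an5d_false (n : ℕ) (hn : 2 ≤ n) (B : ℝ)
    (h : ∀ s : ℝ, 1 < s → s ≤ 2 → m14an5z_Z F s ^ n ≤ B * m14an5z_Z M s) : False := by
  have := m14an5d_le F M n 1 B (fun s hs hs2 => by rw [pow_one]; exact h s hs hs2)
  omega

end

end Fermat.Agent.M14

end
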