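import Mathlib
import Fermat.Agent.M14.An5Euler

/-!
# S14, AN5 — the Euler product over ideals in exponential/logarithmic form (prefix `m14an5_`)

`m14an5_exp_tsum_log`: for a function `f` on the ideals of a Dedekind domain which is
completely multiplicative on nonzero ideals and absolutely summable,
`exp (∑' 𝔭, -log (1 - f 𝔭)) = ∑' I ≠ ⊥, f I`.
-/

set_option autoImplicit false

noncomputable section

namespace Fermat.Agent.M14

open IsDedekindDomain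

open scoped Classical

section

variable {R : Type*} [CommRing R] [IsDedekindDomain R]

/-- the extension by zero of a function which is multiplicative on nonzero ideals. -/
def m14an5_ext (f : Ideal R → ℂ) (h1 : f ⊤ = 1)
    (hmul : ∀ I J : Ideal R, I ≠ ⊥ → J ≠ ⊥ → f (I * J) = f I * f J) : Ideal R →*₀ ℂ where
  toFun I := if I = ⊥ then 0 else f I
  map_zero' := by
    rw [Ideal.zero_eq_bot, if_pos rfl]
  map_one' := by
    rw [Ideal.one_eq_top, if_neg top_ne_bot, h1]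
  map_mul' I J := by
    by_cases hI : I = ⊥
    · rw [hI, Ideal.bot_mul, if_pos rfl, zero_mul]
    by_cases hJ : J = ⊥
    · rw [hJ, Ideal.mul_bot, if_pos rfl, mul_zero]
    have hIJ : I * J ≠ ⊥ := by
      rw [← Ideal.zero_eq_bot]
      exact mul_ne_zero hI hJ
    rw [if_neg hI, if_neg hJ, if_neg hIJ, hmul I J hI hJ]

theorem m14an5_ext_apply (f : Ideal R → ℂ) (h1 : f ⊤ = 1)
    (hmul : ∀ I J : Ideal R, I ≠ ⊥ → J ≠ ⊥ → f (I * J) = f I * f J) (I : Ideal R) :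
    m14an5_ext f h1 hmul I = if I = ⊥ then 0 else f I := rfl

theorem m14an5_ext_of_ne (f : Ideal R → ℂ) (h1 : f ⊤ = 1)
    (hmul : ∀ I J : Ideal R, I ≠ ⊥ → J ≠ ⊥ → f (I * J) = f I * f J) {I : Ideal R}
    (hI : I ≠ ⊥) : m14an5_ext f h1 hmul I = f I := by
  rw [m14an5_ext_apply, if_neg hI]

/-- height one primes as a subtype of the ideals. -/
def m14an5_primeEquiv : HeightOneSpectrum R ≃ {𝔭 : Ideal R // 𝔭.IsPrime ∧ 𝔭 ≠ ⊥} where
  toFun v := ⟨v.asIdeal, v.isPrime, v.ne_bot⟩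
  invFun 𝔭 := ⟨𝔭.1, 𝔭.2.1, 𝔭.2.2⟩
  left_inv _ := rfl
  right_inv _ := rfl

omit [IsDedekindDomain R] in
theorem m14an5_primeEquiv_coe (v : HeightOneSpectrum R) :
    ((m14an5_primeEquiv v : {𝔭 : Ideal R // 𝔭.IsPrime ∧ 𝔭 ≠ ⊥}) : Ideal R) = v.asIdeal := rfl

theorem m14an5_summable_ext (f : Ideal R → ℂ) (h1 : f ⊤ = 1)
    (hmul : ∀ I J : Ideal R, I ≠ ⊥ → J ≠ ⊥ → f (I * J) = f I * f J)
    (hsum : Summable fun I : {I : Ideal R // I ≠ ⊥} ↦ ‖f I‖) :
    Summable (fun I : Ideal R => ‖m14an5_ext f h1 hmul I‖) := by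
  have hinj : Function.Injective (Subtype.val : {I : Ideal R // I ≠ ⊥} → Ideal R) :=
    Subtype.val_injective
  rw [← hinj.summable_iff]
  · refine hsum.congr fun I => ?_
    simp only [Function.comp_apply]
    rw [m14an5_ext_of_ne f h1 hmul I.2]
  · intro I hI
    have hI' : I = ⊥ := by
      by_contra h
      exact hI ⟨⟨I, h⟩, rfl⟩
    rw [hI', m14an5_ext_apply, if_pos rfl, norm_zero]

theorem m14an5_tsum_ext (f : Ideal R → ℂ) (h1 : f ⊤ = 1)
    (hmul : ∀ I J : Ideal R, I ≠ ⊥ → J ≠ ⊥ → f (I * J) = f I * f J) :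
    ∑' I : Ideal R, m14an5_ext f h1 hmul I = ∑' I : {I : Ideal R // I ≠ ⊥}, f I := by
  have hinj : Function.Injective (Subtype.val : {I : Ideal R // I ≠ ⊥} → Ideal R) :=
    Subtype.val_injective
  rw [← hinj.tsum_eq]
  · refine tsum_congr fun I => ?_
    rw [m14an5_ext_of_ne f h1 hmul I.2]
  · intro I hI
    rw [Function.mem_support] at hI
    by_contra h
    apply hI
    have hI' : I = ⊥ := by
      by_contra h'
      exact h ⟨⟨I, h'⟩, rfl⟩
    rw [hI', m14an5_ext_apply, if_pos rfl]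

/-- **AN5**: the Euler product over the nonzero prime ideals in exp-log form. -/
theorem m14an5_exp_tsum_log (f : Ideal R → ℂ) (h1 : f ⊤ = 1)
    (hmul : ∀ I J : Ideal R, I ≠ ⊥ → J ≠ ⊥ → f (I * J) = f I * f J)
    (hsum : Summable fun I : {I : Ideal R // I ≠ ⊥} ↦ ‖f I‖) :
    Summable (fun 𝔭 : {𝔭 : Ideal R // 𝔭.IsPrime ∧ 𝔭 ≠ ⊥} ↦ -Complex.log (1 - f 𝔭)) ∧
      Complex.exp (∑' 𝔭 : {𝔭 : Ideal R // 𝔭.IsPrime ∧ 𝔭 ≠ ⊥}, -Complex.log (1 - f 𝔭)) =
        ∑' I : {I : Ideal R // I ≠ ⊥}, f I := by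
  have hsum' := m14an5_summable_ext f h1 hmul hsum
  have hprod := m14an5_eulerProduct_hasProd (m14an5_ext f h1 hmul) hsum'
  have hlt := m14an5_norm_lt_one (m14an5_ext f h1 hmul) hsum'
  -- summability over the primes
  have hsp : Summable (fun 𝔭 : {𝔭 : Ideal R // 𝔭.IsPrime ∧ 𝔭 ≠ ⊥} ↦ f 𝔭) := by
    have hinj : Function.Injective
        (fun 𝔭 : {𝔭 : Ideal R // 𝔭.IsPrime ∧ 𝔭 ≠ ⊥} => (⟨𝔭.1, 𝔭.2.2⟩ : {I : Ideal R // I ≠ ⊥})) := by
      intro a b hab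
      exact Subtype.ext (congrArg (fun x : {I : Ideal R // I ≠ ⊥} => (x : Ideal R)) hab)
    exact (hsum.comp_injective hinj).of_norm
  have hlog := hsp.clog_one_sub.neg
  refine ⟨hlog, ?_⟩
  have hne : ∀ 𝔭 : {𝔭 : Ideal R // 𝔭.IsPrime ∧ 𝔭 ≠ ⊥}, 1 - f 𝔭 ≠ 0 := by
    intro 𝔭 h
    have h2 := hlt (m14an5_primeEquiv.symm 𝔭)
    have h3 : m14an5_ext f h1 hmul (m14an5_primeEquiv.symm 𝔭).asIdeal = f 𝔭 :=
      m14an5_ext_of_ne f h1 hmul 𝔭.2.2
    rw [h3, ← sub_eq_zero.mp h, norm_one] at h2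
    exact lt_irrefl _ h2
  have H := hlog.hasSum.cexp.tprod_eq
  simp only [Function.comp_apply, Complex.exp_neg, Complex.exp_log (hne _)] at H
  rw [← H, ← m14an5_tsum_ext f h1 hmul, ← hprod.tprod_eq,
    ← m14an5_primeEquiv.tprod_eq]
  refine tprod_congr fun v => ?_
  rw [m14an5_primeEquiv_coe, m14an5_ext_of_ne f h1 hmul v.ne_bot]

end

end Fermat.Agent.M14

end
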