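import Mathlib
import Fermat.Agent.M14.An5Zeta

/-!
# S14, AN5 — primes of `M` over primes of `F` (prefix `m14an5o_`)

For number fields `F ⊆ M`:

* `m14an5o_under F w`: the prime of `F` below the prime `w` of `M`;
* `m14an5o_over M v`: the finset of primes of `M` over `v`;
* `m14an5o_card_over`: if all primes over `v` have `e = 1` and `relNorm w = v`, there are exactly
  `[M : F]` of them;
* `m14an5o_prod_over`: products over the primes of `M` above a finset of primes of `F`;
* `m14an5o_local`: the local Euler factor identity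
  `∏_{w | v} (1 - N w ^ (-s))⁻¹ = ((1 - N v ^ (-s))⁻¹) ^ [M : F]` at such `v`.
-/

set_option autoImplicit false
set_option linter.unusedSectionVars false
set_option linter.style.haveILetI false

noncomputable section

namespace Fermat.Agent.M14

open NumberField IsDedekindDomain

open scoped Classical

section

variable {F M : Type} [Field F] [NumberField F] [Field M] [NumberField M] [Algebra F M]

/-- the prime of `F` below a prime of `M`. -/
def m14an5o_under (F : Type) [Field F] [NumberField F] {M : Type} [Field M] [NumberField M]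
    [Algebra F M] (w : HeightOneSpectrum (𝓞 M)) : HeightOneSpectrum (𝓞 F) :=
  ⟨w.asIdeal.under (𝓞 F), haveI := w.isPrime; inferInstance,
    haveI := w.isPrime; Ideal.under_ne_bot (𝓞 F) w.ne_bot⟩

theorem m14an5o_under_asIdeal (w : HeightOneSpectrum (𝓞 M)) :
    (m14an5o_under F w).asIdeal = w.asIdeal.under (𝓞 F) := rfl

theorem m14an5o_under_eq_iff (w : HeightOneSpectrum (𝓞 M)) (v : HeightOneSpectrum (𝓞 F)) :
    m14an5o_under F w = v ↔ w.asIdeal.under (𝓞 F) = v.asIdeal := by
  constructor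
  · intro h
    rw [← h]
    rfl
  · intro h
    exact HeightOneSpectrum.ext h

theorem m14an5o_asIdeal_injective :
    Function.Injective (fun w : HeightOneSpectrum (𝓞 M) => w.asIdeal) :=
  fun _ _ h => HeightOneSpectrum.ext h

theorem m14an5o_finite_over (M : Type) [Field M] [NumberField M] [Algebra F M]
    (v : HeightOneSpectrum (𝓞 F)) :
    {w : HeightOneSpectrum (𝓞 M) | w.asIdeal.under (𝓞 F) = v.asIdeal}.Finite := by
  have h1 : (v.asIdeal.primesOver (𝓞 M)).Finite :=
    Algebra.QuasiFinite.finite_primesOver v.asIdeal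
  refine (h1.preimage (m14an5o_asIdeal_injective (M := M)).injOn).subset ?_
  intro w hw
  exact ⟨w.isPrime, ⟨(hw : w.asIdeal.under (𝓞 F) = v.asIdeal).symm⟩⟩

/-- the finset of the primes of `M` over `v`. -/
def m14an5o_over (M : Type) [Field M] [NumberField M] [Algebra F M]
    (v : HeightOneSpectrum (𝓞 F)) : Finset (HeightOneSpectrum (𝓞 M)) :=
  (m14an5o_finite_over M v).toFinset

theorem m14an5o_mem_over {v : HeightOneSpectrum (𝓞 F)} {w : HeightOneSpectrum (𝓞 M)} :
    w ∈ m14an5o_over M v ↔ w.asIdeal.under (𝓞 F) = v.asIdeal := by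
  rw [m14an5o_over, Set.Finite.mem_toFinset]
  rfl

theorem m14an5o_mem_over_iff {v : HeightOneSpectrum (𝓞 F)} {w : HeightOneSpectrum (𝓞 M)} :
    w ∈ m14an5o_over M v ↔ m14an5o_under F w = v := by
  rw [m14an5o_mem_over, m14an5o_under_eq_iff]

theorem m14an5o_mem_over_under (w : HeightOneSpectrum (𝓞 M)) :
    w ∈ m14an5o_over M (m14an5o_under F w) :=
  m14an5o_mem_over_iff.mpr rfl

/-- the fibres over distinct primes are disjoint. -/
theorem m14an5o_disjoint {v v' : HeightOneSpectrum (𝓞 F)} (h : v ≠ v') :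
    Disjoint (m14an5o_over M v) (m14an5o_over M v') := by
  rw [Finset.disjoint_left]
  intro w hw hw'
  exact h ((m14an5o_mem_over_iff.mp hw).symm.trans (m14an5o_mem_over_iff.mp hw'))

/-- **(c)** products over the primes of `M` above a finset of primes of `F`. -/
theorem m14an5o_prod_over (T : Finset (HeightOneSpectrum (𝓞 F)))
    (g : HeightOneSpectrum (𝓞 M) → ℝ) :
    ∏ v ∈ T, ∏ w ∈ m14an5o_over M v, g w = ∏ w ∈ T.biUnion (m14an5o_over M), g w := by
  rw [Finset.prod_biUnion]
  intro v _ v' _ h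
  exact m14an5o_disjoint h

theorem m14an5o_mem_biUnion {T : Finset (HeightOneSpectrum (𝓞 F))}
    {w : HeightOneSpectrum (𝓞 M)} :
    w ∈ T.biUnion (m14an5o_over M) ↔ m14an5o_under F w ∈ T := by
  rw [Finset.mem_biUnion]
  constructor
  · rintro ⟨v, hv, hw⟩
    rw [m14an5o_mem_over_iff.mp hw]
    exact hv
  · intro h
    exact ⟨_, h, m14an5o_mem_over_under w⟩

/-- `relNorm w = v` forces residue degree one. -/
theorem m14an5o_inertiaDeg_eq_one {v : HeightOneSpectrum (𝓞 F)} {w : HeightOneSpectrum (𝓞 M)}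
    (hw : w.asIdeal.under (𝓞 F) = v.asIdeal)
    (h : Ideal.relNorm (𝓞 F) w.asIdeal = v.asIdeal) : w.asIdeal.inertiaDeg (𝓞 F) = 1 := by
  haveI := w.isMaximal
  haveI := v.isMaximal
  haveI : w.asIdeal.LiesOver v.asIdeal := ⟨hw.symm⟩
  have hrel : Ideal.relNorm (𝓞 F) w.asIdeal = v.asIdeal ^ (w.asIdeal.inertiaDeg (𝓞 F)) :=
    Ideal.relNorm_eq_pow_of_isMaximal w.asIdeal v.asIdeal
  rw [h] at hrel
  have hinj : Function.Injective (fun n : ℕ => v.asIdeal ^ n) :=
    pow_injective_of_not_isUnit v.irreducible.not_isUnit v.ne_bot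
  have : v.asIdeal ^ 1 = v.asIdeal ^ (w.asIdeal.inertiaDeg (𝓞 F)) := by
    rw [pow_one]
    exact hrel
  exact (hinj this).symm

/-- `relNorm w = v` gives `N w = N v`. -/
theorem m14an5o_absNorm_eq {v : HeightOneSpectrum (𝓞 F)} {w : HeightOneSpectrum (𝓞 M)}
    (h : Ideal.relNorm (𝓞 F) w.asIdeal = v.asIdeal) :
    Ideal.absNorm w.asIdeal = Ideal.absNorm v.asIdeal := by
  rw [← Ideal.absNorm_relNorm (𝓞 F) (𝓞 M), h]

/-- **(a)** exactly `[M : F]` primes over `v` if all of them have `e = f = 1`. -/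
theorem m14an5o_card_over' (v : HeightOneSpectrum (𝓞 F))
    (he : ∀ w ∈ m14an5o_over M v, w.asIdeal.ramificationIdx (𝓞 F) = 1)
    (hf : ∀ w ∈ m14an5o_over M v, w.asIdeal.inertiaDeg (𝓞 F) = 1) :
    (m14an5o_over M v).card = Module.finrank F M := by
  haveI := v.isPrime
  letI : Fintype (v.asIdeal.primesOver (𝓞 M)) :=
    (Algebra.QuasiFinite.finite_primesOver v.asIdeal).fintype
  have hsum := Ideal.sum_ramification_inertia_eq_finrank v.asIdeal (𝓞 M)
  rw [← IsFractionRing.finrank_eq (𝓞 F) F (𝓞 M) M] at hsum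
  rw [← hsum]
  -- the bijection
  have hne : ∀ q : v.asIdeal.primesOver (𝓞 M), (q : Ideal (𝓞 M)) ≠ ⊥ := by
    intro q h
    have h1 : (q : Ideal (𝓞 M)).under (𝓞 F) = v.asIdeal := q.2.2.over.symm
    rw [h, Ideal.under_bot] at h1
    exact v.ne_bot h1.symm
  let e : {w : HeightOneSpectrum (𝓞 M) // w ∈ m14an5o_over M v} ≃
      v.asIdeal.primesOver (𝓞 M) :=
    { toFun := fun w => ⟨w.1.asIdeal, w.1.isPrime, ⟨(m14an5o_mem_over.mp w.2).symm⟩⟩
      invFun := fun q => ⟨⟨q.1, q.2.1, hne q⟩, m14an5o_mem_over.mpr q.2.2.over.symm⟩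
      left_inv := fun w => rfl
      right_inv := fun q => rfl }
  have hterm : ∀ q : v.asIdeal.primesOver (𝓞 M),
      (q : Ideal (𝓞 M)).ramificationIdx (𝓞 F) * (q : Ideal (𝓞 M)).inertiaDeg (𝓞 F) = 1 := by
    intro q
    have h1 := he (e.symm q).1 (e.symm q).2
    have h2 := hf (e.symm q).1 (e.symm q).2
    have h3 : ((e.symm q).1).asIdeal = (q : Ideal (𝓞 M)) := rfl
    rw [h3] at h1 h2
    rw [h1, h2]
  rw [Finset.sum_congr rfl (fun q _ => hterm q), Finset.sum_const, smul_eq_mul, mul_one,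
    Finset.card_univ, ← Fintype.card_coe]
  exact Fintype.card_congr e

theorem m14an5o_card_over (v : HeightOneSpectrum (𝓞 F))
    (he : ∀ w ∈ m14an5o_over M v, w.asIdeal.ramificationIdx (𝓞 F) = 1)
    (hf : ∀ w ∈ m14an5o_over M v, Ideal.relNorm (𝓞 F) w.asIdeal = v.asIdeal) :
    (m14an5o_over M v).card = Module.finrank F M :=
  m14an5o_card_over' v he
    (fun w hw => m14an5o_inertiaDeg_eq_one (m14an5o_mem_over.mp hw) (hf w hw))

/-- the value of `N(·)^(-s)` at a prime of relative norm `v`. -/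
theorem m14an5o_f_eq (s : ℝ) {v : HeightOneSpectrum (𝓞 F)} {w : HeightOneSpectrum (𝓞 M)}
    (h : Ideal.relNorm (𝓞 F) w.asIdeal = v.asIdeal) :
    m14an5z_f M s w.asIdeal = m14an5z_f F s v.asIdeal := by
  rw [m14an5z_f_of_ne M s w.ne_bot, m14an5z_f_of_ne F s v.ne_bot, m14an5o_absNorm_eq h]

/-- **local Euler factor identity** at a prime `v` all of whose primes above have `e = 1` and
relative norm `v`. -/
theorem m14an5o_local (s : ℝ) (v : HeightOneSpectrum (𝓞 F))
    (he : ∀ w ∈ m14an5o_over M v, w.asIdeal.ramificationIdx (𝓞 F) = 1)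
    (hf : ∀ w ∈ m14an5o_over M v, Ideal.relNorm (𝓞 F) w.asIdeal = v.asIdeal) :
    ∏ w ∈ m14an5o_over M v, (1 - m14an5z_f M s w.asIdeal)⁻¹ =
      ((1 - m14an5z_f F s v.asIdeal)⁻¹) ^ Module.finrank F M := by
  rw [Finset.prod_congr rfl (fun w hw => by rw [m14an5o_f_eq s (hf w hw)]),
    Finset.prod_const, m14an5o_card_over v he hf]

end

end Fermat.Agent.M14

end
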