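/-
S14, package AN6 (helper8): the local Euler factor of `∏_ψ L(s, ψ)`.

For a finite abelian group `G`, `g : G` and `0 ≤ t < 1`: `∏_ψ ‖1 - ψ g * t‖ ≤ 1`
(the product over all characters `ψ : AddChar G ℂ`).
-/
import Mathlib

set_option autoImplicit false

namespace Fermat.Agent.M14

open Finset

/-- The `n`-th Taylor coefficient of `∑_ψ -log (1 - ψ g * t)` has nonnegative real part. -/
theorem m14an6_coeff_re_nonneg {G : Type} [AddCommGroup G] [Finite G] (g : G) (t : ℝ)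
    (ht0 : 0 ≤ t) (n : ℕ) :
    0 ≤ (∑ ψ : AddChar G ℂ, (ψ g * (t : ℂ)) ^ n / (n : ℂ)).re := by
  classical
  have : Fintype G := Fintype.ofFinite G
  have h1 : ∑ ψ : AddChar G ℂ, (ψ g * (t : ℂ)) ^ n / (n : ℂ)
      = (∑ ψ : AddChar G ℂ, ψ (n • g)) * ((t : ℂ) ^ n / (n : ℂ)) := by
    rw [Finset.sum_mul]
    refine Finset.sum_congr rfl fun ψ _ => ?_
    rw [AddChar.map_nsmul_eq_pow, mul_pow, mul_div_assoc]
  rw [h1, AddChar.sum_apply_eq_ite]
  have h2 : ((t : ℂ) ^ n / (n : ℂ)) = ((t ^ n / (n : ℝ) : ℝ) : ℂ) := by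
    push_cast
    rfl
  rw [h2]
  split_ifs
  · rw [← Complex.ofReal_natCast, ← Complex.ofReal_mul, Complex.ofReal_re]
    positivity
  · simp

/-- **local factor**: `∏_ψ ‖1 - ψ g * t‖ ≤ 1`. -/
theorem m14an6_local_le_one {G : Type} [AddCommGroup G] [Finite G] (g : G) (t : ℝ)
    (ht0 : 0 ≤ t) (ht1 : t < 1) :
    ∏ ψ : AddChar G ℂ, ‖1 - ψ g * (t : ℂ)‖ ≤ 1 := by
  classical
  have hz : ∀ ψ : AddChar G ℂ, ‖ψ g * (t : ℂ)‖ < 1 := by
    intro ψ
    rw [norm_mul, AddChar.norm_apply, one_mul, Complex.norm_real, Real.norm_of_nonneg ht0]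
    exact ht1
  have hpos : ∀ ψ : AddChar G ℂ, 0 < ‖1 - ψ g * (t : ℂ)‖ := by
    intro ψ
    rw [norm_pos_iff, sub_ne_zero]
    intro h
    have := hz ψ
    rw [← h, norm_one] at this
    exact lt_irrefl _ this
  have hsum : HasSum (fun n : ℕ => ∑ ψ : AddChar G ℂ, (ψ g * (t : ℂ)) ^ n / (n : ℂ))
      (∑ ψ : AddChar G ℂ, -Complex.log (1 - ψ g * (t : ℂ))) :=
    hasSum_sum fun ψ _ => Complex.hasSum_taylorSeries_neg_log (hz ψ)
  have hre := Complex.hasSum_re hsum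
  have hnonneg : 0 ≤ (∑ ψ : AddChar G ℂ, -Complex.log (1 - ψ g * (t : ℂ))).re :=
    hre.nonneg fun n => m14an6_coeff_re_nonneg g t ht0 n
  have hlog : ∑ ψ : AddChar G ℂ, Real.log ‖1 - ψ g * (t : ℂ)‖ ≤ 0 := by
    have h3 : (∑ ψ : AddChar G ℂ, -Complex.log (1 - ψ g * (t : ℂ))).re
        = -∑ ψ : AddChar G ℂ, Real.log ‖1 - ψ g * (t : ℂ)‖ := by
      rw [Complex.re_sum, ← Finset.sum_neg_distrib]
      refine Finset.sum_congr rfl fun ψ _ => ?_
      rw [Complex.neg_re, Complex.log_re]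
    rw [h3] at hnonneg
    linarith
  have hprod : ∏ ψ : AddChar G ℂ, ‖1 - ψ g * (t : ℂ)‖
      = Real.exp (∑ ψ : AddChar G ℂ, Real.log ‖1 - ψ g * (t : ℂ)‖) := by
    rw [Real.exp_sum]
    exact Finset.prod_congr rfl fun ψ _ => (Real.exp_log (hpos ψ)).symm
  rw [hprod]
  exact Real.exp_le_one_iff.mpr hlog

/-- **local factor**, inverse form: `1 ≤ ∏_ψ ‖(1 - ψ g * t)⁻¹‖`. -/
theorem m14an6_one_le_local {G : Type} [AddCommGroup G] [Finite G] (g : G) (t : ℝ)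
    (ht0 : 0 ≤ t) (ht1 : t < 1) :
    1 ≤ ∏ ψ : AddChar G ℂ, ‖(1 - ψ g * (t : ℂ))⁻¹‖ := by
  have h := m14an6_local_le_one g t ht0 ht1
  have hpos : 0 < ∏ ψ : AddChar G ℂ, ‖1 - ψ g * (t : ℂ)‖ := by
    refine Finset.prod_pos fun ψ _ => ?_
    rw [norm_pos_iff, sub_ne_zero]
    intro h'
    have : ‖ψ g * (t : ℂ)‖ < 1 := by
      rw [norm_mul, AddChar.norm_apply, one_mul, Complex.norm_real, Real.norm_of_nonneg ht0]
      exact ht1
    rw [← h', norm_one] at this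
    exact lt_irrefl _ this
  simp only [norm_inv, Finset.prod_inv_distrib]
  exact (one_le_inv₀ hpos).mpr h

/-- **local factor** at the trivial class: `∏_ψ ‖(1 - ψ 0 * t)⁻¹‖ = ((1 - t)⁻¹) ^ |G|`. -/
theorem m14an6_local_zero {G : Type} [AddCommGroup G] [Finite G] (t : ℝ) (ht1 : t < 1) :
    ∏ ψ : AddChar G ℂ, ‖(1 - ψ (0 : G) * (t : ℂ))⁻¹‖ = ((1 - t)⁻¹) ^ Nat.card G := by
  have h1 : ∀ ψ : AddChar G ℂ, ‖(1 - ψ (0 : G) * (t : ℂ))⁻¹‖ = (1 - t)⁻¹ := by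
    intro ψ
    rw [AddChar.map_zero_eq_one, one_mul, norm_inv]
    have : (1 : ℂ) - (t : ℂ) = ((1 - t : ℝ) : ℂ) := by push_cast; rfl
    rw [this, Complex.norm_real, Real.norm_of_nonneg (by linarith)]
  have hcard : Fintype.card (AddChar G ℂ) = Nat.card G := by
    have : Fintype G := Fintype.ofFinite G
    rw [AddChar.card_eq, Nat.card_eq_fintype_card]
  rw [Finset.prod_congr rfl fun ψ _ => h1 ψ, Finset.prod_const, Finset.card_univ, hcard]

end Fermat.Agent.M14
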