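import Mathlib

/-!
# S14 / AN chain: the real Dedekind zeta function as a sum over ideals (prefix `m14anz_`)

For a number field `K` and real `s > 1`:
* `m14anz_summable`: `∑ I, N(I) ^ (-s)` converges (sum over all ideals, the zero ideal
  contributes `0`);
* `m14anz_Z K s` is its sum, `m14anz_ofReal_Z`: it is `dedekindZeta K s`;
* `m14anz_tendsto`: `(s - 1) * Z_K(s) → dedekindZeta_residue K > 0` as `s → 1⁺`.
-/

set_option autoImplicit false
set_option linter.style.haveILetI false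
set_option linter.unusedSectionVars false

open NumberField Ideal Filter Topology
open scoped nonZeroDivisors

namespace Fermat.Agent.M14

noncomputable section

variable (K : Type) [Field K] [NumberField K]

/-- the number of ideals of norm `n`. -/
def m14anz_a (n : ℕ) : ℝ := (Nat.card {I : Ideal (𝓞 K) // absNorm I = n} : ℝ)

theorem m14anz_a_nonneg (n : ℕ) : 0 ≤ m14anz_a K n := Nat.cast_nonneg _

theorem m14anz_tendsto_sum :
    Tendsto (fun n : ℕ ↦ (∑ k ∈ Finset.Icc 1 n, m14anz_a K k) / (n : ℝ)) atTop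
      (𝓝 (dedekindZeta_residue K)) := by
  unfold m14anz_a
  refine ((Ideal.tendsto_norm_le_div_atTop₀ K).comp tendsto_natCast_atTop_atTop).congr fun n ↦ ?_
  simp only [Function.comp_apply, Nat.cast_le, ← Nat.cast_sum]
  congr
  rw [← add_left_inj 1, ← card_norm_le_eq_card_norm_le_add_one,
    show Finset.Icc 1 n = Finset.Ioc 0 n from Finset.Icc_succ_left_eq_Ioc _ _,
    show 1 = Nat.card {I : Ideal (𝓞 K) // absNorm I = 0} by simp [Ideal.absNorm_eq_zero_iff],
    Finset.sum_Ioc_add_eq_sum_Icc (n.zero_le),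
    ← Finset.card_preimage_eq_sum_card_image_eq (fun k _ ↦ finite_setOfPred_absNorm_eq k)]
  simp [Set.coe_eq_subtype]

theorem m14anz_lseriesSummable {s : ℝ} (hs : 1 < s) :
    LSeriesSummable (fun n => ((m14anz_a K n : ℝ) : ℂ)) (s : ℂ) := by
  refine LSeriesSummable_of_sum_norm_bigO_and_nonneg ?_ (m14anz_a_nonneg K) zero_le_one
    (by simpa using hs)
  exact Asymptotics.isBigO_atTop_natCast_rpow_of_tendsto_div_rpow (a := dedekindZeta_residue K)
    (by simpa using m14anz_tendsto_sum K)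

/-- the real Dirichlet series `∑ a(n) n ^ (-s)` converges for `s > 1`. -/
theorem m14anz_summable_nat {s : ℝ} (hs : 1 < s) :
    Summable (fun n : ℕ => m14anz_a K n * (n : ℝ) ^ (-s)) := by
  have h := m14anz_lseriesSummable K hs
  unfold LSeriesSummable at h
  rw [← Complex.summable_ofReal]
  refine h.congr fun n => ?_
  rcases Nat.eq_zero_or_pos n with rfl | hn
  · simp [Real.zero_rpow (by linarith : -s ≠ 0)]
  · rw [LSeries.term_of_ne_zero hn.ne']
    rw [Complex.ofReal_mul, Complex.ofReal_cpow (Nat.cast_nonneg n), Complex.ofReal_neg,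
      Complex.cpow_neg, div_eq_mul_inv]
    simp

/-- the fibres of the norm are finite. -/
instance m14anz_finite_fibre (n : ℕ) : Finite {I : Ideal (𝓞 K) // absNorm I = n} :=
  (finite_setOfPred_absNorm_eq n).to_subtype

theorem m14anz_sigma_summable {s : ℝ} (hs : 1 < s) :
    Summable (fun x : (Σ n : ℕ, {I : Ideal (𝓞 K) // absNorm I = n}) => ((x.1 : ℕ) : ℝ) ^ (-s)) := by
  rw [summable_sigma_of_nonneg (fun x => Real.rpow_nonneg (Nat.cast_nonneg _) _)]
  refine ⟨fun n => Summable.of_finite, ?_⟩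
  refine (m14anz_summable_nat K hs).congr fun n => ?_
  show _ = ∑' _ : {I : Ideal (𝓞 K) // absNorm I = n}, (n : ℝ) ^ (-s)
  rw [tsum_const, nsmul_eq_mul]
  rfl

theorem m14anz_sigma_tsum {s : ℝ} (hs : 1 < s) :
    ∑' x : (Σ n : ℕ, {I : Ideal (𝓞 K) // absNorm I = n}), ((x.1 : ℕ) : ℝ) ^ (-s)
      = ∑' n : ℕ, m14anz_a K n * (n : ℝ) ^ (-s) := by
  rw [(m14anz_sigma_summable K hs).tsum_sigma' (fun n => Summable.of_finite)]
  refine tsum_congr fun n => ?_
  show ∑' _ : {I : Ideal (𝓞 K) // absNorm I = n}, (n : ℝ) ^ (-s) = _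
  rw [tsum_const, nsmul_eq_mul]
  rfl

/-- `∑ N(I) ^ (-s)` converges for real `s > 1`. -/
theorem m14anz_summable {s : ℝ} (hs : 1 < s) :
    Summable (fun I : Ideal (𝓞 K) => (absNorm I : ℝ) ^ (-s)) := by
  rw [← (Equiv.sigmaFiberEquiv (fun I : Ideal (𝓞 K) => absNorm I)).summable_iff]
  refine (m14anz_sigma_summable K hs).congr fun x => ?_
  obtain ⟨n, I, hI⟩ := x
  simp only [Function.comp_apply, Equiv.sigmaFiberEquiv_apply]
  rw [hI]

theorem m14anz_tsum_eq {s : ℝ} (hs : 1 < s) :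
    ∑' I : Ideal (𝓞 K), (absNorm I : ℝ) ^ (-s) = ∑' n : ℕ, m14anz_a K n * (n : ℝ) ^ (-s) := by
  rw [← m14anz_sigma_tsum K hs,
    ← (Equiv.sigmaFiberEquiv (fun I : Ideal (𝓞 K) => absNorm I)).tsum_eq]
  refine tsum_congr fun x => ?_
  obtain ⟨n, I, hI⟩ := x
  simp only [Equiv.sigmaFiberEquiv_apply]
  rw [hI]

/-- the real Dedekind zeta function `Z_K(s) = ∑ N(I) ^ (-s)`. -/
def m14anz_Z (s : ℝ) : ℝ := ∑' I : Ideal (𝓞 K), (absNorm I : ℝ) ^ (-s)

theorem m14anz_ofReal_Z {s : ℝ} (hs : 1 < s) :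
    ((m14anz_Z K s : ℝ) : ℂ) = dedekindZeta K (s : ℂ) := by
  unfold m14anz_Z dedekindZeta LSeries
  rw [m14anz_tsum_eq K hs, Complex.ofReal_tsum]
  refine tsum_congr fun n => ?_
  rcases Nat.eq_zero_or_pos n with rfl | hn
  · simp [Real.zero_rpow (by linarith : -s ≠ 0)]
  · rw [LSeries.term_of_ne_zero hn.ne']
    rw [Complex.ofReal_mul, Complex.ofReal_cpow (Nat.cast_nonneg n), Complex.ofReal_neg,
      Complex.cpow_neg, div_eq_mul_inv]
    simp [m14anz_a]

/-- `(s - 1) Z_K(s)` tends to the (positive) residue as `s → 1⁺`. -/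
theorem m14anz_tendsto :
    Tendsto (fun s : ℝ => (s - 1) * m14anz_Z K s) (𝓝[>] 1) (𝓝 (dedekindZeta_residue K)) := by
  have h := tendsto_sub_one_mul_dedekindZeta_nhdsGT K
  have h2 := (Complex.continuous_re.tendsto _).comp h
  simp only [Complex.ofReal_re] at h2
  refine h2.congr' ?_
  filter_upwards [self_mem_nhdsWithin] with s hs
  have hs' : 1 < s := hs
  simp only [Function.comp_apply]
  rw [← m14anz_ofReal_Z K hs', ← Complex.ofReal_one, ← Complex.ofReal_sub, ← Complex.ofReal_mul,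
    Complex.ofReal_re]

theorem m14anz_Z_pos {s : ℝ} (hs : 1 < s) : 0 < m14anz_Z K s := by
  unfold m14anz_Z
  have h := m14anz_summable K hs
  refine lt_of_lt_of_le ?_ (h.le_tsum (⊤ : Ideal (𝓞 K))
    (fun I _ => Real.rpow_nonneg (Nat.cast_nonneg _) _))
  simp

end

end Fermat.Agent.M14
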