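/-
S14, package AN6 (helper8): the `F`-side of the first inequality.

For `s ∈ (1, 2]` and every finite set `T` of primes of `F`:
`exp (|G| * ∑_{v ∈ T, v ∤ m, χ v = 0} N(v)^(-s)) ≤ ∏_ψ ‖L(s, ψ)‖ ≤ B ^ |G| / (s - 1)`.
-/
import Mathlib
import Fermat.Agent.M14.An4Main
import Fermat.Agent.M14.An6Char
import Fermat.Agent.M14.An5Euler
import Fermat.Agent.M14.AnZeta

set_option autoImplicit false
set_option linter.unusedSectionVars false

namespace Fermat.Agent.M14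

open NumberField IsDedekindDomain Finset

variable {F : Type} [Field F] [NumberField F] {G : Type} [AddCommGroup G]

/-- Multiplicativity of `χ` on the ideals prime to `m`. -/
def m14an6_Mul (m : ℕ) (χ : Ideal (𝓞 F) → G) : Prop :=
  ∀ I J : Ideal (𝓞 F), I ≠ ⊥ → J ≠ ⊥ → IsCoprime I (Ideal.span {(m : 𝓞 F)}) →
    IsCoprime J (Ideal.span {(m : 𝓞 F)}) → χ (I * J) = χ I + χ J

theorem m14an6_chi_top {m : ℕ} {χ : Ideal (𝓞 F) → G} (hmul : m14an6_Mul m χ) : χ ⊤ = 0 := by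
  have h := hmul ⊤ ⊤ top_ne_bot top_ne_bot
    (by rw [← Ideal.one_eq_top]; exact isCoprime_one_left)
    (by rw [← Ideal.one_eq_top]; exact isCoprime_one_left)
  rw [← Ideal.one_eq_top, one_mul] at h
  rw [← Ideal.one_eq_top]
  exact left_eq_add.mp h |>.symm ▸ rfl

theorem m14an6_c_mul {m : ℕ} {χ : Ideal (𝓞 F) → G} (hmul : m14an6_Mul m χ) (ψ : AddChar G ℂ)
    (I J : Ideal (𝓞 F)) :
    m14an4_c m χ ψ (I * J) = m14an4_c m χ ψ I * m14an4_c m χ ψ J := by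
  by_cases hI : I = ⊥
  · rw [hI, Ideal.bot_mul, m14an4_c_bot, zero_mul]
  by_cases hJ : J = ⊥
  · rw [hJ, Ideal.mul_bot, m14an4_c_bot, mul_zero]
  have hIJ : I * J ≠ ⊥ := by
    rw [← Ideal.zero_eq_bot]
    exact mul_ne_zero hI hJ
  by_cases hcI : IsCoprime I (Ideal.span {(m : 𝓞 F)})
  · by_cases hcJ : IsCoprime J (Ideal.span {(m : 𝓞 F)})
    · rw [m14an4_c_of m χ ψ hIJ (hcI.mul_left hcJ), m14an4_c_of m χ ψ hI hcI,
        m14an4_c_of m χ ψ hJ hcJ, hmul I J hI hJ hcI hcJ, AddChar.map_add_eq_mul]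
    · rw [m14an4_c_of_not m χ ψ hcJ, mul_zero]
      exact m14an4_c_of_not m χ ψ fun h => hcJ (IsCoprime.of_mul_left_right h)
  · rw [m14an4_c_of_not m χ ψ hcI, zero_mul]
    exact m14an4_c_of_not m χ ψ fun h => hcI (IsCoprime.of_mul_left_left h)

/-- The twisted completely multiplicative function `I ↦ ψ (χ I) N(I)^(-s)` on ideals. -/
noncomputable def m14an6_f {m : ℕ} {χ : Ideal (𝓞 F) → G} (hmul : m14an6_Mul m χ)
    (ψ : AddChar G ℂ) {s : ℝ} (hs : s ≠ 0) : Ideal (𝓞 F) →*₀ ℂ where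
  toFun := m14an4_term (m14an4_c m χ ψ) s
  map_zero' := m14an4_term_bot _ hs
  map_one' := by
    rw [m14an4_term, Ideal.one_eq_top, m14an4_c_of m χ ψ top_ne_bot
      (by rw [← Ideal.one_eq_top]; exact isCoprime_one_left), m14an6_chi_top hmul,
      AddChar.map_zero_eq_one, Ideal.absNorm_top, Nat.cast_one, Real.one_rpow]
    simp
  map_mul' I J := by
    rw [m14an4_term, m14an4_term, m14an4_term, m14an6_c_mul hmul, map_mul, Nat.cast_mul,
      Real.mul_rpow (Nat.cast_nonneg _) (Nat.cast_nonneg _)]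
    push_cast
    ring

theorem m14an6_f_apply {m : ℕ} {χ : Ideal (𝓞 F) → G} (hmul : m14an6_Mul m χ)
    (ψ : AddChar G ℂ) {s : ℝ} (hs : s ≠ 0) (I : Ideal (𝓞 F)) :
    m14an6_f hmul ψ hs I = m14an4_c m χ ψ I * (((Ideal.absNorm I : ℝ) ^ (-s) : ℝ) : ℂ) := rfl

theorem m14an6_f_summable [Finite G] {m : ℕ} {χ : Ideal (𝓞 F) → G} (hmul : m14an6_Mul m χ)
    (ψ : AddChar G ℂ) {s : ℝ} (hs : 1 < s) :
    Summable fun I : Ideal (𝓞 F) => ‖m14an6_f hmul ψ (by linarith : s ≠ 0) I‖ := by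
  have h := m14an4_summable_c m χ ψ (m14anz_summable F hs)
  refine h.congr fun I => ?_
  rw [m14an6_f_apply, norm_mul, Complex.norm_real,
    Real.norm_of_nonneg (Real.rpow_nonneg (Nat.cast_nonneg _) _)]

/-- `N(v)^(-s) ∈ [0, 1/2]` for a prime `v` and `s ≥ 1`. -/
theorem m14an6_t_le_half (v : HeightOneSpectrum (𝓞 F)) {s : ℝ} (hs : 1 ≤ s) :
    (Ideal.absNorm v.asIdeal : ℝ) ^ (-s) ≤ 1 / 2 := by
  have h2 : (2 : ℝ) ≤ (Ideal.absNorm v.asIdeal : ℝ) := by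
    have h0 : Ideal.absNorm v.asIdeal ≠ 0 := fun h => v.ne_bot (Ideal.absNorm_eq_zero_iff.mp h)
    have h1 : Ideal.absNorm v.asIdeal ≠ 1 :=
      fun h => v.isPrime.ne_top (Ideal.absNorm_eq_one_iff.mp h)
    have : 2 ≤ Ideal.absNorm v.asIdeal := by omega
    exact_mod_cast this
  calc (Ideal.absNorm v.asIdeal : ℝ) ^ (-s) ≤ (2 : ℝ) ^ (-s) :=
        Real.rpow_le_rpow_of_nonpos (by norm_num) h2 (by linarith)
    _ ≤ (2 : ℝ) ^ (-1 : ℝ) := Real.rpow_le_rpow_of_exponent_le (by norm_num) (by linarith)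
    _ = 1 / 2 := by rw [Real.rpow_neg_one]; norm_num

/-- The weight of a prime in the sum over the primes prime to `m` in the trivial class. -/
noncomputable def m14an6_good (m : ℕ) (χ : Ideal (𝓞 F) → G) (s : ℝ)
    (v : HeightOneSpectrum (𝓞 F)) : ℝ :=
  open scoped Classical in
  if IsCoprime v.asIdeal (Ideal.span {(m : 𝓞 F)}) ∧ χ v.asIdeal = 0 then
    (Ideal.absNorm v.asIdeal : ℝ) ^ (-s) else 0

theorem m14an6_good_nonneg (m : ℕ) (χ : Ideal (𝓞 F) → G) (s : ℝ)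
    (v : HeightOneSpectrum (𝓞 F)) : 0 ≤ m14an6_good m χ s v := by
  rw [m14an6_good]
  split_ifs
  · exact Real.rpow_nonneg (Nat.cast_nonneg _) _
  · exact le_rfl

/-- **local factor** of `∏_ψ L(s, ψ)` at a prime `v`. -/
theorem m14an6_local_ge [Finite G] {m : ℕ} {χ : Ideal (𝓞 F) → G} (hmul : m14an6_Mul m χ)
    {s : ℝ} (hs : 1 ≤ s) (v : HeightOneSpectrum (𝓞 F)) :
    Real.exp (Nat.card G * m14an6_good m χ s v)
      ≤ ∏ ψ : AddChar G ℂ, ‖(1 - m14an6_f hmul ψ (by linarith : s ≠ 0) v.asIdeal)⁻¹‖ := by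
  have ht0 : (0 : ℝ) ≤ (Ideal.absNorm v.asIdeal : ℝ) ^ (-s) :=
    Real.rpow_nonneg (Nat.cast_nonneg _) _
  have ht1 : (Ideal.absNorm v.asIdeal : ℝ) ^ (-s) < 1 :=
    lt_of_le_of_lt (m14an6_t_le_half v hs) (by norm_num)
  by_cases hc : IsCoprime v.asIdeal (Ideal.span {(m : 𝓞 F)})
  · have hf : ∀ ψ : AddChar G ℂ, m14an6_f hmul ψ (by linarith : s ≠ 0) v.asIdeal
        = ψ (χ v.asIdeal) * (((Ideal.absNorm v.asIdeal : ℝ) ^ (-s) : ℝ) : ℂ) := by
      intro ψ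
      rw [m14an6_f_apply, m14an4_c_of m χ ψ v.ne_bot hc]
    simp only [hf]
    by_cases hχ : χ v.asIdeal = 0
    · rw [m14an6_good, if_pos ⟨hc, hχ⟩, hχ, m14an6_local_zero _ ht1, Real.exp_nat_mul]
      refine pow_le_pow_left₀ (Real.exp_pos _).le ?_ _
      have h1 : 1 - (Ideal.absNorm v.asIdeal : ℝ) ^ (-s)
          ≤ Real.exp (-((Ideal.absNorm v.asIdeal : ℝ) ^ (-s))) := Real.one_sub_le_exp_neg _
      have h2 : 0 < 1 - (Ideal.absNorm v.asIdeal : ℝ) ^ (-s) := by linarith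
      rw [Real.exp_neg] at h1
      rw [le_inv_comm₀ (Real.exp_pos _) h2]
      exact h1
    · rw [m14an6_good, if_neg (fun h => hχ h.2), mul_zero, Real.exp_zero]
      exact m14an6_one_le_local _ _ ht0 ht1
  · have hf : ∀ ψ : AddChar G ℂ, m14an6_f hmul ψ (by linarith : s ≠ 0) v.asIdeal = 0 := by
      intro ψ
      rw [m14an6_f_apply, m14an4_c_of_not m χ ψ hc, zero_mul]
    simp only [hf, sub_zero, inv_one, norm_one, Finset.prod_const_one]
    rw [m14an6_good, if_neg (fun h => hc h.1), mul_zero, Real.exp_zero]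

/-- The sum over the primes in `T` prime to `m` and in the trivial class. -/
noncomputable def m14an6_S (m : ℕ) (χ : Ideal (𝓞 F) → G) (s : ℝ)
    (T : Finset (HeightOneSpectrum (𝓞 F))) : ℝ :=
  ∑ v ∈ T, m14an6_good m χ s v

theorem m14an6_S_mono (m : ℕ) (χ : Ideal (𝓞 F) → G) (s : ℝ)
    {T T' : Finset (HeightOneSpectrum (𝓞 F))} (h : T ⊆ T') :
    m14an6_S m χ s T ≤ m14an6_S m χ s T' :=
  Finset.sum_le_sum_of_subset_of_nonneg h fun v _ _ => m14an6_good_nonneg m χ s v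

/-- (F2) the finite Euler products dominate `exp (|G| S_T)`. -/
theorem m14an6_partial_ge [Finite G] {m : ℕ} {χ : Ideal (𝓞 F) → G} (hmul : m14an6_Mul m χ)
    {s : ℝ} (hs : 1 ≤ s) (T : Finset (HeightOneSpectrum (𝓞 F))) :
    Real.exp (Nat.card G * m14an6_S m χ s T)
      ≤ ∏ ψ : AddChar G ℂ,
          ‖∏ v ∈ T, (1 - m14an6_f hmul ψ (by linarith : s ≠ 0) v.asIdeal)⁻¹‖ := by
  simp only [norm_prod]
  rw [Finset.prod_comm, m14an6_S, Finset.mul_sum, Real.exp_sum]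
  exact Finset.prod_le_prod (fun v _ => (Real.exp_pos _).le)
    fun v _ => m14an6_local_ge hmul hs v

/-- (F3 + F4) `exp (|G| S_T) ≤ ∏_ψ ‖L(s, ψ)‖`. -/
theorem m14an6_exp_le_prod [Finite G] {m : ℕ} {χ : Ideal (𝓞 F) → G} (hmul : m14an6_Mul m χ)
    {s : ℝ} (hs : 1 < s) (T₀ : Finset (HeightOneSpectrum (𝓞 F))) :
    Real.exp (Nat.card G * m14an6_S m χ s T₀)
      ≤ ∏ ψ : AddChar G ℂ,
          ‖∑' I : Ideal (𝓞 F), m14an6_f hmul ψ (by linarith : s ≠ 0) I‖ := by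
  have hs0 : s ≠ 0 := by linarith
  have htend : Filter.Tendsto (fun T : Finset (HeightOneSpectrum (𝓞 F)) =>
      ∏ ψ : AddChar G ℂ, ‖∏ v ∈ T, (1 - m14an6_f hmul ψ hs0 v.asIdeal)⁻¹‖) Filter.atTop
      (nhds (∏ ψ : AddChar G ℂ, ‖∑' I : Ideal (𝓞 F), m14an6_f hmul ψ hs0 I‖)) := by
    refine tendsto_finsetProd _ fun ψ _ => ?_
    exact (continuous_norm.tendsto _).comp
      (m14an5_tendsto_prod (m14an6_f hmul ψ hs0) (m14an6_f_summable hmul ψ hs))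
  refine ge_of_tendsto htend ?_
  filter_upwards [Filter.eventually_ge_atTop T₀] with T hT
  refine le_trans ?_ (m14an6_partial_ge hmul hs.le T)
  refine Real.exp_le_exp.mpr (mul_le_mul_of_nonneg_left (m14an6_S_mono m χ s hT) ?_)
  exact Nat.cast_nonneg _

/-- (F1) `∏_ψ ‖L(s, ψ)‖ ≤ B ^ |G| / (s - 1)` on `(1, 2]`. -/
theorem m14an6_prod_le [Finite G] {m : ℕ} {χ : Ideal (𝓞 F) → G} (hmul : m14an6_Mul m χ)
    {c C δ : ℝ} (hδ : 0 < δ) (hcount : m14an4_Count m χ c C δ) :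
    ∃ B : ℝ, 1 ≤ B ∧ ∀ (s : ℝ) (hs1 : 1 < s), s ≤ 2 →
      ∏ ψ : AddChar G ℂ, ‖∑' I : Ideal (𝓞 F),
          m14an6_f hmul ψ (ne_of_gt (zero_lt_one.trans hs1)) I‖
        ≤ B ^ Nat.card G / (s - 1) := by
  classical
  refine ⟨max 1 (max (2 * (Nat.card G * C) / min δ 1) (2 * (Nat.card G * (|c| + C)))),
    le_max_left _ _, fun s hs1 hs2 => ?_⟩
  set B : ℝ := max 1 (max (2 * (Nat.card G * C) / min δ 1) (2 * (Nat.card G * (|c| + C))))
    with hB
  have hB1 : (1 : ℝ) ≤ B := le_max_left _ _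
  have hB0 : (0 : ℝ) ≤ B := zero_le_one.trans hB1
  have hs0 : (0 : ℝ) < s - 1 := by linarith
  have hcard : Fintype.card (AddChar G ℂ) = Nat.card G := by
    have : Fintype G := Fintype.ofFinite G
    rw [AddChar.card_eq, Nat.card_eq_fintype_card]
  have hG1 : 1 ≤ Nat.card G := Nat.card_pos
  have hZ := m14anz_summable F hs1
  rw [← Finset.mul_prod_erase Finset.univ _ (Finset.mem_univ (0 : AddChar G ℂ))]
  have h0 : ‖∑' I : Ideal (𝓞 F), m14an6_f hmul (0 : AddChar G ℂ)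
      (ne_of_gt (zero_lt_one.trans hs1)) I‖ ≤ B / (s - 1) := by
    refine (m14an4_bound_all hδ.le hcount (0 : AddChar G ℂ) hs1 hs2 hZ).trans ?_
    exact div_le_div_of_nonneg_right ((le_max_right _ _).trans (le_max_right _ _)) hs0.le
  have h1 : ∏ ψ ∈ (Finset.univ : Finset (AddChar G ℂ)).erase 0,
      ‖∑' I : Ideal (𝓞 F), m14an6_f hmul ψ (ne_of_gt (zero_lt_one.trans hs1)) I‖
        ≤ B ^ (Nat.card G - 1) := by
    calc ∏ ψ ∈ (Finset.univ : Finset (AddChar G ℂ)).erase 0,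
        ‖∑' I : Ideal (𝓞 F), m14an6_f hmul ψ (ne_of_gt (zero_lt_one.trans hs1)) I‖
        ≤ ∏ _ψ ∈ (Finset.univ : Finset (AddChar G ℂ)).erase 0, B := by
          refine Finset.prod_le_prod (fun _ _ => norm_nonneg _) fun ψ hψ => ?_
          refine (m14an4_bound hδ hcount ψ (Finset.ne_of_mem_erase hψ) hs1 hs2 hZ).trans ?_
          exact (le_max_left _ _).trans (le_max_right _ _)
      _ = B ^ (Nat.card G - 1) := by
          rw [Finset.prod_const, Finset.card_erase_of_mem (Finset.mem_univ _), Finset.card_univ,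
            hcard]
  calc ‖∑' I : Ideal (𝓞 F), m14an6_f hmul (0 : AddChar G ℂ)
        (ne_of_gt (zero_lt_one.trans hs1)) I‖ *
      ∏ ψ ∈ (Finset.univ : Finset (AddChar G ℂ)).erase 0,
        ‖∑' I : Ideal (𝓞 F), m14an6_f hmul ψ (ne_of_gt (zero_lt_one.trans hs1)) I‖
      ≤ (B / (s - 1)) * B ^ (Nat.card G - 1) :=
        mul_le_mul h0 h1 (Finset.prod_nonneg fun _ _ => norm_nonneg _) (div_nonneg hB0 hs0.le)
    _ = B ^ Nat.card G / (s - 1) := by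
        rw [div_mul_eq_mul_div, ← pow_succ', Nat.sub_add_cancel hG1]

/-- **the `F`-side**: `exp (|G| S_T) ≤ B ^ |G| / (s - 1)` on `(1, 2]`, for all finite `T`. -/
theorem m14an6_F_side [Finite G] {m : ℕ} {χ : Ideal (𝓞 F) → G} (hmul : m14an6_Mul m χ)
    {c C δ : ℝ} (hδ : 0 < δ) (hcount : m14an4_Count m χ c C δ) :
    ∃ B : ℝ, 1 ≤ B ∧ ∀ (s : ℝ), 1 < s → s ≤ 2 → ∀ T : Finset (HeightOneSpectrum (𝓞 F)),
      Real.exp (Nat.card G * m14an6_S m χ s T) ≤ B ^ Nat.card G / (s - 1) := by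
  obtain ⟨B, hB1, hB⟩ := m14an6_prod_le hmul hδ hcount
  exact ⟨B, hB1, fun s hs1 hs2 T => (m14an6_exp_le_prod hmul hs1 T).trans (hB s hs1 hs2)⟩

end Fermat.Agent.M14
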