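/-
S14, package AN6 (helper8): primes of `M` over primes of `F` (names `m14an6p_*`).

* `m14an6p_pi w`: the prime of `𝓞 F` under the prime `w` of `𝓞 M`;
* `m14an6p_card_le`: at most `[M : F]` primes of `M` lie over a prime of `F`;
* `m14an6p_norm`: either `relNorm w = π w` and `N w = N (π w)`, or `N (π w) ^ 2 ≤ N w`;
* `m14an6p_two_le`: `2 ≤ N v`;
* `m14an6p_finite_bad`: for `m ≠ 0` only finitely many primes are not coprime to `m`.
-/
import Mathlib

set_option autoImplicit false
set_option linter.deprecated false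
set_option linter.unusedSectionVars false

namespace Fermat.Agent.M14

open NumberField IsDedekindDomain

variable {F M : Type} [Field F] [NumberField F] [Field M] [NumberField M] [Algebra F M]

/-- The prime of `𝓞 F` under a prime of `𝓞 M`. -/
noncomputable def m14an6p_pi (w : HeightOneSpectrum (𝓞 M)) : HeightOneSpectrum (𝓞 F) where
  asIdeal := w.asIdeal.under (𝓞 F)
  isPrime := inferInstance
  ne_bot := Ideal.under_ne_bot (𝓞 F) w.ne_bot

theorem m14an6p_pi_asIdeal (w : HeightOneSpectrum (𝓞 M)) :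
    (m14an6p_pi (F := F) w).asIdeal = w.asIdeal.under (𝓞 F) := rfl

/-- At most `[M : F]` primes lie over a given prime. -/
theorem m14an6p_card_primesOver (v : HeightOneSpectrum (𝓞 F)) :
    (IsDedekindDomain.primesOverFinset v.asIdeal (𝓞 M)).card ≤ Module.finrank F M := by
  have : v.asIdeal.IsMaximal := v.isMaximal
  rw [← Ideal.sum_ramification_inertia (𝓞 M) F M v.ne_bot, Finset.card_eq_sum_ones]
  refine Finset.sum_le_sum fun P hP => ?_
  have hP' := (IsDedekindDomain.mem_primesOverFinset_iff v.ne_bot (𝓞 M)).mp hP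
  have : P.IsPrime := hP'.1
  have : P.LiesOver v.asIdeal := hP'.2
  refine Right.one_le_mul ?_ ?_
  · exact Nat.pos_iff_ne_zero.mpr <|
      Ideal.IsDedekindDomain.ramificationIdx'_ne_zero_of_liesOver _ v.ne_bot
  · exact Nat.pos_iff_ne_zero.mpr <| Ideal.inertiaDeg'_ne_zero v.asIdeal P

/-- (S1) At most `[M : F]` primes of a finset lie over a given prime. -/
theorem m14an6p_card_le (v : HeightOneSpectrum (𝓞 F)) (T : Finset (HeightOneSpectrum (𝓞 M)))
    (hT : ∀ w ∈ T, m14an6p_pi (F := F) w = v) : T.card ≤ Module.finrank F M := by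
  classical
  have : v.asIdeal.IsMaximal := v.isMaximal
  refine le_trans ?_ (m14an6p_card_primesOver (M := M) v)
  have hinj : Function.Injective (fun w : HeightOneSpectrum (𝓞 M) => w.asIdeal) :=
    fun a b h => HeightOneSpectrum.ext h
  rw [← Finset.card_image_of_injective T hinj]
  refine Finset.card_le_card fun P hP => ?_
  obtain ⟨w, hw, rfl⟩ := Finset.mem_image.mp hP
  rw [IsDedekindDomain.mem_primesOverFinset_iff v.ne_bot (𝓞 M)]
  refine ⟨w.isPrime, ⟨?_⟩⟩
  rw [← hT w hw]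
  rfl

/-- (S4) the norm of a prime is at least `2`. -/
theorem m14an6p_two_le (v : HeightOneSpectrum (𝓞 F)) : 2 ≤ Ideal.absNorm v.asIdeal := by
  have h0 : Ideal.absNorm v.asIdeal ≠ 0 := fun h => v.ne_bot (Ideal.absNorm_eq_zero_iff.mp h)
  have h1 : Ideal.absNorm v.asIdeal ≠ 1 :=
    fun h => v.isPrime.ne_top (Ideal.absNorm_eq_one_iff.mp h)
  omega

/-- (S3) the norm of a prime of `M` in terms of the prime below. -/
theorem m14an6p_norm (w : HeightOneSpectrum (𝓞 M)) :
    (Ideal.relNorm (𝓞 F) w.asIdeal = (m14an6p_pi (F := F) w).asIdeal ∧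
        Ideal.absNorm w.asIdeal = Ideal.absNorm (m14an6p_pi (F := F) w).asIdeal) ∨
      (Ideal.absNorm (m14an6p_pi (F := F) w).asIdeal) ^ 2 ≤ Ideal.absNorm w.asIdeal := by
  have : w.asIdeal.IsMaximal := w.isMaximal
  have : (m14an6p_pi (F := F) w).asIdeal.IsMaximal := (m14an6p_pi (F := F) w).isMaximal
  have : w.asIdeal.LiesOver (m14an6p_pi (F := F) w).asIdeal := ⟨rfl⟩
  have h1 := Ideal.relNorm_eq_pow_of_isMaximal w.asIdeal (m14an6p_pi (F := F) w).asIdeal
  have h2 : Ideal.absNorm w.asIdeal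
      = Ideal.absNorm (m14an6p_pi (F := F) w).asIdeal ^ (w.asIdeal.inertiaDeg (𝓞 F)) := by
    rw [← Ideal.absNorm_relNorm (𝓞 F) (𝓞 M) w.asIdeal, h1, map_pow]
  have hpos : 0 < w.asIdeal.inertiaDeg (𝓞 F) := Ideal.inertiaDeg_pos w.asIdeal (𝓞 F)
  rcases Nat.lt_or_ge 1 (w.asIdeal.inertiaDeg (𝓞 F)) with hf | hf
  · right
    rw [h2]
    exact Nat.pow_le_pow_right (by have := m14an6p_two_le (m14an6p_pi (F := F) w); omega) hf
  · left
    have hf1 : w.asIdeal.inertiaDeg (𝓞 F) = 1 := by omega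
    rw [hf1, pow_one] at h1 h2
    exact ⟨h1, h2⟩

/-- For a prime `v`, not being coprime to `m` means dividing `m`. -/
theorem m14an6p_not_coprime_iff (m : ℕ) (v : HeightOneSpectrum (𝓞 F)) :
    ¬ IsCoprime v.asIdeal (Ideal.span {(m : 𝓞 F)}) ↔ v.asIdeal ∣ Ideal.span {(m : 𝓞 F)} := by
  rw [Ideal.isCoprime_iff_sup_eq, Ideal.dvd_iff_le]
  constructor
  · intro h
    have h1 : v.asIdeal = v.asIdeal ⊔ Ideal.span {(m : 𝓞 F)} :=
      v.isMaximal.eq_of_le h le_sup_left
    exact le_sup_right.trans h1.symm.le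
  · intro hle h
    rw [sup_eq_left.mpr hle] at h
    exact v.isPrime.ne_top h

/-- (S5) for `m ≠ 0` only finitely many primes are not coprime to `m`. -/
theorem m14an6p_finite_bad (m : ℕ) (hm : m ≠ 0) :
    {v : HeightOneSpectrum (𝓞 F) | ¬ IsCoprime v.asIdeal (Ideal.span {(m : 𝓞 F)})}.Finite := by
  have h0 : Ideal.span {(m : 𝓞 F)} ≠ 0 := by
    rw [Ideal.zero_eq_bot, Ne, Ideal.span_singleton_eq_bot]
    exact_mod_cast hm
  refine (Ideal.finite_factors h0).subset fun v hv => ?_
  exact (m14an6p_not_coprime_iff m v).mp hv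

end Fermat.Agent.M14
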