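/-
S14, package AN6 (helper8): the `M`-side of the first inequality.

If `χ` kills the norms from `M`, then for `s ∈ (1, 2]` every finite Euler product of `ζ_M(s)` is
at most `exp (n S_T(s) + n (b + 2 ζ_F(2)))`, `n = [M : F]`, where `S_T` is the sum of `N(v)^(-s)`
over the primes `v ∈ T` of `F` prime to `m` in the trivial class.
-/
import Mathlib
import Fermat.Agent.M14.An6F
import Fermat.Agent.M14.An6Pi
import Fermat.Agent.M14.An5Zeta

set_option autoImplicit false
set_option linter.unusedSectionVars false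

namespace Fermat.Agent.M14

open NumberField IsDedekindDomain Finset

variable {F M : Type} [Field F] [NumberField F] [Field M] [NumberField M] [Algebra F M]
variable {G : Type} [AddCommGroup G]

/-- `χ` kills the norms from `M` which are prime to `m`. -/
def m14an6_Norm (M : Type) [Field M] [NumberField M] [Algebra F M] (m : ℕ)
    (χ : Ideal (𝓞 F) → G) : Prop :=
  ∀ 𝔄 : Ideal (𝓞 M), 𝔄 ≠ ⊥ → IsCoprime (Ideal.relNorm (𝓞 F) 𝔄) (Ideal.span {(m : 𝓞 F)}) →
    χ (Ideal.relNorm (𝓞 F) 𝔄) = 0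

/-- (M0) `(1 - u)⁻¹ ≤ exp (u + u ^ 2)` for `0 ≤ u ≤ 1/2`. -/
theorem m14an6_inv_le_exp {u : ℝ} (h0 : 0 ≤ u) (h1 : u ≤ 1 / 2) :
    (1 - u)⁻¹ ≤ Real.exp (u + u ^ 2) := by
  have hpos : 0 < 1 - u := by linarith
  have hx : 0 ≤ u + u ^ 2 := by positivity
  have hexp := Real.quadratic_le_exp_of_nonneg hx
  have hu2 : u ^ 2 ≤ 1 / 4 := by nlinarith
  have hu3 : u ^ 3 ≤ 1 / 8 := by
    have : u ^ 3 = u * u ^ 2 := by ring
    rw [this]
    nlinarith
  have hkey : 1 ≤ (1 - u) * (1 + (u + u ^ 2) + (u + u ^ 2) ^ 2 / 2) := by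
    have h : (1 - u) * (1 + (u + u ^ 2) + (u + u ^ 2) ^ 2 / 2)
        = 1 + u ^ 2 / 2 * (1 - u - u ^ 2 - u ^ 3) := by ring
    rw [h]
    have : 0 ≤ u ^ 2 / 2 * (1 - u - u ^ 2 - u ^ 3) :=
      mul_nonneg (by positivity) (by linarith)
    linarith
  rw [inv_le_iff_one_le_mul₀' hpos]
  exact hkey.trans (mul_le_mul_of_nonneg_left hexp hpos.le)

/-- The weight `1` of the primes not prime to `m`. -/
noncomputable def m14an6_bad (m : ℕ) (v : HeightOneSpectrum (𝓞 F)) : ℝ :=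
  open scoped Classical in
  if IsCoprime v.asIdeal (Ideal.span {(m : 𝓞 F)}) then 0 else 1

/-- The total weight of a prime `v` of `F`. -/
noncomputable def m14an6_A (m : ℕ) (χ : Ideal (𝓞 F) → G) (s : ℝ)
    (v : HeightOneSpectrum (𝓞 F)) : ℝ :=
  m14an6_good m χ s v + m14an6_bad m v + 2 * (Ideal.absNorm v.asIdeal : ℝ) ^ (-2 : ℝ)

theorem m14an6_bad_nonneg (m : ℕ) (v : HeightOneSpectrum (𝓞 F)) : 0 ≤ m14an6_bad m v := by
  rw [m14an6_bad]
  split_ifs <;> norm_num

theorem m14an6_A_nonneg (m : ℕ) (χ : Ideal (𝓞 F) → G) (s : ℝ)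
    (v : HeightOneSpectrum (𝓞 F)) : 0 ≤ m14an6_A m χ s v := by
  rw [m14an6_A]
  have := m14an6_good_nonneg m χ s v
  have := m14an6_bad_nonneg m v
  have : 0 ≤ (Ideal.absNorm v.asIdeal : ℝ) ^ (-2 : ℝ) := Real.rpow_nonneg (Nat.cast_nonneg _) _
  linarith

/-- (M1) the contribution of a prime `w` of `M` is bounded by the weight of the prime below. -/
theorem m14an6_term_le {m : ℕ} {χ : Ideal (𝓞 F) → G} (hnorm : m14an6_Norm M m χ)
    {s : ℝ} (hs : 1 ≤ s) (w : HeightOneSpectrum (𝓞 M)) :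
    m14an5z_f M s w.asIdeal + (m14an5z_f M s w.asIdeal) ^ 2
      ≤ m14an6_A m χ s (m14an6p_pi (F := F) w) := by
  set v := m14an6p_pi (F := F) w with hv
  have hq2 : (2 : ℝ) ≤ (Ideal.absNorm v.asIdeal : ℝ) := by
    exact_mod_cast m14an6p_two_le v
  have hq0 : (0 : ℝ) < (Ideal.absNorm v.asIdeal : ℝ) := by linarith
  have hu : m14an5z_f M s w.asIdeal = (Ideal.absNorm w.asIdeal : ℝ) ^ (-s) :=
    m14an5z_f_of_ne M s w.ne_bot
  have hu0 : 0 ≤ m14an5z_f M s w.asIdeal := m14an5z_f_nonneg M s _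
  have hu_half : m14an5z_f M s w.asIdeal ≤ 1 / 2 := by
    rw [hu]
    exact m14an6_t_le_half w hs
  -- `q ^ (-2 s) ≤ q ^ (-2)`
  have hq2s : (Ideal.absNorm v.asIdeal : ℝ) ^ (-(2 * s)) ≤ (Ideal.absNorm v.asIdeal : ℝ) ^ (-2 : ℝ) :=
    Real.rpow_le_rpow_of_exponent_le (by linarith) (by linarith)
  have hg := m14an6_good_nonneg m χ s v
  have hb := m14an6_bad_nonneg m v
  rw [m14an6_A]
  rcases m14an6p_norm (F := F) w with ⟨hrel, hN⟩ | hN
  · -- relative degree one
    rw [← hv] at hrel hN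
    have hut : m14an5z_f M s w.asIdeal = (Ideal.absNorm v.asIdeal : ℝ) ^ (-s) := by
      rw [hu, hN]
    have hsq : (m14an5z_f M s w.asIdeal) ^ 2 ≤ (Ideal.absNorm v.asIdeal : ℝ) ^ (-2 : ℝ) := by
      rw [hut, ← Real.rpow_natCast, ← Real.rpow_mul hq0.le]
      refine le_trans (le_of_eq ?_) hq2s
      congr 1
      push_cast
      ring
    have hfirst : m14an5z_f M s w.asIdeal ≤ m14an6_good m χ s v + m14an6_bad m v := by
      by_cases hc : IsCoprime v.asIdeal (Ideal.span {(m : 𝓞 F)})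
      · have hχ : χ v.asIdeal = 0 := by
          have := hnorm w.asIdeal w.ne_bot (hrel ▸ hc)
          rwa [hrel] at this
        rw [m14an6_good, if_pos ⟨hc, hχ⟩, ← hut]
        linarith
      · rw [m14an6_bad, if_neg hc]
        linarith
    have : 0 ≤ (Ideal.absNorm v.asIdeal : ℝ) ^ (-2 : ℝ) := Real.rpow_nonneg hq0.le _
    linarith
  · -- relative degree at least two
    rw [← hv] at hN
    have hN' : (Ideal.absNorm v.asIdeal : ℝ) ^ (2 : ℝ) ≤ (Ideal.absNorm w.asIdeal : ℝ) := by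
      rw [Real.rpow_two]
      exact_mod_cast hN
    have hut : m14an5z_f M s w.asIdeal ≤ (Ideal.absNorm v.asIdeal : ℝ) ^ (-2 : ℝ) := by
      rw [hu]
      calc (Ideal.absNorm w.asIdeal : ℝ) ^ (-s)
          ≤ ((Ideal.absNorm v.asIdeal : ℝ) ^ (2 : ℝ)) ^ (-s) :=
            Real.rpow_le_rpow_of_nonpos (Real.rpow_pos_of_pos hq0 _) hN' (by linarith)
        _ = (Ideal.absNorm v.asIdeal : ℝ) ^ (-(2 * s)) := by
            rw [← Real.rpow_mul hq0.le]
            congr 1
            ring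
        _ ≤ _ := hq2s
    have hsq : (m14an5z_f M s w.asIdeal) ^ 2 ≤ m14an5z_f M s w.asIdeal := by
      rw [pow_two]
      calc m14an5z_f M s w.asIdeal * m14an5z_f M s w.asIdeal
          ≤ 1 * m14an5z_f M s w.asIdeal :=
            mul_le_mul_of_nonneg_right (by linarith) hu0
        _ = _ := one_mul _
    linarith

/-- (M2) summing over the primes of `M`, grouped by the prime below. -/
theorem m14an6_sum_le (m : ℕ) (χ : Ideal (𝓞 F) → G) (s : ℝ)
    (T : Finset (HeightOneSpectrum (𝓞 M))) :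
    open scoped Classical in
    ∑ w ∈ T, m14an6_A m χ s (m14an6p_pi (F := F) w)
      ≤ (Module.finrank F M : ℝ) * ∑ v ∈ T.image (m14an6p_pi (F := F)), m14an6_A m χ s v := by
  classical
  rw [Finset.sum_comp (m14an6_A m χ s) (m14an6p_pi (F := F)), Finset.mul_sum]
  refine Finset.sum_le_sum fun v _ => ?_
  rw [nsmul_eq_mul]
  refine mul_le_mul_of_nonneg_right ?_ (m14an6_A_nonneg m χ s v)
  have := m14an6p_card_le (F := F) (M := M) v (T.filter fun w => m14an6p_pi (F := F) w = v)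
    (fun w hw => (Finset.mem_filter.mp hw).2)
  exact_mod_cast this

/-- The sum of `N(I)^(-2)` over all ideals of `F`. -/
noncomputable def m14an6_Z2 (F : Type) [Field F] [NumberField F] : ℝ :=
  ∑' I : Ideal (𝓞 F), (Ideal.absNorm I : ℝ) ^ (-2 : ℝ)

/-- The number of primes of `F` not prime to `m`. -/
noncomputable def m14an6_b (F : Type) [Field F] [NumberField F] (m : ℕ) (hm : m ≠ 0) : ℕ :=
  (m14an6p_finite_bad (F := F) m hm).toFinset.card

/-- (M3) the total weight of a finite set of primes of `F`. -/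
theorem m14an6_sum_A_le (m : ℕ) (hm : m ≠ 0) (χ : Ideal (𝓞 F) → G) (s : ℝ)
    (T : Finset (HeightOneSpectrum (𝓞 F))) :
    ∑ v ∈ T, m14an6_A m χ s v ≤ m14an6_S m χ s T + (m14an6_b F m hm + 2 * m14an6_Z2 F) := by
  classical
  simp only [m14an6_A, Finset.sum_add_distrib, ← Finset.mul_sum]
  have h1 : ∑ v ∈ T, m14an6_bad m v ≤ m14an6_b F m hm := by
    have : ∑ v ∈ T, m14an6_bad m v
        = ((T.filter fun v => ¬ IsCoprime v.asIdeal (Ideal.span {(m : 𝓞 F)})).card : ℝ) := by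
      rw [Finset.card_eq_sum_ones, Nat.cast_sum, Finset.sum_filter]
      refine Finset.sum_congr rfl fun v _ => ?_
      rw [m14an6_bad]
      split_ifs <;> simp
    rw [this, m14an6_b]
    have : (T.filter fun v => ¬ IsCoprime v.asIdeal (Ideal.span {(m : 𝓞 F)}))
        ⊆ (m14an6p_finite_bad (F := F) m hm).toFinset := by
      intro v hv
      rw [Set.Finite.mem_toFinset]
      exact (Finset.mem_filter.mp hv).2
    exact_mod_cast Finset.card_le_card this
  have h2 : ∑ v ∈ T, (Ideal.absNorm v.asIdeal : ℝ) ^ (-2 : ℝ) ≤ m14an6_Z2 F := by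
    have hinj : Function.Injective (fun v : HeightOneSpectrum (𝓞 F) => v.asIdeal) :=
      fun a b h => HeightOneSpectrum.ext h
    have hsum : Summable fun I : Ideal (𝓞 F) => (Ideal.absNorm I : ℝ) ^ (-2 : ℝ) :=
      m14anz_summable F (by norm_num)
    rw [m14an6_Z2, ← Finset.sum_image (f := fun I : Ideal (𝓞 F) =>
      (Ideal.absNorm I : ℝ) ^ (-2 : ℝ)) (fun a _ b _ h => hinj h)]
    exact hsum.sum_le_tsum _ fun I _ => Real.rpow_nonneg (Nat.cast_nonneg _) _
  rw [m14an6_S]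
  linarith

/-- (M4) the finite Euler products of `ζ_M(s)`. -/
theorem m14an6_M_partial {m : ℕ} (hm : m ≠ 0) {χ : Ideal (𝓞 F) → G}
    (hnorm : m14an6_Norm M m χ) {s : ℝ} (hs : 1 ≤ s) (T : Finset (HeightOneSpectrum (𝓞 M))) :
    open scoped Classical in
    ∏ w ∈ T, (1 - m14an5z_f M s w.asIdeal)⁻¹
      ≤ Real.exp ((Module.finrank F M : ℝ) * m14an6_S m χ s (T.image (m14an6p_pi (F := F)))
          + (Module.finrank F M : ℝ) * (m14an6_b F m hm + 2 * m14an6_Z2 F)) := by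
  classical
  have h1 : ∏ w ∈ T, (1 - m14an5z_f M s w.asIdeal)⁻¹
      ≤ ∏ w ∈ T, Real.exp (m14an6_A m χ s (m14an6p_pi (F := F) w)) := by
    refine Finset.prod_le_prod (fun w _ => ?_) fun w _ => ?_
    · have : m14an5z_f M s w.asIdeal ≤ 1 / 2 := by
        rw [m14an5z_f_of_ne M s w.ne_bot]
        exact m14an6_t_le_half w hs
      exact inv_nonneg.mpr (by linarith)
    · have hhalf : m14an5z_f M s w.asIdeal ≤ 1 / 2 := by
        rw [m14an5z_f_of_ne M s w.ne_bot]
        exact m14an6_t_le_half w hs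
      refine (m14an6_inv_le_exp (m14an5z_f_nonneg M s _) hhalf).trans ?_
      exact Real.exp_le_exp.mpr (m14an6_term_le hnorm hs w)
  refine h1.trans ?_
  rw [← Real.exp_sum, Real.exp_le_exp, ← mul_add]
  refine (m14an6_sum_le m χ s T).trans ?_
  exact mul_le_mul_of_nonneg_left (m14an6_sum_A_le m hm χ s _) (Nat.cast_nonneg _)

end Fermat.Agent.M14
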