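/-
S14, package AN6 (helper8): **the first inequality** (analytic core).

`m14an6_core`: let `M / F` be an extension of number fields, `m : ℕ`, `G` a finite abelian group
and `χ : Ideal (𝓞 F) → G` multiplicative on the ideals prime to `m`, trivial on the principal
ideals `(γ)`, `γ ≡ 1 mod m`, trivial on the norms from `M` prime to `m`, and surjective on the
ideals prime to `m`.  Then `|G| ≤ [M : F]`.
-/
import Mathlib
import Fermat.Agent.M14.An6M
import Fermat.Agent.M14.An3Res

set_option autoImplicit false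
set_option linter.unusedSectionVars false

namespace Fermat.Agent.M14

open NumberField IsDedekindDomain Finset

variable {F M : Type} [Field F] [NumberField F] [Field M] [NumberField M] [Algebra F M]
variable {G : Type} [AddCommGroup G]

/-- The `M`-side combined with the `F`-side: a bound for `ζ_M(s) ^ |G|`. -/
theorem m14an6_zeta_pow_le [Finite G] {m : ℕ} (hm : m ≠ 0) {χ : Ideal (𝓞 F) → G}
    (hnorm : m14an6_Norm M m χ) {B : ℝ} {s : ℝ} (hs1 : 1 < s)
    (hF : ∀ T : Finset (HeightOneSpectrum (𝓞 F)),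
      Real.exp (Nat.card G * m14an6_S m χ s T) ≤ B ^ Nat.card G / (s - 1)) :
    m14an5z_Z M s ^ Nat.card G
      ≤ (B ^ Nat.card G / (s - 1)) ^ Module.finrank F M *
        Real.exp (Nat.card G *
          ((Module.finrank F M : ℝ) * (m14an6_b F m hm + 2 * m14an6_Z2 F))) := by
  classical
  have hsum : Summable fun I : Ideal (𝓞 M) => ‖m14an5z_f M s I‖ :=
    summable_norm_iff.mpr (m14an5z_summable M hs1)
  have htend := (m14an5_tendsto_prod (m14an5z_f M s) hsum).pow (Nat.card G)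
  refine le_of_tendsto' htend fun T => ?_
  have h1 := m14an6_M_partial (F := F) hm hnorm hs1.le T
  have h0 : 0 ≤ ∏ w ∈ T, (1 - m14an5z_f M s w.asIdeal)⁻¹ := by
    refine Finset.prod_nonneg fun w _ => inv_nonneg.mpr ?_
    have : m14an5z_f M s w.asIdeal ≤ 1 / 2 := by
      rw [m14an5z_f_of_ne M s w.ne_bot]
      exact m14an6_t_le_half w hs1.le
    linarith
  refine (pow_le_pow_left₀ h0 h1 _).trans ?_
  rw [← Real.exp_nat_mul, mul_add, Real.exp_add]
  refine mul_le_mul_of_nonneg_right ?_ (Real.exp_pos _).le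
  have h2 : (Nat.card G : ℝ) * ((Module.finrank F M : ℝ) *
      m14an6_S m χ s (T.image (m14an6p_pi (F := F))))
      = (Module.finrank F M : ℝ) * ((Nat.card G : ℝ) *
          m14an6_S m χ s (T.image (m14an6p_pi (F := F)))) := by ring
  rw [h2, Real.exp_nat_mul]
  exact pow_le_pow_left₀ (Real.exp_pos _).le (hF _) _

/-- **the first inequality**, from the counting hypothesis. -/
theorem m14an6_core_of_count [Finite G] {m : ℕ} (hm : m ≠ 0) {χ : Ideal (𝓞 F) → G}
    (hmul : m14an6_Mul m χ) (hnorm : m14an6_Norm M m χ) {c C δ : ℝ} (hδ : 0 < δ)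
    (hcount : m14an4_Count m χ c C δ) : Nat.card G ≤ Module.finrank F M := by
  obtain ⟨B, hB1, hF⟩ := m14an6_F_side hmul hδ hcount
  obtain ⟨cM, hcM, hlow⟩ := m14an5z_lower' M
  by_contra hlt
  rw [not_le] at hlt
  set n := Module.finrank F M with hn
  set h := Nat.card G with hh
  set E : ℝ := Real.exp (h * ((n : ℝ) * (m14an6_b F m hm + 2 * m14an6_Z2 F))) with hE
  have hE0 : 0 < E := Real.exp_pos _
  have hB0 : 0 < B := lt_of_lt_of_le zero_lt_one hB1
  set K : ℝ := B ^ (h * n) * E with hK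
  have hK0 : 0 < K := mul_pos (pow_pos hB0 _) hE0
  have hcMh : 0 < cM ^ h := pow_pos hcM _
  set x : ℝ := min 1 (cM ^ h / (2 * K)) with hx
  have hx0 : 0 < x := lt_min one_pos (div_pos hcMh (by positivity))
  have hx1 : x ≤ 1 := min_le_left _ _
  have hx2 : x ≤ cM ^ h / (2 * K) := min_le_right _ _
  have hs1 : (1 : ℝ) < 1 + x := by linarith
  have hs2 : 1 + x ≤ 2 := by linarith
  have hkey := m14an6_zeta_pow_le (M := M) hm hnorm hs1 (hF (1 + x) hs1 hs2)
  have hlow' := hlow (1 + x) hs1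
  rw [add_sub_cancel_left] at hkey hlow'
  have h1 : (cM / x) ^ h ≤ (B ^ h / x) ^ n * E :=
    (pow_le_pow_left₀ (div_pos hcM hx0).le hlow' _).trans hkey
  rw [div_pow, div_pow, ← pow_mul] at h1
  have hxh : x ^ h = x ^ n * x ^ (h - n) := by
    rw [← pow_add, Nat.add_sub_cancel' hlt.le]
  have h2 : cM ^ h ≤ K * x ^ (h - n) := by
    rw [div_le_iff₀ (pow_pos hx0 _)] at h1
    calc cM ^ h ≤ B ^ (h * n) / x ^ n * E * x ^ h := h1
      _ = K * x ^ (h - n) := by
          rw [hxh, hK]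
          field_simp
  have h3 : x ^ (h - n) ≤ x := pow_le_of_le_one hx0.le hx1 (by omega)
  have h4 : K * x ≤ cM ^ h / 2 := by
    calc K * x ≤ K * (cM ^ h / (2 * K)) := mul_le_mul_of_nonneg_left hx2 hK0.le
      _ = cM ^ h / 2 := by field_simp
  have h5 : K * x ^ (h - n) ≤ K * x := mul_le_mul_of_nonneg_left h3 hK0.le
  linarith

/-- **AN6-CORE, the first inequality**. -/
theorem m14an6_core {F M : Type} [Field F] [NumberField F] [Field M] [NumberField M]
    [Algebra F M] (m : ℕ) (G : Type) [AddCommGroup G] [Finite G] (χ : Ideal (𝓞 F) → G)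
    (hmul : ∀ I J : Ideal (𝓞 F), I ≠ ⊥ → J ≠ ⊥ → IsCoprime I (Ideal.span {(m : 𝓞 F)}) →
      IsCoprime J (Ideal.span {(m : 𝓞 F)}) → χ (I * J) = χ I + χ J)
    (hprinc : ∀ γ : 𝓞 F, γ ≠ 0 → γ - 1 ∈ Ideal.span {(m : 𝓞 F)} → χ (Ideal.span {γ}) = 0)
    (hnorm : ∀ 𝔄 : Ideal (𝓞 M), 𝔄 ≠ ⊥ →
      IsCoprime (Ideal.relNorm (𝓞 F) 𝔄) (Ideal.span {(m : 𝓞 F)}) →
      χ (Ideal.relNorm (𝓞 F) 𝔄) = 0)
    (hsurj : ∀ g : G, ∃ I : Ideal (𝓞 F), I ≠ ⊥ ∧ IsCoprime I (Ideal.span {(m : 𝓞 F)}) ∧
      χ I = g) :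
    Nat.card G ≤ Module.finrank F M := by
  rcases Nat.eq_zero_or_pos m with hm | hm
  · -- `m = 0`: only `⊤` is prime to `m`, so `G` is trivial
    subst hm
    have hsub : Subsingleton G := by
      refine ⟨fun a b => ?_⟩
      have key : ∀ g : G, g = χ ⊤ := by
        intro g
        obtain ⟨I, -, hI, rfl⟩ := hsurj g
        rw [Nat.cast_zero, Ideal.span_singleton_zero, Ideal.isCoprime_iff_sup_eq,
          sup_bot_eq] at hI
        rw [hI]
      rw [key a, key b]
    have h1 : Nat.card G ≤ 1 := Finite.card_le_one_iff_subsingleton.mpr hsub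
    have h2 : 0 < Module.finrank F M := Module.finrank_pos
    omega
  · obtain ⟨c, C, -, δ, hδ, hcount⟩ := m14an3r_hcount m hm.ne' G χ hmul hprinc hsurj
    exact m14an6_core_of_count (M := M) hm.ne' hmul hnorm hδ hcount

end Fermat.Agent.M14
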