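import Mathlib

/-!
# S14 / AN chain: the class-group WRAPPER (prefix `m14anw_`)

`m14anw_main`: the element form (AN-A) of the first inequality of class field theory
(`χ 𝔠 = 0` implies `(γ) 𝔠 = (δ) N(𝔄)`) for a surjective `χ : Ideal (𝓞 F) → G` with
`|G| = [M : F]`, deduced from the cardinality form (CORE) `|G'| ≤ [M : F]` applied to the image
`G'` of the ideals prime to `m` in `(Cl(F) / norm classes) × G`.
-/

set_option autoImplicit false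
set_option linter.style.haveILetI false
set_option linter.unusedSectionVars false

open NumberField Ideal

namespace Fermat.Agent.M14

section cls

variable {F : Type} [Field F] [NumberField F]

/-- the class of a nonzero ideal (junk value `1` at `⊥`). -/
noncomputable def m14anw_cls (I : Ideal (𝓞 F)) : ClassGroup (𝓞 F) :=
  if h : I ≠ ⊥ then ClassGroup.mk0 ⟨I, mem_nonZeroDivisors_of_ne_zero h⟩ else 1

theorem m14anw_cls_of_ne {I : Ideal (𝓞 F)} (h : I ≠ ⊥) :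
    m14anw_cls I = ClassGroup.mk0 ⟨I, mem_nonZeroDivisors_of_ne_zero h⟩ := by
  unfold m14anw_cls
  rw [dif_pos h]

theorem m14anw_cls_mul {I J : Ideal (𝓞 F)} (hI : I ≠ ⊥) (hJ : J ≠ ⊥) :
    m14anw_cls (I * J) = m14anw_cls I * m14anw_cls J := by
  rw [m14anw_cls_of_ne hI, m14anw_cls_of_ne hJ, m14anw_cls_of_ne (mul_ne_zero hI hJ), ← map_mul]
  rfl

theorem m14anw_cls_top : m14anw_cls (⊤ : Ideal (𝓞 F)) = 1 := by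
  rw [m14anw_cls_of_ne (by simp), ClassGroup.mk0_eq_one_iff]
  exact ⟨⟨1, by simp⟩⟩

theorem m14anw_cls_pow {I : Ideal (𝓞 F)} (hI : I ≠ ⊥) (k : ℕ) :
    m14anw_cls (I ^ k) = m14anw_cls I ^ k := by
  induction k with
  | zero => rw [pow_zero, pow_zero, Ideal.one_eq_top, m14anw_cls_top]
  | succ k ih => rw [pow_succ, pow_succ, m14anw_cls_mul (pow_ne_zero k hI) hI, ih]

theorem m14anw_cls_span {γ : 𝓞 F} (hγ : γ ≠ 0) : m14anw_cls (span {γ}) = 1 := by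
  have h : (span {γ} : Ideal (𝓞 F)) ≠ ⊥ := by
    rw [Ne, Ideal.span_singleton_eq_bot]; exact hγ
  rw [m14anw_cls_of_ne h, ClassGroup.mk0_eq_one_iff]
  exact ⟨⟨γ, rfl⟩⟩

theorem m14anw_cls_eq_iff {I J : Ideal (𝓞 F)} (hI : I ≠ ⊥) (hJ : J ≠ ⊥) :
    m14anw_cls I = m14anw_cls J ↔
      ∃ (x y : 𝓞 F), x ≠ 0 ∧ y ≠ 0 ∧ span {x} * I = span {y} * J := by
  rw [m14anw_cls_of_ne hI, m14anw_cls_of_ne hJ, ClassGroup.mk0_eq_mk0_iff]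
  constructor
  · rintro ⟨x, y, hx, hy, h⟩
    exact ⟨x, y, hx, hy, h⟩
  · rintro ⟨x, y, hx, hy, h⟩
    exact ⟨x, y, hx, hy, h⟩

end cls

section wrap

variable {F M : Type} [Field F] [NumberField F] [Field M] [NumberField M] [Algebra F M]

variable (F M) in
/-- the subgroup of classes of norms of ideals of `M` prime to `m`. -/
noncomputable def m14anw_Nc (m : ℕ) : Subgroup (ClassGroup (𝓞 F)) :=
  Subgroup.closure {c | ∃ 𝔄 : Ideal (𝓞 M), 𝔄 ≠ ⊥ ∧ IsCoprime 𝔄 (span {(m : 𝓞 M)}) ∧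
    c = m14anw_cls (relNorm (𝓞 F) 𝔄)}

theorem m14anw_relNorm_ne {𝔄 : Ideal (𝓞 M)} (h : 𝔄 ≠ ⊥) : relNorm (𝓞 F) 𝔄 ≠ ⊥ := by
  rw [Ne, relNorm_eq_bot_iff]; exact h

theorem m14anw_isCoprime_pow {R : Type} [CommRing R] {I J : Ideal R} (h : IsCoprime I J)
    (k : ℕ) : IsCoprime (I ^ k) J := by
  induction k with
  | zero => rw [pow_zero]; exact isCoprime_one_left
  | succ k ih => rw [pow_succ]; exact IsCoprime.mul_left ih h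

theorem m14anw_mem_Nc (m : ℕ) (c : ClassGroup (𝓞 F)) (hc : c ∈ m14anw_Nc F M m) :
    ∃ 𝔄 : Ideal (𝓞 M), 𝔄 ≠ ⊥ ∧ IsCoprime 𝔄 (span {(m : 𝓞 M)}) ∧
      c = m14anw_cls (relNorm (𝓞 F) 𝔄) := by
  classical
  unfold m14anw_Nc at hc
  induction hc using Subgroup.closure_induction with
  | mem x hx => exact hx
  | one =>
    refine ⟨1, one_ne_zero, isCoprime_one_left, ?_⟩
    rw [map_one, Ideal.one_eq_top, m14anw_cls_top]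
  | mul x y _ _ hx hy =>
    obtain ⟨𝔄, h𝔄, h𝔄c, rfl⟩ := hx
    obtain ⟨𝔅, h𝔅, h𝔅c, rfl⟩ := hy
    refine ⟨𝔄 * 𝔅, mul_ne_zero h𝔄 h𝔅, IsCoprime.mul_left h𝔄c h𝔅c, ?_⟩
    rw [map_mul, m14anw_cls_mul (m14anw_relNorm_ne h𝔄) (m14anw_relNorm_ne h𝔅)]
  | inv x _ hx =>
    obtain ⟨𝔄, h𝔄, h𝔄c, rfl⟩ := hx
    have hfin : Finite (ClassGroup (𝓞 F)) := inferInstance
    set k := Nat.card (ClassGroup (𝓞 F)) with hk
    have hk0 : 0 < k := Nat.card_pos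
    refine ⟨𝔄 ^ (k - 1), pow_ne_zero _ h𝔄, m14anw_isCoprime_pow h𝔄c _, ?_⟩
    rw [map_pow, m14anw_cls_pow (m14anw_relNorm_ne h𝔄)]
    apply inv_eq_of_mul_eq_one_right
    rw [← pow_succ', Nat.sub_add_cancel hk0, hk]
    exact pow_card_eq_one'

/-- if the norm of `𝔄` is prime to `m`, so is `𝔄`. -/
theorem m14anw_isCoprime_of_relNorm {m : ℕ} {𝔄 : Ideal (𝓞 M)}
    (h : IsCoprime (relNorm (𝓞 F) 𝔄) (span {(m : 𝓞 F)})) :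
    IsCoprime 𝔄 (span {(m : 𝓞 M)}) := by
  rw [Ideal.isCoprime_iff_exists] at h ⊢
  obtain ⟨a, ha, b, hb, hab⟩ := h
  obtain ⟨c, rfl⟩ := Ideal.mem_span_singleton'.mp hb
  refine ⟨algebraMap (𝓞 F) (𝓞 M) a, ?_, algebraMap (𝓞 F) (𝓞 M) (c * (m : 𝓞 F)), ?_, ?_⟩
  · exact Ideal.relNorm_le_comap (R := 𝓞 F) 𝔄 ha
  · rw [map_mul, map_natCast]
    exact Ideal.mul_mem_left _ _ (Ideal.mem_span_singleton_self _)
  · rw [← map_add, hab, map_one]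

end wrap

section main

variable {F M : Type} [Field F] [NumberField F] [Field M] [NumberField M] [Algebra F M]

theorem m14anw_isCoprime_span {m : ℕ} {γ : 𝓞 F} (h : γ - 1 ∈ span {(m : 𝓞 F)}) :
    IsCoprime (span {γ}) (span {(m : 𝓞 F)}) := by
  rw [Ideal.isCoprime_iff_exists]
  refine ⟨γ, Ideal.mem_span_singleton_self γ, -(γ - 1), neg_mem h, by ring⟩

/-- **WRAPPER, strong form**: the element form (AN-A) of the first inequality, from the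
cardinality form (CORE). Hypotheses on `χ` are only needed on ideals prime to `m`, and the ideal
`𝔄` of the conclusion is prime to `m`. -/
theorem m14anw_main' (m : ℕ)
    (hcore : ∀ (G' : Type) [AddCommGroup G'] [Finite G'] (χ' : Ideal (𝓞 F) → G'),
      (∀ I J : Ideal (𝓞 F), I ≠ ⊥ → J ≠ ⊥ → IsCoprime I (span {(m : 𝓞 F)}) →
        IsCoprime J (span {(m : 𝓞 F)}) → χ' (I * J) = χ' I + χ' J) →
      (∀ γ : 𝓞 F, γ ≠ 0 → γ - 1 ∈ span {(m : 𝓞 F)} → χ' (span {γ}) = 0) →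
      (∀ 𝔄 : Ideal (𝓞 M), 𝔄 ≠ ⊥ → IsCoprime (relNorm (𝓞 F) 𝔄) (span {(m : 𝓞 F)}) →
        χ' (relNorm (𝓞 F) 𝔄) = 0) →
      (∀ g : G', ∃ I : Ideal (𝓞 F), I ≠ ⊥ ∧ IsCoprime I (span {(m : 𝓞 F)}) ∧ χ' I = g) →
      Nat.card G' ≤ Module.finrank F M)
    (G : Type) [AddCommGroup G] [Finite G] (hG : Nat.card G = Module.finrank F M)
    (χ : Ideal (𝓞 F) → G)
    (hmul : ∀ I J : Ideal (𝓞 F), I ≠ ⊥ → J ≠ ⊥ → IsCoprime I (span {(m : 𝓞 F)}) →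
        IsCoprime J (span {(m : 𝓞 F)}) → χ (I * J) = χ I + χ J)
    (hprinc : ∀ γ : 𝓞 F, γ ≠ 0 → γ - 1 ∈ span {(m : 𝓞 F)} → χ (span {γ}) = 0)
    (hnorm : ∀ 𝔄 : Ideal (𝓞 M), 𝔄 ≠ ⊥ → IsCoprime 𝔄 (span {(m : 𝓞 M)}) →
      χ (relNorm (𝓞 F) 𝔄) = 0)
    (hsurj : ∀ g : G, ∃ I : Ideal (𝓞 F), I ≠ ⊥ ∧ IsCoprime I (span {(m : 𝓞 F)}) ∧ χ I = g) :
    ∀ 𝔠 : Ideal (𝓞 F), 𝔠 ≠ ⊥ → IsCoprime 𝔠 (span {(m : 𝓞 F)}) → χ 𝔠 = 0 →
      ∃ (γ δ : 𝓞 F) (𝔄 : Ideal (𝓞 M)), γ ≠ 0 ∧ δ ≠ 0 ∧ 𝔄 ≠ ⊥ ∧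
        IsCoprime 𝔄 (span {(m : 𝓞 M)}) ∧
        span {γ} * 𝔠 = span {δ} * relNorm (𝓞 F) 𝔄 := by
  classical
  -- the auxiliary target group
  let Q := ClassGroup (𝓞 F) ⧸ m14anw_Nc F M m
  let T := Additive Q × G
  let χ₁ : Ideal (𝓞 F) → T := fun I =>
    (Additive.ofMul (QuotientGroup.mk (m14anw_cls I) : Q), χ I)
  let S : Set (Ideal (𝓞 F)) := {I | I ≠ ⊥ ∧ IsCoprime I (span {(m : 𝓞 F)})}
  have hχ₁mul : ∀ I J : Ideal (𝓞 F), I ∈ S → J ∈ S → χ₁ (I * J) = χ₁ I + χ₁ J := by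
    rintro I J ⟨hI, hIc⟩ ⟨hJ, hJc⟩
    show (Additive.ofMul (QuotientGroup.mk (m14anw_cls (I * J)) : Q), χ (I * J)) = _
    rw [m14anw_cls_mul hI hJ, hmul I J hI hJ hIc hJc]
    rfl
  have hS_mul : ∀ I J, I ∈ S → J ∈ S → I * J ∈ S := by
    rintro I J ⟨hI, hIc⟩ ⟨hJ, hJc⟩
    exact ⟨mul_ne_zero hI hJ, IsCoprime.mul_left hIc hJc⟩
  have hS_one : (1 : Ideal (𝓞 F)) ∈ S := ⟨one_ne_zero, isCoprime_one_left⟩
  have hS_pow : ∀ I, I ∈ S → ∀ k : ℕ, I ^ k ∈ S := by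
    intro I hI k
    induction k with
    | zero =>
      rw [pow_zero]
      exact hS_one
    | succ k ih => rw [pow_succ]; exact hS_mul _ _ ih hI
  have hχ₁one : χ₁ 1 = 0 := by
    have h := hχ₁mul 1 1 hS_one hS_one
    rw [one_mul] at h
    have : χ₁ 1 + 0 = χ₁ 1 + χ₁ 1 := by rw [add_zero]; exact h
    exact (add_left_cancel this).symm
  have hχ₁pow : ∀ (I : Ideal (𝓞 F)), I ∈ S → ∀ k : ℕ, χ₁ (I ^ k) = k • χ₁ I := by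
    intro I hI k
    induction k with
    | zero => rw [pow_zero, zero_smul, hχ₁one]
    | succ k ih => rw [pow_succ, hχ₁mul _ _ (hS_pow I hI k) hI, ih, succ_nsmul]
  let G' : AddSubgroup T := AddSubgroup.closure (χ₁ '' S)
  have hG'mem : ∀ x : T, x ∈ G' → ∃ I ∈ S, χ₁ I = x := by
    intro x hx
    induction hx using AddSubgroup.closure_induction with
    | mem x hx =>
      obtain ⟨I, hI, rfl⟩ := hx
      exact ⟨I, hI, rfl⟩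
    | zero => exact ⟨1, hS_one, hχ₁one⟩
    | add x y _ _ hx hy =>
      obtain ⟨I, hI, rfl⟩ := hx
      obtain ⟨J, hJ, rfl⟩ := hy
      exact ⟨I * J, hS_mul I J hI hJ, hχ₁mul I J hI hJ⟩
    | neg x _ hx =>
      obtain ⟨I, hI, rfl⟩ := hx
      have hfin : Finite T := inferInstance
      set k := Nat.card T with hk
      have hk0 : 0 < k := Nat.card_pos
      refine ⟨I ^ (k - 1), hS_pow I hI _, ?_⟩
      rw [hχ₁pow I hI]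
      apply eq_neg_of_add_eq_zero_left
      rw [← succ_nsmul, Nat.sub_add_cancel hk0, hk]
      exact card_nsmul_eq_zero'
  let χ' : Ideal (𝓞 F) → ↥G' := fun I =>
    if h : I ∈ S then ⟨χ₁ I, AddSubgroup.subset_closure ⟨I, h, rfl⟩⟩ else 0
  have hχ'S : ∀ I (h : I ∈ S), χ' I = ⟨χ₁ I, AddSubgroup.subset_closure ⟨I, h, rfl⟩⟩ := by
    intro I h
    show (if h : I ∈ S then (⟨χ₁ I, AddSubgroup.subset_closure ⟨I, h, rfl⟩⟩ : ↥G') else 0) = _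
    rw [dif_pos h]
  have hcard : Nat.card ↥G' ≤ Module.finrank F M := by
    refine hcore ↥G' χ' ?_ ?_ ?_ ?_
    · intro I J hI hJ hIc hJc
      rw [hχ'S I ⟨hI, hIc⟩, hχ'S J ⟨hJ, hJc⟩, hχ'S (I * J) (hS_mul I J ⟨hI, hIc⟩ ⟨hJ, hJc⟩)]
      apply Subtype.ext
      exact hχ₁mul I J ⟨hI, hIc⟩ ⟨hJ, hJc⟩
    · intro γ hγ hγm
      have hne : (span {γ} : Ideal (𝓞 F)) ≠ ⊥ := by
        rw [Ne, Ideal.span_singleton_eq_bot]; exact hγ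
      rw [hχ'S _ ⟨hne, m14anw_isCoprime_span hγm⟩]
      apply Subtype.ext
      show (Additive.ofMul (QuotientGroup.mk (m14anw_cls (span {γ})) : Q), χ (span {γ})) = 0
      rw [m14anw_cls_span hγ, hprinc γ hγ hγm]
      rfl
    · intro 𝔄 h𝔄 hc
      have h𝔄c := m14anw_isCoprime_of_relNorm hc
      rw [hχ'S _ ⟨m14anw_relNorm_ne h𝔄, hc⟩]
      apply Subtype.ext
      show (Additive.ofMul (QuotientGroup.mk (m14anw_cls (relNorm (𝓞 F) 𝔄)) : Q),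
        χ (relNorm (𝓞 F) 𝔄)) = 0
      have h1 : (QuotientGroup.mk (m14anw_cls (relNorm (𝓞 F) 𝔄)) : Q) = 1 := by
        rw [QuotientGroup.eq_one_iff]
        exact Subgroup.subset_closure ⟨𝔄, h𝔄, h𝔄c, rfl⟩
      rw [h1, hnorm 𝔄 h𝔄 h𝔄c]
      rfl
    · rintro ⟨x, hx⟩
      obtain ⟨I, hI, rfl⟩ := hG'mem x hx
      exact ⟨I, hI.1, hI.2, hχ'S I hI⟩
  -- the second projection is bijective
  let pr : ↥G' → G := fun x => x.1.2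
  have hpr_surj : Function.Surjective pr := by
    intro g
    obtain ⟨I, hI, hIc, rfl⟩ := hsurj g
    exact ⟨χ' I, by rw [hχ'S I ⟨hI, hIc⟩]⟩
  have hpr_bij : Function.Bijective pr :=
    hpr_surj.bijective_of_nat_card_le (by rw [hG]; exact hcard)
  intro 𝔠 h𝔠 h𝔠c hχ𝔠
  have h0 : χ' 𝔠 = 0 := by
    apply hpr_bij.1
    show (χ' 𝔠).1.2 = (0 : ↥G').1.2
    rw [hχ'S 𝔠 ⟨h𝔠, h𝔠c⟩]
    exact hχ𝔠
  rw [hχ'S 𝔠 ⟨h𝔠, h𝔠c⟩] at h0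
  have h1 : (QuotientGroup.mk (m14anw_cls 𝔠) : Q) = 1 := by
    have := congrArg (fun x : ↥G' => x.1.1) h0
    exact this
  rw [QuotientGroup.eq_one_iff] at h1
  obtain ⟨𝔄, h𝔄, h𝔄c, h2⟩ := m14anw_mem_Nc m _ h1
  obtain ⟨x, y, hx, hy, h3⟩ := (m14anw_cls_eq_iff h𝔠 (m14anw_relNorm_ne h𝔄)).mp h2
  exact ⟨x, y, 𝔄, hx, hy, h𝔄, h𝔄c, h3⟩

/-- an ideal prime to `m` is contained in no prime containing `m`. -/
theorem m14anw_not_mem_of_isCoprime {m : ℕ} {𝔄 : Ideal (𝓞 M)}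
    (h : IsCoprime 𝔄 (span {(m : 𝓞 M)})) (𝔓 : Ideal (𝓞 M)) (h𝔓 : 𝔓.IsPrime) (hle : 𝔄 ≤ 𝔓) :
    (m : 𝓞 M) ∉ 𝔓 := by
  intro hm
  rw [Ideal.isCoprime_iff_exists] at h
  obtain ⟨a, ha, b, hb, hab⟩ := h
  have hb' : b ∈ 𝔓 := by
    obtain ⟨c, rfl⟩ := Ideal.mem_span_singleton'.mp hb
    exact 𝔓.mul_mem_left _ hm
  have h1 : (1 : 𝓞 M) ∈ 𝔓 := by
    rw [← hab]
    exact 𝔓.add_mem (hle ha) hb'
  exact h𝔓.ne_top ((Ideal.eq_top_iff_one 𝔓).mpr h1)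

/-- **WRAPPER** in the shape (AN-A) of the CROSS interface (unrestricted hypotheses on `χ`), with
the extra information that `𝔄` is prime to `m`. -/
theorem m14anw_main (m : ℕ)
    (hcore : ∀ (G' : Type) [AddCommGroup G'] [Finite G'] (χ' : Ideal (𝓞 F) → G'),
      (∀ I J : Ideal (𝓞 F), I ≠ ⊥ → J ≠ ⊥ → IsCoprime I (span {(m : 𝓞 F)}) →
        IsCoprime J (span {(m : 𝓞 F)}) → χ' (I * J) = χ' I + χ' J) →
      (∀ γ : 𝓞 F, γ ≠ 0 → γ - 1 ∈ span {(m : 𝓞 F)} → χ' (span {γ}) = 0) →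
      (∀ 𝔄 : Ideal (𝓞 M), 𝔄 ≠ ⊥ → IsCoprime (relNorm (𝓞 F) 𝔄) (span {(m : 𝓞 F)}) →
        χ' (relNorm (𝓞 F) 𝔄) = 0) →
      (∀ g : G', ∃ I : Ideal (𝓞 F), I ≠ ⊥ ∧ IsCoprime I (span {(m : 𝓞 F)}) ∧ χ' I = g) →
      Nat.card G' ≤ Module.finrank F M)
    (G : Type) [AddCommGroup G] [Finite G] (hG : Nat.card G = Module.finrank F M)
    (χ : Ideal (𝓞 F) → G)
    (hmul : ∀ I J : Ideal (𝓞 F), I ≠ ⊥ → J ≠ ⊥ → χ (I * J) = χ I + χ J)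
    (hprinc : ∀ γ : 𝓞 F, γ ≠ 0 → γ - 1 ∈ span {(m : 𝓞 F)} → χ (span {γ}) = 0)
    (hnorm : ∀ 𝔄 : Ideal (𝓞 M), 𝔄 ≠ ⊥ → χ (relNorm (𝓞 F) 𝔄) = 0)
    (hsurj : ∀ g : G, ∃ I : Ideal (𝓞 F), I ≠ ⊥ ∧ IsCoprime I (span {(m : 𝓞 F)}) ∧ χ I = g) :
    ∀ 𝔠 : Ideal (𝓞 F), 𝔠 ≠ ⊥ → IsCoprime 𝔠 (span {(m : 𝓞 F)}) → χ 𝔠 = 0 →
      ∃ (γ δ : 𝓞 F) (𝔄 : Ideal (𝓞 M)), γ ≠ 0 ∧ δ ≠ 0 ∧ 𝔄 ≠ ⊥ ∧
        span {γ} * 𝔠 = span {δ} * relNorm (𝓞 F) 𝔄 ∧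
        (∀ 𝔓 : Ideal (𝓞 M), 𝔓.IsPrime → 𝔄 ≤ 𝔓 → (m : 𝓞 M) ∉ 𝔓) := by
  intro 𝔠 h𝔠 h𝔠c hχ𝔠
  obtain ⟨γ, δ, 𝔄, hγ, hδ, h𝔄, h𝔄c, h⟩ := m14anw_main' m hcore G hG χ
    (fun I J hI hJ _ _ => hmul I J hI hJ) hprinc (fun 𝔄 h𝔄 _ => hnorm 𝔄 h𝔄) hsurj 𝔠 h𝔠 h𝔠c hχ𝔠
  exact ⟨γ, δ, 𝔄, hγ, hδ, h𝔄, h, m14anw_not_mem_of_isCoprime h𝔄c⟩

end main

end Fermat.Agent.M14
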