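/-
M14 (S14 project), package CROSS, part 0: interfaces.
* `M14Art K Ω m Fr`: `Ω/K` is an abelian extension of number fields with a Frobenius map `Fr`
  on the primes of `K` outside `m`, and the residue degree formula (ART2) holds.
* `m14x_ANA`, `m14x_ANB`: the statements of the two analytic inputs.
* elementary lemmas on the order of a Frobenius modulo a subgroup.
-/
import Mathlib

set_option autoImplicit false

open NumberField Ideal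
open scoped Pointwise

namespace Fermat.Agent.M14

/-- abelian extension `Ω/K` of number fields with Frobenius map `Fr` outside `m` and the
residue-degree formula for all intermediate fields -/
structure M14Art (K Ω : Type) [Field K] [NumberField K] [Field Ω] [NumberField Ω] [Algebra K Ω]
    [IsGalois K Ω] (m : ℕ) (Fr : Ideal (𝓞 K) → (Ω ≃ₐ[K] Ω)) : Prop where
  comm : ∀ σ τ : Ω ≃ₐ[K] Ω, σ * τ = τ * σ
  frob : ∀ (𝔓 : Ideal (𝓞 Ω)), 𝔓.IsPrime → 𝔓 ≠ ⊥ → (m : 𝓞 Ω) ∉ 𝔓 →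
    IsArithFrobAt (𝓞 K) (Fr (𝔓.under (𝓞 K))) 𝔓
  art2 : ∀ (E : IntermediateField K Ω) (𝔓 : Ideal (𝓞 E)), 𝔓.IsPrime → 𝔓 ≠ ⊥ →
    (m : 𝓞 E) ∉ 𝔓 → ∀ n : ℕ, 0 < n → Fr (𝔓.under (𝓞 K)) ^ n ∈ E.fixingSubgroup →
    (∀ k, 0 < k → k < n → Fr (𝔓.under (𝓞 K)) ^ k ∉ E.fixingSubgroup) →
    Ideal.relNorm (𝓞 K) 𝔓 = (𝔓.under (𝓞 K)) ^ n

/-- the statement of (AN-A): the analytic index inequality in element form (hypotheses on `χ`
only on ideals prime to `m`; the ideal `𝔄` of the conclusion is prime to `m`) -/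
def m14x_ANA : Prop :=
  ∀ (F M : Type) [Field F] [NumberField F] [Field M] [NumberField M] [Algebra F M] (m : ℕ),
    m ≠ 0 → ∀ (G : Type) [AddCommGroup G] [Finite G], Nat.card G = Module.finrank F M →
    ∀ χ : Ideal (𝓞 F) → G,
      (∀ I J : Ideal (𝓞 F), I ≠ ⊥ → J ≠ ⊥ → IsCoprime I (Ideal.span {(m : 𝓞 F)}) →
        IsCoprime J (Ideal.span {(m : 𝓞 F)}) → χ (I * J) = χ I + χ J) →
      (∀ γ : 𝓞 F, γ ≠ 0 → γ - 1 ∈ Ideal.span {(m : 𝓞 F)} → χ (Ideal.span {γ}) = 0) →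
      (∀ 𝔄 : Ideal (𝓞 M), 𝔄 ≠ ⊥ → IsCoprime 𝔄 (Ideal.span {(m : 𝓞 M)}) →
        χ (Ideal.relNorm (𝓞 F) 𝔄) = 0) →
      (∀ g : G, ∃ I : Ideal (𝓞 F), I ≠ ⊥ ∧ IsCoprime I (Ideal.span {(m : 𝓞 F)}) ∧ χ I = g) →
      ∀ 𝔠 : Ideal (𝓞 F), 𝔠 ≠ ⊥ → IsCoprime 𝔠 (Ideal.span {(m : 𝓞 F)}) → χ 𝔠 = 0 →
        ∃ (γ δ : 𝓞 F) (𝔄 : Ideal (𝓞 M)), γ ≠ 0 ∧ δ ≠ 0 ∧ 𝔄 ≠ ⊥ ∧
          IsCoprime 𝔄 (Ideal.span {(m : 𝓞 M)}) ∧
          Ideal.span {γ} * 𝔠 = Ideal.span {δ} * Ideal.relNorm (𝓞 F) 𝔄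

/-- the statement of (AN-B): a nontrivial extension has a prime of residue degree `≠ 1`
outside `m` -/
def m14x_ANB : Prop :=
  ∀ (F M : Type) [Field F] [NumberField F] [Field M] [NumberField M] [Algebra F M] (m : ℕ),
    m ≠ 0 → 2 ≤ Module.finrank F M →
    ∃ 𝔓 : Ideal (𝓞 M), 𝔓.IsPrime ∧ 𝔓 ≠ ⊥ ∧ (m : 𝓞 M) ∉ 𝔓 ∧
      Ideal.relNorm (𝓞 F) 𝔓 ≠ 𝔓.under (𝓞 F)

section ord

variable {Γ : Type*} [Group Γ] [Finite Γ]

theorem m14x_exists_pow_mem (H : Subgroup Γ) (g : Γ) : ∃ n : ℕ, 0 < n ∧ g ^ n ∈ H :=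
  ⟨orderOf g, orderOf_pos g, by rw [pow_orderOf_eq_one]; exact H.one_mem⟩

open Classical in
/-- the order of `g` modulo the subgroup `H` -/
noncomputable def m14x_ord (H : Subgroup Γ) (g : Γ) : ℕ := Nat.find (m14x_exists_pow_mem H g)

theorem m14x_ord_pos (H : Subgroup Γ) (g : Γ) : 0 < m14x_ord H g := by
  classical
  exact (Nat.find_spec (m14x_exists_pow_mem H g)).1

theorem m14x_pow_ord_mem (H : Subgroup Γ) (g : Γ) : g ^ m14x_ord H g ∈ H := by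
  classical
  exact (Nat.find_spec (m14x_exists_pow_mem H g)).2

theorem m14x_ord_min (H : Subgroup Γ) (g : Γ) (k : ℕ) (hk : 0 < k) (hlt : k < m14x_ord H g) :
    g ^ k ∉ H := by
  classical
  intro h
  exact Nat.find_min (m14x_exists_pow_mem H g) hlt ⟨hk, h⟩

theorem m14x_ord_le (H : Subgroup Γ) (g : Γ) (k : ℕ) (hk : 0 < k) (h : g ^ k ∈ H) :
    m14x_ord H g ≤ k := by
  by_contra hlt
  exact m14x_ord_min H g k hk (not_le.mp hlt) h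

theorem m14x_ord_dvd (H : Subgroup Γ) (g : Γ) (n : ℕ) (h : g ^ n ∈ H) : m14x_ord H g ∣ n := by
  set f := m14x_ord H g with hf
  have hfpos := m14x_ord_pos H g
  have hmem := m14x_pow_ord_mem H g
  rw [← hf] at hfpos hmem
  by_contra hnd
  have hr : 0 < n % f := Nat.pos_of_ne_zero (fun h0 => hnd (Nat.dvd_of_mod_eq_zero h0))
  have hlt : n % f < f := Nat.mod_lt n hfpos
  apply m14x_ord_min H g (n % f) hr hlt
  have h1 : g ^ n = (g ^ f) ^ (n / f) * g ^ (n % f) := by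
    rw [← pow_mul, ← pow_add, Nat.div_add_mod]
  have h2 : g ^ (n % f) = ((g ^ f) ^ (n / f))⁻¹ * g ^ n := by
    rw [h1, inv_mul_cancel_left]
  rw [h2]
  exact H.mul_mem (H.inv_mem (H.pow_mem hmem _)) h

theorem m14x_pow_mem_of_dvd (H : Subgroup Γ) (g : Γ) (n : ℕ) (h : m14x_ord H g ∣ n) :
    g ^ n ∈ H := by
  obtain ⟨c, rfl⟩ := h
  rw [pow_mul]
  exact H.pow_mem (m14x_pow_ord_mem H g) c

end ord

end Fermat.Agent.M14
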