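/-
S14, package AN6 (helper8): the analytic input (AN-A) of CROSS, `m14x_ANA`, from the first
inequality `m14an6_core` and the class-group wrapper `m14anw_main'`.
-/
import Mathlib
import Fermat.Agent.M14.An6Core
import Fermat.Agent.M14.AnWrap
import Fermat.Agent.M14.CrossDefs

set_option autoImplicit false

namespace Fermat.Agent.M14

open NumberField

/-- **(AN-A)**: the analytic index inequality in element form. -/
theorem m14an6_ANA : m14x_ANA := by
  intro F M _ _ _ _ _ m _ G _ _ hG χ hmul hprinc hnorm hsurj 𝔠 h𝔠 h𝔠c hχ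
  exact m14anw_main' m (fun G' _ _ χ' => m14an6_core (F := F) (M := M) m G' χ') G hG χ
    hmul hprinc hnorm hsurj 𝔠 h𝔠 h𝔠c hχ

end Fermat.Agent.M14
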