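import Mathlib
import Fermat.Agent.M14.An5Zeta

/-!
# M14 / AN6, the `M`-side of the core (prefix `m14an6m_`)

For number fields `F ⊆ M`, `n = [M : F]`, `m ≠ 0`: the finite Euler products of `ζ_M` are bounded
by a constant times the `n`-th power of the finite Euler products of `ζ_F` over the primes `v` of
`F` prime to `m` which are the relative norm of a prime of `M`.
-/

set_option autoImplicit false
set_option linter.unusedSectionVars false
set_option linter.style.haveILetI false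
set_option linter.deprecated false

open NumberField IsDedekindDomain Filter Topology

open scoped Classical

noncomputable section

namespace Fermat.Agent.M14

/-- (M3) the final limit step. -/
theorem m14an6m_card_le (h n : ℕ) (c C : ℝ) (hc : 0 < c) (Z : ℝ → ℝ)
    (hlow : ∀ s : ℝ, 1 < s → s ≤ 2 → c / (s - 1) ≤ Z s)
    (hup : ∀ s : ℝ, 1 < s → s ≤ 2 → Z s ^ h ≤ C / (s - 1) ^ n) : h ≤ n := by
  by_contra hlt
  rw [not_le] at hlt
  obtain ⟨d, hd⟩ := Nat.exists_eq_add_of_lt hlt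
  have hch : 0 < c ^ h := pow_pos hc h
  -- for `t ∈ (0, 1]`: `c ^ h ≤ C * t ^ (d + 1)`
  have key0 : ∀ t : ℝ, 0 < t → t ≤ 1 → c ^ h ≤ C * t ^ (d + 1) := by
    intro t ht ht1
    have h1 := hlow (1 + t) (by linarith) (by linarith)
    have h2 := hup (1 + t) (by linarith) (by linarith)
    rw [add_sub_cancel_left] at h1 h2
    have h3 : (c / t) ^ h ≤ C / t ^ n :=
      le_trans (pow_le_pow_left₀ (by positivity) h1 h) h2
    rw [div_pow, div_le_div_iff₀ (by positivity) (by positivity)] at h3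
    have h4 : t ^ h = t ^ n * t ^ (d + 1) := by
      rw [hd, add_assoc, pow_add]
    rw [h4] at h3
    have h5 : c ^ h * t ^ n ≤ (C * t ^ (d + 1)) * t ^ n := by
      calc c ^ h * t ^ n ≤ C * (t ^ n * t ^ (d + 1)) := h3
        _ = (C * t ^ (d + 1)) * t ^ n := by ring
    exact le_of_mul_le_mul_right h5 (by positivity)
  have hC : 0 < C := by
    have := key0 1 one_pos le_rfl
    rw [one_pow, mul_one] at this
    linarith
  have key : ∀ t : ℝ, 0 < t → t ≤ 1 → c ^ h ≤ C * t := by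
    intro t ht ht1
    refine le_trans (key0 t ht ht1) ?_
    have : t ^ (d + 1) ≤ t := by
      rw [pow_succ]
      calc t ^ d * t ≤ 1 * t := by
            apply mul_le_mul_of_nonneg_right _ ht.le
            exact pow_le_one₀ ht.le ht1
        _ = t := one_mul t
    exact mul_le_mul_of_nonneg_left this hC.le
  have ht0 : 0 < min 1 (c ^ h / (2 * C)) := lt_min one_pos (by positivity)
  have h6 := key _ ht0 (min_le_left _ _)
  have h7 : C * min 1 (c ^ h / (2 * C)) ≤ C * (c ^ h / (2 * C)) :=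
    mul_le_mul_of_nonneg_left (min_le_right _ _) hC.le
  have h8 : C * (c ^ h / (2 * C)) = c ^ h / 2 := by
    field_simp
  linarith

/-- products over the fibres of a map with fibres of size at most `n`. -/
theorem m14an6m_prod_fibre {W V : Type*} (T' : Finset W) (u : W → V) (n : ℕ)
    (hcard : ∀ v : V, (T'.filter (fun w => u w = v)).card ≤ n)
    (g : V → ℝ) (hg : ∀ v, 1 ≤ g v) (E : W → ℝ) (hE0 : ∀ w ∈ T', 0 ≤ E w)
    (hEg : ∀ w ∈ T', E w ≤ g (u w)) :
    ∏ w ∈ T', E w ≤ (∏ v ∈ T'.image u, g v) ^ n := by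
  calc ∏ w ∈ T', E w ≤ ∏ w ∈ T', g (u w) := Finset.prod_le_prod hE0 hEg
    _ = ∏ v ∈ T'.image u, ∏ w ∈ T'.filter (fun w => u w = v), g (u w) :=
          (Finset.prod_fiberwise_of_maps_to (fun w hw => Finset.mem_image_of_mem u hw) _).symm
    _ = ∏ v ∈ T'.image u, g v ^ (T'.filter (fun w => u w = v)).card := by
          refine Finset.prod_congr rfl fun v _ => ?_
          rw [Finset.prod_congr rfl (fun w hw => by rw [(Finset.mem_filter.1 hw).2]),
            Finset.prod_const]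
    _ ≤ ∏ v ∈ T'.image u, g v ^ n :=
          Finset.prod_le_prod (fun v _ => pow_nonneg (le_trans zero_le_one (hg v)) _)
            (fun v _ => pow_le_pow_right₀ (hg v) (hcard v))
    _ = (∏ v ∈ T'.image u, g v) ^ n := Finset.prod_pow _ _ _

section split

variable {F M : Type} [Field F] [NumberField F] [Field M] [NumberField M] [Algebra F M]

/-- (S1) at most `[M : F]` primes over a given prime. -/
theorem m14an6m_sp_card_le (v : IsDedekindDomain.HeightOneSpectrum (𝓞 F))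
    (T : Finset (IsDedekindDomain.HeightOneSpectrum (𝓞 M)))
    (hT : ∀ w ∈ T, w.asIdeal.under (𝓞 F) = v.asIdeal) : T.card ≤ Module.finrank F M := by
  classical
  haveI := v.isMaximal
  haveI : NoZeroSMulDivisors (𝓞 F) (𝓞 M) := ⟨fun {c x} h => smul_eq_zero.1 h⟩
  have hinj : Function.Injective
      (fun w : IsDedekindDomain.HeightOneSpectrum (𝓞 M) => w.asIdeal) :=
    fun w w' h => IsDedekindDomain.HeightOneSpectrum.ext h
  have hsub : T.image (fun w => w.asIdeal) ⊆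
      IsDedekindDomain.primesOverFinset v.asIdeal (𝓞 M) := by
    intro P hP
    obtain ⟨w, hw, rfl⟩ := Finset.mem_image.1 hP
    rw [IsDedekindDomain.mem_primesOverFinset_iff v.ne_bot (𝓞 M)]
    exact ⟨w.isPrime, ⟨(hT w hw).symm⟩⟩
  calc T.card = (T.image (fun w => w.asIdeal)).card :=
        (Finset.card_image_of_injective _ hinj).symm
    _ ≤ (IsDedekindDomain.primesOverFinset v.asIdeal (𝓞 M)).card := Finset.card_le_card hsub
    _ ≤ Module.finrank F M := Ideal.card_primesOverFinset_le_finrank (𝓞 M) F M v.ne_bot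

/-- (S2) the prime below. -/
theorem m14an6m_sp_under (w : IsDedekindDomain.HeightOneSpectrum (𝓞 M)) :
    ∃ v : IsDedekindDomain.HeightOneSpectrum (𝓞 F), w.asIdeal.under (𝓞 F) = v.asIdeal := by
  haveI := w.isPrime
  refine ⟨⟨w.asIdeal.under (𝓞 F), inferInstance, ?_⟩, rfl⟩
  exact Ideal.under_ne_bot (𝓞 F) w.ne_bot

/-- (S4) norms of primes are at least `2`. -/
theorem m14an6m_sp_two_le (v : IsDedekindDomain.HeightOneSpectrum (𝓞 F)) :
    2 ≤ Ideal.absNorm v.asIdeal := by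
  have h0 : Ideal.absNorm v.asIdeal ≠ 0 := by
    rw [Ne, Ideal.absNorm_eq_zero_iff]
    exact v.ne_bot
  have h1 : Ideal.absNorm v.asIdeal ≠ 1 := by
    rw [Ne, Ideal.absNorm_eq_one_iff]
    exact v.isPrime.ne_top
  omega

/-- (S3) residue degree one or norm at least the square. -/
theorem m14an6m_sp_norm (w : IsDedekindDomain.HeightOneSpectrum (𝓞 M))
    (v : IsDedekindDomain.HeightOneSpectrum (𝓞 F))
    (h : w.asIdeal.under (𝓞 F) = v.asIdeal) :
    (Ideal.relNorm (𝓞 F) w.asIdeal = v.asIdeal ∧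
        Ideal.absNorm w.asIdeal = Ideal.absNorm v.asIdeal) ∨
      (Ideal.absNorm v.asIdeal) ^ 2 ≤ Ideal.absNorm w.asIdeal := by
  haveI := w.isMaximal
  haveI := v.isMaximal
  haveI : w.asIdeal.LiesOver v.asIdeal := ⟨h.symm⟩
  have hrel : Ideal.relNorm (𝓞 F) w.asIdeal = v.asIdeal ^ (w.asIdeal.inertiaDeg (𝓞 F)) :=
    Ideal.relNorm_eq_pow_of_isMaximal w.asIdeal v.asIdeal
  have habs : Ideal.absNorm w.asIdeal =
      Ideal.absNorm v.asIdeal ^ (w.asIdeal.inertiaDeg (𝓞 F)) := by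
    rw [← Ideal.absNorm_relNorm (𝓞 F) (𝓞 M), hrel, map_pow]
  have hf : 0 < w.asIdeal.inertiaDeg (𝓞 F) := Ideal.inertiaDeg_pos w.asIdeal (𝓞 F)
  rcases Nat.lt_or_ge (w.asIdeal.inertiaDeg (𝓞 F)) 2 with h2 | h2
  · left
    have h1 : w.asIdeal.inertiaDeg (𝓞 F) = 1 := by omega
    rw [hrel, habs, h1, pow_one, pow_one]
    exact ⟨rfl, rfl⟩
  · right
    rw [habs]
    exact Nat.pow_le_pow_right (by have := m14an6m_sp_two_le v; omega) h2

/-- (S5) finitely many primes are not prime to `m`. -/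
theorem m14an6m_sp_finite (m : ℕ) (hm : m ≠ 0) :
    {v : IsDedekindDomain.HeightOneSpectrum (𝓞 F) |
      ¬ IsCoprime v.asIdeal (Ideal.span {(m : 𝓞 F)})}.Finite := by
  have hm0 : (m : 𝓞 F) ≠ 0 := by exact_mod_cast hm
  have hsm : Ideal.span {(m : 𝓞 F)} ≠ 0 := by
    rwa [Ne, Ideal.zero_eq_bot, Ideal.span_singleton_eq_bot]
  refine (Ideal.finite_factors hsm).subset ?_
  intro v hv
  simp only [Set.mem_setOf_eq] at hv ⊢
  rw [Ideal.dvd_iff_le]
  by_contra hle
  apply hv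
  rw [Ideal.isCoprime_iff_sup_eq]
  by_contra htop
  have heq : v.asIdeal = v.asIdeal ⊔ Ideal.span {(m : 𝓞 F)} :=
    v.isMaximal.eq_of_le htop le_sup_left
  exact hle (heq ▸ le_sup_right)

end split

section local_factor

variable (K : Type) [Field K] [NumberField K]

theorem m14an6m_f_pos (s : ℝ) (v : HeightOneSpectrum (𝓞 K)) :
    0 < m14an5z_f K s v.asIdeal := m14an5z_f_pos K s v.ne_bot

theorem m14an6m_f_le_half {s : ℝ} (hs : 1 ≤ s) (v : HeightOneSpectrum (𝓞 K)) :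
    m14an5z_f K s v.asIdeal ≤ 1 / 2 := by
  rw [m14an5z_f_of_ne K s v.ne_bot]
  have h2 : (2 : ℝ) ≤ (Ideal.absNorm v.asIdeal : ℝ) := by exact_mod_cast m14an6m_sp_two_le v
  calc ((Ideal.absNorm v.asIdeal : ℕ) : ℝ) ^ (-s)
      ≤ ((Ideal.absNorm v.asIdeal : ℕ) : ℝ) ^ (-1 : ℝ) :=
        Real.rpow_le_rpow_of_exponent_le (by linarith) (by linarith)
    _ = ((Ideal.absNorm v.asIdeal : ℕ) : ℝ)⁻¹ := Real.rpow_neg_one _
    _ ≤ (2 : ℝ)⁻¹ := inv_anti₀ (by norm_num) h2
    _ = 1 / 2 := by norm_num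

theorem m14an6m_one_le_E {s : ℝ} (hs : 1 ≤ s) (v : HeightOneSpectrum (𝓞 K)) :
    1 ≤ (1 - m14an5z_f K s v.asIdeal)⁻¹ := by
  have h1 := m14an6m_f_pos K s v
  have h2 := m14an6m_f_le_half K hs v
  rw [one_le_inv₀ (by linarith)]
  linarith

theorem m14an6m_E_le_two {s : ℝ} (hs : 1 ≤ s) (v : HeightOneSpectrum (𝓞 K)) :
    (1 - m14an5z_f K s v.asIdeal)⁻¹ ≤ 2 := by
  have h1 := m14an6m_f_pos K s v
  have h2 := m14an6m_f_le_half K hs v
  rw [inv_le_comm₀ (by linarith) (by norm_num)]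
  linarith

/-- finite Euler products at `s = 2` are bounded by `ζ_K(2)`. -/
theorem m14an6m_prod_le_Z {s : ℝ} (hs : 1 < s) (T : Finset (HeightOneSpectrum (𝓞 K))) :
    ∏ v ∈ T, (1 - m14an5z_f K s v.asIdeal)⁻¹ ≤ m14an5z_Z K s := by
  have hsum := m14an5z_summable K hs
  have hsum' : Summable (fun I : Ideal (𝓞 K) => ‖m14an5z_f K s I‖) := by
    refine hsum.congr fun I => ?_
    rw [Real.norm_of_nonneg (m14an5z_f_nonneg K s I)]
  rw [← m14an5_tsum_smooth (m14an5z_f K s) hsum' T]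
  exact Summable.tsum_subtype_le _ _ (m14an5z_f_nonneg K s) hsum

end local_factor

variable {F M : Type} [Field F] [NumberField F] [Field M] [NumberField M] [Algebra F M]

/-- the prime of `F` below a prime of `M`. -/
def m14an6m_u (w : HeightOneSpectrum (𝓞 M)) : HeightOneSpectrum (𝓞 F) :=
  (m14an6m_sp_under (F := F) w).choose

theorem m14an6m_u_spec (w : HeightOneSpectrum (𝓞 M)) :
    w.asIdeal.under (𝓞 F) = (m14an6m_u (F := F) w).asIdeal :=
  (m14an6m_sp_under (F := F) w).choose_spec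

theorem m14an6m_fibre_card (T' : Finset (HeightOneSpectrum (𝓞 M)))
    (v : HeightOneSpectrum (𝓞 F)) :
    (T'.filter (fun w => m14an6m_u (F := F) w = v)).card ≤ Module.finrank F M := by
  refine m14an6m_sp_card_le v _ fun w hw => ?_
  rw [m14an6m_u_spec (F := F) w, (Finset.mem_filter.1 hw).2]

/-- a prime of residue degree at least two contributes at most the factor of `ζ_F` at `2`. -/
theorem m14an6m_E_le_of_sq {s : ℝ} (hs : 1 ≤ s) (w : HeightOneSpectrum (𝓞 M))
    (v : HeightOneSpectrum (𝓞 F))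
    (h : (Ideal.absNorm v.asIdeal) ^ 2 ≤ Ideal.absNorm w.asIdeal) :
    (1 - m14an5z_f M s w.asIdeal)⁻¹ ≤ (1 - m14an5z_f F 2 v.asIdeal)⁻¹ := by
  have hv2 : (2 : ℝ) ≤ (Ideal.absNorm v.asIdeal : ℝ) := by exact_mod_cast m14an6m_sp_two_le v
  have hw2 : (2 : ℝ) ≤ (Ideal.absNorm w.asIdeal : ℝ) := by exact_mod_cast m14an6m_sp_two_le w
  have hle : ((Ideal.absNorm v.asIdeal : ℕ) : ℝ) ^ 2 ≤ ((Ideal.absNorm w.asIdeal : ℕ) : ℝ) := by
    exact_mod_cast h
  have hf : m14an5z_f M s w.asIdeal ≤ m14an5z_f F 2 v.asIdeal := by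
    rw [m14an5z_f_of_ne M s w.ne_bot, m14an5z_f_of_ne F 2 v.ne_bot]
    calc ((Ideal.absNorm w.asIdeal : ℕ) : ℝ) ^ (-s)
        ≤ ((Ideal.absNorm w.asIdeal : ℕ) : ℝ) ^ (-1 : ℝ) :=
          Real.rpow_le_rpow_of_exponent_le (by linarith) (by linarith)
      _ = ((Ideal.absNorm w.asIdeal : ℕ) : ℝ)⁻¹ := Real.rpow_neg_one _
      _ ≤ (((Ideal.absNorm v.asIdeal : ℕ) : ℝ) ^ 2)⁻¹ := inv_anti₀ (by positivity) hle
      _ = ((Ideal.absNorm v.asIdeal : ℕ) : ℝ) ^ (-2 : ℝ) := by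
          rw [Real.rpow_neg (by positivity), Real.rpow_two]
  have h2 := m14an6m_f_le_half F (s := 2) (by norm_num) v
  exact inv_anti₀ (by linarith) (by linarith)

/-- a prime of residue degree one has the same local factor as the prime below. -/
theorem m14an6m_E_eq_of_relNorm (s : ℝ) (w : HeightOneSpectrum (𝓞 M))
    (v : HeightOneSpectrum (𝓞 F)) (h : Ideal.relNorm (𝓞 F) w.asIdeal = v.asIdeal) :
    (1 - m14an5z_f M s w.asIdeal)⁻¹ = (1 - m14an5z_f F s v.asIdeal)⁻¹ := by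
  rw [m14an5z_f_of_ne M s w.ne_bot, m14an5z_f_of_ne F s v.ne_bot, ← h,
    Ideal.absNorm_relNorm (𝓞 F) (𝓞 M)]

/-- the set `S1` of the primes of `F` prime to `m` which are norms of primes of `M`. -/
def m14an6m_S1 (F M : Type) [Field F] [NumberField F] [Field M] [NumberField M] [Algebra F M]
    (m : ℕ) (v : HeightOneSpectrum (𝓞 F)) : Prop :=
  IsCoprime v.asIdeal (Ideal.span {(m : 𝓞 F)}) ∧
    ∃ w : HeightOneSpectrum (𝓞 M), Ideal.relNorm (𝓞 F) w.asIdeal = v.asIdeal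

/-- (M1) the finite form. -/
theorem m14an6m_finite (m : ℕ) (hm : m ≠ 0) :
    ∃ B : ℝ, 0 < B ∧ ∀ s : ℝ, 1 < s → s ≤ 2 →
      ∀ T' : Finset (HeightOneSpectrum (𝓞 M)),
        ∃ T : Finset (HeightOneSpectrum (𝓞 F)),
          (∀ v ∈ T, IsCoprime v.asIdeal (Ideal.span {(m : 𝓞 F)}) ∧
            ∃ w : HeightOneSpectrum (𝓞 M), Ideal.relNorm (𝓞 F) w.asIdeal = v.asIdeal) ∧
          ∏ w ∈ T', (1 - m14an5z_f M s w.asIdeal)⁻¹ ≤
            B * (∏ v ∈ T, (1 - m14an5z_f F s v.asIdeal)⁻¹) ^ Module.finrank F M := by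
  set n := Module.finrank F M with hn
  have hbad := m14an6m_sp_finite (F := F) m hm
  set Bad : Finset (HeightOneSpectrum (𝓞 F)) := hbad.toFinset with hBad
  have hZ2 : 1 ≤ m14an5z_Z F 2 := m14an5z_one_le_Z F (by norm_num)
  have hB0 : (1 : ℝ) ≤ 2 ^ Bad.card * m14an5z_Z F 2 :=
    one_le_mul_of_one_le_of_one_le (one_le_pow₀ (by norm_num)) hZ2
  refine ⟨(2 ^ Bad.card * m14an5z_Z F 2) ^ n, pow_pos (by linarith) n, ?_⟩
  intro s hs hs2 T'
  set u : HeightOneSpectrum (𝓞 M) → HeightOneSpectrum (𝓞 F) := m14an6m_u (F := F) with hu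
  set good : HeightOneSpectrum (𝓞 M) → Prop := fun w =>
    IsCoprime (u w).asIdeal (Ideal.span {(m : 𝓞 F)}) ∧
      Ideal.relNorm (𝓞 F) w.asIdeal = (u w).asIdeal with hgood
  set Tg := T'.filter good with hTg
  set Tb := T'.filter (fun w => ¬ good w) with hTb
  refine ⟨Tg.image u, ?_, ?_⟩
  · intro v hv
    obtain ⟨w, hw, rfl⟩ := Finset.mem_image.1 hv
    have hw' := (Finset.mem_filter.1 hw).2
    exact ⟨hw'.1, w, hw'.2⟩
  · rw [← Finset.prod_filter_mul_prod_filter_not T' good, mul_comm]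
    -- the good part
    have hG : ∏ w ∈ Tg, (1 - m14an5z_f M s w.asIdeal)⁻¹ ≤
        (∏ v ∈ Tg.image u, (1 - m14an5z_f F s v.asIdeal)⁻¹) ^ n := by
      refine m14an6m_prod_fibre Tg u n (fun v => ?_) _ (fun v => m14an6m_one_le_E F hs.le v) _
        (fun w _ => le_trans zero_le_one (m14an6m_one_le_E M hs.le w)) (fun w hw => ?_)
      · exact m14an6m_fibre_card Tg v
      · have hw' := (Finset.mem_filter.1 hw).2
        exact (m14an6m_E_eq_of_relNorm s w (u w) hw'.2).le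
    -- the bad part
    set g : HeightOneSpectrum (𝓞 F) → ℝ := fun v =>
      (if v ∈ Bad then (2 : ℝ) else 1) * (1 - m14an5z_f F 2 v.asIdeal)⁻¹ with hg
    have hg1 : ∀ v, 1 ≤ g v := by
      intro v
      refine one_le_mul_of_one_le_of_one_le ?_ (m14an6m_one_le_E F (by norm_num) v)
      split_ifs <;> norm_num
    have hBd : ∏ w ∈ Tb, (1 - m14an5z_f M s w.asIdeal)⁻¹ ≤ (∏ v ∈ Tb.image u, g v) ^ n := by
      refine m14an6m_prod_fibre Tb u n (fun v => ?_) g hg1 _
        (fun w _ => le_trans zero_le_one (m14an6m_one_le_E M hs.le w)) (fun w hw => ?_)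
      · exact m14an6m_fibre_card Tb v
      · have hw' : ¬ good w := (Finset.mem_filter.1 hw).2
        have hE1 := m14an6m_one_le_E F (s := 2) (by norm_num) (u w)
        by_cases hc : IsCoprime (u w).asIdeal (Ideal.span {(m : 𝓞 F)})
        · have hrel : Ideal.relNorm (𝓞 F) w.asIdeal ≠ (u w).asIdeal := fun h => hw' ⟨hc, h⟩
          rcases m14an6m_sp_norm w (u w) (m14an6m_u_spec (F := F) w) with h1 | h1
          · exact absurd h1.1 hrel
          · have h3 := m14an6m_E_le_of_sq hs.le w (u w) h1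
            refine le_trans h3 ?_
            have : (1 : ℝ) ≤ (if u w ∈ Bad then (2 : ℝ) else 1) := by split_ifs <;> norm_num
            calc (1 - m14an5z_f F 2 (u w).asIdeal)⁻¹
                = 1 * (1 - m14an5z_f F 2 (u w).asIdeal)⁻¹ := (one_mul _).symm
              _ ≤ g (u w) := mul_le_mul_of_nonneg_right this (le_trans zero_le_one hE1)
        · have hmem : u w ∈ Bad := by
            rw [hBad, Set.Finite.mem_toFinset]
            exact hc
          have h3 := m14an6m_E_le_two M hs.le w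
          refine le_trans h3 ?_
          simp only [hg, if_pos hmem]
          calc (2 : ℝ) = 2 * 1 := (mul_one _).symm
            _ ≤ 2 * (1 - m14an5z_f F 2 (u w).asIdeal)⁻¹ :=
                mul_le_mul_of_nonneg_left hE1 (by norm_num)
    have hBd2 : ∏ v ∈ Tb.image u, g v ≤ 2 ^ Bad.card * m14an5z_Z F 2 := by
      rw [Finset.prod_mul_distrib]
      have h1 : ∏ v ∈ Tb.image u, (if v ∈ Bad then (2 : ℝ) else 1) ≤ 2 ^ Bad.card := by
        rw [Finset.prod_ite, Finset.prod_const, Finset.prod_const_one, mul_one]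
        refine pow_le_pow_right₀ (by norm_num) (Finset.card_le_card ?_)
        intro v hv
        exact (Finset.mem_filter.1 hv).2
      have h2 := m14an6m_prod_le_Z F (s := 2) (by norm_num) (Tb.image u)
      have h3 : 0 ≤ ∏ v ∈ Tb.image u, (1 - m14an5z_f F 2 v.asIdeal)⁻¹ :=
        Finset.prod_nonneg fun v _ =>
          le_trans zero_le_one (m14an6m_one_le_E F (by norm_num) v)
      exact mul_le_mul h1 h2 h3 (by positivity)
    have hBd3 : ∏ w ∈ Tb, (1 - m14an5z_f M s w.asIdeal)⁻¹ ≤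
        (2 ^ Bad.card * m14an5z_Z F 2) ^ n := by
      refine le_trans hBd (pow_le_pow_left₀ ?_ hBd2 n)
      exact Finset.prod_nonneg fun v _ => le_trans zero_le_one (hg1 v)
    have hG0 : 0 ≤ ∏ w ∈ Tg, (1 - m14an5z_f M s w.asIdeal)⁻¹ :=
      Finset.prod_nonneg fun w _ => le_trans zero_le_one (m14an6m_one_le_E M hs.le w)
    exact mul_le_mul hBd3 hG hG0 (pow_nonneg (by linarith) n)

/-- (M2) the limit form. -/
theorem m14an6m_Z_pow_le (m : ℕ) (hm : m ≠ 0) :
    ∃ B : ℝ, 0 < B ∧ ∀ s : ℝ, 1 < s → s ≤ 2 → ∀ (h : ℕ) (Q : ℝ),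
      (∀ T : Finset (HeightOneSpectrum (𝓞 F)),
        (∀ v ∈ T, IsCoprime v.asIdeal (Ideal.span {(m : 𝓞 F)}) ∧
          ∃ w : HeightOneSpectrum (𝓞 M), Ideal.relNorm (𝓞 F) w.asIdeal = v.asIdeal) →
        (∏ v ∈ T, (1 - m14an5z_f F s v.asIdeal)⁻¹) ^ h ≤ Q) →
      m14an5z_Z M s ^ h ≤ B ^ h * Q ^ Module.finrank F M := by
  obtain ⟨B, hB, hfin⟩ := m14an6m_finite (F := F) (M := M) m hm
  refine ⟨B, hB, ?_⟩
  intro s hs hs2 h Q hQ
  have hsum := m14an5z_summable M hs
  have hsum' : Summable (fun I : Ideal (𝓞 M) => ‖m14an5z_f M s I‖) := by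
    refine hsum.congr fun I => ?_
    rw [Real.norm_of_nonneg (m14an5z_f_nonneg M s I)]
  have htend := (m14an5_tendsto_prod (m14an5z_f M s) hsum').pow h
  refine le_of_tendsto' htend fun T' => ?_
  obtain ⟨T, hT, hle⟩ := hfin s hs hs2 T'
  have hP0 : 0 ≤ ∏ v ∈ T, (1 - m14an5z_f F s v.asIdeal)⁻¹ :=
    Finset.prod_nonneg fun v _ => le_trans zero_le_one (m14an6m_one_le_E F hs.le v)
  have hE0 : 0 ≤ ∏ w ∈ T', (1 - m14an5z_f M s w.asIdeal)⁻¹ :=
    Finset.prod_nonneg fun w _ => le_trans zero_le_one (m14an6m_one_le_E M hs.le w)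
  calc (∏ w ∈ T', (1 - m14an5z_f M s w.asIdeal)⁻¹) ^ h
      ≤ (B * (∏ v ∈ T, (1 - m14an5z_f F s v.asIdeal)⁻¹) ^ Module.finrank F M) ^ h :=
        pow_le_pow_left₀ hE0 hle h
    _ = B ^ h * ((∏ v ∈ T, (1 - m14an5z_f F s v.asIdeal)⁻¹) ^ h) ^ Module.finrank F M := by
        rw [mul_pow, ← pow_mul, ← pow_mul, Nat.mul_comm (Module.finrank F M) h]
    _ ≤ B ^ h * Q ^ Module.finrank F M := by
        refine mul_le_mul_of_nonneg_left ?_ (pow_nonneg hB.le h)
        exact pow_le_pow_left₀ (pow_nonneg hP0 h) (hQ T hT) _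

/-- (M4) the core from the `F`-side bound: if all finite Euler products of `ζ_F` over the primes
prime to `m` which are norms of primes of `M`, raised to the power `h`, are `≤ B' / (s - 1)` on
`(1, 2]`, then `h ≤ [M : F]`. -/
theorem m14an6m_le_finrank (m : ℕ) (hm : m ≠ 0) (h : ℕ) (B' : ℝ)
    (hF : ∀ s : ℝ, 1 < s → s ≤ 2 → ∀ T : Finset (HeightOneSpectrum (𝓞 F)),
      (∀ v ∈ T, IsCoprime v.asIdeal (Ideal.span {(m : 𝓞 F)}) ∧
        ∃ w : HeightOneSpectrum (𝓞 M), Ideal.relNorm (𝓞 F) w.asIdeal = v.asIdeal) →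
      (∏ v ∈ T, (1 - m14an5z_f F s v.asIdeal)⁻¹) ^ h ≤ B' / (s - 1)) :
    h ≤ Module.finrank F M := by
  obtain ⟨B, hB, hM⟩ := m14an6m_Z_pow_le (F := F) (M := M) m hm
  obtain ⟨c, hc, hlow⟩ := m14an5z_lower M
  refine m14an6m_card_le h (Module.finrank F M) c (B ^ h * B' ^ Module.finrank F M) hc
    (m14an5z_Z M) hlow fun s hs hs2 => ?_
  have h1 := hM s hs hs2 h (B' / (s - 1)) (hF s hs hs2)
  rw [div_pow, ← mul_div_assoc] at h1
  exact h1

end Fermat.Agent.M14
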