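import Mathlib

/-!
# M14 / AN6, splitting of primes (hand-out of `m14an6_core`)

Primes of `𝓞 M` over primes of `𝓞 F`: at most `[M : F]` over each prime, the norm of a prime of
residue degree `1` is the prime below, otherwise its absolute norm is at least the square.
-/

set_option autoImplicit false
set_option linter.unusedSectionVars false
set_option linter.deprecated false
set_option linter.style.haveILetI false

open NumberField IsDedekindDomain

namespace Fermat.Agent.M14

variable {F M : Type} [Field F] [NumberField F] [Field M] [NumberField M] [Algebra F M]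

/-- (S1) at most `[M : F]` primes over a given prime. -/
theorem m14an6s_card_le (v : IsDedekindDomain.HeightOneSpectrum (𝓞 F))
    (T : Finset (IsDedekindDomain.HeightOneSpectrum (𝓞 M)))
    (hT : ∀ w ∈ T, w.asIdeal.under (𝓞 F) = v.asIdeal) : T.card ≤ Module.finrank F M := by
  classical
  haveI := v.isMaximal
  haveI : NoZeroSMulDivisors (𝓞 F) (𝓞 M) := ⟨fun {c x} h => smul_eq_zero.1 h⟩
  have hinj : Function.Injective
      (fun w : IsDedekindDomain.HeightOneSpectrum (𝓞 M) => w.asIdeal) :=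
    fun w w' h => IsDedekindDomain.HeightOneSpectrum.ext h
  have hsub : T.image (fun w => w.asIdeal) ⊆
      IsDedekindDomain.primesOverFinset v.asIdeal (𝓞 M) := by
    intro P hP
    obtain ⟨w, hw, rfl⟩ := Finset.mem_image.1 hP
    rw [IsDedekindDomain.mem_primesOverFinset_iff v.ne_bot (𝓞 M)]
    exact ⟨w.isPrime, ⟨(hT w hw).symm⟩⟩
  calc T.card = (T.image (fun w => w.asIdeal)).card :=
        (Finset.card_image_of_injective _ hinj).symm
    _ ≤ (IsDedekindDomain.primesOverFinset v.asIdeal (𝓞 M)).card := Finset.card_le_card hsub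
    _ ≤ Module.finrank F M := Ideal.card_primesOverFinset_le_finrank (𝓞 M) F M v.ne_bot

/-- (S2) the prime below. -/
theorem m14an6s_under (w : IsDedekindDomain.HeightOneSpectrum (𝓞 M)) :
    ∃ v : IsDedekindDomain.HeightOneSpectrum (𝓞 F), w.asIdeal.under (𝓞 F) = v.asIdeal := by
  haveI := w.isPrime
  refine ⟨⟨w.asIdeal.under (𝓞 F), inferInstance, ?_⟩, rfl⟩
  exact Ideal.under_ne_bot (𝓞 F) w.ne_bot

/-- (S4) norms of primes are at least `2`. -/
theorem m14an6s_two_le (v : IsDedekindDomain.HeightOneSpectrum (𝓞 F)) :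
    2 ≤ Ideal.absNorm v.asIdeal := by
  have h0 : Ideal.absNorm v.asIdeal ≠ 0 := by
    rw [Ne, Ideal.absNorm_eq_zero_iff]
    exact v.ne_bot
  have h1 : Ideal.absNorm v.asIdeal ≠ 1 := by
    rw [Ne, Ideal.absNorm_eq_one_iff]
    exact v.isPrime.ne_top
  omega

/-- (S3) residue degree one or norm at least the square. -/
theorem m14an6s_norm (w : IsDedekindDomain.HeightOneSpectrum (𝓞 M))
    (v : IsDedekindDomain.HeightOneSpectrum (𝓞 F))
    (h : w.asIdeal.under (𝓞 F) = v.asIdeal) :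
    (Ideal.relNorm (𝓞 F) w.asIdeal = v.asIdeal ∧
        Ideal.absNorm w.asIdeal = Ideal.absNorm v.asIdeal) ∨
      (Ideal.absNorm v.asIdeal) ^ 2 ≤ Ideal.absNorm w.asIdeal := by
  haveI := w.isMaximal
  haveI := v.isMaximal
  haveI : w.asIdeal.LiesOver v.asIdeal := ⟨h.symm⟩
  have hrel : Ideal.relNorm (𝓞 F) w.asIdeal = v.asIdeal ^ (w.asIdeal.inertiaDeg (𝓞 F)) :=
    Ideal.relNorm_eq_pow_of_isMaximal w.asIdeal v.asIdeal
  have habs : Ideal.absNorm w.asIdeal =
      Ideal.absNorm v.asIdeal ^ (w.asIdeal.inertiaDeg (𝓞 F)) := by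
    rw [← Ideal.absNorm_relNorm (𝓞 F) (𝓞 M), hrel, map_pow]
  have hf : 0 < w.asIdeal.inertiaDeg (𝓞 F) := Ideal.inertiaDeg_pos w.asIdeal (𝓞 F)
  rcases Nat.lt_or_ge (w.asIdeal.inertiaDeg (𝓞 F)) 2 with h2 | h2
  · left
    have h1 : w.asIdeal.inertiaDeg (𝓞 F) = 1 := by omega
    rw [hrel, habs, h1, pow_one, pow_one]
    exact ⟨rfl, rfl⟩
  · right
    rw [habs]
    exact Nat.pow_le_pow_right (by have := m14an6s_two_le v; omega) h2

/-- (S5) finitely many primes are not prime to `m`. -/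
theorem m14an6s_finite (m : ℕ) (hm : m ≠ 0) :
    {v : IsDedekindDomain.HeightOneSpectrum (𝓞 F) |
      ¬ IsCoprime v.asIdeal (Ideal.span {(m : 𝓞 F)})}.Finite := by
  have hm0 : (m : 𝓞 F) ≠ 0 := by exact_mod_cast hm
  have hsm : Ideal.span {(m : 𝓞 F)} ≠ 0 := by
    rwa [Ne, Ideal.zero_eq_bot, Ideal.span_singleton_eq_bot]
  refine (Ideal.finite_factors hsm).subset ?_
  intro v hv
  simp only [Set.mem_setOf_eq] at hv ⊢
  rw [Ideal.dvd_iff_le]
  by_contra hle
  apply hv
  rw [Ideal.isCoprime_iff_sup_eq]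
  by_contra htop
  have heq : v.asIdeal = v.asIdeal ⊔ Ideal.span {(m : 𝓞 F)} :=
    v.isMaximal.eq_of_le htop le_sup_left
  exact hle (heq ▸ le_sup_right)

end Fermat.Agent.M14
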