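import Mathlib
import Fermat.Agent.M14.CrossDefs
import Fermat.Agent.M14.An5Euler
import Fermat.Agent.M14.An5Zeta
import Fermat.Agent.M14.An5Dom
import Fermat.Agent.M14.An6Split

/-!
# M14 / AN-B: a nontrivial extension has a prime of residue degree `≠ 1` outside `m`

`m14anb5_main : m14x_ANB`.  If all primes of `M` outside `m` had relative norm equal to the prime
below, then for all primes `v` of `F` outside a finite set (the primes dividing `m` and the primes
below the different) there would be exactly `n = [M : F]` primes of `M` above `v`, all of the same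
absolute norm as `v`; comparing finite Euler products gives `Z_F(s)^n ≤ B · Z_M(s)` on `(1, 2]`,
which is impossible for `n ≥ 2` (`m14an5d_false`).
-/

set_option autoImplicit false
set_option linter.deprecated false
set_option linter.unusedSectionVars false
set_option linter.unusedVariables false
set_option linter.style.haveILetI false

namespace Fermat.Agent.M14

open NumberField Ideal IsDedekindDomain

attribute [local instance] FractionRing.liftAlgebra

section

variable {F M : Type} [Field F] [NumberField F] [Field M] [NumberField M] [Algebra F M]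

/-- the prime of `F` below a prime of `M` -/
noncomputable def m14anb5_below (w : HeightOneSpectrum (𝓞 M)) : HeightOneSpectrum (𝓞 F) :=
  ⟨w.asIdeal.under (𝓞 F), Ideal.IsPrime.under (𝓞 F) w.asIdeal,
    Ideal.under_ne_bot (𝓞 F) w.ne_bot⟩

theorem m14anb5_below_asIdeal (w : HeightOneSpectrum (𝓞 M)) :
    (m14anb5_below (F := F) w).asIdeal = w.asIdeal.under (𝓞 F) := rfl

/-- the fibre of `below` is finite -/
theorem m14anb5_fibre_finite (v : HeightOneSpectrum (𝓞 F)) :
    {w : HeightOneSpectrum (𝓞 M) | m14anb5_below w = v}.Finite := by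
  classical
  haveI := v.isMaximal
  have hinj : Function.Injective (fun w : HeightOneSpectrum (𝓞 M) => w.asIdeal) :=
    fun w w' h => HeightOneSpectrum.ext h
  refine Set.Finite.of_finite_image (f := fun w : HeightOneSpectrum (𝓞 M) => w.asIdeal) ?_
    hinj.injOn
  refine (IsDedekindDomain.primesOverFinset v.asIdeal (𝓞 M)).finite_toSet.subset ?_
  rintro _ ⟨w, hw, rfl⟩
  rw [Finset.mem_coe, IsDedekindDomain.mem_primesOverFinset_iff v.ne_bot (𝓞 M)]
  refine ⟨w.isPrime, ⟨?_⟩⟩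
  rw [← hw]
  rfl

/-- the primes of `M` above `v`, as a finset -/
noncomputable def m14anb5_W (v : HeightOneSpectrum (𝓞 F)) : Finset (HeightOneSpectrum (𝓞 M)) :=
  (m14anb5_fibre_finite (M := M) v).toFinset

theorem m14anb5_mem_W {v : HeightOneSpectrum (𝓞 F)} {w : HeightOneSpectrum (𝓞 M)} :
    w ∈ m14anb5_W (M := M) v ↔ m14anb5_below w = v := by
  unfold m14anb5_W
  rw [Set.Finite.mem_toFinset]
  rfl

theorem m14anb5_W_image (v : HeightOneSpectrum (𝓞 F)) :
    (m14anb5_W (M := M) v).image (fun w => w.asIdeal)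
      = IsDedekindDomain.primesOverFinset v.asIdeal (𝓞 M) := by
  classical
  haveI := v.isMaximal
  ext P
  rw [Finset.mem_image, IsDedekindDomain.mem_primesOverFinset_iff v.ne_bot (𝓞 M)]
  constructor
  · rintro ⟨w, hw, rfl⟩
    rw [m14anb5_mem_W] at hw
    refine ⟨w.isPrime, ⟨?_⟩⟩
    rw [← hw]
    rfl
  · rintro ⟨hP, ⟨hPv⟩⟩
    have hP0 : P ≠ ⊥ := by
      rintro rfl
      apply v.ne_bot
      rw [hPv]
      ext x
      rw [Ideal.under_def, Ideal.mem_comap, Ideal.mem_bot, Ideal.mem_bot]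
      exact (map_eq_zero_iff _ (FaithfulSMul.algebraMap_injective (𝓞 F) (𝓞 M)))
    refine ⟨⟨P, hP, hP0⟩, ?_, rfl⟩
    rw [m14anb5_mem_W]
    apply HeightOneSpectrum.ext
    exact hPv.symm

/-- finitely many primes of `F` lie below a prime dividing the different -/
theorem m14anb5_finite_ram :
    {v : HeightOneSpectrum (𝓞 F) | ∃ w : HeightOneSpectrum (𝓞 M),
      m14anb5_below w = v ∧ w.asIdeal ∣ differentIdeal (𝓞 F) (𝓞 M)}.Finite := by
  have hd : differentIdeal (𝓞 F) (𝓞 M) ≠ 0 := differentIdeal_ne_bot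
  refine ((Ideal.finite_factors hd).image (m14anb5_below (F := F))).subset ?_
  rintro v ⟨w, hw, hdvd⟩
  exact ⟨w, hdvd, hw⟩

/-- the local Euler factor at a prime is between `1` and `2` -/
theorem m14anb5_factor_bounds {K : Type} [Field K] [NumberField K] {s : ℝ} (hs : 1 < s)
    (v : HeightOneSpectrum (𝓞 K)) :
    1 ≤ (1 - m14an5z_f K s v.asIdeal)⁻¹ ∧ (1 - m14an5z_f K s v.asIdeal)⁻¹ ≤ 2 := by
  have h2 : (2 : ℝ) ≤ (Ideal.absNorm v.asIdeal : ℝ) := by exact_mod_cast m14an6s_two_le v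
  have hpos : 0 < m14an5z_f K s v.asIdeal := m14an5z_f_pos K s v.ne_bot
  have hle : m14an5z_f K s v.asIdeal ≤ 1 / 2 := by
    rw [m14an5z_f_of_ne K s v.ne_bot]
    calc ((Ideal.absNorm v.asIdeal : ℕ) : ℝ) ^ (-s)
        ≤ ((Ideal.absNorm v.asIdeal : ℕ) : ℝ) ^ (-1 : ℝ) :=
          Real.rpow_le_rpow_of_exponent_le (by linarith) (by linarith)
      _ = ((Ideal.absNorm v.asIdeal : ℕ) : ℝ)⁻¹ := Real.rpow_neg_one _
      _ ≤ 1 / 2 := by
          rw [one_div]
          exact inv_anti₀ (by norm_num) h2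
  have h1 : 0 < 1 - m14an5z_f K s v.asIdeal := by linarith
  constructor
  · rw [one_le_inv₀ h1]; linarith
  · rw [inv_le_comm₀ h1 (by norm_num)]; linarith

/-- a prime of `M` above a prime of `F` which is prime to `m` does not contain `m` -/
theorem m14anb5_notMem (m : ℕ) {v : HeightOneSpectrum (𝓞 F)}
    (hv : IsCoprime v.asIdeal (Ideal.span {(m : 𝓞 F)})) {w : HeightOneSpectrum (𝓞 M)}
    (hw : m14anb5_below w = v) : (m : 𝓞 M) ∉ w.asIdeal := by
  intro hm
  have h1 : (m : 𝓞 F) ∈ v.asIdeal := by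
    rw [← hw, m14anb5_below_asIdeal, Ideal.under_def, Ideal.mem_comap, map_natCast]
    exact hm
  rw [Ideal.isCoprime_iff_sup_eq] at hv
  have h2 : v.asIdeal ⊔ Ideal.span {(m : 𝓞 F)} = v.asIdeal :=
    sup_eq_left.mpr ((Ideal.span_singleton_le_iff_mem _).mpr h1)
  rw [h2] at hv
  exact v.isPrime.ne_top hv

section good

variable (m : ℕ)
  (H : ∀ 𝔓 : Ideal (𝓞 M), 𝔓.IsPrime → 𝔓 ≠ ⊥ → (m : 𝓞 M) ∉ 𝔓 →
    Ideal.relNorm (𝓞 F) 𝔓 = 𝔓.under (𝓞 F))
  {v : HeightOneSpectrum (𝓞 F)}
  (hv1 : IsCoprime v.asIdeal (Ideal.span {(m : 𝓞 F)}))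
  (hv2 : ¬ ∃ w : HeightOneSpectrum (𝓞 M),
      m14anb5_below w = v ∧ w.asIdeal ∣ differentIdeal (𝓞 F) (𝓞 M))

include H hv1 in
theorem m14anb5_relNorm {w : HeightOneSpectrum (𝓞 M)} (hw : m14anb5_below w = v) :
    Ideal.relNorm (𝓞 F) w.asIdeal = v.asIdeal := by
  rw [H w.asIdeal w.isPrime w.ne_bot (m14anb5_notMem m hv1 hw), ← hw]
  rfl

include H hv1 in
theorem m14anb5_absNorm {w : HeightOneSpectrum (𝓞 M)} (hw : m14anb5_below w = v) :
    Ideal.absNorm w.asIdeal = Ideal.absNorm v.asIdeal := by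
  rw [← m14anb5_relNorm m H hv1 hw, Ideal.absNorm_relNorm]

include H hv1 in
theorem m14anb5_f_eq (s : ℝ) {w : HeightOneSpectrum (𝓞 M)} (hw : m14anb5_below w = v) :
    m14an5z_f M s w.asIdeal = m14an5z_f F s v.asIdeal := by
  rw [m14an5z_f_of_ne M s w.ne_bot, m14an5z_f_of_ne F s v.ne_bot, m14anb5_absNorm m H hv1 hw]

include H hv1 in
theorem m14anb5_inertiaDeg {w : HeightOneSpectrum (𝓞 M)} (hw : m14anb5_below w = v) :
    w.asIdeal.inertiaDeg (𝓞 F) = 1 := by
  haveI := w.isMaximal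
  haveI := v.isMaximal
  haveI : w.asIdeal.LiesOver v.asIdeal := ⟨by rw [← hw]; rfl⟩
  have hrel : Ideal.relNorm (𝓞 F) w.asIdeal = v.asIdeal ^ (w.asIdeal.inertiaDeg (𝓞 F)) :=
    Ideal.relNorm_eq_pow_of_isMaximal w.asIdeal v.asIdeal
  have h1 := congrArg Ideal.absNorm hrel
  rw [m14anb5_relNorm m H hv1 hw, map_pow] at h1
  have h2 : 2 ≤ Ideal.absNorm v.asIdeal := m14an6s_two_le v
  have h3 : Ideal.absNorm v.asIdeal ^ 1 = Ideal.absNorm v.asIdeal ^ (w.asIdeal.inertiaDeg (𝓞 F)) := by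
    rw [pow_one]; exact h1
  exact (Nat.pow_right_injective h2 h3).symm

include hv2 in
theorem m14anb5_ramificationIdx {w : HeightOneSpectrum (𝓞 M)} (hw : m14anb5_below w = v) :
    w.asIdeal.ramificationIdx (𝓞 F) = 1 := by
  haveI := w.isPrime
  have h : ¬ w.asIdeal ∣ differentIdeal (𝓞 F) (𝓞 M) := fun hd => hv2 ⟨w, hw, hd⟩
  haveI : Algebra.IsUnramifiedAt (𝓞 F) w.asIdeal := not_dvd_differentIdeal_iff.mp h
  exact Ideal.ramificationIdx_eq_one_of_isUnramifiedAt

include H hv1 hv2 in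
/-- exactly `[M : F]` primes above a good prime -/
theorem m14anb5_card_W : (m14anb5_W (M := M) v).card = Module.finrank F M := by
  classical
  haveI := v.isMaximal
  have hinj : Function.Injective (fun w : HeightOneSpectrum (𝓞 M) => w.asIdeal) :=
    fun w w' h => HeightOneSpectrum.ext h
  have hsum := Ideal.sum_ramification_inertia (𝓞 M) F M v.ne_bot
  rw [← m14anb5_W_image, Finset.sum_image (fun a _ b _ h => hinj h)] at hsum
  rw [← hsum, Finset.card_eq_sum_ones]
  apply Finset.sum_congr rfl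
  intro w hw
  rw [m14anb5_mem_W] at hw
  haveI := w.isMaximal
  haveI := w.isPrime
  haveI : w.asIdeal.LiesOver v.asIdeal := ⟨by rw [← hw]; rfl⟩
  rw [Ideal.ramificationIdx'_eq_ramificationIdx v.asIdeal w.asIdeal v.ne_bot,
    Ideal.inertiaDeg'_eq_inertiaDeg v.asIdeal w.asIdeal,
    m14anb5_ramificationIdx hv2 hw, m14anb5_inertiaDeg m H hv1 hw]

include H hv1 hv2 in
/-- the local comparison at a good prime -/
theorem m14anb5_local_good (s : ℝ) :
    ∏ w ∈ m14anb5_W (M := M) v, (1 - m14an5z_f M s w.asIdeal)⁻¹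
      = ((1 - m14an5z_f F s v.asIdeal)⁻¹) ^ Module.finrank F M := by
  rw [← m14anb5_card_W m H hv1 hv2, ← Finset.prod_const]
  apply Finset.prod_congr rfl
  intro w hw
  rw [m14anb5_mem_W] at hw
  rw [m14anb5_f_eq m H hv1 s hw]

end good

/-- summability of the norms -/
theorem m14anb5_summable_norm (K : Type) [Field K] [NumberField K] {s : ℝ} (hs : 1 < s) :
    Summable (fun I : Ideal (𝓞 K) => ‖m14an5z_f K s I‖) := by
  refine (m14an5z_summable K hs).congr fun I => ?_
  rw [Real.norm_of_nonneg (m14an5z_f_nonneg K s I)]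

/-- every finite partial Euler product is at most the zeta value -/
theorem m14anb5_partial_le (K : Type) [Field K] [NumberField K] {s : ℝ} (hs : 1 < s)
    (T : Finset (HeightOneSpectrum (𝓞 K))) :
    ∏ w ∈ T, (1 - m14an5z_f K s w.asIdeal)⁻¹ ≤ m14an5z_Z K s := by
  classical
  have hmono : Monotone (fun T : Finset (HeightOneSpectrum (𝓞 K)) =>
      ∏ w ∈ T, (1 - m14an5z_f K s w.asIdeal)⁻¹) :=
    Finset.prod_mono_set_of_one_le (fun w => (m14anb5_factor_bounds hs w).1)
  exact hmono.ge_of_tendsto (m14an5_tendsto_prod (m14an5z_f K s) (m14anb5_summable_norm K hs)) T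

/-- **AN-B**. -/
theorem m14anb5_main : m14x_ANB := by
  classical
  intro F M _ _ _ _ _ m hm hn
  by_contra hcon
  push Not at hcon
  have H : ∀ 𝔓 : Ideal (𝓞 M), 𝔓.IsPrime → 𝔓 ≠ ⊥ → (m : 𝓞 M) ∉ 𝔓 →
      Ideal.relNorm (𝓞 F) 𝔓 = 𝔓.under (𝓞 F) := hcon
  set n := Module.finrank F M with hndef
  have hSfin : ({v : HeightOneSpectrum (𝓞 F) | ¬ IsCoprime v.asIdeal (Ideal.span {(m : 𝓞 F)})} ∪
      {v : HeightOneSpectrum (𝓞 F) | ∃ w : HeightOneSpectrum (𝓞 M),
        m14anb5_below w = v ∧ w.asIdeal ∣ differentIdeal (𝓞 F) (𝓞 M)}).Finite :=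
    (m14an6s_finite m hm).union m14anb5_finite_ram
  set S : Finset (HeightOneSpectrum (𝓞 F)) := hSfin.toFinset with hSdef
  have hgood : ∀ v : HeightOneSpectrum (𝓞 F), v ∉ S →
      IsCoprime v.asIdeal (Ideal.span {(m : 𝓞 F)}) ∧
      ¬ ∃ w : HeightOneSpectrum (𝓞 M),
        m14anb5_below w = v ∧ w.asIdeal ∣ differentIdeal (𝓞 F) (𝓞 M) := by
    intro v hv
    rw [hSdef, Set.Finite.mem_toFinset, Set.mem_union, not_or] at hv
    exact ⟨not_not.mp hv.1, hv.2⟩
  apply m14an5d_false F M n hn (((2 : ℝ) ^ n) ^ S.card)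
  intro s hs hs2
  have hZM : 0 < m14an5z_Z M s := m14an5z_Z_pos M hs
  -- the finite inequality
  have key : ∀ T : Finset (HeightOneSpectrum (𝓞 F)),
      (∏ v ∈ T, (1 - m14an5z_f F s v.asIdeal)⁻¹) ^ n
        ≤ ((2 : ℝ) ^ n) ^ S.card * m14an5z_Z M s := by
    intro T
    rw [← Finset.prod_pow]
    have hloc : ∀ v ∈ T, ((1 - m14an5z_f F s v.asIdeal)⁻¹) ^ n
        ≤ (if v ∈ S then (2 : ℝ) ^ n else 1) *
          ∏ w ∈ m14anb5_W (M := M) v, (1 - m14an5z_f M s w.asIdeal)⁻¹ := by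
      intro v _
      have hb : (1 : ℝ) ≤ ∏ w ∈ m14anb5_W (M := M) v, (1 - m14an5z_f M s w.asIdeal)⁻¹ :=
        Finset.one_le_prod (fun w _ => (m14anb5_factor_bounds hs w).1)
      by_cases hv : v ∈ S
      · rw [if_pos hv]
        have h1 : ((1 - m14an5z_f F s v.asIdeal)⁻¹) ^ n ≤ (2 : ℝ) ^ n :=
          pow_le_pow_left₀ (le_trans zero_le_one (m14anb5_factor_bounds hs v).1)
            (m14anb5_factor_bounds hs v).2 n
        calc ((1 - m14an5z_f F s v.asIdeal)⁻¹) ^ n ≤ (2 : ℝ) ^ n := h1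
          _ = (2 : ℝ) ^ n * 1 := (mul_one _).symm
          _ ≤ (2 : ℝ) ^ n * ∏ w ∈ m14anb5_W (M := M) v, (1 - m14an5z_f M s w.asIdeal)⁻¹ :=
            mul_le_mul_of_nonneg_left hb (by positivity)
      · rw [if_neg hv, one_mul,
          m14anb5_local_good m H (hgood v hv).1 (hgood v hv).2 s]
    have hnonneg : ∀ v ∈ T, (0 : ℝ) ≤ ((1 - m14an5z_f F s v.asIdeal)⁻¹) ^ n := by
      intro v _
      exact pow_nonneg (le_trans zero_le_one (m14anb5_factor_bounds hs v).1) n
    refine le_trans (Finset.prod_le_prod hnonneg hloc) ?_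
    rw [Finset.prod_mul_distrib]
    have hc : ∏ v ∈ T, (if v ∈ S then (2 : ℝ) ^ n else 1) ≤ ((2 : ℝ) ^ n) ^ S.card := by
      rw [Finset.prod_ite_mem, Finset.prod_const]
      apply pow_le_pow_right₀
      · exact one_le_pow₀ (by norm_num)
      · exact Finset.card_le_card Finset.inter_subset_right
    have hdisj : (T : Set (HeightOneSpectrum (𝓞 F))).PairwiseDisjoint
        (fun v => m14anb5_W (M := M) v) := by
      intro v _ v' _ hvv'
      rw [Function.onFun, Finset.disjoint_left]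
      intro w hw hw'
      rw [m14anb5_mem_W] at hw hw'
      exact hvv' (hw.symm.trans hw')
    have hb : ∏ v ∈ T, ∏ w ∈ m14anb5_W (M := M) v, (1 - m14an5z_f M s w.asIdeal)⁻¹
        ≤ m14an5z_Z M s := by
      rw [← Finset.prod_biUnion hdisj]
      exact m14anb5_partial_le M hs _
    have hb0 : (0 : ℝ) ≤ ∏ v ∈ T, ∏ w ∈ m14anb5_W (M := M) v,
        (1 - m14an5z_f M s w.asIdeal)⁻¹ :=
      Finset.prod_nonneg fun v _ => Finset.prod_nonneg fun w _ =>
        le_trans zero_le_one (m14anb5_factor_bounds hs w).1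
    exact mul_le_mul hc hb hb0 (by positivity)
  -- pass to the limit
  have hlim := (m14an5_tendsto_prod (m14an5z_f F s) (m14anb5_summable_norm F hs)).pow n
  exact le_of_tendsto' hlim key

end

end Fermat.Agent.M14
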