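/-
M14 (S14 project), package (AN-B), part 1 (algebra): if every prime `𝔓 ≠ ⊥` of `𝓞 M` outside `m`
has relative norm `𝔓.under (𝓞 F)`, then all but finitely many primes `v` of `𝓞 F` have exactly
`[M : F]` primes of `𝓞 M` above them, all of the same absolute norm as `v`.
-/
import Mathlib

set_option autoImplicit false

open NumberField Ideal IsDedekindDomain

namespace Fermat.Agent.M14

section

variable (F M : Type) [Field F] [NumberField F] [Field M] [NumberField M] [Algebra F M]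

/-- the prime of `𝓞 F` below a prime of `𝓞 M` -/
noncomputable def m14anb_under (w : HeightOneSpectrum (𝓞 M)) : HeightOneSpectrum (𝓞 F) where
  asIdeal := w.asIdeal.under (𝓞 F)
  isPrime := inferInstance
  ne_bot := mt Ideal.eq_bot_of_comap_eq_bot w.ne_bot

theorem m14anb_under_asIdeal (w : HeightOneSpectrum (𝓞 M)) :
    (m14anb_under F M w).asIdeal = w.asIdeal.under (𝓞 F) := rfl

theorem m14anb_different_ne_bot : differentIdeal (𝓞 F) (𝓞 M) ≠ ⊥ := by
  intro h
  have h1 := coeIdeal_differentIdeal (𝓞 F) F M (𝓞 M)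
  rw [h] at h1
  have h2 : FractionalIdeal.dual (𝓞 F) F (1 : FractionalIdeal (nonZeroDivisors (𝓞 M)) M) ≠ 0 :=
    FractionalIdeal.dual_ne_zero (𝓞 F) F one_ne_zero
  apply h2
  have h3 : (FractionalIdeal.dual (𝓞 F) F (1 : FractionalIdeal (nonZeroDivisors (𝓞 M)) M))⁻¹ = 0 := by
    rw [← h1]
    simp
  exact inv_eq_zero.mp h3

/-- the ideal whose prime factors are excluded -/
noncomputable def m14anb_badIdeal (m : ℕ) : Ideal (𝓞 M) :=
  differentIdeal (𝓞 F) (𝓞 M) * span {(m : 𝓞 M)}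

theorem m14anb_badIdeal_ne_bot (m : ℕ) (hm : m ≠ 0) : m14anb_badIdeal F M m ≠ ⊥ := by
  unfold m14anb_badIdeal
  rw [← Ideal.zero_eq_bot]
  refine mul_ne_zero (m14anb_different_ne_bot F M) ?_
  rw [Ideal.zero_eq_bot, Ne, Ideal.span_singleton_eq_bot]
  exact_mod_cast hm

/-- the finite set of excluded primes of `𝓞 M` -/
def m14anb_badM (m : ℕ) : Set (HeightOneSpectrum (𝓞 M)) :=
  {w | w.asIdeal ∣ m14anb_badIdeal F M m}

theorem m14anb_badM_finite (m : ℕ) (hm : m ≠ 0) : (m14anb_badM F M m).Finite :=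
  Ideal.finite_factors (m14anb_badIdeal_ne_bot F M m hm)

/-- the finite set of excluded primes of `𝓞 F` -/
def m14anb_bad (m : ℕ) : Set (HeightOneSpectrum (𝓞 F)) :=
  m14anb_under F M '' m14anb_badM F M m

theorem m14anb_bad_finite (m : ℕ) (hm : m ≠ 0) : (m14anb_bad F M m).Finite :=
  (m14anb_badM_finite F M m hm).image _

variable {F} in
/-- the primes of `𝓞 M` above `v` -/
def m14anb_over (v : HeightOneSpectrum (𝓞 F)) : Set (HeightOneSpectrum (𝓞 M)) :=
  {w | w.asIdeal ∣ v.asIdeal.map (algebraMap (𝓞 F) (𝓞 M))}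

variable {F} in
theorem m14anb_map_ne_bot (v : HeightOneSpectrum (𝓞 F)) :
    v.asIdeal.map (algebraMap (𝓞 F) (𝓞 M)) ≠ ⊥ := by
  rw [Ne, Ideal.map_eq_bot_iff_of_injective (FaithfulSMul.algebraMap_injective (𝓞 F) (𝓞 M))]
  exact v.ne_bot

variable {F} in
theorem m14anb_over_finite (v : HeightOneSpectrum (𝓞 F)) : (m14anb_over M v).Finite :=
  Ideal.finite_factors (m14anb_map_ne_bot M v)

variable {F M} in
/-- a prime ideal containing `v 𝓞_M` lies over `v` -/
theorem m14anb_under_eq_of_le (v : HeightOneSpectrum (𝓞 F)) (P : Ideal (𝓞 M)) [P.IsPrime]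
    (h : v.asIdeal.map (algebraMap (𝓞 F) (𝓞 M)) ≤ P) : P.under (𝓞 F) = v.asIdeal := by
  have h1 : v.asIdeal ≤ P.under (𝓞 F) := Ideal.map_le_iff_le_comap.mp h
  have h2 : P.under (𝓞 F) ≠ ⊤ := Ideal.IsPrime.ne_top inferInstance
  exact (v.isMaximal.eq_of_le h2 h1).symm

variable {F M} in
theorem m14anb_under_of_mem_over (v : HeightOneSpectrum (𝓞 F)) (w : HeightOneSpectrum (𝓞 M))
    (h : w ∈ m14anb_over M v) : m14anb_under F M w = v := by
  apply HeightOneSpectrum.ext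
  rw [m14anb_under_asIdeal]
  exact m14anb_under_eq_of_le v w.asIdeal (Ideal.dvd_iff_le.mp h)

variable {F M} in
/-- over a good prime, no prime divides the different or contains `m` -/
theorem m14anb_good (m : ℕ) (v : HeightOneSpectrum (𝓞 F)) (hv : v ∉ m14anb_bad F M m)
    (P : Ideal (𝓞 M)) [hP : P.IsPrime] (h : v.asIdeal.map (algebraMap (𝓞 F) (𝓞 M)) ≤ P) :
    P ≠ ⊥ ∧ ¬ P ∣ differentIdeal (𝓞 F) (𝓞 M) ∧ (m : 𝓞 M) ∉ P := by
  have h0 : P ≠ ⊥ := by
    rintro rfl
    exact m14anb_map_ne_bot M v (le_bot_iff.mp h)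
  have hw : (⟨P, hP, h0⟩ : HeightOneSpectrum (𝓞 M)) ∉ m14anb_badM F M m := by
    intro hmem
    apply hv
    refine ⟨_, hmem, ?_⟩
    exact m14anb_under_of_mem_over v _ (Ideal.dvd_iff_le.mpr h)
  refine ⟨h0, fun hd => hw ?_, fun hm => hw ?_⟩
  · exact Dvd.dvd.mul_right hd _
  · exact Dvd.dvd.mul_left (Ideal.dvd_span_singleton.mpr hm) _

variable {F M} in
/-- over a good prime, `v 𝓞_M` is squarefree -/
theorem m14anb_squarefree (m : ℕ) (v : HeightOneSpectrum (𝓞 F)) (hv : v ∉ m14anb_bad F M m) :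
    Squarefree (v.asIdeal.map (algebraMap (𝓞 F) (𝓞 M))) := by
  intro x hx
  by_contra hu
  rw [Ideal.isUnit_iff] at hu
  obtain ⟨P, hPmax, hxP⟩ := Ideal.exists_le_maximal x hu
  haveI : P.IsPrime := hPmax.isPrime
  have hPx : P ∣ x := Ideal.dvd_iff_le.mpr hxP
  have hP2 : P ^ 2 ∣ v.asIdeal.map (algebraMap (𝓞 F) (𝓞 M)) := by
    rw [pow_two]
    exact (mul_dvd_mul hPx hPx).trans hx
  have hle : v.asIdeal.map (algebraMap (𝓞 F) (𝓞 M)) ≤ P :=
    Ideal.dvd_iff_le.mp ((dvd_pow_self P two_ne_zero).trans hP2)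
  obtain ⟨-, hnd, -⟩ := m14anb_good m v hv P hle
  apply hnd
  haveI := v.isMaximal
  have := pow_sub_one_dvd_differentIdeal_aux (𝓞 F) F M P (e := 2) two_ne_zero v.ne_bot hP2
  simpa using this

variable {F M} in
/-- **counting**: over a good prime there are exactly `[M : F]` primes -/
theorem m14anb_card (m : ℕ)
    (H : ∀ 𝔓 : Ideal (𝓞 M), 𝔓.IsPrime → 𝔓 ≠ ⊥ → (m : 𝓞 M) ∉ 𝔓 →
      Ideal.relNorm (𝓞 F) 𝔓 = 𝔓.under (𝓞 F))
    (v : HeightOneSpectrum (𝓞 F)) (hv : v ∉ m14anb_bad F M m) :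
    (m14anb_over_finite M v).toFinset.card = Module.finrank F M := by
  classical
  set J := v.asIdeal.map (algebraMap (𝓞 F) (𝓞 M)) with hJdef
  have hJ : J ≠ ⊥ := m14anb_map_ne_bot M v
  set S := UniqueFactorizationMonoid.normalizedFactors J with hSdef
  have hS : ∀ P ∈ S, P.IsPrime ∧ J ≤ P := fun P hP => (Ideal.mem_normalizedFactors_iff hJ).mp hP
  have hrel : ∀ P ∈ S, Ideal.relNorm (𝓞 F) P = v.asIdeal := by
    intro P hP
    obtain ⟨hPp, hle⟩ := hS P hP
    obtain ⟨h0, -, hm⟩ := m14anb_good m v hv P hle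
    rw [H P hPp h0 hm]
    exact m14anb_under_eq_of_le v P hle
  have hmap : S.map (Ideal.relNorm (𝓞 F)) = Multiset.replicate (Multiset.card S) v.asIdeal := by
    rw [Multiset.eq_replicate]
    refine ⟨by simp, ?_⟩
    intro b hb
    obtain ⟨P, hP, rfl⟩ := Multiset.mem_map.mp hb
    exact hrel P hP
  have h1 : Ideal.relNorm (𝓞 F) J = v.asIdeal ^ Multiset.card S := by
    conv_lhs => rw [← Ideal.prod_normalizedFactors_eq_self hJ]
    rw [map_multiset_prod, ← hSdef, hmap, Multiset.prod_replicate]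
  have h2 : Ideal.relNorm (𝓞 F) J = v.asIdeal ^ Module.finrank (𝓞 F) (𝓞 M) :=
    Ideal.relNorm_algebraMap (𝓞 M) v.asIdeal
  have hcard : Multiset.card S = Module.finrank F M := by
    have hinj := (Ideal.pow_right_strictAnti v.asIdeal v.ne_bot
      (Ideal.IsPrime.ne_top v.isPrime)).injective
    have := hinj (h1.symm.trans h2)
    rw [this]
    exact (IsFractionRing.finrank_eq (𝓞 F) F (𝓞 M) M).symm
  have hnodup : S.Nodup :=
    (UniqueFactorizationMonoid.squarefree_iff_nodup_normalizedFactors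
      (by rwa [Ideal.zero_eq_bot])).mp (m14anb_squarefree m v hv)
  have himage : (m14anb_over_finite M v).toFinset.image HeightOneSpectrum.asIdeal = S.toFinset := by
    ext P
    simp only [Finset.mem_image, Set.Finite.mem_toFinset, Multiset.mem_toFinset]
    constructor
    · rintro ⟨w, hw, rfl⟩
      exact (Ideal.mem_normalizedFactors_iff hJ).mpr ⟨w.isPrime, Ideal.dvd_iff_le.mp hw⟩
    · intro hP
      obtain ⟨hPp, hle⟩ := hS P hP
      obtain ⟨h0, -, -⟩ := m14anb_good m v hv P hle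
      exact ⟨⟨P, hPp, h0⟩, Ideal.dvd_iff_le.mpr hle, rfl⟩
  rw [← hcard, ← Multiset.toFinset_card_of_nodup hnodup, ← himage]
  refine (Finset.card_image_of_injective _ ?_).symm
  intro w w' h
  exact HeightOneSpectrum.ext h

variable {F M} in
/-- the primes above a good prime have the same absolute norm -/
theorem m14anb_absNorm (m : ℕ)
    (H : ∀ 𝔓 : Ideal (𝓞 M), 𝔓.IsPrime → 𝔓 ≠ ⊥ → (m : 𝓞 M) ∉ 𝔓 →
      Ideal.relNorm (𝓞 F) 𝔓 = 𝔓.under (𝓞 F))
    (v : HeightOneSpectrum (𝓞 F)) (hv : v ∉ m14anb_bad F M m)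
    (w : HeightOneSpectrum (𝓞 M)) (hw : w ∈ m14anb_over M v) :
    Ideal.absNorm w.asIdeal = Ideal.absNorm v.asIdeal := by
  have hle := Ideal.dvd_iff_le.mp hw
  haveI := w.isPrime
  obtain ⟨h0, -, hm⟩ := m14anb_good m v hv w.asIdeal hle
  rw [← Ideal.absNorm_relNorm (𝓞 F) (𝓞 M) w.asIdeal, H w.asIdeal w.isPrime h0 hm,
    m14anb_under_eq_of_le v w.asIdeal hle]

end

end Fermat.Agent.M14
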