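/-
M14 (S14 project), package (AN-B), part 2 (analysis): a nontrivial extension `M/F` of number
fields has a prime of residue degree `≠ 1` outside `m`  (`m14anb_main : m14x_ANB`).

Proof: otherwise all but finitely many primes of `F` have exactly `n = [M : F]` primes of the same
norm above them (`AnBAlg`), so by comparing Euler products `Z_F(s)^n ≤ 2^(n B) Z_M(s)` for `s > 1`,
which contradicts `Z_F(s) ≥ c/(s-1)`, `Z_M(s) ≤ C/(s-1)` when `n ≥ 2`.
-/
import Mathlib
import Fermat.Agent.M14.An5Zeta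
import Fermat.Agent.M14.AnBAlg
import Fermat.Agent.M14.CrossDefs

set_option autoImplicit false

open NumberField Ideal IsDedekindDomain Filter Topology

namespace Fermat.Agent.M14

section

variable (K : Type) [Field K] [NumberField K]

/-- the Euler factor at `v` -/
noncomputable def m14anb_g (s : ℝ) (v : HeightOneSpectrum (𝓞 K)) : ℝ :=
  (1 - m14an5z_f K s v.asIdeal)⁻¹

theorem m14anb_two_le_absNorm (v : HeightOneSpectrum (𝓞 K)) : 2 ≤ Ideal.absNorm v.asIdeal := by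
  have h0 : Ideal.absNorm v.asIdeal ≠ 0 := by
    rw [Ne, Ideal.absNorm_eq_zero_iff]
    exact v.ne_bot
  have h1 : Ideal.absNorm v.asIdeal ≠ 1 := by
    rw [Ne, Ideal.absNorm_eq_one_iff]
    exact v.isPrime.ne_top
  omega

theorem m14anb_f_le_half {s : ℝ} (hs : 1 < s) (v : HeightOneSpectrum (𝓞 K)) :
    m14an5z_f K s v.asIdeal ≤ 1 / 2 := by
  rw [m14an5z_f_of_ne K s v.ne_bot]
  have hN : (2 : ℝ) ≤ (Ideal.absNorm v.asIdeal : ℝ) := by
    exact_mod_cast m14anb_two_le_absNorm K v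
  calc ((Ideal.absNorm v.asIdeal : ℕ) : ℝ) ^ (-s) ≤ (2 : ℝ) ^ (-s) :=
        Real.rpow_le_rpow_of_nonpos (by norm_num) hN (by linarith)
    _ ≤ (2 : ℝ) ^ (-1 : ℝ) :=
        Real.rpow_le_rpow_of_exponent_le (by norm_num) (by linarith)
    _ = 1 / 2 := by rw [Real.rpow_neg_one]; norm_num

theorem m14anb_one_le_g {s : ℝ} (hs : 1 < s) (v : HeightOneSpectrum (𝓞 K)) :
    1 ≤ m14anb_g K s v := by
  have h1 := m14anb_f_le_half K hs v
  have h2 := m14an5z_f_nonneg K s v.asIdeal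
  unfold m14anb_g
  rw [one_le_inv₀ (by linarith)]
  linarith

theorem m14anb_g_le_two {s : ℝ} (hs : 1 < s) (v : HeightOneSpectrum (𝓞 K)) :
    m14anb_g K s v ≤ 2 := by
  have h1 := m14anb_f_le_half K hs v
  unfold m14anb_g
  have h3 : (1 / 2 : ℝ) ≤ 1 - m14an5z_f K s v.asIdeal := by linarith
  calc (1 - m14an5z_f K s v.asIdeal)⁻¹ ≤ (1 / 2 : ℝ)⁻¹ := inv_anti₀ (by norm_num) h3
    _ = 2 := by norm_num

theorem m14anb_summable_norm {s : ℝ} (hs : 1 < s) :
    Summable (fun I : Ideal (𝓞 K) => ‖m14an5z_f K s I‖) :=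
  (m14an5z_summable K hs).norm

/-- a partial Euler product is bounded by the full sum -/
theorem m14anb_prod_le {s : ℝ} (hs : 1 < s) (T : Finset (HeightOneSpectrum (𝓞 K))) :
    ∏ v ∈ T, m14anb_g K s v ≤ m14an5z_Z K s := by
  have h := m14an5_tsum_smooth (m14an5z_f K s) (m14anb_summable_norm K hs) T
  unfold m14anb_g
  rw [← h]
  exact tsum_comp_le_tsum_of_inj (m14an5z_summable K hs) (m14an5z_f_nonneg K s)
    Subtype.val_injective

theorem m14anb_tendsto_prod {s : ℝ} (hs : 1 < s) :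
    Tendsto (fun T : Finset (HeightOneSpectrum (𝓞 K)) => ∏ v ∈ T, m14anb_g K s v) atTop
      (𝓝 (m14an5z_Z K s)) :=
  m14an5_tendsto_prod (m14an5z_f K s) (m14anb_summable_norm K hs)

end

section

variable {F M : Type} [Field F] [NumberField F] [Field M] [NumberField M] [Algebra F M]

/-- the Euler factors above a good prime coincide with the one below -/
theorem m14anb_g_eq (m : ℕ)
    (H : ∀ 𝔓 : Ideal (𝓞 M), 𝔓.IsPrime → 𝔓 ≠ ⊥ → (m : 𝓞 M) ∉ 𝔓 →
      Ideal.relNorm (𝓞 F) 𝔓 = 𝔓.under (𝓞 F))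
    (s : ℝ) (v : HeightOneSpectrum (𝓞 F)) (hv : v ∉ m14anb_bad F M m)
    (w : HeightOneSpectrum (𝓞 M)) (hw : w ∈ m14anb_over M v) :
    m14anb_g M s w = m14anb_g F s v := by
  unfold m14anb_g
  rw [m14an5z_f_of_ne M s w.ne_bot, m14an5z_f_of_ne F s v.ne_bot, m14anb_absNorm m H v hv w hw]

/-- the key inequality for partial Euler products -/
theorem m14anb_key (m : ℕ) (hm : m ≠ 0)
    (H : ∀ 𝔓 : Ideal (𝓞 M), 𝔓.IsPrime → 𝔓 ≠ ⊥ → (m : 𝓞 M) ∉ 𝔓 →
      Ideal.relNorm (𝓞 F) 𝔓 = 𝔓.under (𝓞 F))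
    {s : ℝ} (hs : 1 < s) (T : Finset (HeightOneSpectrum (𝓞 F))) :
    (∏ v ∈ T, m14anb_g F s v) ^ Module.finrank F M ≤
      2 ^ (Module.finrank F M * (m14anb_bad_finite F M m hm).toFinset.card) *
        m14an5z_Z M s := by
  classical
  set n := Module.finrank F M with hn
  set Bd := (m14anb_bad_finite F M m hm).toFinset with hBd
  have hsplit := Finset.prod_filter_mul_prod_filter_not T (· ∈ Bd) (m14anb_g F s)
  have hg0 : ∀ v, 0 ≤ m14anb_g F s v := fun v => zero_le_one.trans (m14anb_one_le_g F hs v)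
  have hbad : ∏ v ∈ T.filter (· ∈ Bd), m14anb_g F s v ≤ 2 ^ Bd.card := by
    calc ∏ v ∈ T.filter (· ∈ Bd), m14anb_g F s v
        ≤ ∏ _v ∈ T.filter (· ∈ Bd), (2 : ℝ) :=
          Finset.prod_le_prod (fun v _ => hg0 v) (fun v _ => m14anb_g_le_two F hs v)
      _ = 2 ^ (T.filter (· ∈ Bd)).card := Finset.prod_const _
      _ ≤ 2 ^ Bd.card :=
          pow_le_pow_right₀ (by norm_num)
            (Finset.card_le_card (fun v hv => (Finset.mem_filter.mp hv).2))
  have hgood : (∏ v ∈ T.filter (fun v => ¬ v ∈ Bd), m14anb_g F s v) ^ n ≤ m14an5z_Z M s := by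
    set Tg := T.filter (fun v => ¬ v ∈ Bd) with hTg
    have hTgood : ∀ v ∈ Tg, v ∉ m14anb_bad F M m := by
      intro v hv
      have := (Finset.mem_filter.mp hv).2
      rwa [hBd, Set.Finite.mem_toFinset] at this
    have hdisj : (Tg : Set (HeightOneSpectrum (𝓞 F))).PairwiseDisjoint
        (fun v => (m14anb_over_finite M v).toFinset) := by
      intro v _ v' _ hne
      rw [Function.onFun, Finset.disjoint_left]
      intro w hw hw'
      rw [Set.Finite.mem_toFinset] at hw hw'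
      exact hne ((m14anb_under_of_mem_over v w hw).symm.trans (m14anb_under_of_mem_over v' w hw'))
    have heq : (∏ v ∈ Tg, m14anb_g F s v) ^ n =
        ∏ w ∈ Tg.biUnion (fun v => (m14anb_over_finite M v).toFinset), m14anb_g M s w := by
      rw [Finset.prod_biUnion hdisj, ← Finset.prod_pow]
      refine Finset.prod_congr rfl (fun v hv => ?_)
      have hvg := hTgood v hv
      rw [Finset.prod_congr rfl (fun w hw =>
        m14anb_g_eq m H s v hvg w ((Set.Finite.mem_toFinset _).mp hw)), Finset.prod_const,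
        m14anb_card m H v hvg]
    rw [heq]
    exact m14anb_prod_le M hs _
  calc (∏ v ∈ T, m14anb_g F s v) ^ n
      = (∏ v ∈ T.filter (· ∈ Bd), m14anb_g F s v) ^ n *
          (∏ v ∈ T.filter (fun v => ¬ v ∈ Bd), m14anb_g F s v) ^ n := by
        rw [← hsplit, mul_pow]
    _ ≤ (2 ^ Bd.card) ^ n * m14an5z_Z M s :=
        mul_le_mul (pow_le_pow_left₀ (Finset.prod_nonneg (fun v _ => hg0 v)) hbad n) hgood
          (pow_nonneg (Finset.prod_nonneg (fun v _ => hg0 v)) n) (by positivity)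
    _ = 2 ^ (n * Bd.card) * m14an5z_Z M s := by rw [← pow_mul, mul_comm n]

/-- the resulting inequality between the zeta functions -/
theorem m14anb_Z_le (m : ℕ) (hm : m ≠ 0)
    (H : ∀ 𝔓 : Ideal (𝓞 M), 𝔓.IsPrime → 𝔓 ≠ ⊥ → (m : 𝓞 M) ∉ 𝔓 →
      Ideal.relNorm (𝓞 F) 𝔓 = 𝔓.under (𝓞 F))
    {s : ℝ} (hs : 1 < s) :
    m14an5z_Z F s ^ Module.finrank F M ≤
      2 ^ (Module.finrank F M * (m14anb_bad_finite F M m hm).toFinset.card) *
        m14an5z_Z M s :=
  le_of_tendsto ((m14anb_tendsto_prod F hs).pow (Module.finrank F M))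
    (Eventually.of_forall (fun T => m14anb_key m hm H hs T))

end

/-- **(AN-B)**: a nontrivial extension of number fields has a prime of residue degree `≠ 1`
outside `m`. -/
theorem m14anb_main : m14x_ANB := by
  intro F M _ _ _ _ _ m hm hn
  by_contra hcon
  have H : ∀ 𝔓 : Ideal (𝓞 M), 𝔓.IsPrime → 𝔓 ≠ ⊥ → (m : 𝓞 M) ∉ 𝔓 →
      Ideal.relNorm (𝓞 F) 𝔓 = 𝔓.under (𝓞 F) :=
    fun 𝔓 h1 h2 h3 => by_contra (fun h4 => hcon ⟨𝔓, h1, h2, h3, h4⟩)
  obtain ⟨c, hc, hlow⟩ := m14an5z_lower' F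
  obtain ⟨C, hC, hup⟩ := m14an5z_upper M
  obtain ⟨k, hk⟩ : ∃ k, Module.finrank F M = k + 2 := Nat.exists_eq_add_of_le' hn
  set B := (m14anb_bad_finite F M m hm).toFinset.card with hB
  set n := Module.finrank F M with hndef
  set K : ℝ := 2 ^ (n * B) * C with hK
  have hKpos : 0 < K := by positivity
  have hcn : 0 < c ^ n := pow_pos hc n
  -- the parameter
  set t : ℝ := min 1 (c ^ n / (2 * K)) with ht
  have ht0 : 0 < t := lt_min one_pos (by positivity)
  have ht1 : t ≤ 1 := min_le_left _ _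
  have ht2 : t ≤ c ^ n / (2 * K) := min_le_right _ _
  have hs1 : (1 : ℝ) < 1 + t := by linarith
  have hs2 : (1 : ℝ) + t ≤ 2 := by linarith
  have h1 := hlow (1 + t) hs1
  have h2 := hup (1 + t) hs1 hs2
  have h3 := m14anb_Z_le m hm H hs1
  rw [add_sub_cancel_left] at h1 h2
  have h4 : (c / t) ^ n ≤ K / t := by
    calc (c / t) ^ n ≤ m14an5z_Z F (1 + t) ^ n :=
          pow_le_pow_left₀ (by positivity) h1 n
      _ ≤ 2 ^ (n * B) * m14an5z_Z M (1 + t) := h3
      _ ≤ 2 ^ (n * B) * (C / t) := by gcongr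
      _ = K / t := by rw [hK, mul_div_assoc]
  have h5 : c ^ n ≤ K * t := by
    have e1 : c ^ n = (c / t) ^ n * t ^ n := by
      rw [div_pow, div_mul_cancel₀ _ (pow_ne_zero n ht0.ne')]
    have e2 : K / t * t ^ n = K * t ^ (k + 1) := by
      rw [hk, pow_succ t (k + 1)]
      field_simp
    calc c ^ n = (c / t) ^ n * t ^ n := e1
      _ ≤ K / t * t ^ n := by gcongr
      _ = K * t ^ (k + 1) := e2
      _ ≤ K * t := by
          gcongr
          exact pow_le_of_le_one ht0.le ht1 (Nat.succ_ne_zero k)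
  have h6 : K * t ≤ c ^ n / 2 := by
    calc K * t ≤ K * (c ^ n / (2 * K)) := by gcongr
      _ = c ^ n / 2 := by field_simp
  linarith

end Fermat.Agent.M14
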