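import Mathlib

/-!
# M14 / AN-B leaf: finiteness of the ramified primes

For number fields `F ⊆ M`: a prime of `𝓞 M` not dividing the different has ramification index `1`
over `𝓞 F`; hence only finitely many primes of `𝓞 M` (resp. of `𝓞 F`) are ramified.
-/

set_option autoImplicit false
set_option linter.unusedSectionVars false
set_option linter.deprecated false
set_option linter.style.haveILetI false

open NumberField IsDedekindDomain

namespace Fermat.Agent.M14

variable {F M : Type} [Field F] [NumberField F] [Field M] [NumberField M] [Algebra F M]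

/-- A prime of `𝓞 M` that does not divide the different is unramified over `𝓞 F`. -/
theorem m14ram_idx_eq_one (P : Ideal (𝓞 M)) [P.IsPrime]
    (h : ¬ P ∣ differentIdeal (𝓞 F) (𝓞 M)) : P.ramificationIdx (𝓞 F) = 1 := by
  haveI : Algebra.IsUnramifiedAt (𝓞 F) P := not_dvd_differentIdeal_iff.1 h
  exact Ideal.ramificationIdx_eq_one_of_isUnramifiedAt

theorem m14ram_different_ne_bot : differentIdeal (𝓞 F) (𝓞 M) ≠ ⊥ :=
  differentIdeal_ne_bot

/-- Only finitely many primes of `𝓞 M` are ramified over `𝓞 F`. -/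
theorem m14ram_finite_top :
    {w : HeightOneSpectrum (𝓞 M) | w.asIdeal.ramificationIdx (𝓞 F) ≠ 1}.Finite := by
  have hne : differentIdeal (𝓞 F) (𝓞 M) ≠ 0 := m14ram_different_ne_bot
  refine (Ideal.finite_factors hne).subset ?_
  intro w hw
  simp only [Set.mem_setOf_eq] at hw ⊢
  by_contra hdvd
  haveI := w.isPrime
  exact hw (m14ram_idx_eq_one w.asIdeal hdvd)

/-- Only finitely many primes of `𝓞 F` are ramified in `𝓞 M`. -/
theorem m14ram_finite :
    {v : HeightOneSpectrum (𝓞 F) | ∃ w : HeightOneSpectrum (𝓞 M),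
      w.asIdeal.under (𝓞 F) = v.asIdeal ∧ w.asIdeal.ramificationIdx (𝓞 F) ≠ 1}.Finite := by
  classical
  have hfin := (m14ram_finite_top (F := F) (M := M))
  have h2 : ∀ w : HeightOneSpectrum (𝓞 M), ∃ v : HeightOneSpectrum (𝓞 F),
      w.asIdeal.under (𝓞 F) = v.asIdeal := by
    intro w
    haveI := w.isPrime
    exact ⟨⟨w.asIdeal.under (𝓞 F), inferInstance, Ideal.under_ne_bot (𝓞 F) w.ne_bot⟩, rfl⟩
  choose g hg using h2
  refine (hfin.image g).subset ?_
  rintro v ⟨w, hw, he⟩
  refine ⟨w, he, ?_⟩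
  apply HeightOneSpectrum.ext
  rw [← hg w, hw]

/-- Finset form: outside a finite set of primes of `𝓞 F`, every prime above is unramified. -/
theorem m14ram_exists_finset :
    ∃ S : Finset (HeightOneSpectrum (𝓞 F)), ∀ v : HeightOneSpectrum (𝓞 F), v ∉ S →
      ∀ P : Ideal (𝓞 M), P.IsPrime → P.under (𝓞 F) = v.asIdeal →
        P.ramificationIdx (𝓞 F) = 1 := by
  classical
  refine ⟨(m14ram_finite (F := F) (M := M)).toFinset, ?_⟩
  intro v hv P hP hPv
  by_contra hne
  apply hv
  rw [Set.Finite.mem_toFinset]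
  have hP0 : P ≠ ⊥ := by
    rintro rfl
    apply v.ne_bot
    rw [← hPv]
    exact Ideal.under_bot (𝓞 F) (𝓞 M)
  exact ⟨⟨P, hP, hP0⟩, hPv, hne⟩

end Fermat.Agent.M14

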