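/-
M14 (S14 project), package ART, the core of (ART2) (prefix `m14a2_`):
for an abelian-type situation `Ω/K` Galois, unramified (inertia form) outside `m`, a Frobenius
`σ` at a prime `𝔓` of `Ω`, and an intermediate field `E`: the residue degree of `𝔓 ∩ 𝓞 E` over `K`
is the order of `σ` modulo `Gal(Ω/E)`; hence `relNorm (𝔓 ∩ 𝓞 E) = 𝔭 ^ n`.
-/
import Mathlib

set_option autoImplicit false
set_option linter.style.haveILetI false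
set_option linter.unusedSectionVars false
set_option linter.unusedVariables false

open NumberField Ideal
open scoped Pointwise

namespace Fermat.Agent.M14

/-- iterating a Frobenius -/
theorem m14a2_frob_pow {R S G : Type*} [CommRing R] [CommRing S] [Algebra R S] [Group G]
    [MulSemiringAction G S] [SMulCommClass G R S] {σ : G} {Q : Ideal S}
    (hσ : IsArithFrobAt R σ Q) (k : ℕ) (x : S) :
    (σ ^ k) • x - x ^ (Nat.card (R ⧸ Q.under R) ^ k) ∈ Q := by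
  induction k generalizing x with
  | zero => simp
  | succ k ih =>
    have h1 : (σ ^ (k + 1)) • x - x ^ (Nat.card (R ⧸ Q.under R) ^ (k + 1)) =
        (σ • ((σ ^ k) • x) - ((σ ^ k) • x) ^ Nat.card (R ⧸ Q.under R)) +
        (((σ ^ k) • x) ^ Nat.card (R ⧸ Q.under R) -
          (x ^ (Nat.card (R ⧸ Q.under R) ^ k)) ^ Nat.card (R ⧸ Q.under R)) := by
      rw [pow_succ' σ k, mul_smul, pow_succ, pow_mul]
      ring
    rw [h1]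
    refine Q.add_mem (hσ _) ?_
    exact Q.mem_of_dvd (sub_dvd_pow_sub_pow _ _ _) (ih x)

/-- in a finite field all of whose elements satisfy `y ^ N = y` (`1 < N`), there are at most
`N` elements -/
theorem m14a2_card_le {F : Type*} [Field F] [Finite F] (N : ℕ) (hN : 1 < N)
    (h : ∀ y : F, y ^ N = y) : Nat.card F ≤ N := by
  classical
  haveI := Fintype.ofFinite F
  have hdeg := FiniteField.X_pow_card_sub_X_natDegree_eq F hN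
  have hne : (Polynomial.X ^ N - Polynomial.X : Polynomial F) ≠ 0 := by
    intro h0
    rw [h0, Polynomial.natDegree_zero] at hdeg
    omega
  have hsub : (Finset.univ : Finset F).val ⊆
      (Polynomial.X ^ N - Polynomial.X : Polynomial F).roots := by
    intro y _
    rw [Polynomial.mem_roots hne, Polynomial.IsRoot.def]
    simp [h y]
  have := Polynomial.card_le_degree_of_subset_roots hsub
  rw [hdeg, Finset.card_univ, Fintype.card_eq_nat_card] at this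
  exact this

section core

variable {K Ω : Type} [Field K] [NumberField K] [Field Ω] [NumberField Ω] [Algebra K Ω]
  [IsGalois K Ω]

/-- **(ART2), core**: the relative norm of `𝔓 ∩ 𝓞 E` is `𝔭 ^ n`, `n` the order of the Frobenius
`σ` at `𝔓` modulo `Gal(Ω/E)`. -/
theorem m14a2_core (m : ℕ)
    (hU : ∀ (𝔓 : Ideal (𝓞 Ω)), 𝔓.IsPrime → (m : 𝓞 Ω) ∉ 𝔓 → ∀ σ : Ω ≃ₐ[K] Ω,
      (∀ x : 𝓞 Ω, σ • x - x ∈ 𝔓) → σ = 1)
    (E : IntermediateField K Ω) (𝔓E : Ideal (𝓞 ↥E)) (h𝔓E : 𝔓E.IsPrime) (h0 : 𝔓E ≠ ⊥)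
    (hm : (m : 𝓞 ↥E) ∉ 𝔓E) (𝔓 : Ideal (𝓞 Ω)) (h𝔓 : 𝔓.IsPrime) (hover : 𝔓.under (𝓞 ↥E) = 𝔓E)
    (σ : Ω ≃ₐ[K] Ω) (hσ : IsArithFrobAt (𝓞 K) σ 𝔓) (n : ℕ) (hn : 0 < n)
    (hmem : σ ^ n ∈ E.fixingSubgroup)
    (hmin : ∀ k, 0 < k → k < n → σ ^ k ∉ E.fixingSubgroup) :
    Ideal.relNorm (𝓞 K) 𝔓E = (𝔓E.under (𝓞 K)) ^ n := by
  classical
  -- basic facts
  have h𝔓0 : 𝔓 ≠ ⊥ := by
    rintro rfl
    apply h0
    rw [← hover]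
    exact Ideal.under_bot (𝓞 ↥E) (𝓞 Ω)
  have h𝔭eq : 𝔓.under (𝓞 K) = 𝔓E.under (𝓞 K) := by
    rw [← hover, Ideal.under_under]
  set 𝔭 : Ideal (𝓞 K) := 𝔓E.under (𝓞 K) with h𝔭def
  have h𝔭0 : 𝔭 ≠ ⊥ := fun h => h0 (Ideal.eq_bot_of_comap_eq_bot h)
  haveI hEmax : 𝔓E.IsMaximal := Ring.DimensionLEOne.maximalOfPrime h0 h𝔓E
  haveI h𝔭prime : 𝔭.IsPrime := Ideal.IsPrime.under (𝓞 K) 𝔓E
  haveI h𝔭max : 𝔭.IsMaximal := Ring.DimensionLEOne.maximalOfPrime h𝔭0 h𝔭prime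
  haveI : 𝔓E.LiesOver 𝔭 := Ideal.over_under 𝔓E
  haveI : Finite (𝓞 ↥E ⧸ 𝔓E) := Ideal.finiteQuotientOfFreeOfNeBot 𝔓E h0
  haveI : Finite (𝓞 Ω ⧸ 𝔓) := Ideal.finiteQuotientOfFreeOfNeBot 𝔓 h𝔓0
  set f : ℕ := 𝔓E.inertiaDeg (𝓞 K) with hfdef
  have hf : 0 < f := Ideal.inertiaDeg_pos 𝔓E (𝓞 K)
  have hrel : Ideal.relNorm (𝓞 K) 𝔓E = 𝔭 ^ f := Ideal.relNorm_eq_pow_of_isMaximal 𝔓E 𝔭
  have hQ : Ideal.absNorm 𝔭 ^ f = Ideal.absNorm 𝔓E := Ideal.absNorm_pow_inertiaDeg 𝔭 𝔓E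
  -- the cardinalities
  set q : ℕ := Nat.card (𝓞 K ⧸ 𝔓.under (𝓞 K)) with hqdef
  have hq : q = Ideal.absNorm 𝔭 := by
    rw [hqdef, h𝔭eq, Ideal.absNorm_apply, Submodule.cardQuot_apply]
  have hQE : Nat.card (𝓞 ↥E ⧸ 𝔓.under (𝓞 ↥E)) = q ^ f := by
    rw [hover, hq, hQ, Ideal.absNorm_apply, Submodule.cardQuot_apply]
  have hq1 : 1 < q := by
    rw [hq]
    have h1 : Ideal.absNorm 𝔭 ≠ 0 := by
      rw [Ne, Ideal.absNorm_eq_zero_iff]; exact h𝔭0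
    have h2 : Ideal.absNorm 𝔭 ≠ 1 := by
      rw [Ne, Ideal.absNorm_eq_one_iff]; exact h𝔭prime.ne_top
    omega
  have hm𝔓 : (m : 𝓞 Ω) ∉ 𝔓 := by
    intro h
    apply hm
    rw [← hover, Ideal.under_def, Ideal.mem_comap, map_natCast]
    exact h
  suffices hfn : f = n by rw [hrel, hfn]
  apply le_antisymm
  · -- `f ≤ n`
    letI : Field (𝓞 ↥E ⧸ 𝔓E) := Ideal.Quotient.field 𝔓E
    have hcard : Nat.card (𝓞 ↥E ⧸ 𝔓E) ≤ q ^ n := by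
      apply m14a2_card_le (q ^ n) (Nat.one_lt_pow hn.ne' hq1)
      intro y
      obtain ⟨x, rfl⟩ := Ideal.Quotient.mk_surjective y
      rw [← map_pow, Ideal.Quotient.eq, ← hover, Ideal.under_def, Ideal.mem_comap, map_sub,
        map_pow]
      have h1 := m14a2_frob_pow hσ n (algebraMap (𝓞 ↥E) (𝓞 Ω) x)
      have h2 : (σ ^ n) • (algebraMap (𝓞 ↥E) (𝓞 Ω) x) = algebraMap (𝓞 ↥E) (𝓞 Ω) x := by
        apply RingOfIntegers.ext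
        exact (IntermediateField.mem_fixingSubgroup_iff E (σ ^ n)).mp hmem _ (x : ↥E).2
      rw [h2] at h1
      have h3 := 𝔓.neg_mem h1
      rwa [neg_sub] at h3
    have h4 : q ^ f ≤ q ^ n := by
      rw [← hQE, hover]
      exact hcard
    exact (Nat.pow_le_pow_iff_right hq1).mp h4
  · -- `n ≤ f`
    by_contra hlt
    push Not at hlt
    apply hmin f hf hlt
    obtain ⟨σE, hσE⟩ := IsArithFrobAt.exists_of_isInvariant (𝓞 ↥E) (Ω ≃ₐ[↥E] Ω) 𝔓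
    set σE' : Ω ≃ₐ[K] Ω := σE.restrictScalars K with hσE'
    have hact : ∀ y : 𝓞 Ω, σE' • y = σE • y := fun y => RingOfIntegers.ext rfl
    have hρ : ∀ x : 𝓞 Ω, (σE' * (σ ^ f)⁻¹) • x - x ∈ 𝔓 := by
      intro x
      set y : 𝓞 Ω := (σ ^ f)⁻¹ • x with hy
      have hx : x = (σ ^ f) • y := by rw [hy, smul_inv_smul]
      have e1 : (σE' * (σ ^ f)⁻¹) • x = σE • y := by rw [mul_smul, ← hy, hact]
      rw [e1]
      have e3 : σE • y - x = σE • y - (σ ^ f) • y := by rw [← hx]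
      rw [e3]
      have h1 : σE • y - y ^ (q ^ f) ∈ 𝔓 := by
        have := hσE y
        rw [hQE] at this
        exact this
      have h2 : (σ ^ f) • y - y ^ (q ^ f) ∈ 𝔓 := m14a2_frob_pow hσ f y
      have h3 := 𝔓.sub_mem h1 h2
      have e2 : σE • y - y ^ q ^ f - ((σ ^ f) • y - y ^ q ^ f) = σE • y - (σ ^ f) • y := by ring
      rw [e2] at h3
      exact h3
    have h5 := hU 𝔓 h𝔓 hm𝔓 _ hρ
    have h6 : σ ^ f = σE' := (mul_inv_eq_one.mp h5).symm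
    rw [h6, IntermediateField.mem_fixingSubgroup_iff]
    intro x hx
    exact σE.commutes ⟨x, hx⟩

/-- a prime of `𝓞 Ω` over a nonzero prime of `𝓞 E` -/
theorem m14a2_exists_over (E : IntermediateField K Ω) (𝔓E : Ideal (𝓞 ↥E)) (h𝔓E : 𝔓E.IsPrime)
    (h0 : 𝔓E ≠ ⊥) :
    ∃ 𝔓 : Ideal (𝓞 Ω), 𝔓.IsPrime ∧ 𝔓 ≠ ⊥ ∧ 𝔓.under (𝓞 ↥E) = 𝔓E := by
  haveI hEmax : 𝔓E.IsMaximal := Ring.DimensionLEOne.maximalOfPrime h0 h𝔓E
  obtain ⟨𝔓, h𝔓max, h𝔓over⟩ :=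
    Ideal.exists_maximal_ideal_liesOver_of_isIntegral (S := 𝓞 Ω) 𝔓E
  refine ⟨𝔓, h𝔓max.isPrime, ?_, h𝔓over.over.symm⟩
  rintro rfl
  apply h0
  rw [h𝔓over.over]
  exact Ideal.under_bot (𝓞 ↥E) (𝓞 Ω)

/-- **(ART2)** in the form of the field `art2` of `M14Art`. -/
theorem m14a2_art2 (m : ℕ)
    (hU : ∀ (𝔓 : Ideal (𝓞 Ω)), 𝔓.IsPrime → (m : 𝓞 Ω) ∉ 𝔓 → ∀ σ : Ω ≃ₐ[K] Ω,
      (∀ x : 𝓞 Ω, σ • x - x ∈ 𝔓) → σ = 1)
    (Fr : Ideal (𝓞 K) → (Ω ≃ₐ[K] Ω))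
    (hfrob : ∀ (𝔓 : Ideal (𝓞 Ω)), 𝔓.IsPrime → 𝔓 ≠ ⊥ → (m : 𝓞 Ω) ∉ 𝔓 →
      IsArithFrobAt (𝓞 K) (Fr (𝔓.under (𝓞 K))) 𝔓)
    (E : IntermediateField K Ω) (𝔓 : Ideal (𝓞 ↥E)) (h𝔓 : 𝔓.IsPrime) (h0 : 𝔓 ≠ ⊥)
    (hm : (m : 𝓞 ↥E) ∉ 𝔓) (n : ℕ) (hn : 0 < n)
    (hmem : Fr (𝔓.under (𝓞 K)) ^ n ∈ E.fixingSubgroup)
    (hmin : ∀ k, 0 < k → k < n → Fr (𝔓.under (𝓞 K)) ^ k ∉ E.fixingSubgroup) :
    Ideal.relNorm (𝓞 K) 𝔓 = (𝔓.under (𝓞 K)) ^ n := by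
  obtain ⟨𝔓Ω, h𝔓Ω, h𝔓Ω0, hover⟩ := m14a2_exists_over E 𝔓 h𝔓 h0
  have hmΩ : (m : 𝓞 Ω) ∉ 𝔓Ω := by
    intro h
    apply hm
    rw [← hover, Ideal.under_def, Ideal.mem_comap, map_natCast]
    exact h
  have heq : 𝔓Ω.under (𝓞 K) = 𝔓.under (𝓞 K) := by
    rw [← hover, Ideal.under_under]
  have hσ := hfrob 𝔓Ω h𝔓Ω h𝔓Ω0 hmΩ
  rw [heq] at hσ
  exact m14a2_core m hU E 𝔓 h𝔓 h0 hm 𝔓Ω h𝔓Ω hover _ hσ n hn hmem hmin

end core

end Fermat.Agent.M14
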