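import Mathlib
import Fermat.Agent.M14.CrossDefs

/-!
# M14 / ART: the Frobenius map of an abelian extension, and lifting of primes

`Ω/K` a Galois extension of number fields with commutative Galois group.

* `m14af5_exists_Fr` : there is a map `Fr : Ideal (𝓞 K) → Gal(Ω/K)` such that `Fr (𝔓 ∩ 𝓞 K)` is
  an arithmetic Frobenius at `𝔓` for every nonzero prime `𝔓` of `𝓞 Ω`.
* `m14af5_exists_over` : primes of an intermediate field lift to `Ω`.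
* `m14af5_art_of_core` : the constructor of `M14Art` from the residue degree formula for one
  Frobenius.
-/

set_option autoImplicit false
set_option linter.deprecated false
set_option linter.unusedSectionVars false
set_option linter.unusedVariables false
set_option linter.style.haveILetI false

namespace Fermat.Agent.M14

open NumberField Ideal
open scoped Pointwise

section

variable {K Ω : Type} [Field K] [NumberField K] [Field Ω] [NumberField Ω] [Algebra K Ω]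

/-- a prime of `Ω` above a given prime of an intermediate ring of integers -/
theorem m14af5_exists_over_aux {F M : Type} [Field F] [NumberField F] [Field M] [NumberField M]
    [Algebra F M] (𝔭 : Ideal (𝓞 F)) (h𝔭 : 𝔭.IsPrime) :
    ∃ 𝔓 : Ideal (𝓞 M), 𝔓.IsPrime ∧ 𝔓.under (𝓞 F) = 𝔭 := by
  haveI := h𝔭
  obtain ⟨Q, -, hQ, hQ'⟩ := Ideal.exists_ideal_over_prime_of_isIntegral 𝔭 (⊥ : Ideal (𝓞 M))
    (by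
      intro x hx
      rw [Ideal.mem_comap, Ideal.mem_bot] at hx
      have : x = 0 := (FaithfulSMul.algebraMap_injective (𝓞 F) (𝓞 M)) (by rw [hx, map_zero])
      rw [this]
      exact 𝔭.zero_mem)
  exact ⟨Q, hQ, hQ'⟩

theorem m14af5_ne_bot_of_under {F M : Type} [Field F] [NumberField F] [Field M] [NumberField M]
    [Algebra F M] {𝔓 : Ideal (𝓞 M)} (h : 𝔓.under (𝓞 F) ≠ ⊥) : 𝔓 ≠ ⊥ := by
  rintro rfl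
  apply h
  ext x
  rw [Ideal.under_def, Ideal.mem_comap, Ideal.mem_bot, Ideal.mem_bot]
  exact (map_eq_zero_iff _ (FaithfulSMul.algebraMap_injective (𝓞 F) (𝓞 M)))

theorem m14af5_natCast_notMem {F M : Type} [Field F] [NumberField F] [Field M] [NumberField M]
    [Algebra F M] (m : ℕ) {𝔓 : Ideal (𝓞 M)} (h : (m : 𝓞 F) ∉ 𝔓.under (𝓞 F)) :
    (m : 𝓞 M) ∉ 𝔓 := by
  intro hm
  apply h
  rw [Ideal.under_def, Ideal.mem_comap, map_natCast]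
  exact hm

theorem m14af5_natCast_notMem_under {F M : Type} [Field F] [NumberField F] [Field M]
    [NumberField M] [Algebra F M] (m : ℕ) {𝔓 : Ideal (𝓞 M)} (h : (m : 𝓞 M) ∉ 𝔓) :
    (m : 𝓞 F) ∉ 𝔓.under (𝓞 F) := by
  intro hm
  apply h
  rw [Ideal.under_def, Ideal.mem_comap, map_natCast] at hm
  exact hm

variable [IsGalois K Ω]

/-- in an abelian extension the Frobenius does not depend on the prime above -/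
theorem m14af5_frob_of_under (hab : ∀ σ τ : Ω ≃ₐ[K] Ω, σ * τ = τ * σ)
    (𝔓 𝔓' : Ideal (𝓞 Ω)) (h𝔓 : 𝔓.IsPrime) (h𝔓' : 𝔓'.IsPrime)
    (h : 𝔓.under (𝓞 K) = 𝔓'.under (𝓞 K)) {σ : Ω ≃ₐ[K] Ω}
    (hσ : IsArithFrobAt (𝓞 K) σ 𝔓) : IsArithFrobAt (𝓞 K) σ 𝔓' := by
  obtain ⟨g, rfl⟩ :=
    Algebra.IsInvariant.exists_smul_of_under_eq (𝓞 K) (𝓞 Ω) (Ω ≃ₐ[K] Ω) 𝔓 𝔓' h
  have h1 := hσ.conj g
  have h2 : g * σ * g⁻¹ = σ := by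
    rw [hab g σ, mul_assoc, mul_inv_cancel, mul_one]
  rwa [h2] at h1

/-- existence of the Frobenius at a prime of `K` -/
theorem m14af5_exists_frob (hab : ∀ σ τ : Ω ≃ₐ[K] Ω, σ * τ = τ * σ)
    (𝔭 : Ideal (𝓞 K)) (h𝔭 : 𝔭.IsPrime) (h0 : 𝔭 ≠ ⊥) :
    ∃ σ : Ω ≃ₐ[K] Ω, ∀ 𝔓 : Ideal (𝓞 Ω), 𝔓.IsPrime → 𝔓.under (𝓞 K) = 𝔭 →
      IsArithFrobAt (𝓞 K) σ 𝔓 := by
  obtain ⟨𝔓₀, h𝔓₀, hu⟩ := m14af5_exists_over_aux (M := Ω) 𝔭 h𝔭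
  have hne : 𝔓₀ ≠ ⊥ := m14af5_ne_bot_of_under (F := K) (by rw [hu]; exact h0)
  haveI := h𝔓₀
  haveI : Finite (𝓞 Ω ⧸ 𝔓₀) := Ideal.finiteQuotientOfFreeOfNeBot 𝔓₀ hne
  obtain ⟨σ, hσ⟩ := IsArithFrobAt.exists_of_isInvariant (𝓞 K) (Ω ≃ₐ[K] Ω) 𝔓₀
  exact ⟨σ, fun 𝔓 h𝔓 h => m14af5_frob_of_under hab 𝔓₀ 𝔓 h𝔓₀ h𝔓 (hu.trans h.symm) hσ⟩

open Classical in
/-- the Frobenius map of an abelian extension (junk value `1`) -/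
noncomputable def m14af5_Fr (hab : ∀ σ τ : Ω ≃ₐ[K] Ω, σ * τ = τ * σ) (𝔭 : Ideal (𝓞 K)) :
    Ω ≃ₐ[K] Ω :=
  if h : 𝔭.IsPrime ∧ 𝔭 ≠ ⊥ then (m14af5_exists_frob hab 𝔭 h.1 h.2).choose else 1

theorem m14af5_Fr_spec (hab : ∀ σ τ : Ω ≃ₐ[K] Ω, σ * τ = τ * σ) (𝔓 : Ideal (𝓞 Ω))
    (h𝔓 : 𝔓.IsPrime) (h0 : 𝔓 ≠ ⊥) :
    IsArithFrobAt (𝓞 K) (m14af5_Fr hab (𝔓.under (𝓞 K))) 𝔓 := by
  have h1 : (𝔓.under (𝓞 K)).IsPrime := Ideal.IsPrime.under _ _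
  have h2 : 𝔓.under (𝓞 K) ≠ ⊥ := Ideal.under_ne_bot (𝓞 K) h0
  unfold m14af5_Fr
  rw [dif_pos ⟨h1, h2⟩]
  exact (m14af5_exists_frob hab _ h1 h2).choose_spec 𝔓 h𝔓 rfl

/-- **(i)** the FROB field. -/
theorem m14af5_exists_Fr (hab : ∀ σ τ : Ω ≃ₐ[K] Ω, σ * τ = τ * σ) :
    ∃ Fr : Ideal (𝓞 K) → (Ω ≃ₐ[K] Ω), ∀ 𝔓 : Ideal (𝓞 Ω), 𝔓.IsPrime → 𝔓 ≠ ⊥ →
      IsArithFrobAt (𝓞 K) (Fr (𝔓.under (𝓞 K))) 𝔓 :=
  ⟨m14af5_Fr hab, fun 𝔓 h𝔓 h0 => m14af5_Fr_spec hab 𝔓 h𝔓 h0⟩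

/-- **(ii)** lifting of primes from an intermediate field. -/
theorem m14af5_exists_over (m : ℕ) (E : IntermediateField K Ω) (𝔓E : Ideal (𝓞 E))
    (h𝔓E : 𝔓E.IsPrime) (h0 : 𝔓E ≠ ⊥) (hm : (m : 𝓞 E) ∉ 𝔓E) :
    ∃ 𝔓 : Ideal (𝓞 Ω), 𝔓.IsPrime ∧ 𝔓 ≠ ⊥ ∧ (m : 𝓞 Ω) ∉ 𝔓 ∧ 𝔓.under (𝓞 E) = 𝔓E ∧
      𝔓.under (𝓞 K) = 𝔓E.under (𝓞 K) := by
  obtain ⟨𝔓, h𝔓, hu⟩ := m14af5_exists_over_aux (M := Ω) 𝔓E h𝔓E
  refine ⟨𝔓, h𝔓, m14af5_ne_bot_of_under (F := E) (by rw [hu]; exact h0),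
    m14af5_natCast_notMem (F := E) m (by rw [hu]; exact hm), hu, ?_⟩
  rw [← hu, Ideal.under_under]

/-- **(iii)** the constructor of `M14Art` from the residue-degree formula for one Frobenius. -/
theorem m14af5_art_of_core (m : ℕ) (hab : ∀ σ τ : Ω ≃ₐ[K] Ω, σ * τ = τ * σ)
    (hcore : ∀ (E : IntermediateField K Ω) (𝔓E : Ideal (𝓞 E)), 𝔓E.IsPrime → 𝔓E ≠ ⊥ →
      (m : 𝓞 E) ∉ 𝔓E → ∀ 𝔓 : Ideal (𝓞 Ω), 𝔓.IsPrime → 𝔓.under (𝓞 E) = 𝔓E →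
      ∀ σ : Ω ≃ₐ[K] Ω, IsArithFrobAt (𝓞 K) σ 𝔓 → ∀ n : ℕ, 0 < n → σ ^ n ∈ E.fixingSubgroup →
      (∀ k, 0 < k → k < n → σ ^ k ∉ E.fixingSubgroup) →
      Ideal.relNorm (𝓞 K) 𝔓E = (𝔓E.under (𝓞 K)) ^ n) :
    ∃ Fr : Ideal (𝓞 K) → (Ω ≃ₐ[K] Ω), M14Art K Ω m Fr := by
  refine ⟨m14af5_Fr hab, ⟨hab, fun 𝔓 h𝔓 h0 _ => m14af5_Fr_spec hab 𝔓 h𝔓 h0, ?_⟩⟩
  intro E 𝔓E h𝔓E h0 hm n hn hmem hmin
  obtain ⟨𝔓, h𝔓, h𝔓0, -, hu, huK⟩ := m14af5_exists_over m E 𝔓E h𝔓E h0 hm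
  have hfrob := m14af5_Fr_spec hab 𝔓 h𝔓 h𝔓0
  rw [huK] at hfrob
  exact hcore E 𝔓E h𝔓E h0 hm 𝔓 h𝔓 hu _ hfrob n hn hmem hmin

end

end Fermat.Agent.M14
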