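/-
M14 (S14 project), package CROSS, part 1: towers of fixed fields and the bridge lemma (BR-B):
weak Chebotarev from (AN-B) + (ART2).
-/
import Mathlib
import Fermat.Agent.M14.CrossDefs

set_option autoImplicit false

open NumberField Ideal
open scoped Pointwise

namespace Fermat.Agent.M14

section tower

variable {K Ω : Type} [Field K] [NumberField K] [Field Ω] [NumberField Ω] [Algebra K Ω]

/-- the algebra structure between nested intermediate fields -/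
@[reducible] def m14x_algebra {E₁ E₂ : IntermediateField K Ω} (h : E₁ ≤ E₂) : Algebra ↥E₁ ↥E₂ :=
  (IntermediateField.inclusion h).toRingHom.toAlgebra

theorem m14x_tower_bot {E₁ E₂ : IntermediateField K Ω} (h : E₁ ≤ E₂) :
    letI := m14x_algebra h
    IsScalarTower K ↥E₁ ↥E₂ := by
  letI := m14x_algebra h
  exact IsScalarTower.of_algebraMap_eq (fun x => ((IntermediateField.inclusion h).commutes x).symm)

theorem m14x_tower_top {E₁ E₂ : IntermediateField K Ω} (h : E₁ ≤ E₂) :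
    letI := m14x_algebra h
    IsScalarTower ↥E₁ ↥E₂ Ω := by
  letI := m14x_algebra h
  exact IsScalarTower.of_algebraMap_eq (fun x => rfl)

end tower

end Fermat.Agent.M14

namespace Fermat.Agent.M14

section bridge

variable {K Ω : Type} [Field K] [NumberField K] [Field Ω] [NumberField Ω] [Algebra K Ω]
  [IsGalois K Ω] {m : ℕ} {Fr : Ideal (𝓞 K) → (Ω ≃ₐ[K] Ω)}

/-- (ART2) for the fixed field of a subgroup, with the order function -/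
theorem m14x_art2_fixed (A : M14Art K Ω m Fr) (H : Subgroup (Ω ≃ₐ[K] Ω))
    (𝔓 : Ideal (𝓞 (IntermediateField.fixedField H))) (h𝔓 : 𝔓.IsPrime) (h0 : 𝔓 ≠ ⊥)
    (hm : (m : 𝓞 (IntermediateField.fixedField H)) ∉ 𝔓) :
    Ideal.relNorm (𝓞 K) 𝔓 = (𝔓.under (𝓞 K)) ^ m14x_ord H (Fr (𝔓.under (𝓞 K))) := by
  have hfix : (IntermediateField.fixedField H).fixingSubgroup = H :=
    IntermediateField.fixingSubgroup_fixedField H
  refine A.art2 _ 𝔓 h𝔓 h0 hm _ (m14x_ord_pos H _) ?_ ?_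
  · rw [hfix]; exact m14x_pow_ord_mem H _
  · intro k hk hlt
    rw [hfix]
    exact m14x_ord_min H _ k hk hlt

omit [IsGalois K Ω] [NumberField Ω] [Field Ω] [Algebra K Ω] in
theorem m14x_pow_inj (𝔭 : Ideal (𝓞 K)) (h𝔭 : 𝔭.IsPrime) (h0 : 𝔭 ≠ ⊥) {a b : ℕ}
    (h : 𝔭 ^ a = 𝔭 ^ b) : a = b := by
  have h1 : Ideal.absNorm (𝔭 ^ a) = Ideal.absNorm (𝔭 ^ b) := by rw [h]
  rw [map_pow, map_pow] at h1
  have h2 : 2 ≤ Ideal.absNorm 𝔭 := by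
    have hne0 : Ideal.absNorm 𝔭 ≠ 0 := by
      rw [Ne, Ideal.absNorm_eq_zero_iff]; exact h0
    have hne1 : Ideal.absNorm 𝔭 ≠ 1 := by
      rw [Ne, Ideal.absNorm_eq_one_iff]; exact h𝔭.ne_top
    omega
  exact Nat.pow_right_injective h2 h1


/-- **(BR-B)**: weak Chebotarev from (AN-B): if `H ≰ H'` there is a prime outside `m` with a
power of its Frobenius in `H \ H'`. -/
theorem m14x_brB (hANB : m14x_ANB) (hm : m ≠ 0) (A : M14Art K Ω m Fr)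
    (H H' : Subgroup (Ω ≃ₐ[K] Ω)) (hHH' : ¬ H ≤ H') :
    ∃ 𝔭 : Ideal (𝓞 K), 𝔭.IsPrime ∧ 𝔭 ≠ ⊥ ∧ (m : 𝓞 K) ∉ 𝔭 ∧
      ∃ n : ℕ, 0 < n ∧ Fr 𝔭 ^ n ∈ H ∧ Fr 𝔭 ^ n ∉ H' := by
  classical
  set F := IntermediateField.fixedField H with hF
  set M := IntermediateField.fixedField (H ⊓ H') with hM
  have hFM : F ≤ M := IntermediateField.fixedField_le inf_le_left
  letI : Algebra ↥F ↥M := m14x_algebra hFM
  haveI : IsScalarTower K ↥F ↥M := m14x_tower_bot hFM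
  haveI : IsScalarTower ↥F ↥M Ω := m14x_tower_top hFM
  -- degree
  have hdeg : 2 ≤ Module.finrank ↥F ↥M := by
    have h1 : Module.finrank ↥F ↥M * Module.finrank ↥M Ω = Module.finrank ↥F Ω :=
      Module.finrank_mul_finrank ↥F ↥M Ω
    rw [IntermediateField.finrank_fixedField_eq_card,
      IntermediateField.finrank_fixedField_eq_card] at h1
    have hpos : 0 < Module.finrank ↥F ↥M := Module.finrank_pos
    by_contra hlt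
    have h2 : Module.finrank ↥F ↥M = 1 := by omega
    rw [h2, one_mul] at h1
    apply hHH'
    have hle : H ⊓ H' ≤ H := inf_le_left
    have heq : H ⊓ H' = H := Subgroup.eq_of_le_of_card_ge hle (le_of_eq h1.symm)
    rw [← heq]
    exact inf_le_right
  obtain ⟨𝔓, h𝔓, h𝔓0, h𝔓m, hne⟩ := hANB ↥F ↥M m hm hdeg
  set 𝔟 : Ideal (𝓞 ↥F) := 𝔓.under (𝓞 ↥F) with h𝔟
  set 𝔭 : Ideal (𝓞 K) := 𝔓.under (𝓞 K) with h𝔭
  have h𝔟p : 𝔟.IsPrime := Ideal.IsPrime.under (𝓞 ↥F) 𝔓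
  have h𝔭p : 𝔭.IsPrime := Ideal.IsPrime.under (𝓞 K) 𝔓
  have h𝔟0 : 𝔟 ≠ ⊥ := fun h => h𝔓0 (Ideal.eq_bot_of_comap_eq_bot h)
  have h𝔭0 : 𝔭 ≠ ⊥ := fun h => h𝔓0 (Ideal.eq_bot_of_comap_eq_bot h)
  have h𝔟𝔭 : 𝔟.under (𝓞 K) = 𝔭 := Ideal.under_under 𝔓
  have h𝔟m : (m : 𝓞 ↥F) ∉ 𝔟 := by
    intro h
    apply h𝔓m
    have := Ideal.mem_comap.mp h
    simpa using this
  have h𝔭m : (m : 𝓞 K) ∉ 𝔭 := by
    intro h
    apply h𝔓m
    have := Ideal.mem_comap.mp h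
    simpa using this
  have hN𝔟 := m14x_art2_fixed A H 𝔟 h𝔟p h𝔟0 h𝔟m
  have hN𝔓 := m14x_art2_fixed A (H ⊓ H') 𝔓 h𝔓 h𝔓0 h𝔓m
  rw [h𝔟𝔭] at hN𝔟
  rw [← h𝔭] at hN𝔓
  haveI : 𝔓.IsMaximal := Ring.DimensionLEOne.maximalOfPrime h𝔓0 h𝔓
  haveI : 𝔟.IsMaximal := Ring.DimensionLEOne.maximalOfPrime h𝔟0 h𝔟p
  have hrel : Ideal.relNorm (𝓞 ↥F) 𝔓 = 𝔟 ^ 𝔓.inertiaDeg (𝓞 ↥F) :=
    Ideal.relNorm_eq_pow_of_isMaximal 𝔓 𝔟
  have htrans : Ideal.relNorm (𝓞 K) (Ideal.relNorm (𝓞 ↥F) 𝔓) = Ideal.relNorm (𝓞 K) 𝔓 :=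
    Ideal.relNorm_relNorm (𝓞 K) (𝓞 ↥F) 𝔓
  rw [hrel, map_pow, hN𝔟, hN𝔓, ← pow_mul] at htrans
  have hmul := m14x_pow_inj 𝔭 h𝔭p h𝔭0 htrans
  refine ⟨𝔭, h𝔭p, h𝔭0, h𝔭m, m14x_ord H (Fr 𝔭), m14x_ord_pos H _, m14x_pow_ord_mem H _, ?_⟩
  intro hmem
  have hle : m14x_ord (H ⊓ H') (Fr 𝔭) ≤ m14x_ord H (Fr 𝔭) :=
    m14x_ord_le _ _ _ (m14x_ord_pos H _) ⟨m14x_pow_ord_mem H _, hmem⟩
  have hpos := m14x_ord_pos H (Fr 𝔭)
  have hf1 : 𝔓.inertiaDeg (𝓞 ↥F) = 1 := by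
    have hfpos : 0 < 𝔓.inertiaDeg (𝓞 ↥F) := Ideal.inertiaDeg_pos 𝔓 (𝓞 ↥F)
    rw [← hmul] at hle
    nlinarith
  apply hne
  rw [hrel, hf1, pow_one]

end bridge

end Fermat.Agent.M14
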