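import Mathlib

/-!
# S14 / CROSS leaf [CYC]: norms of elements `≡ 1 mod m` in totally complex fields
(prefix `m14cyc_`)

* `m14cyc_norm_int_cast`: `γ ≡ 1 mod m` in `𝓞 F` implies `N_{F/ℚ}(γ) ≡ 1 mod m`.
* `m14cyc_norm_pos`: in a totally complex number field norms of nonzero elements are positive.
* `m14cyc_absNorm_eq_one` (and the variant `m14cyc_absNorm_eq_one'` with the hypothesis
  "no real place"): `(absNorm (γ) : ZMod m) = 1`.
-/

set_option autoImplicit false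
set_option linter.style.haveILetI false

namespace Fermat.Agent.M14

open NumberField

/-- the norm of `γ ≡ 1 mod m` is `≡ 1 mod m`. -/
theorem m14cyc_norm_int_cast {F : Type} [Field F] [NumberField F] (m : ℕ) (γ : 𝓞 F)
    (h : γ - 1 ∈ Ideal.span {(m : 𝓞 F)}) : ((Algebra.norm ℤ γ : ℤ) : ZMod m) = 1 := by
  classical
  obtain ⟨δ, hδ⟩ := Ideal.mem_span_singleton'.mp h
  have hγ : γ = 1 + (m : 𝓞 F) * δ := by
    rw [mul_comm, hδ]; ring
  set b := RingOfIntegers.basis F with hb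
  rw [Algebra.norm_eq_matrix_det b γ]
  change (Int.castRingHom (ZMod m)) ((Algebra.leftMulMatrix b γ).det) = 1
  rw [RingHom.map_det, hγ, map_add,
    map_one, map_mul, map_natCast, map_add, map_one, map_mul, map_natCast]
  have h0 : ((m : ℕ) : Matrix (Module.Free.ChooseBasisIndex ℤ (𝓞 F))
      (Module.Free.ChooseBasisIndex ℤ (𝓞 F)) (ZMod m)) = 0 := by
    have := map_natCast (algebraMap (ZMod m) (Matrix (Module.Free.ChooseBasisIndex ℤ (𝓞 F))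
      (Module.Free.ChooseBasisIndex ℤ (𝓞 F)) (ZMod m))) m
    rw [← this, ZMod.natCast_self, map_zero]
  rw [h0, zero_mul, add_zero, Matrix.det_one]

/-- in a totally complex number field the norm of a nonzero element is positive. -/
theorem m14cyc_norm_pos {F : Type} [Field F] [NumberField F] [IsTotallyComplex F] (x : F)
    (hx : x ≠ 0) : 0 < Algebra.norm ℚ x := by
  classical
  have h1 := Algebra.norm_eq_prod_embeddings ℚ ℂ x
  have hne : ∀ σ : F →ₐ[ℚ] ℂ, σ x ≠ 0 := fun σ => by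
    rw [Ne, map_eq_zero]; exact hx
  have hne' : ∀ σ : F →ₐ[ℚ] ℂ, ((‖σ x‖ : ℝ) : ℂ) ≠ 0 := fun σ => by
    rw [Ne, Complex.ofReal_eq_zero, norm_eq_zero]; exact hne σ
  let c : ℂ →ₐ[ℚ] ℂ := (Complex.conjAe.restrictScalars ℚ : ℂ ≃ₐ[ℚ] ℂ)
  have hc : ∀ z : ℂ, c z = (starRingEnd ℂ) z := fun z => rfl
  have h2 : ∏ σ : F →ₐ[ℚ] ℂ, (σ x / ((‖σ x‖ : ℝ) : ℂ)) = 1 := by
    refine Finset.prod_involution (fun σ _ => c.comp σ) ?_ ?_ ?_ ?_
    · intro σ _
      have e1 : (c.comp σ) x = (starRingEnd ℂ) (σ x) := rfl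
      rw [e1, Complex.norm_conj, div_mul_div_comm, Complex.mul_conj, Complex.normSq_eq_norm_sq]
      push_cast
      rw [← sq]
      exact div_self (pow_ne_zero 2 (hne' σ))
    · intro σ _ _ hfix
      apply IsTotallyComplex.complexEmbedding_not_isReal (σ : F →+* ℂ)
      rw [ComplexEmbedding.isReal_iff]
      ext y
      have := congrArg (fun τ : F →ₐ[ℚ] ℂ => τ y) hfix
      exact this
    · intro σ _
      exact Finset.mem_univ _
    · intro σ _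
      ext y
      show (starRingEnd ℂ) ((starRingEnd ℂ) (σ y)) = σ y
      exact Complex.conj_conj _
  have h3 : ∏ σ : F →ₐ[ℚ] ℂ, σ x = ((∏ σ : F →ₐ[ℚ] ℂ, ‖σ x‖ : ℝ) : ℂ) := by
    have e : ∀ σ : F →ₐ[ℚ] ℂ, σ x = ((‖σ x‖ : ℝ) : ℂ) * (σ x / ((‖σ x‖ : ℝ) : ℂ)) := fun σ => by
      rw [mul_div_cancel₀ _ (hne' σ)]
    calc ∏ σ : F →ₐ[ℚ] ℂ, σ x
        = ∏ σ : F →ₐ[ℚ] ℂ, (((‖σ x‖ : ℝ) : ℂ) * (σ x / ((‖σ x‖ : ℝ) : ℂ))) :=
          Finset.prod_congr rfl (fun σ _ => e σ)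
      _ = (∏ σ : F →ₐ[ℚ] ℂ, ((‖σ x‖ : ℝ) : ℂ)) * ∏ σ : F →ₐ[ℚ] ℂ, (σ x / ((‖σ x‖ : ℝ) : ℂ)) :=
          Finset.prod_mul_distrib
      _ = _ := by rw [h2, mul_one]; push_cast; rfl
  rw [h3] at h1
  have h4 : ((Algebra.norm ℚ x : ℚ) : ℝ) = ∏ σ : F →ₐ[ℚ] ℂ, ‖σ x‖ := by
    have : ((((Algebra.norm ℚ x : ℚ) : ℝ) : ℂ)) = ((∏ σ : F →ₐ[ℚ] ℂ, ‖σ x‖ : ℝ) : ℂ) := by
      rw [← h1]; simp
    exact_mod_cast this
  have h5 : (0 : ℝ) < ∏ σ : F →ₐ[ℚ] ℂ, ‖σ x‖ :=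
    Finset.prod_pos (fun σ _ => norm_pos_iff.mpr (hne σ))
  rw [← h4] at h5
  exact_mod_cast h5

/-- **[CYC]**: in a totally complex number field, `γ ≡ 1 mod m` implies
`N(γ) ≡ 1 mod m` for the absolute norm of the principal ideal `(γ)`. -/
theorem m14cyc_absNorm_eq_one {F : Type} [Field F] [NumberField F] [IsTotallyComplex F]
    (m : ℕ) (γ : 𝓞 F) (hγ : γ ≠ 0) (h : γ - 1 ∈ Ideal.span {(m : 𝓞 F)}) :
    ((Ideal.absNorm (Ideal.span {γ}) : ℕ) : ZMod m) = 1 := by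
  rw [Ideal.absNorm_span_singleton]
  have hpos : 0 < Algebra.norm ℤ γ := by
    have h1 := m14cyc_norm_pos (γ : F) (by
      rw [Ne, RingOfIntegers.coe_eq_zero_iff]; exact hγ)
    rw [← Algebra.coe_norm_int] at h1
    exact_mod_cast h1
  have h2 : (((Algebra.norm ℤ γ).natAbs : ℕ) : ℤ) = Algebra.norm ℤ γ :=
    Int.natAbs_of_nonneg hpos.le
  have h3 : ((((Algebra.norm ℤ γ).natAbs : ℕ) : ℤ) : ZMod m) = 1 := by
    rw [h2]; exact m14cyc_norm_int_cast m γ h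
  rw [Int.cast_natCast] at h3
  exact h3

/-- variant of **[CYC]** with the hypothesis "no real place". -/
theorem m14cyc_absNorm_eq_one' {F : Type} [Field F] [NumberField F]
    (hF : IsEmpty {w : InfinitePlace F // w.IsReal})
    (m : ℕ) (γ : 𝓞 F) (hγ : γ ≠ 0) (h : γ - 1 ∈ Ideal.span {(m : 𝓞 F)}) :
    ((Ideal.absNorm (Ideal.span {γ}) : ℕ) : ZMod m) = 1 := by
  haveI : IsTotallyComplex F := ⟨fun v => by
    rw [← InfinitePlace.not_isReal_iff_isComplex]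
    intro hv
    exact hF.false ⟨v, hv⟩⟩
  exact m14cyc_absNorm_eq_one m γ hγ h

end Fermat.Agent.M14
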