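import Mathlib
import Fermat.Agent.M14.Cyc

/-!
# S14 / CROSS leaf [CYC], corollary for fields containing roots of unity (prefix `m14cyc_`)
-/

set_option autoImplicit false
set_option linter.style.haveILetI false

namespace Fermat.Agent.M14

open NumberField

/-- a number field containing a primitive `n`-th root of unity, `n ≥ 3`, is totally complex. -/
theorem m14cyc_isTotallyComplex_of_root {F : Type} [Field F] [NumberField F] (n : ℕ) (hn : 3 ≤ n)
    (ζ : F) (hζ : IsPrimitiveRoot ζ n) : IsTotallyComplex F := by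
  rw [← nrRealPlaces_eq_zero_iff]
  exact NumberField.InfinitePlace.IsPrimitiveRoot.nrRealPlaces_eq_zero_of_two_lt (by omega) hζ

/-- **[CYC]**, in the form used by CROSS. -/
theorem m14cyc_absNorm_eq_one_of_root {F : Type} [Field F] [NumberField F] (n : ℕ) (hn : 3 ≤ n)
    (ζ : F) (hζ : IsPrimitiveRoot ζ n) (m : ℕ) (γ : 𝓞 F) (hγ : γ ≠ 0)
    (h : γ - 1 ∈ Ideal.span {(m : 𝓞 F)}) :
    ((Ideal.absNorm (Ideal.span {γ}) : ℕ) : ZMod m) = 1 := by
  haveI := m14cyc_isTotallyComplex_of_root n hn ζ hζ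
  exact m14cyc_absNorm_eq_one m γ hγ h

end Fermat.Agent.M14
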