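/-
M14 (S14 project), package CROSS, part 2: the bridge lemma (BR-A): norm relations in `K`
from (AN-A) applied to fixed fields of subgroups of `Gal(Ω/K)`.
-/
import Mathlib
import Fermat.Agent.M14.CrossB
import Fermat.Agent.M14.CycRoot

set_option autoImplicit false
set_option linter.style.haveILetI false
set_option linter.unusedSectionVars false

open NumberField Ideal
open scoped Pointwise

namespace Fermat.Agent.M14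

section coprime

variable {R : Type*} [CommRing R]

theorem m14x_not_mem_of_isCoprime {I : Ideal R} {x : R} (h : IsCoprime I (span {x}))
    (P : Ideal R) (hP : P.IsPrime) (hIP : I ≤ P) : x ∉ P := by
  intro hx
  rw [Ideal.isCoprime_iff_sup_eq] at h
  apply hP.ne_top
  rw [eq_top_iff, ← h]
  exact sup_le hIP ((Ideal.span_singleton_le_iff_mem _).mpr hx)

theorem m14x_isCoprime_of_not_mem {P : Ideal R} (hP : P.IsMaximal) {x : R} (hx : x ∉ P) :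
    IsCoprime P (span {x}) := by
  rw [Ideal.isCoprime_iff_sup_eq]
  by_contra hne
  have h1 : P = P ⊔ span {x} := hP.eq_of_le hne le_sup_left
  apply hx
  rw [h1]
  exact Ideal.mem_sup_right (Ideal.mem_span_singleton_self x)

end coprime

section primesover

variable {K Ω : Type} [Field K] [NumberField K] [Field Ω] [NumberField Ω] [Algebra K Ω]

/-- a prime of an intermediate field over a given prime of `K` outside `m` -/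
theorem m14x_exists_over (E : IntermediateField K Ω) (m : ℕ) (𝔭 : Ideal (𝓞 K)) (h𝔭 : 𝔭.IsPrime)
    (h0 : 𝔭 ≠ ⊥) (hm : (m : 𝓞 K) ∉ 𝔭) :
    ∃ 𝔓 : Ideal (𝓞 E), 𝔓.IsPrime ∧ 𝔓 ≠ ⊥ ∧ (m : 𝓞 E) ∉ 𝔓 ∧ 𝔓.under (𝓞 K) = 𝔭 := by
  obtain ⟨𝔓, -, h𝔓, hover⟩ := Ideal.exists_ideal_over_prime_of_isIntegral 𝔭 (⊥ : Ideal (𝓞 E))
    (by simp [← RingHom.ker_eq_comap_bot,
      (RingHom.injective_iff_ker_eq_bot _).mp (FaithfulSMul.algebraMap_injective (𝓞 K) (𝓞 E))])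
  refine ⟨𝔓, h𝔓, ?_, ?_, hover⟩
  · rintro rfl
    apply h0
    rw [← hover]
    simp [← RingHom.ker_eq_comap_bot,
      (RingHom.injective_iff_ker_eq_bot _).mp (FaithfulSMul.algebraMap_injective (𝓞 K) (𝓞 E))]
  · intro h
    apply hm
    rw [← hover, Ideal.mem_comap]
    simpa using h

end primesover

section bridgeA

variable {K Ω : Type} [Field K] [NumberField K] [Field Ω] [NumberField Ω] [Algebra K Ω]
  [IsGalois K Ω] {m : ℕ} {Fr : Ideal (𝓞 K) → (Ω ≃ₐ[K] Ω)}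

/-- the prime of `K` below a prime of an intermediate field outside `m` -/
theorem m14x_under_props (E : IntermediateField K Ω) (𝔓 : Ideal (𝓞 E)) (h𝔓 : 𝔓.IsPrime)
    (h0 : 𝔓 ≠ ⊥) (hm : (m : 𝓞 E) ∉ 𝔓) :
    (𝔓.under (𝓞 K)).IsPrime ∧ 𝔓.under (𝓞 K) ≠ ⊥ ∧ (m : 𝓞 K) ∉ 𝔓.under (𝓞 K) := by
  refine ⟨Ideal.IsPrime.under (𝓞 K) 𝔓, fun h => h0 (Ideal.eq_bot_of_comap_eq_bot h), ?_⟩
  intro h
  apply hm
  have := Ideal.mem_comap.mp h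
  simpa using this

/-- induction principle: the relative norm to `K` of an ideal prime to `m` of the fixed field of
`H₀` is a product of prime powers `𝔭 ^ n` with `Fr 𝔭 ^ n ∈ H₀`. -/
theorem m14x_relNorm_ind (A : M14Art K Ω m Fr) (H₀ : Subgroup (Ω ≃ₐ[K] Ω))
    (Q : Ideal (𝓞 K) → Prop) (hQ1 : Q ⊤) (hQmul : ∀ I J, Q I → Q J → Q (I * J))
    (hQ : ∀ 𝔭 : Ideal (𝓞 K), 𝔭.IsPrime → 𝔭 ≠ ⊥ → (m : 𝓞 K) ∉ 𝔭 → ∀ n : ℕ,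
      Fr 𝔭 ^ n ∈ H₀ → Q (𝔭 ^ n))
    (I : Ideal (𝓞 (IntermediateField.fixedField H₀))) (hI : I ≠ ⊥)
    (hIm : IsCoprime I (span {(m : 𝓞 (IntermediateField.fixedField H₀))})) :
    Q (Ideal.relNorm (𝓞 K) I) := by
  revert hI hIm
  induction I using UniqueFactorizationMonoid.induction_on_prime with
  | h₁ => intro h; exact absurd rfl h
  | h₂ x hx =>
    intro _ _
    rw [Ideal.isUnit_iff.mp hx, Ideal.relNorm_top]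
    exact hQ1
  | h₃ a q ha hq ih =>
    intro _ hco
    have hqco : IsCoprime q (span {(m : 𝓞 (IntermediateField.fixedField H₀))}) :=
      IsCoprime.of_mul_left_left hco
    have haco : IsCoprime a (span {(m : 𝓞 (IntermediateField.fixedField H₀))}) :=
      IsCoprime.of_mul_left_right hco
    rw [map_mul]
    refine hQmul _ _ ?_ (ih ha haco)
    have hqp : q.IsPrime := Ideal.isPrime_of_prime hq
    have hq0 : q ≠ ⊥ := hq.ne_zero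
    have hqm : (m : 𝓞 (IntermediateField.fixedField H₀)) ∉ q :=
      m14x_not_mem_of_isCoprime hqco q hqp le_rfl
    obtain ⟨h1, h2, h3⟩ := m14x_under_props _ q hqp hq0 hqm
    rw [m14x_art2_fixed A H₀ q hqp hq0 hqm]
    exact hQ _ h1 h2 h3 _ (m14x_pow_ord_mem H₀ _)

/-- the absolute norm of an ideal prime to `m` of the fixed field of `H₀` is, modulo `r`, in
`e(H₀)`. -/
theorem m14x_absNorm_mem (A : M14Art K Ω m Fr) (r : ℕ) (e : (Ω ≃ₐ[K] Ω) →* (ZMod r)ˣ)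
    (he : ∀ 𝔭 : Ideal (𝓞 K), 𝔭.IsPrime → 𝔭 ≠ ⊥ → (m : 𝓞 K) ∉ 𝔭 →
      ((e (Fr 𝔭) : (ZMod r)ˣ) : ZMod r) = (Ideal.absNorm 𝔭 : ZMod r))
    (H₀ : Subgroup (Ω ≃ₐ[K] Ω)) (I : Ideal (𝓞 (IntermediateField.fixedField H₀))) (hI : I ≠ ⊥)
    (hIm : IsCoprime I (span {(m : 𝓞 (IntermediateField.fixedField H₀))})) :
    ∃ σ ∈ H₀, ((e σ : (ZMod r)ˣ) : ZMod r) = (Ideal.absNorm I : ZMod r) := by
  have key := m14x_relNorm_ind A H₀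
    (fun 𝔑 => ∃ σ ∈ H₀, ((e σ : (ZMod r)ˣ) : ZMod r) = (Ideal.absNorm 𝔑 : ZMod r))
    ?_ ?_ ?_ I hI hIm
  · obtain ⟨σ, hσ, h⟩ := key
    refine ⟨σ, hσ, ?_⟩
    rw [h, Ideal.absNorm_relNorm]
  · exact ⟨1, H₀.one_mem, by simp⟩
  · rintro I J ⟨σ, hσ, h1⟩ ⟨τ, hτ, h2⟩
    refine ⟨σ * τ, H₀.mul_mem hσ hτ, ?_⟩
    rw [map_mul, Units.val_mul, h1, h2, map_mul, Nat.cast_mul]
  · intro 𝔭 h𝔭 h0 hm n hn
    refine ⟨Fr 𝔭 ^ n, hn, ?_⟩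
    rw [map_pow, Units.val_pow_eq_pow_val, he 𝔭 h𝔭 h0 hm, map_pow, Nat.cast_pow]

end bridgeA

section chi

variable {E : Type} [Field E] [NumberField E] {r : ℕ}

open Classical in
/-- the character `absNorm mod r` with values in a subgroup `U` of `(ZMod r)ˣ` (junk `0`) -/
noncomputable def m14x_chi (U : Subgroup (ZMod r)ˣ) (I : Ideal (𝓞 E)) : Additive ↥U :=
  if h : ∃ g : ↥U, ((g : (ZMod r)ˣ) : ZMod r) = (Ideal.absNorm I : ZMod r) then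
    Additive.ofMul (Classical.choose h) else 0

theorem m14x_chi_eq (U : Subgroup (ZMod r)ˣ) (I : Ideal (𝓞 E)) (g : ↥U)
    (hg : ((g : (ZMod r)ˣ) : ZMod r) = (Ideal.absNorm I : ZMod r)) :
    m14x_chi U I = Additive.ofMul g := by
  have h : ∃ g : ↥U, ((g : (ZMod r)ˣ) : ZMod r) = (Ideal.absNorm I : ZMod r) := ⟨g, hg⟩
  unfold m14x_chi
  rw [dif_pos h]
  congr 1
  apply Subtype.ext
  apply Units.ext
  rw [Classical.choose_spec h, hg]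

theorem m14x_chi_eq_zero (U : Subgroup (ZMod r)ˣ) (I : Ideal (𝓞 E))
    (h : (Ideal.absNorm I : ZMod r) = 1) : m14x_chi U I = 0 := by
  rw [m14x_chi_eq U I 1 (by rw [h]; rfl)]
  rfl

theorem m14x_chi_mul (U : Subgroup (ZMod r)ˣ) (I J : Ideal (𝓞 E))
    (hI : ∃ g : ↥U, ((g : (ZMod r)ˣ) : ZMod r) = (Ideal.absNorm I : ZMod r))
    (hJ : ∃ g : ↥U, ((g : (ZMod r)ˣ) : ZMod r) = (Ideal.absNorm J : ZMod r)) :
    m14x_chi U (I * J) = m14x_chi U I + m14x_chi U J := by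
  obtain ⟨g, hg⟩ := hI
  obtain ⟨g', hg'⟩ := hJ
  rw [m14x_chi_eq U I g hg, m14x_chi_eq U J g' hg', m14x_chi_eq U (I * J) (g * g')]
  · rfl
  · rw [map_mul, Nat.cast_mul, ← hg, ← hg']
    rfl

end chi

section main

variable {K Ω : Type} [Field K] [NumberField K] [Field Ω] [NumberField Ω] [Algebra K Ω]
  [IsGalois K Ω] {m : ℕ} {Fr : Ideal (𝓞 K) → (Ω ≃ₐ[K] Ω)}

theorem m14x_natCast_eq_one_of_dvd {r m a : ℕ} (hrm : r ∣ m) (h : ((a : ℕ) : ZMod m) = 1) :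
    ((a : ℕ) : ZMod r) = 1 := by
  have h1 : ((a : ℕ) : ZMod m) = ((1 : ℕ) : ZMod m) := by rw [h, Nat.cast_one]
  rw [ZMod.natCast_eq_natCast_iff] at h1
  have h2 : a ≡ 1 [MOD r] := h1.of_dvd hrm
  have h3 := (ZMod.natCast_eq_natCast_iff a 1 r).mpr h2
  rw [h3, Nat.cast_one]

/-- **(BR-A)**: norm relations in `K` from (AN-A) applied to `fixedField H ⊆ fixedField (H ⊓ ker e)`. -/
theorem m14x_brA (hANA : m14x_ANA) (hm : m ≠ 0) (A : M14Art K Ω m Fr)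
    (hcplx : ∃ n : ℕ, 3 ≤ n ∧ ∃ ζ : K, IsPrimitiveRoot ζ n)
    (r : ℕ) (hrm : r ∣ m) (e : (Ω ≃ₐ[K] Ω) →* (ZMod r)ˣ)
    (he : ∀ 𝔭 : Ideal (𝓞 K), 𝔭.IsPrime → 𝔭 ≠ ⊥ → (m : 𝓞 K) ∉ 𝔭 →
      ((e (Fr 𝔭) : (ZMod r)ˣ) : ZMod r) = (Ideal.absNorm 𝔭 : ZMod r))
    (H : Subgroup (Ω ≃ₐ[K] Ω))
    (𝔮 : Ideal (𝓞 K)) (h𝔮 : 𝔮.IsPrime) (h𝔮0 : 𝔮 ≠ ⊥) (h𝔮m : (m : 𝓞 K) ∉ 𝔮) (h𝔮H : Fr 𝔮 ∈ H)
    (hgen : ∀ h ∈ H, e h ∈ Subgroup.zpowers (e (Fr 𝔮)))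
    (Q : Ideal (𝓞 K) → Prop) (hQ1 : Q ⊤) (hQmul : ∀ I J, Q I → Q J → Q (I * J))
    (hQ : ∀ 𝔭 : Ideal (𝓞 K), 𝔭.IsPrime → 𝔭 ≠ ⊥ → (m : 𝓞 K) ∉ 𝔭 → ∀ n : ℕ,
      Fr 𝔭 ^ n ∈ H → e (Fr 𝔭 ^ n) = 1 → Q (𝔭 ^ n))
    (𝔭 : Ideal (𝓞 K)) (h𝔭 : 𝔭.IsPrime) (h𝔭0 : 𝔭 ≠ ⊥) (h𝔭m : (m : 𝓞 K) ∉ 𝔭) (n j : ℕ)
    (hn : Fr 𝔭 ^ n ∈ H) (hj : e (Fr 𝔭 ^ n) * e (Fr 𝔮) ^ j = 1) :
    ∃ (α β : 𝓞 K) (𝔑 : Ideal (𝓞 K)), α ≠ 0 ∧ β ≠ 0 ∧ Q 𝔑 ∧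
      span {α} * (𝔭 ^ n * 𝔮 ^ j) = span {β} * 𝔑 := by
  classical
  set F := IntermediateField.fixedField H with hF
  set M := IntermediateField.fixedField (H ⊓ e.ker) with hM
  have hFM : F ≤ M := IntermediateField.fixedField_le inf_le_left
  letI : Algebra ↥F ↥M := m14x_algebra hFM
  haveI : IsScalarTower K ↥F ↥M := m14x_tower_bot hFM
  haveI : IsScalarTower ↥F ↥M Ω := m14x_tower_top hFM
  set U : Subgroup (ZMod r)ˣ := H.map e with hU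
  -- degree
  have hG : Nat.card (Additive ↥U) = Module.finrank ↥F ↥M := by
    have h1 : Module.finrank ↥F ↥M * Module.finrank ↥M Ω = Module.finrank ↥F Ω :=
      Module.finrank_mul_finrank ↥F ↥M Ω
    rw [IntermediateField.finrank_fixedField_eq_card,
      IntermediateField.finrank_fixedField_eq_card] at h1
    have h2 : (⊥ : Subgroup (Ω ≃ₐ[K] Ω)).relIndex (H ⊓ e.ker) * (H ⊓ e.ker).relIndex H
        = (⊥ : Subgroup (Ω ≃ₐ[K] Ω)).relIndex H :=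
      Subgroup.relIndex_mul_relIndex _ _ _ bot_le inf_le_left
    rw [Subgroup.relIndex_bot_left, Subgroup.relIndex_bot_left, Subgroup.inf_relIndex_left,
      Subgroup.relIndex_ker] at h2
    have hpos : 0 < Nat.card ↥(H ⊓ e.ker) := Nat.card_pos
    have h3 : Nat.card (Additive ↥U) = Nat.card ↥U := Nat.card_congr Additive.toMul
    rw [h3]
    have h4 : Nat.card ↥U * Nat.card ↥(H ⊓ e.ker) = Module.finrank ↥F ↥M * Nat.card ↥(H ⊓ e.ker) := by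
      rw [h1, mul_comm, h2]
    exact Nat.eq_of_mul_eq_mul_right hpos h4
  -- primes over `𝔭` and `𝔮`
  obtain ⟨𝔓, h𝔓p, h𝔓0, h𝔓m, h𝔓u⟩ := m14x_exists_over F m 𝔭 h𝔭 h𝔭0 h𝔭m
  obtain ⟨𝔔, h𝔔p, h𝔔0, h𝔔m, h𝔔u⟩ := m14x_exists_over F m 𝔮 h𝔮 h𝔮0 h𝔮m
  have hN𝔓 := m14x_art2_fixed A H 𝔓 h𝔓p h𝔓0 h𝔓m
  rw [h𝔓u] at hN𝔓
  have hN𝔔 := m14x_art2_fixed A H 𝔔 h𝔔p h𝔔0 h𝔔m
  rw [h𝔔u] at hN𝔔
  have hord𝔮 : m14x_ord H (Fr 𝔮) = 1 := by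
    have h1 := m14x_ord_le H (Fr 𝔮) 1 one_pos (by rwa [pow_one])
    have h2 := m14x_ord_pos H (Fr 𝔮)
    omega
  rw [hord𝔮, pow_one] at hN𝔔
  obtain ⟨c, hc⟩ := m14x_ord_dvd H (Fr 𝔭) n hn
  set 𝔠 : Ideal (𝓞 ↥F) := 𝔓 ^ c * 𝔔 ^ j with h𝔠
  have hN𝔠 : Ideal.relNorm (𝓞 K) 𝔠 = 𝔭 ^ n * 𝔮 ^ j := by
    rw [h𝔠, map_mul, map_pow, map_pow, hN𝔓, hN𝔔, ← pow_mul, ← hc]
  have h𝔠0 : 𝔠 ≠ ⊥ := mul_ne_zero (pow_ne_zero _ h𝔓0) (pow_ne_zero _ h𝔔0)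
  have h𝔓max : 𝔓.IsMaximal := Ring.DimensionLEOne.maximalOfPrime h𝔓0 h𝔓p
  have h𝔔max : 𝔔.IsMaximal := Ring.DimensionLEOne.maximalOfPrime h𝔔0 h𝔔p
  have h𝔓co : IsCoprime 𝔓 (span {(m : 𝓞 ↥F)}) := m14x_isCoprime_of_not_mem h𝔓max h𝔓m
  have h𝔔co : IsCoprime 𝔔 (span {(m : 𝓞 ↥F)}) := m14x_isCoprime_of_not_mem h𝔔max h𝔔m
  have h𝔠co : IsCoprime 𝔠 (span {(m : 𝓞 ↥F)}) :=
    IsCoprime.mul_left h𝔓co.pow_left h𝔔co.pow_left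
  have hV : ∀ I : Ideal (𝓞 ↥F), I ≠ ⊥ → IsCoprime I (span {(m : 𝓞 ↥F)}) →
      ∃ g : ↥U, ((g : (ZMod r)ˣ) : ZMod r) = (Ideal.absNorm I : ZMod r) := by
    intro I hI hIco
    obtain ⟨σ, hσ, h⟩ := m14x_absNorm_mem A r e he H I hI hIco
    exact ⟨⟨e σ, Subgroup.mem_map_of_mem e hσ⟩, h⟩
  have habs𝔔 : (Ideal.absNorm 𝔔 : ZMod r) = ((e (Fr 𝔮) : (ZMod r)ˣ) : ZMod r) := by
    rw [he 𝔮 h𝔮 h𝔮0 h𝔮m, ← hN𝔔, Ideal.absNorm_relNorm]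
  have habs𝔠 : (Ideal.absNorm 𝔠 : ZMod r) = 1 := by
    rw [← Ideal.absNorm_relNorm (𝓞 K) (𝓞 ↥F) 𝔠, hN𝔠, map_mul, map_pow, map_pow, Nat.cast_mul,
      Nat.cast_pow, Nat.cast_pow, ← he 𝔭 h𝔭 h𝔭0 h𝔭m, ← he 𝔮 h𝔮 h𝔮0 h𝔮m,
      ← Units.val_pow_eq_pow_val, ← Units.val_pow_eq_pow_val, ← Units.val_mul, ← map_pow, hj]
    rfl
  obtain ⟨n₀, hn₀, ζ, hζ⟩ := hcplx
  -- apply (AN-A)
  obtain ⟨γ, δ, 𝔄, hγ, hδ, h𝔄0, h𝔄co, hrel⟩ := hANA ↥F ↥M m hm (Additive ↥U) hG (m14x_chi U)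
    (fun I J hI hJ hIc hJc => m14x_chi_mul U I J (hV I hI hIc) (hV J hJ hJc))
    (fun γ hγ hmem => m14x_chi_eq_zero U _ (m14x_natCast_eq_one_of_dvd hrm
      (m14cyc_absNorm_eq_one_of_root n₀ hn₀ (algebraMap K ↥F ζ)
        (hζ.map_of_injective (algebraMap K ↥F).injective) m γ hγ hmem)))
    (fun 𝔄 h𝔄 h𝔄co => m14x_chi_eq_zero U _ (by
      rw [Ideal.absNorm_relNorm]
      obtain ⟨σ, hσ, h⟩ := m14x_absNorm_mem A r e he (H ⊓ e.ker) 𝔄 h𝔄 h𝔄co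
      rw [← h]
      have h1 : e σ = 1 := hσ.2
      rw [h1]
      rfl))
    (fun g => by
      obtain ⟨h, hh, hu⟩ := (Additive.toMul g).2
      have h1 := hgen h hh
      rw [← mem_powers_iff_mem_zpowers] at h1
      obtain ⟨k, hk⟩ := Submonoid.mem_powers_iff _ _ |>.mp h1
      refine ⟨𝔔 ^ k, pow_ne_zero _ h𝔔0, h𝔔co.pow_left, ?_⟩
      rw [m14x_chi_eq U (𝔔 ^ k) (Additive.toMul g)]
      · rfl
      · rw [map_pow, Nat.cast_pow, habs𝔔, ← Units.val_pow_eq_pow_val, hk, hu])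
    𝔠 h𝔠0 h𝔠co (m14x_chi_eq_zero U 𝔠 habs𝔠)
  -- push down to `K`
  have h1 := congrArg (Ideal.relNorm (𝓞 K)) hrel
  rw [map_mul (Ideal.relNorm (𝓞 K)) (span {γ}) 𝔠, map_mul (Ideal.relNorm (𝓞 K)) (span {δ}) _,
    Ideal.relNorm_singleton, Ideal.relNorm_singleton, hN𝔠, Ideal.relNorm_relNorm] at h1
  refine ⟨Algebra.intNorm (𝓞 K) (𝓞 ↥F) γ, Algebra.intNorm (𝓞 K) (𝓞 ↥F) δ,
    Ideal.relNorm (𝓞 K) 𝔄, ?_, ?_, ?_, h1⟩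
  · rw [Ne, Algebra.intNorm_eq_zero]; exact hγ
  · rw [Ne, Algebra.intNorm_eq_zero]; exact hδ
  · exact m14x_relNorm_ind A (H ⊓ e.ker) Q hQ1 hQmul
      (fun 𝔭' h1 h2 h3 n' hn' => hQ 𝔭' h1 h2 h3 n' hn'.1
        (MonoidHom.mem_ker.mp hn'.2)) 𝔄 h𝔄0 h𝔄co

end main

end Fermat.Agent.M14
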