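/-
M14 (S14 project), package CROSS, leaf [X6] (prefix `m14x_`): pure ideal arithmetic.
`m14x_ker`: if `ψ` is multiplicative, the primes with `ψ = 0` are (principal) × (norm), and any
two primes with `ψ ≠ 0` are linked modulo (principal) × (norm), then every nonzero ideal in the
kernel of `ψ` is (principal) × (norm).
-/
import Mathlib
import Fermat.Agent.M14.Target
import Fermat.Agent.M14.Fin

set_option autoImplicit false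

open NumberField Ideal

namespace Fermat.Agent.M14

section PN

variable {K L : Type} [Field K] [NumberField K] [Field L] [NumberField L] [Algebra K L]

theorem m14x_PN_ne_bot {𝔞 : Ideal (𝓞 K)} (h : m14f_PN L 𝔞) : 𝔞 ≠ ⊥ := by
  obtain ⟨α, β, 𝔄, hα, hβ, h𝔄, h⟩ := h
  rintro rfl
  rw [mul_bot] at h
  have h1 : (span {β} : Ideal (𝓞 K)) ≠ ⊥ := by
    rw [Ne, Ideal.span_singleton_eq_bot]; exact hβ
  have h2 : Ideal.relNorm (𝓞 K) 𝔄 ≠ ⊥ := by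
    rw [Ne, Ideal.relNorm_eq_bot_iff]; exact h𝔄
  exact mul_ne_zero h1 h2 h.symm

theorem m14x_PN_top : m14f_PN L (⊤ : Ideal (𝓞 K)) :=
  ⟨1, 1, ⊤, one_ne_zero, one_ne_zero, top_ne_bot, by rw [Ideal.relNorm_top]⟩

theorem m14x_PN_one : m14f_PN L (1 : Ideal (𝓞 K)) := by
  rw [Ideal.one_eq_top]; exact m14x_PN_top

theorem m14x_PN_mul {𝔞 𝔟 : Ideal (𝓞 K)} (ha : m14f_PN L 𝔞) (hb : m14f_PN L 𝔟) :
    m14f_PN L (𝔞 * 𝔟) := by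
  obtain ⟨α, β, 𝔄, hα, hβ, h𝔄, h⟩ := ha
  obtain ⟨α', β', 𝔄', hα', hβ', h𝔄', h'⟩ := hb
  refine ⟨α * α', β * β', 𝔄 * 𝔄', mul_ne_zero hα hα', mul_ne_zero hβ hβ', mul_ne_zero h𝔄 h𝔄', ?_⟩
  rw [map_mul, ← Ideal.span_singleton_mul_span_singleton,
    ← Ideal.span_singleton_mul_span_singleton]
  calc span {α} * span {α'} * (𝔞 * 𝔟) = (span {α} * 𝔞) * (span {α'} * 𝔟) := by ring
    _ = (span {β} * Ideal.relNorm (𝓞 K) 𝔄) * (span {β'} * Ideal.relNorm (𝓞 K) 𝔄') := by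
      rw [h, h']
    _ = span {β} * span {β'} * (Ideal.relNorm (𝓞 K) 𝔄 * Ideal.relNorm (𝓞 K) 𝔄') := by ring

theorem m14x_PN_pow {𝔞 : Ideal (𝓞 K)} (ha : m14f_PN L 𝔞) (n : ℕ) : m14f_PN L (𝔞 ^ n) := by
  induction n with
  | zero => rw [pow_zero]; exact m14x_PN_one
  | succ n ih => rw [pow_succ]; exact m14x_PN_mul ih ha

/-- every nonzero ideal of `𝓞 L` divides a nonzero principal ideal -/
theorem m14x_exists_mul_eq_span (𝔅 : Ideal (𝓞 L)) (h𝔅 : 𝔅 ≠ ⊥) :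
    ∃ (𝔅' : Ideal (𝓞 L)) (b : 𝓞 L), b ≠ 0 ∧ 𝔅' ≠ ⊥ ∧ 𝔅 * 𝔅' = span {b} := by
  obtain ⟨b, hb, hb0⟩ := Submodule.exists_mem_ne_zero_of_ne_bot h𝔅
  have hle : span {b} ≤ 𝔅 := (Ideal.span_singleton_le_iff_mem 𝔅).mpr hb
  obtain ⟨𝔅', h𝔅'⟩ := Ideal.dvd_iff_le.mpr hle
  refine ⟨𝔅', b, hb0, ?_, h𝔅'.symm⟩
  rintro rfl
  rw [mul_bot, Ideal.span_singleton_eq_bot] at h𝔅'
  exact hb0 h𝔅'

/-- cancellation -/
theorem m14x_PN_cancel {𝔞 𝔟 : Ideal (𝓞 K)} (hab : m14f_PN L (𝔞 * 𝔟)) (hb : m14f_PN L 𝔟) :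
    m14f_PN L 𝔞 := by
  obtain ⟨α, β, 𝔄, hα, hβ, h𝔄, h⟩ := hab
  obtain ⟨α', β', 𝔅, hα', hβ', h𝔅, h'⟩ := hb
  obtain ⟨𝔅', b, hb0, h𝔅', hbb⟩ := m14x_exists_mul_eq_span 𝔅 h𝔅
  have hN : Ideal.relNorm (𝓞 K) 𝔅 * Ideal.relNorm (𝓞 K) 𝔅' =
      span {Algebra.intNorm (𝓞 K) (𝓞 L) b} := by
    rw [← map_mul, hbb, Ideal.relNorm_singleton]
  have hNb : Algebra.intNorm (𝓞 K) (𝓞 L) b ≠ 0 := Algebra.intNorm_ne_zero.mpr hb0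
  refine ⟨α * β' * Algebra.intNorm (𝓞 K) (𝓞 L) b, α' * β, 𝔄 * 𝔅',
    mul_ne_zero (mul_ne_zero hα hβ') hNb, mul_ne_zero hα' hβ, mul_ne_zero h𝔄 h𝔅', ?_⟩
  rw [map_mul, ← Ideal.span_singleton_mul_span_singleton,
    ← Ideal.span_singleton_mul_span_singleton, ← Ideal.span_singleton_mul_span_singleton, ← hN]
  calc span {α} * span {β'} * (Ideal.relNorm (𝓞 K) 𝔅 * Ideal.relNorm (𝓞 K) 𝔅') * 𝔞
      = span {α} * 𝔞 * (span {β'} * Ideal.relNorm (𝓞 K) 𝔅) * Ideal.relNorm (𝓞 K) 𝔅' := by ring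
    _ = span {α} * 𝔞 * (span {α'} * 𝔟) * Ideal.relNorm (𝓞 K) 𝔅' := by rw [h']
    _ = span {α'} * (span {α} * (𝔞 * 𝔟)) * Ideal.relNorm (𝓞 K) 𝔅' := by ring
    _ = span {α'} * (span {β} * Ideal.relNorm (𝓞 K) 𝔄) * Ideal.relNorm (𝓞 K) 𝔅' := by rw [h]
    _ = span {α'} * span {β} * (Ideal.relNorm (𝓞 K) 𝔄 * Ideal.relNorm (𝓞 K) 𝔅') := by ring

/-- `𝔞 ^ [L : K]` is a norm -/
theorem m14x_PN_pow_finrank {𝔞 : Ideal (𝓞 K)} (ha : 𝔞 ≠ ⊥) :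
    m14f_PN L (𝔞 ^ Module.finrank K L) := by
  refine ⟨1, 1, 𝔞.map (algebraMap (𝓞 K) (𝓞 L)), one_ne_zero, one_ne_zero, ?_, ?_⟩
  · rw [Ne, Ideal.map_eq_bot_iff_of_injective (RingOfIntegers.algebraMap.injective K L)]
    exact ha
  · rw [Ideal.relNorm_algebraMap (𝓞 L) 𝔞, IsFractionRing.finrank_eq (𝓞 K) K (𝓞 L) L]

/-- the prime step of `m14x_ker`: a prime `𝔮` with `ψ 𝔮 ≠ 0` linked to `𝔮₁`. -/
theorem m14x_link (p : ℕ) [Fact p.Prime] (hdeg : Module.finrank K L = p)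
    (ψ : Ideal (𝓞 K) → ZMod p) {𝔮₁ 𝔮 𝔟 : Ideal (𝓞 K)} {j₁ j₂ : ℕ} (hq10 : 𝔮₁ ≠ ⊥) (hq0 : 𝔮 ≠ ⊥)
    (hPN1 : m14f_PN L (𝔟 * 𝔮₁ ^ j₁)) (hPN2 : m14f_PN L (𝔟 * 𝔮 ^ j₂))
    (hj : (j₁ : ZMod p) * ψ 𝔮₁ = j₂ * ψ 𝔮) (hj0 : (j₁ : ZMod p) * ψ 𝔮₁ ≠ 0) :
    ∃ k : ℕ, m14f_PN L (𝔮 * 𝔮₁ ^ k) ∧ ψ 𝔮 + k * ψ 𝔮₁ = 0 := by
  have hp : p.Prime := Fact.out
  have hpowp : ∀ 𝔞 : Ideal (𝓞 K), 𝔞 ≠ ⊥ → m14f_PN L (𝔞 ^ p) := fun 𝔞 ha => by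
    have := m14x_PN_pow_finrank (L := L) ha
    rwa [hdeg] at this
  -- `j₂` is invertible mod `p`
  have hj2 : (j₂ : ZMod p) ≠ 0 := by
    intro h
    rw [hj, h, zero_mul] at hj0
    exact hj0 rfl
  set u : ℕ := ((j₂ : ZMod p)⁻¹).val with hu
  have hu1 : (u : ZMod p) * j₂ = 1 := by
    rw [hu, ZMod.natCast_zmod_val, inv_mul_cancel₀ hj2]
  obtain ⟨t, ht⟩ : ∃ t : ℕ, u * j₂ = 1 + p * t := by
    have h1 : ((u * j₂ : ℕ) : ZMod p) = ((1 : ℕ) : ZMod p) := by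
      push_cast
      exact hu1
    have h2 := (ZMod.natCast_eq_natCast_iff' _ _ _).mp h1
    rw [Nat.mod_eq_of_lt hp.one_lt] at h2
    refine ⟨u * j₂ / p, ?_⟩
    have := Nat.div_add_mod (u * j₂) p
    omega
  -- `PN (𝔟 ^ u * 𝔮)`
  have h3 : m14f_PN L (𝔟 ^ u * 𝔮) := by
    have h := m14x_PN_pow hPN2 u
    have e : (𝔟 * 𝔮 ^ j₂) ^ u = (𝔟 ^ u * 𝔮) * (𝔮 ^ t) ^ p := by
      rw [mul_pow, ← pow_mul, mul_comm j₂ u, ht, pow_add, pow_one, ← pow_mul 𝔮 t p,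
        mul_comm t p, mul_assoc]
    rw [e] at h
    exact m14x_PN_cancel h (hpowp _ (pow_ne_zero _ hq0))
  -- `PN (𝔟 ^ u * 𝔮₁ ^ (u * j₁))`
  have h4 : m14f_PN L (𝔟 ^ u * 𝔮₁ ^ (u * j₁)) := by
    have h := m14x_PN_pow hPN1 u
    rwa [mul_pow, ← pow_mul, mul_comm j₁ u] at h
  refine ⟨(p - 1) * (u * j₁), ?_, ?_⟩
  · have h5 : m14f_PN L ((𝔟 ^ u * 𝔮) * (𝔮₁ ^ (u * j₁)) ^ p) :=
      m14x_PN_mul h3 (hpowp _ (pow_ne_zero _ hq10))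
    have e : (𝔟 ^ u * 𝔮) * (𝔮₁ ^ (u * j₁)) ^ p =
        (𝔮 * 𝔮₁ ^ ((p - 1) * (u * j₁))) * (𝔟 ^ u * 𝔮₁ ^ (u * j₁)) := by
      have hpp : p = (p - 1) + 1 := (Nat.sub_add_cancel hp.one_le).symm
      have e1 : (𝔮₁ ^ (u * j₁)) ^ p = 𝔮₁ ^ ((p - 1) * (u * j₁)) * 𝔮₁ ^ (u * j₁) := by
        rw [← pow_mul, ← pow_add]
        congr 1
        nth_rewrite 1 [hpp]
        ring
      rw [e1]
      ring
    rw [e] at h5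
    exact m14x_PN_cancel h5 h4
  · have hp1 : (((p - 1 : ℕ) : ℕ) : ZMod p) = -1 := by
      rw [Nat.cast_sub hp.one_le, ZMod.natCast_self, Nat.cast_one, zero_sub]
    push_cast
    rw [hp1]
    have h6 : (u : ZMod p) * (j₁ * ψ 𝔮₁) = ψ 𝔮 := by
      rw [hj, ← mul_assoc, hu1, one_mul]
    linear_combination -h6

/-- **[X6]**: the kernel of `ψ` consists of (principal) × (norm) ideals. -/
theorem m14x_ker (p : ℕ) [Fact p.Prime] (hdeg : Module.finrank K L = p)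
    (ψ : Ideal (𝓞 K) → ZMod p)
    (hmul : ∀ I J : Ideal (𝓞 K), I ≠ ⊥ → J ≠ ⊥ → ψ (I * J) = ψ I + ψ J)
    (hsplit : ∀ 𝔭 : Ideal (𝓞 K), 𝔭.IsPrime → 𝔭 ≠ ⊥ → ψ 𝔭 = 0 → m14f_PN L 𝔭)
    (hpair : ∀ 𝔮₁ 𝔮₂ : Ideal (𝓞 K), 𝔮₁.IsPrime → 𝔮₂.IsPrime → 𝔮₁ ≠ ⊥ → 𝔮₂ ≠ ⊥ →
      ψ 𝔮₁ ≠ 0 → ψ 𝔮₂ ≠ 0 → ∃ (𝔟 : Ideal (𝓞 K)) (j₁ j₂ : ℕ), 𝔟 ≠ ⊥ ∧
        m14f_PN L (𝔟 * 𝔮₁ ^ j₁) ∧ m14f_PN L (𝔟 * 𝔮₂ ^ j₂) ∧
        (j₁ : ZMod p) * ψ 𝔮₁ = j₂ * ψ 𝔮₂ ∧ (j₁ : ZMod p) * ψ 𝔮₁ ≠ 0) :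
    ∀ 𝔞 : Ideal (𝓞 K), 𝔞 ≠ ⊥ → ψ 𝔞 = 0 → m14f_PN L 𝔞 := by
  have hp : p.Prime := Fact.out
  have hpowp : ∀ 𝔞 : Ideal (𝓞 K), 𝔞 ≠ ⊥ → m14f_PN L (𝔞 ^ p) := fun 𝔞 ha => by
    have := m14x_PN_pow_finrank (L := L) ha
    rwa [hdeg] at this
  have htop : ψ ⊤ = 0 := by
    have h := hmul ⊤ ⊤ top_ne_bot top_ne_bot
    rw [Ideal.mul_top] at h
    exact add_eq_left.mp h.symm
  by_cases hall : ∀ 𝔮 : Ideal (𝓞 K), 𝔮.IsPrime → 𝔮 ≠ ⊥ → ψ 𝔮 = 0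
  · intro 𝔞 ha hψ
    clear hψ
    revert ha
    induction 𝔞 using UniqueFactorizationMonoid.induction_on_prime with
    | h₁ => intro h; exact absurd rfl h
    | h₂ x hx =>
      intro _
      rw [Ideal.isUnit_iff.mp hx]
      exact m14x_PN_top
    | h₃ a q ha hq ih =>
      intro _
      have hqp := Ideal.isPrime_of_prime hq
      exact m14x_PN_mul (hsplit q hqp hq.ne_zero (hall q hqp hq.ne_zero)) (ih ha)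
  · push Not at hall
    obtain ⟨𝔮₁, hq1, hq10, hψ1⟩ := hall
    have key : ∀ 𝔞 : Ideal (𝓞 K), 𝔞 ≠ ⊥ →
        ∃ k : ℕ, m14f_PN L (𝔞 * 𝔮₁ ^ k) ∧ ψ 𝔞 + k * ψ 𝔮₁ = 0 := by
      intro 𝔞
      induction 𝔞 using UniqueFactorizationMonoid.induction_on_prime with
      | h₁ => intro h; exact absurd rfl h
      | h₂ x hx =>
        intro _
        rw [Ideal.isUnit_iff.mp hx]
        refine ⟨0, ?_, ?_⟩
        · rw [pow_zero, Ideal.one_eq_top, Ideal.mul_top]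
          exact m14x_PN_top
        · rw [htop, Nat.cast_zero, zero_mul, add_zero]
      | h₃ a q ha hq ih =>
        intro _
        obtain ⟨k, hk1, hk2⟩ := ih ha
        have hqp := Ideal.isPrime_of_prime hq
        obtain ⟨kq, hkq1, hkq2⟩ : ∃ k : ℕ, m14f_PN L (q * 𝔮₁ ^ k) ∧ ψ q + k * ψ 𝔮₁ = 0 := by
          by_cases hψq : ψ q = 0
          · refine ⟨0, ?_, ?_⟩
            · rw [pow_zero, mul_one]
              exact hsplit q hqp hq.ne_zero hψq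
            · rw [hψq, Nat.cast_zero, zero_mul, add_zero]
          · obtain ⟨𝔟, j₁, j₂, -, hPN1, hPN2, hj, hj0⟩ :=
              hpair 𝔮₁ q hq1 hqp hq10 hq.ne_zero hψ1 hψq
            exact m14x_link p hdeg ψ hq10 hq.ne_zero hPN1 hPN2 hj hj0
        refine ⟨kq + k, ?_, ?_⟩
        · have h := m14x_PN_mul hkq1 hk1
          have e : q * 𝔮₁ ^ kq * (a * 𝔮₁ ^ k) = q * a * 𝔮₁ ^ (kq + k) := by
            rw [pow_add]; ring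
          rwa [e] at h
        · rw [hmul q a hq.ne_zero ha]
          push_cast
          linear_combination hkq2 + hk2
    intro 𝔞 ha hψ
    obtain ⟨k, hk1, hk2⟩ := key 𝔞 ha
    rw [hψ, zero_add] at hk2
    have hk0 : (k : ZMod p) = 0 := by
      rcases mul_eq_zero.mp hk2 with h | h
      · exact h
      · exact absurd h hψ1
    obtain ⟨t, rfl⟩ := (ZMod.natCast_eq_zero_iff k p).mp hk0
    have h7 : m14f_PN L (𝔮₁ ^ (p * t)) := by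
      rw [mul_comm, pow_mul]
      exact hpowp _ (pow_ne_zero _ hq10)
    exact m14x_PN_cancel hk1 h7

end PN

end Fermat.Agent.M14
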