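import Mathlib

/-!
# S14 / CROSS leaf [LEM]: primitive prime divisors (prefix `m14lem_`)

* `m14lem_exists_prime_order`: for `a ≥ 2`, `p` prime, `k` (with `k ≥ 1` if `p = 2`) there is a
  prime `r ∤ a` modulo which `a` has order exactly `p ^ (k + 1)`.
* `m14lem_exists_prime`: outside any finite set of primes there is a prime `r ≠ p`, `r ∤ a`,
  with `p ∣ orderOf (a : ZMod r)`.
-/

set_option autoImplicit false
set_option linter.style.haveILetI false

namespace Fermat.Agent.M14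

/-- for `b ≡ 1 mod p` (and `b` a square if `p = 2`): `p ^ 2 ∤ 1 + b + ⋯ + b ^ (p - 1)`. -/
theorem m14lem_not_sq_dvd {p : ℕ} (hp : p.Prime) (b : ℕ) (hb : (b : ZMod p) = 1)
    (h2 : p = 2 → ∃ c : ℕ, b = c ^ 2) :
    ¬ p ^ 2 ∣ ∑ i ∈ Finset.range p, b ^ i := by
  haveI : Fact p.Prime := ⟨hp⟩
  intro hdvd
  by_cases hp2 : p = 2
  · subst hp2
    obtain ⟨c, rfl⟩ := h2 rfl
    have h4 : ((∑ i ∈ Finset.range 2, (c ^ 2) ^ i : ℕ) : ZMod 4) = 0 := by
      rw [ZMod.natCast_eq_zero_iff]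
      exact hdvd
    rw [Finset.sum_range_succ, Finset.sum_range_one] at h4
    push_cast at h4
    have : ∀ x : ZMod 4, (x ^ 2) ^ 0 + (x ^ 2) ^ 1 ≠ 0 := by decide
    exact this _ h4
  · -- odd `p`
    obtain ⟨c, hc⟩ : ∃ c : ℕ, b = 1 + p * c := by
      have h1 : b % p = 1 % p := by
        have := (ZMod.natCast_eq_natCast_iff' b 1 p).mp (by simpa using hb)
        exact this
      rw [Nat.mod_eq_of_lt hp.one_lt] at h1
      exact ⟨b / p, by have := Nat.div_add_mod b p; omega⟩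
    obtain ⟨t, ht⟩ : ∃ t : ℕ, p - 1 = 2 * t := by
      rcases hp.eq_two_or_odd with h | h
      · exact absurd h hp2
      · exact ⟨(p - 1) / 2, by omega⟩
    have hsum : (∑ i ∈ Finset.range p, i) = p * t := by
      have := Finset.sum_range_id_mul_two p
      rw [ht] at this
      have h3 : (∑ i ∈ Finset.range p, i) * 2 = (p * t) * 2 := by rw [this]; ring
      exact Nat.eq_of_mul_eq_mul_right (by norm_num) h3
    have hpp : (((p ^ 2 : ℕ) : ZMod (p ^ 2))) = 0 := ZMod.natCast_self _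
    have hpp' : ((p : ZMod (p ^ 2))) * (p : ZMod (p ^ 2)) = 0 := by
      have := hpp
      push_cast at this
      rw [← this]; ring
    have hpow : ∀ i : ℕ, ((b : ZMod (p ^ 2))) ^ i = 1 + (i : ZMod (p ^ 2)) * ((p : ZMod (p ^ 2)) * c) := by
      intro i
      induction i with
      | zero => simp
      | succ i ih =>
        have hb' : (b : ZMod (p ^ 2)) = 1 + (p : ZMod (p ^ 2)) * c := by
          rw [hc]; push_cast; rfl
        rw [pow_succ (b : ZMod (p ^ 2)) i, ih, hb']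
        push_cast
        have : (1 + (i : ZMod (p ^ 2)) * ((p : ZMod (p ^ 2)) * c)) * (1 + (p : ZMod (p ^ 2)) * c)
            = 1 + ((i : ZMod (p ^ 2)) + 1) * ((p : ZMod (p ^ 2)) * c)
              + (i : ZMod (p ^ 2)) * c * c * ((p : ZMod (p ^ 2)) * (p : ZMod (p ^ 2))) := by ring
        rw [this, hpp', mul_zero, add_zero]
    have h5 : ((∑ i ∈ Finset.range p, b ^ i : ℕ) : ZMod (p ^ 2)) = (p : ZMod (p ^ 2)) := by
      push_cast
      simp_rw [hpow]
      rw [Finset.sum_add_distrib, ← Finset.sum_mul, Finset.sum_const, Finset.card_range,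
        nsmul_eq_mul, mul_one]
      have h6 : (∑ i ∈ Finset.range p, (i : ZMod (p ^ 2))) = (p : ZMod (p ^ 2)) * t := by
        have := congrArg (fun n : ℕ => (n : ZMod (p ^ 2))) hsum
        simpa using this
      rw [h6]
      have : (p : ZMod (p ^ 2)) * t * ((p : ZMod (p ^ 2)) * c)
          = t * c * ((p : ZMod (p ^ 2)) * (p : ZMod (p ^ 2))) := by ring
      rw [this, hpp', mul_zero, add_zero]
    have h7 : ((∑ i ∈ Finset.range p, b ^ i : ℕ) : ZMod (p ^ 2)) = 0 := by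
      rw [ZMod.natCast_eq_zero_iff]
      exact hdvd
    rw [h5, ZMod.natCast_eq_zero_iff] at h7
    have h8 := Nat.le_of_dvd hp.pos h7
    have h9 : p < p ^ 2 := by
      have := hp.one_lt
      nlinarith
    omega

/-- primitive prime divisors of `a ^ (p ^ (k + 1)) - 1`: a prime `r ∤ a` modulo which `a` has
order exactly `p ^ (k + 1)` (for `p = 2` we need `k ≥ 1`). -/
theorem m14lem_exists_prime_order {p : ℕ} (hp : p.Prime) (a : ℕ) (ha : 2 ≤ a) (k : ℕ)
    (hk : p = 2 → 1 ≤ k) :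
    ∃ r : ℕ, r.Prime ∧ ¬ r ∣ a ∧ orderOf ((a : ℕ) : ZMod r) = p ^ (k + 1) := by
  haveI : Fact p.Prime := ⟨hp⟩
  set b : ℕ := a ^ (p ^ k) with hb
  set Φ : ℕ := ∑ i ∈ Finset.range p, b ^ i with hΦ
  have hb2 : 2 ≤ b := by
    calc 2 ≤ a := ha
      _ = a ^ 1 := (pow_one a).symm
      _ ≤ a ^ (p ^ k) := Nat.pow_le_pow_right (by omega) (Nat.one_le_pow _ _ hp.pos)
  have hΦgt : p < Φ := by
    have h1 : ∀ i ∈ Finset.range p, 1 ≤ b ^ i := fun i _ => Nat.one_le_pow _ _ (by omega)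
    have h2 : (1 : ℕ) ∈ Finset.range p := Finset.mem_range.mpr hp.one_lt
    have h3 : ∑ i ∈ Finset.range p, (1 : ℕ) < ∑ i ∈ Finset.range p, b ^ i := by
      apply Finset.sum_lt_sum h1
      exact ⟨1, h2, by rw [pow_one]; omega⟩
    simpa using h3
  have hsq : p = 2 → ∃ c : ℕ, b = c ^ 2 := by
    intro h2
    obtain ⟨k', rfl⟩ : ∃ k', k = k' + 1 := ⟨k - 1, by have := hk h2; omega⟩
    refine ⟨a ^ (2 ^ k'), ?_⟩
    rw [hb, h2, ← pow_mul, pow_succ]
  -- a prime factor of `Φ` modulo which `b ≠ 1`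
  obtain ⟨r, hr, hrΦ, hrb⟩ : ∃ r : ℕ, r.Prime ∧ r ∣ Φ ∧ ((b : ℕ) : ZMod r) ≠ 1 := by
    by_contra hcon
    push Not at hcon
    have hall : ∀ {d : ℕ}, d.Prime → d ∣ Φ → d = p := by
      intro d hd hdΦ
      have hbd := hcon d hd hdΦ
      have h1 : ((Φ : ℕ) : ZMod d) = 0 := (ZMod.natCast_eq_zero_iff _ _).mpr hdΦ
      rw [hΦ] at h1
      push_cast at h1
      rw [hbd] at h1
      simp only [one_pow, Finset.sum_const, Finset.card_range, nsmul_eq_mul, mul_one] at h1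
      rw [ZMod.natCast_eq_zero_iff] at h1
      exact ((Nat.prime_dvd_prime_iff_eq hd hp).mp h1)
    have hΦ0 : Φ ≠ 0 := by omega
    have hpow := Nat.eq_prime_pow_of_unique_prime_dvd hΦ0 hall
    set e := Φ.primeFactorsList.length
    have he : 2 ≤ e := by
      by_contra hlt
      have : e = 0 ∨ e = 1 := by omega
      rcases this with h | h
      · rw [h, pow_zero] at hpow
        have := hp.one_lt
        omega
      · rw [h, pow_one] at hpow
        omega
    have hpΦ : p ∣ Φ := by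
      rw [hpow]
      exact dvd_pow_self p (by omega)
    have hbp := hcon p hp hpΦ
    refine m14lem_not_sq_dvd hp b hbp hsq ?_
    rw [← hΦ, hpow]
    exact pow_dvd_pow p he
  haveI : Fact r.Prime := ⟨hr⟩
  have hbp : ((b : ℕ) : ZMod r) ^ p = 1 := by
    have h1 : ((Φ : ℕ) : ZMod r) = 0 := (ZMod.natCast_eq_zero_iff _ _).mpr hrΦ
    have h2 := mul_geom_sum ((b : ℕ) : ZMod r) p
    have h3 : (∑ i ∈ Finset.range p, ((b : ℕ) : ZMod r) ^ i) = 0 := by
      rw [← h1, hΦ]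
      push_cast
      rfl
    rw [h3, mul_zero] at h2
    exact (sub_eq_zero.mp h2.symm)
  have hab : ((a : ℕ) : ZMod r) ^ (p ^ k) = ((b : ℕ) : ZMod r) := by
    rw [hb]; push_cast; rfl
  refine ⟨r, hr, ?_, ?_⟩
  · intro hra
    have h0 : ((a : ℕ) : ZMod r) = 0 := (ZMod.natCast_eq_zero_iff _ _).mpr hra
    rw [h0, zero_pow (pow_ne_zero _ hp.ne_zero)] at hab
    rw [← hab, zero_pow hp.ne_zero] at hbp
    exact zero_ne_one hbp
  · apply orderOf_eq_prime_pow
    · rw [hab]; exact hrb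
    · rw [pow_succ, pow_mul, hab]; exact hbp

/-- **[LEM]**: outside any finite set there is a prime `r ≠ p`, `r ∤ a`, such that `p` divides
the order of `a` modulo `r`. -/
theorem m14lem_exists_prime (a : ℕ) (ha : 2 ≤ a) (p : ℕ) (hp : p.Prime) (S : Finset ℕ) :
    ∃ r : ℕ, r.Prime ∧ r ∉ S ∧ r ≠ p ∧ ¬ r ∣ a ∧ p ∣ orderOf ((a : ℕ) : ZMod r) := by
  set k : ℕ := S.sup id + 1 with hk
  obtain ⟨r, hr, hra, hord⟩ := m14lem_exists_prime_order hp a ha k (fun _ => by omega)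
  haveI : Fact r.Prime := ⟨hr⟩
  have ha0 : ((a : ℕ) : ZMod r) ≠ 0 := by
    rw [Ne, ZMod.natCast_eq_zero_iff]; exact hra
  have hdvd := ZMod.orderOf_dvd_card_sub_one ha0
  rw [hord] at hdvd
  have hle : p ^ (k + 1) ≤ r - 1 := Nat.le_of_dvd (by have := hr.one_lt; omega) hdvd
  have hlt : k + 1 < p ^ (k + 1) := Nat.lt_pow_self hp.one_lt
  have hpk : p ≤ p ^ (k + 1) := by
    calc p = p ^ 1 := (pow_one p).symm
      _ ≤ p ^ (k + 1) := Nat.pow_le_pow_right hp.pos (by omega)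
  refine ⟨r, hr, ?_, ?_, hra, ?_⟩
  · intro hrS
    have : r ≤ S.sup id := Finset.le_sup (f := id) hrS
    omega
  · omega
  · rw [hord]
    exact dvd_pow_self p (by omega)

end Fermat.Agent.M14
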