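/-
M14 (S14 project), package PSI-DEF, part 1: the Frobenius element of `Gal(L/K)` at a prime of
`K` (existence, uniqueness, independence of the prime above), for the extension `L/K` of an
`M14Data`.
-/
import Mathlib
import Fermat.Agent.M14.Target

set_option autoImplicit false
set_option linter.unusedSectionVars false

open NumberField Ideal
open scoped Pointwise

namespace Fermat.Agent.M14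

section frob

variable {p : ℕ} [hp : Fact p.Prime] {L : Type} [Field L] [NumberField L] [IsGalois ℚ L]
  {K : IntermediateField ℚ L} {ζ : L}

/-- the inertia groups of `L/K` are trivial -/
theorem m14psi_inertia_trivial (D : M14Data p L K ζ) (𝔓 : Ideal (𝓞 L)) (h𝔓 : 𝔓.IsPrime)
    (σ : L ≃ₐ[↥K] L) (hσ : σ ∈ 𝔓.inertia (L ≃ₐ[↥K] L)) : σ = 1 := by
  apply D.inertia 𝔓 h𝔓 σ
  intro x
  exact ⟨σ • x - x, hσ x, rfl⟩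

/-- uniqueness of the Frobenius at a prime of `L` -/
theorem m14psi_frob_unique (D : M14Data p L K ζ) (𝔓 : Ideal (𝓞 L)) (h𝔓 : 𝔓.IsPrime)
    {σ σ' : L ≃ₐ[↥K] L} (h : IsArithFrobAt (𝓞 ↥K) σ 𝔓) (h' : IsArithFrobAt (𝓞 ↥K) σ' 𝔓) :
    σ = σ' :=
  mul_inv_eq_one.mp (m14psi_inertia_trivial D 𝔓 h𝔓 _ (h.mul_inv_mem_inertia h'))

theorem m14psi_card (D : M14Data p L K ζ) : Nat.card (L ≃ₐ[↥K] L) = p := by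
  rw [IsGalois.card_aut_eq_finrank, D.finrank]

theorem m14psi_comm (D : M14Data p L K ζ) (σ τ : L ≃ₐ[↥K] L) : σ * τ = τ * σ := by
  haveI := isCyclic_of_prime_card (m14psi_card D)
  haveI : IsMulCommutative (L ≃ₐ[↥K] L) := IsCyclic.isMulCommutative
  exact mul_comm' σ τ

/-- the Frobenius does not depend on the prime above -/
theorem m14psi_frob_of_under (D : M14Data p L K ζ) (𝔓 𝔓' : Ideal (𝓞 L)) (h𝔓 : 𝔓.IsPrime)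
    (h𝔓' : 𝔓'.IsPrime) (h : 𝔓.under (𝓞 ↥K) = 𝔓'.under (𝓞 ↥K)) {σ : L ≃ₐ[↥K] L}
    (hσ : IsArithFrobAt (𝓞 ↥K) σ 𝔓) : IsArithFrobAt (𝓞 ↥K) σ 𝔓' := by
  obtain ⟨g, rfl⟩ := Algebra.IsInvariant.exists_smul_of_under_eq (𝓞 ↥K) (𝓞 L) (L ≃ₐ[↥K] L) 𝔓 𝔓' h
  have h1 := hσ.conj g
  have h2 : g * σ * g⁻¹ = σ := by
    rw [m14psi_comm D g σ, mul_assoc, mul_inv_cancel, mul_one]
  rwa [h2] at h1

/-- a prime of `L` above a given prime of `K` -/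
theorem m14psi_exists_over (𝔭 : Ideal (𝓞 ↥K)) (h𝔭 : 𝔭.IsPrime) :
    ∃ 𝔓 : Ideal (𝓞 L), 𝔓.IsPrime ∧ 𝔓.under (𝓞 ↥K) = 𝔭 := by
  obtain ⟨Q, -, hQ, hQ'⟩ := Ideal.exists_ideal_over_prime_of_isIntegral 𝔭 (⊥ : Ideal (𝓞 L))
    (by
      intro x hx
      rw [Ideal.mem_comap, Ideal.mem_bot] at hx
      have : x = 0 := (FaithfulSMul.algebraMap_injective (𝓞 ↥K) (𝓞 L)) (by rw [hx, map_zero])
      rw [this]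
      exact 𝔭.zero_mem)
  exact ⟨Q, hQ, hQ'⟩

theorem m14psi_ne_bot_of_under {𝔓 : Ideal (𝓞 L)} (h : 𝔓.under (𝓞 ↥K) ≠ ⊥) : 𝔓 ≠ ⊥ := by
  rintro rfl
  apply h
  ext x
  rw [Ideal.under_def, Ideal.mem_comap, Ideal.mem_bot, Ideal.mem_bot]
  exact (map_eq_zero_iff _ (FaithfulSMul.algebraMap_injective (𝓞 ↥K) (𝓞 L)))

theorem m14psi_under_ne_bot {𝔓 : Ideal (𝓞 L)} (h : 𝔓 ≠ ⊥) : 𝔓.under (𝓞 ↥K) ≠ ⊥ :=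
  Ideal.under_ne_bot (𝓞 ↥K) h

/-- existence of the Frobenius at a prime of `K` -/
theorem m14psi_exists_frob (D : M14Data p L K ζ) (𝔭 : Ideal (𝓞 ↥K)) (h𝔭 : 𝔭.IsPrime)
    (h0 : 𝔭 ≠ ⊥) :
    ∃ σ : L ≃ₐ[↥K] L, ∀ 𝔓 : Ideal (𝓞 L), 𝔓.IsPrime → 𝔓.under (𝓞 ↥K) = 𝔭 →
      IsArithFrobAt (𝓞 ↥K) σ 𝔓 := by
  obtain ⟨𝔓₀, h𝔓₀, hu⟩ := m14psi_exists_over 𝔭 h𝔭
  have hne : 𝔓₀ ≠ ⊥ := m14psi_ne_bot_of_under (by rw [hu]; exact h0)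
  haveI : Finite (𝓞 L ⧸ 𝔓₀) := Ideal.finiteQuotientOfFreeOfNeBot 𝔓₀ hne
  obtain ⟨σ, hσ⟩ := IsArithFrobAt.exists_of_isInvariant (𝓞 ↥K) (L ≃ₐ[↥K] L) 𝔓₀
  exact ⟨σ, fun 𝔓 h𝔓 h => m14psi_frob_of_under D 𝔓₀ 𝔓 h𝔓₀ h𝔓 (hu.trans h.symm) hσ⟩

open Classical in
/-- the Frobenius of `Gal(L/K)` at a prime of `K` (junk value `1`). -/
noncomputable def m14psi_frob (D : M14Data p L K ζ) (𝔭 : Ideal (𝓞 ↥K)) : L ≃ₐ[↥K] L :=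
  if h : 𝔭.IsPrime ∧ 𝔭 ≠ ⊥ then (m14psi_exists_frob D 𝔭 h.1 h.2).choose else 1

theorem m14psi_frob_spec (D : M14Data p L K ζ) (𝔭 : Ideal (𝓞 ↥K)) (h𝔭 : 𝔭.IsPrime)
    (h0 : 𝔭 ≠ ⊥) (𝔓 : Ideal (𝓞 L)) (h𝔓 : 𝔓.IsPrime) (hu : 𝔓.under (𝓞 ↥K) = 𝔭) :
    IsArithFrobAt (𝓞 ↥K) (m14psi_frob D 𝔭) 𝔓 := by
  unfold m14psi_frob
  rw [dif_pos ⟨h𝔭, h0⟩]
  exact (m14psi_exists_frob D 𝔭 h𝔭 h0).choose_spec 𝔓 h𝔓 hu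

/-- characterisation of the Frobenius -/
theorem m14psi_frob_eq (D : M14Data p L K ζ) (𝔓 : Ideal (𝓞 L)) (h𝔓 : 𝔓.IsPrime) (h0 : 𝔓 ≠ ⊥)
    {σ : L ≃ₐ[↥K] L} (hσ : IsArithFrobAt (𝓞 ↥K) σ 𝔓) :
    m14psi_frob D (𝔓.under (𝓞 ↥K)) = σ :=
  m14psi_frob_unique D 𝔓 h𝔓
    (m14psi_frob_spec D _ (Ideal.IsPrime.under _ _) (m14psi_under_ne_bot h0) 𝔓 h𝔓 rfl) hσ

end frob

end Fermat.Agent.M14
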