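/-
M14 (S14 project), package PSI-DEF, part 2: the Artin symbol `ψ : Ideal (𝓞 K) → ZMod p` of the
extension `L/K` of an `M14Data` (definition, multiplicativity, values at primes, primes with
trivial symbol are norms).
-/
import Mathlib
import Fermat.Agent.M14.PsiFrob

set_option autoImplicit false
set_option linter.unusedSectionVars false

open NumberField Ideal
open scoped Pointwise

namespace Fermat.Agent.M14

/-- a finite field all of whose elements satisfy `x ^ q = x` has at most `q` elements -/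
theorem m14psi_card_le_of_pow_eq (F : Type*) [Field F] [Finite F] (q : ℕ) (hq : 1 < q)
    (h : ∀ x : F, x ^ q = x) : Nat.card F ≤ q := by
  classical
  haveI := Fintype.ofFinite F
  have hsub : (Finset.univ : Finset F).val ⊆ (Polynomial.X ^ q - Polynomial.X : Polynomial F).roots := by
    intro x _
    rw [Polynomial.mem_roots (FiniteField.X_pow_card_sub_X_ne_zero F hq)]
    simp [h x]
  have := Polynomial.card_le_degree_of_subset_roots hsub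
  rw [FiniteField.X_pow_card_sub_X_natDegree_eq F hq, Finset.card_univ] at this
  rwa [Nat.card_eq_fintype_card]

section psi

variable {p : ℕ} [hp : Fact p.Prime] {L : Type} [Field L] [NumberField L] [IsGalois ℚ L]
  {K : IntermediateField ℚ L} {ζ : L}

/-- `Gal(L/K) ≃ ZMod p`. -/
noncomputable def m14psi_b (D : M14Data p L K ζ) : (L ≃ₐ[↥K] L) ≃* Multiplicative (ZMod p) :=
  (zmodCyclicMulEquiv (G := L ≃ₐ[↥K] L) (isCyclic_of_prime_card (m14psi_card D))).symm.trans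
    (AddEquiv.toMultiplicative (ZMod.ringEquivCongr (m14psi_card D)).toAddEquiv)

/-- the symbol at a prime -/
noncomputable def m14psi_psi0 (D : M14Data p L K ζ) (𝔮 : Ideal (𝓞 ↥K)) : ZMod p :=
  (m14psi_b D (m14psi_frob D 𝔮)).toAdd

/-- the Artin symbol of `L/K`, written additively in `ZMod p`. -/
noncomputable def m14psi_psi (D : M14Data p L K ζ) (I : Ideal (𝓞 ↥K)) : ZMod p :=
  ((UniqueFactorizationMonoid.normalizedFactors I).map (m14psi_psi0 D)).sum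

theorem m14psi_psi_mul (D : M14Data p L K ζ) (I J : Ideal (𝓞 ↥K)) (hI : I ≠ ⊥) (hJ : J ≠ ⊥) :
    m14psi_psi D (I * J) = m14psi_psi D I + m14psi_psi D J := by
  unfold m14psi_psi
  rw [UniqueFactorizationMonoid.normalizedFactors_mul hI hJ, Multiset.map_add, Multiset.sum_add]

theorem m14psi_psi_prime (D : M14Data p L K ζ) (𝔮 : Ideal (𝓞 ↥K)) (h𝔮 : 𝔮.IsPrime)
    (h0 : 𝔮 ≠ ⊥) : m14psi_psi D 𝔮 = (m14psi_b D (m14psi_frob D 𝔮)).toAdd := by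
  unfold m14psi_psi
  rw [UniqueFactorizationMonoid.normalizedFactors_irreducible
    (Ideal.prime_of_isPrime h0 h𝔮).irreducible, normalize_eq, Multiset.map_singleton,
    Multiset.sum_singleton]
  rfl

theorem m14psi_psi_under (D : M14Data p L K ζ) (𝔓 : Ideal (𝓞 L)) (σ : L ≃ₐ[↥K] L)
    (h𝔓 : 𝔓.IsPrime) (h0 : 𝔓 ≠ ⊥) (hσ : IsArithFrobAt (𝓞 ↥K) σ 𝔓) :
    m14psi_psi D (𝔓.under (𝓞 ↥K)) = (m14psi_b D σ).toAdd := by
  rw [m14psi_psi_prime D _ (Ideal.IsPrime.under _ _) (m14psi_under_ne_bot h0),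
    m14psi_frob_eq D 𝔓 h𝔓 h0 hσ]

/-- a prime with trivial symbol is a norm -/
theorem m14psi_split (D : M14Data p L K ζ) (𝔭 : Ideal (𝓞 ↥K)) (h𝔭 : 𝔭.IsPrime) (h0 : 𝔭 ≠ ⊥)
    (h : m14psi_psi D 𝔭 = 0) :
    ∃ 𝔓 : Ideal (𝓞 L), 𝔓 ≠ ⊥ ∧ Ideal.relNorm (𝓞 ↥K) 𝔓 = 𝔭 := by
  -- the Frobenius is trivial
  have hfrob : m14psi_frob D 𝔭 = 1 := by
    rw [m14psi_psi_prime D 𝔭 h𝔭 h0] at h
    have h1 : m14psi_b D (m14psi_frob D 𝔭) = 1 := by
      apply Multiplicative.toAdd.injective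
      rw [h]
      rfl
    exact (m14psi_b D).injective (by rw [h1, map_one])
  obtain ⟨𝔓, h𝔓, hu⟩ := m14psi_exists_over (L := L) 𝔭 h𝔭
  have hne : 𝔓 ≠ ⊥ := m14psi_ne_bot_of_under (by rw [hu]; exact h0)
  refine ⟨𝔓, hne, ?_⟩
  have hF := m14psi_frob_spec D 𝔭 h𝔭 h0 𝔓 h𝔓 hu
  rw [hfrob] at hF
  haveI : 𝔓.LiesOver 𝔭 := ⟨hu.symm⟩
  haveI h𝔭max : 𝔭.IsMaximal := Ring.DimensionLEOne.maximalOfPrime h0 h𝔭
  haveI h𝔓max : 𝔓.IsMaximal := Ring.DimensionLEOne.maximalOfPrime hne h𝔓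
  haveI : Finite (𝓞 L ⧸ 𝔓) := Ideal.finiteQuotientOfFreeOfNeBot 𝔓 hne
  haveI : Finite (𝓞 ↥K ⧸ 𝔭) := Ideal.finiteQuotientOfFreeOfNeBot 𝔭 h0
  letI : Field (𝓞 L ⧸ 𝔓) := Ideal.Quotient.field 𝔓
  have hq1 : 1 < Nat.card (𝓞 ↥K ⧸ 𝔭) := Finite.one_lt_card
  -- every residue class satisfies `x ^ q = x`
  have hpow : ∀ x : 𝓞 L ⧸ 𝔓, x ^ Nat.card (𝓞 ↥K ⧸ 𝔭) = x := by
    intro x
    obtain ⟨x, rfl⟩ := Ideal.Quotient.mk_surjective x
    have h1 := hF x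
    rw [hu] at h1
    have h2 : (MulSemiringAction.toAlgHom (𝓞 ↥K) (𝓞 L) (1 : L ≃ₐ[↥K] L)) x = x := by
      simp
    rw [h2] at h1
    rw [← map_pow]
    exact (Ideal.Quotient.eq.mpr h1).symm
  have hcard := m14psi_card_le_of_pow_eq (𝓞 L ⧸ 𝔓) _ hq1 hpow
  have hpowcard := Ideal.cardQuot_pow_inertiaDeg 𝔭 𝔓
  rw [Submodule.cardQuot_apply, Submodule.cardQuot_apply] at hpowcard
  have hf : 𝔓.inertiaDeg (𝓞 ↥K) = 1 := by
    have hpos := Ideal.inertiaDeg_pos 𝔓 (𝓞 ↥K)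
    by_contra hne1
    have h2 : 2 ≤ 𝔓.inertiaDeg (𝓞 ↥K) := by omega
    have h3 : Nat.card (𝓞 ↥K ⧸ 𝔭) ^ 2 ≤ Nat.card (𝓞 ↥K ⧸ 𝔭) ^ 𝔓.inertiaDeg (𝓞 ↥K) :=
      Nat.pow_le_pow_right (by omega) h2
    rw [hpowcard] at h3
    nlinarith
  rw [Ideal.relNorm_eq_pow_of_isMaximal 𝔓 𝔭, hf, pow_one]

end psi

end Fermat.Agent.M14
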