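/-
M14 (S14 project), package PSI-DEF, part 3: equivariance of the Artin symbol of `L/K` under
`Gal(K/ℚ)` (through `ω⁻¹`), and the end result `m14psi_exists`.
-/
import Mathlib
import Fermat.Agent.M14.PsiDef

set_option autoImplicit false
set_option linter.unusedSectionVars false

open NumberField Ideal
open scoped Pointwise

namespace Fermat.Agent.M14

section eq

variable {p : ℕ} [hp : Fact p.Prime] {L : Type} [Field L] [NumberField L] [IsGalois ℚ L]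
  {K : IntermediateField ℚ L} {ζ : L}

/-- compatibility of a lift of `τ` with the inclusion of the rings of integers -/
theorem m14psi_lift_algebraMap (τ : ↥K ≃ₐ[ℚ] ↥K) (x : 𝓞 ↥K) :
    (τ.liftNormal L) • (algebraMap (𝓞 ↥K) (𝓞 L) x) = algebraMap (𝓞 ↥K) (𝓞 L) (τ • x) := by
  apply RingOfIntegers.ext
  exact AlgEquiv.liftNormal_commutes τ L (x : ↥K)

theorem m14psi_lift_inv_algebraMap (τ : ↥K ≃ₐ[ℚ] ↥K) (x : 𝓞 ↥K) :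
    (τ.liftNormal L)⁻¹ • (algebraMap (𝓞 ↥K) (𝓞 L) x) = algebraMap (𝓞 ↥K) (𝓞 L) (τ⁻¹ • x) := by
  have h := m14psi_lift_algebraMap (L := L) τ (τ⁻¹ • x)
  rw [smul_inv_smul] at h
  rw [← h, inv_smul_smul]

theorem m14psi_under_smul (τ : ↥K ≃ₐ[ℚ] ↥K) (𝔓 : Ideal (𝓞 L)) :
    ((τ.liftNormal L) • 𝔓).under (𝓞 ↥K) = τ • (𝔓.under (𝓞 ↥K)) := by
  ext x
  rw [Ideal.under_def, Ideal.mem_comap, Ideal.mem_pointwise_smul_iff_inv_smul_mem,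
    Ideal.mem_pointwise_smul_iff_inv_smul_mem, m14psi_lift_inv_algebraMap, Ideal.under_def,
    Ideal.mem_comap]

theorem m14psi_card_smul (τ : ↥K ≃ₐ[ℚ] ↥K) (𝔮 : Ideal (𝓞 ↥K)) :
    Nat.card (𝓞 ↥K ⧸ τ • 𝔮) = Nat.card (𝓞 ↥K ⧸ 𝔮) :=
  Nat.card_congr (Ideal.quotientEquiv 𝔮 (τ • 𝔮) (MulSemiringAction.toRingEquiv _ _ τ)
    (Ideal.pointwise_smul_def 𝔮)).symm.toEquiv

theorem m14psi_smul_ne_bot (τ : ↥K ≃ₐ[ℚ] ↥K) (𝔮 : Ideal (𝓞 ↥K)) (h : 𝔮 ≠ ⊥) : τ • 𝔮 ≠ ⊥ := by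
  intro h0
  apply h
  have h1 : τ⁻¹ • (τ • 𝔮) = τ⁻¹ • (⊥ : Ideal (𝓞 ↥K)) := by rw [h0]
  rwa [inv_smul_smul, Ideal.smul_bot] at h1

/-- **(EQ)**: `Gal(K/ℚ)` acts on the symbol through `ω⁻¹`. -/
theorem m14psi_eq (D : M14Data p L K ζ) (τ : ↥K ≃ₐ[ℚ] ↥K) (c : ℕ)
    (hτ : ∀ z : ↥K, z ^ p = 1 → τ z = z ^ c) (𝔮 : Ideal (𝓞 ↥K)) (h𝔮 : 𝔮.IsPrime)
    (h0 : 𝔮 ≠ ⊥) : (c : ZMod p) * m14psi_psi D (τ • 𝔮) = m14psi_psi D 𝔮 := by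
  -- the lift
  have hζK : ζ ∈ K := by
    rw [D.hK]
    exact IntermediateField.mem_adjoin_simple_self ℚ ζ
  have hτζ : (τ.liftNormal L) ζ = ζ ^ c := by
    have h1 := hτ ⟨ζ, hζK⟩ (Subtype.ext (by simpa using D.prim.pow_eq_one))
    have h2 := AlgEquiv.liftNormal_commutes τ L ⟨ζ, hζK⟩
    rw [h1] at h2
    simpa using h2
  obtain ⟨𝔓, h𝔓, hu⟩ := m14psi_exists_over (L := L) 𝔮 h𝔮
  have hne : 𝔓 ≠ ⊥ := m14psi_ne_bot_of_under (by rw [hu]; exact h0)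
  have h𝔮' : (τ • 𝔮).IsPrime := Ideal.IsPrime.smul τ
  have h0' : τ • 𝔮 ≠ ⊥ := m14psi_smul_ne_bot τ 𝔮 h0
  have h𝔓' : ((τ.liftNormal L) • 𝔓).IsPrime := Ideal.IsPrime.smul (τ.liftNormal L)
  have hu' : ((τ.liftNormal L) • 𝔓).under (𝓞 ↥K) = τ • 𝔮 := by rw [m14psi_under_smul, hu]
  have hρ : IsArithFrobAt (𝓞 ↥K) (m14psi_frob D (τ • 𝔮)) ((τ.liftNormal L) • 𝔓) :=
    m14psi_frob_spec D _ h𝔮' h0' _ h𝔓' hu'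
  have hconj := D.conj (τ.liftNormal L) (m14psi_frob D (τ • 𝔮)) c hτζ
  have hρc : IsArithFrobAt (𝓞 ↥K) ((m14psi_frob D (τ • 𝔮)) ^ c) 𝔓 := by
    intro x
    have h1 := hρ ((τ.liftNormal L) • x)
    rw [hu', m14psi_card_smul, Ideal.mem_pointwise_smul_iff_inv_smul_mem, smul_sub, smul_pow',
      inv_smul_smul] at h1
    have h2 : (τ.liftNormal L)⁻¹ • ((MulSemiringAction.toAlgHom (𝓞 ↥K) (𝓞 L)
        (m14psi_frob D (τ • 𝔮))) ((τ.liftNormal L) • x)) =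
        (MulSemiringAction.toAlgHom (𝓞 ↥K) (𝓞 L) ((m14psi_frob D (τ • 𝔮)) ^ c)) x := by
      apply RingOfIntegers.ext
      have h3 := hconj ((τ.liftNormal L) (x : L))
      have h4 : (τ.liftNormal L).symm ((τ.liftNormal L) (x : L)) = (x : L) :=
        (τ.liftNormal L).symm_apply_apply _
      rw [h4] at h3
      show (τ.liftNormal L)⁻¹ ((m14psi_frob D (τ • 𝔮)) ((τ.liftNormal L) (x : L))) =
        ((m14psi_frob D (τ • 𝔮)) ^ c) (x : L)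
      rw [← h3]
      exact (τ.liftNormal L).symm_apply_apply _
    rw [h2] at h1
    rw [hu]
    exact h1
  have hfrob := m14psi_frob_eq D 𝔓 h𝔓 hne hρc
  rw [hu] at hfrob
  rw [m14psi_psi_prime D 𝔮 h𝔮 h0, m14psi_psi_prime D _ h𝔮' h0', hfrob, map_pow, toAdd_pow,
    nsmul_eq_mul]

end eq

/-- **[PSI-DEF]**: the Artin symbol of `L/K` with all its properties except (KER). -/
theorem m14psi_exists (p : ℕ) [Fact p.Prime] (hp3 : 3 ≤ p) (L : Type) [Field L] [NumberField L]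
    [IsGalois ℚ L] (K : IntermediateField ℚ L) (ζ : L) (D : M14Data p L K ζ) :
    ∃ (ψ : Ideal (𝓞 ↥K) → ZMod p) (b : (L ≃ₐ[↥K] L) →* Multiplicative (ZMod p)),
      Function.Injective b ∧
      (∀ I J : Ideal (𝓞 ↥K), I ≠ ⊥ → J ≠ ⊥ → ψ (I * J) = ψ I + ψ J) ∧
      (∀ (τ : ↥K ≃ₐ[ℚ] ↥K) (c : ℕ), (∀ z : ↥K, z ^ p = 1 → τ z = z ^ c) →
        ∀ 𝔮 : Ideal (𝓞 ↥K), 𝔮.IsPrime → 𝔮 ≠ ⊥ → (c : ZMod p) * ψ (τ • 𝔮) = ψ 𝔮) ∧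
      (∀ (𝔓 : Ideal (𝓞 L)) (σ : L ≃ₐ[↥K] L), 𝔓.IsPrime → 𝔓 ≠ ⊥ →
        IsArithFrobAt (𝓞 ↥K) σ 𝔓 → ψ (𝔓.under (𝓞 ↥K)) = (b σ).toAdd) ∧
      (∀ 𝔭 : Ideal (𝓞 ↥K), 𝔭.IsPrime → 𝔭 ≠ ⊥ → ψ 𝔭 = 0 →
        ∃ 𝔓 : Ideal (𝓞 L), 𝔓 ≠ ⊥ ∧ Ideal.relNorm (𝓞 ↥K) 𝔓 = 𝔭) :=
  ⟨m14psi_psi D, (m14psi_b D).toMonoidHom, (m14psi_b D).injective,
    m14psi_psi_mul D, m14psi_eq D,
    fun 𝔓 σ h𝔓 h0 hσ => m14psi_psi_under D 𝔓 σ h𝔓 h0 hσ,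
    m14psi_split D⟩

end Fermat.Agent.M14
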