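/-
M14 (S14 project), package CROSS, part 3: the PAIR construction (Artin's crossing):
for two primes `𝔮₁, 𝔮₂` of `K` with `ψ ≠ 0` an ideal `𝔟` with `𝔟 𝔮₁^j₁, 𝔟 𝔮₂^j₂ ∈ P·N`.
-/
import Mathlib
import Fermat.Agent.M14.Target
import Fermat.Agent.M14.Fin
import Fermat.Agent.M14.CrossA
import Fermat.Agent.M14.CrossKer
import Fermat.Agent.M14.Lem
import Fermat.Agent.M14.PsiMain
import Fermat.Agent.M14.OmegaBasic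

set_option autoImplicit false
set_option linter.style.haveILetI false
set_option linter.unusedSectionVars false

open NumberField Ideal
open scoped Pointwise

namespace Fermat.Agent.M14

/-- the statement of (ART): an abelian extension, unramified (inertia form) outside `m`, has a
Frobenius map satisfying (ART2). -/
def m14x_ART : Prop :=
  ∀ (K Ω : Type) [Field K] [NumberField K] [Field Ω] [NumberField Ω] [Algebra K Ω]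
    [IsGalois K Ω] (m : ℕ),
    (∀ σ τ : Ω ≃ₐ[K] Ω, σ * τ = τ * σ) →
    (∀ (𝔓 : Ideal (𝓞 Ω)), 𝔓.IsPrime → (m : 𝓞 Ω) ∉ 𝔓 → ∀ σ : Ω ≃ₐ[K] Ω,
      (∀ x : 𝓞 Ω, σ • x - x ∈ 𝔓) → σ = 1) →
    ∃ Fr : Ideal (𝓞 K) → (Ω ≃ₐ[K] Ω), M14Art K Ω m Fr

/-- the statement of the group-theoretic lemma (GRP) -/
def m14x_GRP : Prop :=
  ∀ (Γ : Type) [Group Γ] [Finite Γ] (p : ℕ) [Fact p.Prime] (U₁ U₂ : Type) [CommGroup U₁]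
    [CommGroup U₂] (res : Γ →* Multiplicative (ZMod p)) (e₁ : Γ →* U₁) (e₂ : Γ →* U₂),
    (∀ (x : Multiplicative (ZMod p)) (u₁ : U₁) (u₂ : U₂),
      ∃ γ : Γ, res γ = x ∧ e₁ γ = u₁ ∧ e₂ γ = u₂) →
    ∀ (φ₁ φ₂ : Γ), res φ₁ ≠ 1 → res φ₂ ≠ 1 → p ∣ orderOf (e₁ φ₁) → p ∣ orderOf (e₂ φ₂) →
    ∃ H₁ H₂ : Subgroup Γ,
      φ₁ ∈ H₁ ∧ φ₂ ∈ H₂ ∧
      (∀ h ∈ H₁, e₁ h ∈ Subgroup.zpowers (e₁ φ₁)) ∧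
      (∀ h ∈ H₂, e₂ h ∈ Subgroup.zpowers (e₂ φ₂)) ∧
      (∀ h ∈ H₁, e₁ h = 1 → res h = 1) ∧ (∀ h ∈ H₂, e₂ h = 1 → res h = 1) ∧
      (∀ h ∈ H₁, ∃ j : ℕ, e₁ h * e₁ φ₁ ^ j = 1 ∧ res h * res φ₁ ^ j = 1) ∧
      (∀ h ∈ H₂, ∃ j : ℕ, e₂ h * e₂ φ₂ ^ j = 1 ∧ res h * res φ₂ ^ j = 1) ∧
      ¬ (H₁ ⊓ H₂ ≤ res.ker)

section aux

variable {K : Type} [Field K] [NumberField K]

theorem m14x_natCast_not_mem (𝔮 : Ideal (𝓞 K)) (h𝔮 : 𝔮 ≠ ⊤) (n : ℕ)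
    (hco : Nat.Coprime n (Ideal.absNorm 𝔮)) : (n : 𝓞 K) ∉ 𝔮 := by
  intro hn
  apply h𝔮
  rw [Ideal.eq_top_iff_one]
  have h1 : ((Ideal.absNorm 𝔮 : ℕ) : 𝓞 K) ∈ 𝔮 := Ideal.absNorm_mem 𝔮
  have h2 : (((Nat.gcd n (Ideal.absNorm 𝔮) : ℕ) : ℤ) : 𝓞 K) ∈ 𝔮 := by
    rw [Nat.gcd_eq_gcd_ab]
    push_cast
    exact 𝔮.add_mem (𝔮.mul_mem_right _ hn) (𝔮.mul_mem_right _ h1)
  rw [Nat.Coprime] at hco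
  rw [hco] at h2
  simpa using h2

theorem m14x_two_le_absNorm (𝔮 : Ideal (𝓞 K)) (h𝔮 : 𝔮.IsPrime) (h0 : 𝔮 ≠ ⊥) :
    2 ≤ Ideal.absNorm 𝔮 := by
  have hne0 : Ideal.absNorm 𝔮 ≠ 0 := by
    rw [Ne, Ideal.absNorm_eq_zero_iff]; exact h0
  have hne1 : Ideal.absNorm 𝔮 ≠ 1 := by
    rw [Ne, Ideal.absNorm_eq_one_iff]; exact h𝔮.ne_top
  omega

/-- a prime of a number field extension over a given prime outside `m` -/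
theorem m14x_exists_over' {E : Type} [Field E] [NumberField E] [Algebra K E] (m : ℕ)
    (𝔭 : Ideal (𝓞 K)) (h𝔭 : 𝔭.IsPrime) (h0 : 𝔭 ≠ ⊥) (hm : (m : 𝓞 K) ∉ 𝔭) :
    ∃ 𝔓 : Ideal (𝓞 E), 𝔓.IsPrime ∧ 𝔓 ≠ ⊥ ∧ (m : 𝓞 E) ∉ 𝔓 ∧ 𝔓.under (𝓞 K) = 𝔭 := by
  obtain ⟨𝔓, -, h𝔓, hover⟩ := Ideal.exists_ideal_over_prime_of_isIntegral 𝔭 (⊥ : Ideal (𝓞 E))
    (by simp [← RingHom.ker_eq_comap_bot,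
      (RingHom.injective_iff_ker_eq_bot _).mp (FaithfulSMul.algebraMap_injective (𝓞 K) (𝓞 E))])
  refine ⟨𝔓, h𝔓, ?_, ?_, hover⟩
  · rintro rfl
    apply h0
    rw [← hover]
    simp [← RingHom.ker_eq_comap_bot,
      (RingHom.injective_iff_ker_eq_bot _).mp (FaithfulSMul.algebraMap_injective (𝓞 K) (𝓞 E))]
  · intro h
    apply hm
    rw [← hover, Ideal.mem_comap]
    simpa using h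

theorem m14x_PN_of_rel {L : Type} [Field L] [NumberField L] [Algebra K L]
    {X 𝔑 : Ideal (𝓞 K)} {α β : 𝓞 K} (hα : α ≠ 0) (hβ : β ≠ 0) (h𝔑 : m14f_PN L 𝔑)
    (hrel : span {α} * X = span {β} * 𝔑) : m14f_PN L X := by
  obtain ⟨α', β', 𝔄, hα', hβ', h𝔄, h'⟩ := h𝔑
  refine ⟨α' * α, β * β', 𝔄, mul_ne_zero hα' hα, mul_ne_zero hβ hβ', h𝔄, ?_⟩
  rw [← Ideal.span_singleton_mul_span_singleton, ← Ideal.span_singleton_mul_span_singleton,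
    mul_assoc, hrel, mul_assoc, ← h']
  ring

end aux

/-- the inputs from the OMEGA package for `L/K` (in hypothesis form) -/
structure M14Om (p : ℕ) (L : Type) [Field L] [NumberField L] [IsGalois ℚ L]
    (K : IntermediateField ℚ L) : Prop where
  unram : ∀ (m : ℕ) [NeZero m] (𝔓 : Ideal (𝓞 (CyclotomicField m L))), 𝔓.IsPrime →
    (m : 𝓞 (CyclotomicField m L)) ∉ 𝔓 →
    ∀ σ : CyclotomicField m L ≃ₐ[↥K] CyclotomicField m L,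
      (∀ x : 𝓞 (CyclotomicField m L), σ • x - x ∈ 𝔓) → σ = 1
  frob_res : ∀ (m : ℕ) [NeZero m] [IsGalois ↥K (CyclotomicField m L)]
    (𝔓 : Ideal (𝓞 (CyclotomicField m L))), 𝔓.IsPrime → 𝔓 ≠ ⊥ →
    ∀ σ : CyclotomicField m L ≃ₐ[↥K] CyclotomicField m L, IsArithFrobAt (𝓞 ↥K) σ 𝔓 →
      IsArithFrobAt (𝓞 ↥K) (AlgEquiv.restrictNormalHom L σ) (𝔓.under (𝓞 L))
  char2 : ∀ (m r₁ r₂ : ℕ) [NeZero m] [IsGalois ↥K (CyclotomicField m L)], m = r₁ * r₂ →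
    r₁.Prime → r₂.Prime → r₁ ≠ r₂ → r₁ ≠ p → r₂ ≠ p →
    ∃ (e₁ : (CyclotomicField m L ≃ₐ[↥K] CyclotomicField m L) →* (ZMod r₁)ˣ)
      (e₂ : (CyclotomicField m L ≃ₐ[↥K] CyclotomicField m L) →* (ZMod r₂)ˣ),
      (∀ (g : L ≃ₐ[↥K] L) (u₁ : (ZMod r₁)ˣ) (u₂ : (ZMod r₂)ˣ),
        ∃ σ, AlgEquiv.restrictNormalHom L σ = g ∧ e₁ σ = u₁ ∧ e₂ σ = u₂) ∧
      (∀ (𝔓 : Ideal (𝓞 (CyclotomicField m L))), 𝔓.IsPrime → 𝔓 ≠ ⊥ →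
        (m : 𝓞 (CyclotomicField m L)) ∉ 𝔓 →
        ∀ σ : CyclotomicField m L ≃ₐ[↥K] CyclotomicField m L, IsArithFrobAt (𝓞 ↥K) σ 𝔓 →
          ((e₁ σ : (ZMod r₁)ˣ) : ZMod r₁) = (Ideal.absNorm (𝔓.under (𝓞 ↥K)) : ZMod r₁) ∧
          ((e₂ σ : (ZMod r₂)ˣ) : ZMod r₂) = (Ideal.absNorm (𝔓.under (𝓞 ↥K)) : ZMod r₂))

section pair

variable {p : ℕ} [Fact p.Prime] {L : Type} [Field L] [NumberField L] [IsGalois ℚ L]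
  {K : IntermediateField ℚ L} {ζ : L}

theorem m14x_exists_root (hp3 : 3 ≤ p) (D : M14Data p L K ζ) :
    ∃ n : ℕ, 3 ≤ n ∧ ∃ ζ' : ↥K, IsPrimitiveRoot ζ' n := by
  have hmem : ζ ∈ K := by
    rw [D.hK]
    exact IntermediateField.mem_adjoin_simple_self ℚ ζ
  refine ⟨p, hp3, ⟨ζ, hmem⟩, ?_⟩
  exact IsPrimitiveRoot.of_map_of_injective (f := algebraMap ↥K L) (by simpa using D.prim)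
    (algebraMap ↥K L).injective

theorem m14x_PN_prime_pow (D : M14Data p L K ζ) (𝔭 : Ideal (𝓞 ↥K)) (h𝔭 : 𝔭.IsPrime)
    (h0 : 𝔭 ≠ ⊥) (n : ℕ) (h : (n : ZMod p) * m14psi_psi D 𝔭 = 0) : m14f_PN L (𝔭 ^ n) := by
  rcases mul_eq_zero.mp h with h | h
  · obtain ⟨c, rfl⟩ := (ZMod.natCast_eq_zero_iff _ _).mp h
    rw [pow_mul]
    refine m14x_PN_pow ?_ c
    have := m14x_PN_pow_finrank (L := L) h0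
    rwa [D.finrank] at this
  · obtain ⟨𝔓, h𝔓0, h𝔓N⟩ := m14psi_split D 𝔭 h𝔭 h0 h
    exact m14x_PN_pow ⟨1, 1, 𝔓, one_ne_zero, one_ne_zero, h𝔓0, by rw [h𝔓N]⟩ n

/-- **PAIR** (Artin's crossing): the `hpair` hypothesis of `m14x_ker`. -/
theorem m14x_pair (hANA : m14x_ANA) (hANB : m14x_ANB) (hART : m14x_ART) (hGRP : m14x_GRP)
    (hp3 : 3 ≤ p) (D : M14Data p L K ζ) (O : M14Om p L K)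
    (𝔮₁ 𝔮₂ : Ideal (𝓞 ↥K)) (h𝔮₁ : 𝔮₁.IsPrime) (h𝔮₂ : 𝔮₂.IsPrime) (h𝔮₁0 : 𝔮₁ ≠ ⊥)
    (h𝔮₂0 : 𝔮₂ ≠ ⊥) (hψ₁ : m14psi_psi D 𝔮₁ ≠ 0) (hψ₂ : m14psi_psi D 𝔮₂ ≠ 0) :
    ∃ (𝔟 : Ideal (𝓞 ↥K)) (j₁ j₂ : ℕ), 𝔟 ≠ ⊥ ∧ m14f_PN L (𝔟 * 𝔮₁ ^ j₁) ∧
      m14f_PN L (𝔟 * 𝔮₂ ^ j₂) ∧
      (j₁ : ZMod p) * m14psi_psi D 𝔮₁ = j₂ * m14psi_psi D 𝔮₂ ∧
      (j₁ : ZMod p) * m14psi_psi D 𝔮₁ ≠ 0 := by
  classical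
  have hp : p.Prime := Fact.out
  have ha₁ : 2 ≤ Ideal.absNorm 𝔮₁ := m14x_two_le_absNorm 𝔮₁ h𝔮₁ h𝔮₁0
  have ha₂ : 2 ≤ Ideal.absNorm 𝔮₂ := m14x_two_le_absNorm 𝔮₂ h𝔮₂ h𝔮₂0
  obtain ⟨r₁, hr₁, hr₁S, hr₁p, hr₁a, hord₁⟩ :=
    m14lem_exists_prime (Ideal.absNorm 𝔮₁) ha₁ p hp (Ideal.absNorm 𝔮₂).primeFactors
  obtain ⟨r₂, hr₂, hr₂S, hr₂p, hr₂a, hord₂⟩ :=
    m14lem_exists_prime (Ideal.absNorm 𝔮₂) ha₂ p hp (insert r₁ (Ideal.absNorm 𝔮₁).primeFactors)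
  have hr₂₁ : r₂ ≠ r₁ := fun h => hr₂S (by rw [h]; exact Finset.mem_insert_self _ _)
  have hr₁a₂ : ¬ r₁ ∣ Ideal.absNorm 𝔮₂ := fun h =>
    hr₁S (Nat.mem_primeFactors.mpr ⟨hr₁, h, by omega⟩)
  have hr₂a₁ : ¬ r₂ ∣ Ideal.absNorm 𝔮₁ := fun h =>
    hr₂S (Finset.mem_insert_of_mem (Nat.mem_primeFactors.mpr ⟨hr₂, h, by omega⟩))
  obtain ⟨m, hm⟩ : ∃ m : ℕ, m = r₁ * r₂ := ⟨_, rfl⟩
  have hm0 : m ≠ 0 := by rw [hm]; exact mul_ne_zero hr₁.ne_zero hr₂.ne_zero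
  haveI : NeZero m := ⟨hm0⟩
  have hco₁ : Nat.Coprime m (Ideal.absNorm 𝔮₁) := by
    rw [hm]
    exact Nat.Coprime.mul_left ((Nat.Prime.coprime_iff_not_dvd hr₁).mpr hr₁a)
      ((Nat.Prime.coprime_iff_not_dvd hr₂).mpr hr₂a₁)
  have hco₂ : Nat.Coprime m (Ideal.absNorm 𝔮₂) := by
    rw [hm]
    exact Nat.Coprime.mul_left ((Nat.Prime.coprime_iff_not_dvd hr₁).mpr hr₁a₂)
      ((Nat.Prime.coprime_iff_not_dvd hr₂).mpr hr₂a)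
  have h𝔮₁m : (m : 𝓞 ↥K) ∉ 𝔮₁ := m14x_natCast_not_mem 𝔮₁ h𝔮₁.ne_top m hco₁
  have h𝔮₂m : (m : 𝓞 ↥K) ∉ 𝔮₂ := m14x_natCast_not_mem 𝔮₂ h𝔮₂.ne_top m hco₂
  -- the field `Ω`
  haveI : IsGalois ↥K (CyclotomicField m L) := m14om_isGalois m
  obtain ⟨Fr, A⟩ := hART ↥K (CyclotomicField m L) m (m14om_comm m D) (O.unram m)
  obtain ⟨e₁, e₂, hsurj, hfrob⟩ := O.char2 m r₁ r₂ hm hr₁ hr₂ hr₂₁.symm hr₁p hr₂p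
  set res' : (CyclotomicField m L ≃ₐ[↥K] CyclotomicField m L) →* Multiplicative (ZMod p) :=
    (m14psi_b D).toMonoidHom.comp (AlgEquiv.restrictNormalHom L) with hres'
  have hFrob : ∀ 𝔭 : Ideal (𝓞 ↥K), 𝔭.IsPrime → 𝔭 ≠ ⊥ → (m : 𝓞 ↥K) ∉ 𝔭 →
      ∃ 𝔓 : Ideal (𝓞 (CyclotomicField m L)), 𝔓.IsPrime ∧ 𝔓 ≠ ⊥ ∧
        (m : 𝓞 (CyclotomicField m L)) ∉ 𝔓 ∧ 𝔓.under (𝓞 ↥K) = 𝔭 ∧
        IsArithFrobAt (𝓞 ↥K) (Fr 𝔭) 𝔓 := by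
    intro 𝔭 h1 h2 h3
    obtain ⟨𝔓, hP, hP0, hPm, hPu⟩ := m14x_exists_over' (E := CyclotomicField m L) m 𝔭 h1 h2 h3
    refine ⟨𝔓, hP, hP0, hPm, hPu, ?_⟩
    have := A.frob 𝔓 hP hP0 hPm
    rwa [hPu] at this
  have he₁ : ∀ 𝔭 : Ideal (𝓞 ↥K), 𝔭.IsPrime → 𝔭 ≠ ⊥ → (m : 𝓞 ↥K) ∉ 𝔭 →
      ((e₁ (Fr 𝔭) : (ZMod r₁)ˣ) : ZMod r₁) = (Ideal.absNorm 𝔭 : ZMod r₁) := by
    intro 𝔭 h1 h2 h3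
    obtain ⟨𝔓, hP, hP0, hPm, hPu, hPF⟩ := hFrob 𝔭 h1 h2 h3
    have := (hfrob 𝔓 hP hP0 hPm (Fr 𝔭) hPF).1
    rwa [hPu] at this
  have he₂ : ∀ 𝔭 : Ideal (𝓞 ↥K), 𝔭.IsPrime → 𝔭 ≠ ⊥ → (m : 𝓞 ↥K) ∉ 𝔭 →
      ((e₂ (Fr 𝔭) : (ZMod r₂)ˣ) : ZMod r₂) = (Ideal.absNorm 𝔭 : ZMod r₂) := by
    intro 𝔭 h1 h2 h3
    obtain ⟨𝔓, hP, hP0, hPm, hPu, hPF⟩ := hFrob 𝔭 h1 h2 h3
    have := (hfrob 𝔓 hP hP0 hPm (Fr 𝔭) hPF).2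
    rwa [hPu] at this
  have hres : ∀ 𝔭 : Ideal (𝓞 ↥K), 𝔭.IsPrime → 𝔭 ≠ ⊥ → (m : 𝓞 ↥K) ∉ 𝔭 →
      res' (Fr 𝔭) = Multiplicative.ofAdd (m14psi_psi D 𝔭) := by
    intro 𝔭 h1 h2 h3
    obtain ⟨𝔓, hP, hP0, hPm, hPu, hPF⟩ := hFrob 𝔭 h1 h2 h3
    have hF := O.frob_res m 𝔓 hP hP0 (Fr 𝔭) hPF
    have hPL : (𝔓.under (𝓞 L)).IsPrime := Ideal.IsPrime.under _ _
    have hPL0 : 𝔓.under (𝓞 L) ≠ ⊥ := fun h => hP0 (Ideal.eq_bot_of_comap_eq_bot h)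
    have h4 := m14psi_psi_under D (𝔓.under (𝓞 L)) _ hPL hPL0 hF
    rw [Ideal.under_under, hPu] at h4
    show (m14psi_b D) (AlgEquiv.restrictNormalHom L (Fr 𝔭)) = _
    rw [h4]
    rfl
  have hresn : ∀ 𝔭 : Ideal (𝓞 ↥K), 𝔭.IsPrime → 𝔭 ≠ ⊥ → (m : 𝓞 ↥K) ∉ 𝔭 → ∀ n : ℕ,
      res' (Fr 𝔭 ^ n) = Multiplicative.ofAdd ((n : ZMod p) * m14psi_psi D 𝔭) := by
    intro 𝔭 h1 h2 h3 n
    rw [map_pow, hres 𝔭 h1 h2 h3, ← ofAdd_nsmul, nsmul_eq_mul]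
  -- the subgroups
  obtain ⟨H₁, H₂, hφ₁, hφ₂, hz₁, hz₂, hk₁, hk₂, hj₁, hj₂, hnot⟩ :=
    hGRP (CyclotomicField m L ≃ₐ[↥K] CyclotomicField m L) p (ZMod r₁)ˣ (ZMod r₂)ˣ res' e₁ e₂
      (fun x u₁ u₂ => by
        obtain ⟨g, hg⟩ := (m14psi_b D).surjective x
        obtain ⟨σ, h1, h2, h3⟩ := hsurj g u₁ u₂
        refine ⟨σ, ?_, h2, h3⟩
        show (m14psi_b D) (AlgEquiv.restrictNormalHom L σ) = x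
        rw [h1, hg])
      (Fr 𝔮₁) (Fr 𝔮₂)
      (by
        rw [hres 𝔮₁ h𝔮₁ h𝔮₁0 h𝔮₁m]
        intro h
        exact hψ₁ (ofAdd_eq_one.mp h))
      (by
        rw [hres 𝔮₂ h𝔮₂ h𝔮₂0 h𝔮₂m]
        intro h
        exact hψ₂ (ofAdd_eq_one.mp h))
      (by rw [← orderOf_units, he₁ 𝔮₁ h𝔮₁ h𝔮₁0 h𝔮₁m]; exact hord₁)
      (by rw [← orderOf_units, he₂ 𝔮₂ h𝔮₂ h𝔮₂0 h𝔮₂m]; exact hord₂)
  -- weak Chebotarev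
  obtain ⟨𝔭, h𝔭, h𝔭0, h𝔭m, n, hn, hnH, hnres⟩ := m14x_brB hANB hm0 A (H₁ ⊓ H₂) res'.ker hnot
  obtain ⟨j₁, hj₁e, hj₁r⟩ := hj₁ _ hnH.1
  obtain ⟨j₂, hj₂e, hj₂r⟩ := hj₂ _ hnH.2
  have hcplx := m14x_exists_root hp3 D
  -- the two norm relations
  obtain ⟨α₁, β₁, 𝔑₁, hα₁, hβ₁, hQ₁, hrel₁⟩ := m14x_brA hANA hm0 A hcplx r₁
    (hm ▸ dvd_mul_right r₁ r₂) e₁ he₁ H₁ 𝔮₁ h𝔮₁ h𝔮₁0 h𝔮₁m hφ₁ hz₁ (m14f_PN L) m14x_PN_top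
    (fun I J => m14x_PN_mul)
    (fun 𝔭' h1 h2 h3 n' hn' he' => m14x_PN_prime_pow D 𝔭' h1 h2 n' (by
      have h5 := hk₁ _ hn' he'
      rw [hresn 𝔭' h1 h2 h3] at h5
      exact ofAdd_eq_one.mp h5))
    𝔭 h𝔭 h𝔭0 h𝔭m n j₁ hnH.1 hj₁e
  obtain ⟨α₂, β₂, 𝔑₂, hα₂, hβ₂, hQ₂, hrel₂⟩ := m14x_brA hANA hm0 A hcplx r₂
    (hm ▸ dvd_mul_left r₂ r₁) e₂ he₂ H₂ 𝔮₂ h𝔮₂ h𝔮₂0 h𝔮₂m hφ₂ hz₂ (m14f_PN L) m14x_PN_top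
    (fun I J => m14x_PN_mul)
    (fun 𝔭' h1 h2 h3 n' hn' he' => m14x_PN_prime_pow D 𝔭' h1 h2 n' (by
      have h5 := hk₂ _ hn' he'
      rw [hresn 𝔭' h1 h2 h3] at h5
      exact ofAdd_eq_one.mp h5))
    𝔭 h𝔭 h𝔭0 h𝔭m n j₂ hnH.2 hj₂e
  -- arithmetic of the exponents
  have hsum₁ : (n : ZMod p) * m14psi_psi D 𝔭 + (j₁ : ZMod p) * m14psi_psi D 𝔮₁ = 0 := by
    rw [hresn 𝔭 h𝔭 h𝔭0 h𝔭m, hres 𝔮₁ h𝔮₁ h𝔮₁0 h𝔮₁m, ← ofAdd_nsmul, ← ofAdd_add,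
      nsmul_eq_mul] at hj₁r
    exact ofAdd_eq_one.mp hj₁r
  have hsum₂ : (n : ZMod p) * m14psi_psi D 𝔭 + (j₂ : ZMod p) * m14psi_psi D 𝔮₂ = 0 := by
    rw [hresn 𝔭 h𝔭 h𝔭0 h𝔭m, hres 𝔮₂ h𝔮₂ h𝔮₂0 h𝔮₂m, ← ofAdd_nsmul, ← ofAdd_add,
      nsmul_eq_mul] at hj₂r
    exact ofAdd_eq_one.mp hj₂r
  have hne : (n : ZMod p) * m14psi_psi D 𝔭 ≠ 0 := by
    intro h
    apply hnres
    rw [MonoidHom.mem_ker, hresn 𝔭 h𝔭 h𝔭0 h𝔭m, h]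
    rfl
  refine ⟨𝔭 ^ n, j₁, j₂, pow_ne_zero n h𝔭0, m14x_PN_of_rel hα₁ hβ₁ hQ₁ hrel₁,
    m14x_PN_of_rel hα₂ hβ₂ hQ₂ hrel₂, ?_, ?_⟩
  · have e1 : (j₁ : ZMod p) * m14psi_psi D 𝔮₁ = -((n : ZMod p) * m14psi_psi D 𝔭) :=
      eq_neg_of_add_eq_zero_right hsum₁
    have e2 : (j₂ : ZMod p) * m14psi_psi D 𝔮₂ = -((n : ZMod p) * m14psi_psi D 𝔭) :=
      eq_neg_of_add_eq_zero_right hsum₂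
    rw [e1, e2]
  · have e1 : (j₁ : ZMod p) * m14psi_psi D 𝔮₁ = -((n : ZMod p) * m14psi_psi D 𝔭) :=
      eq_neg_of_add_eq_zero_right hsum₁
    rw [e1]
    exact neg_ne_zero.mpr hne

/-- **PSI** from the inputs (AN-A), (AN-B), (ART), (GRP) and the OMEGA package. -/
theorem m14x_psi (hANA : m14x_ANA) (hANB : m14x_ANB) (hART : m14x_ART) (hGRP : m14x_GRP)
    (hp3 : 3 ≤ p) (D : M14Data p L K ζ) (O : M14Om p L K) : m14f_PSI p K L := by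
  refine ⟨m14psi_psi D, m14psi_psi_mul D, m14psi_eq D, ?_⟩
  refine m14x_ker p D.finrank (m14psi_psi D) (m14psi_psi_mul D) ?_ ?_
  · intro 𝔭 h1 h2 h3
    obtain ⟨𝔓, h𝔓0, h𝔓N⟩ := m14psi_split D 𝔭 h1 h2 h3
    exact ⟨1, 1, 𝔓, one_ne_zero, one_ne_zero, h𝔓0, by rw [h𝔓N]⟩
  · intro 𝔮₁ 𝔮₂ h1 h2 h3 h4 h5 h6
    exact m14x_pair hANA hANB hART hGRP hp3 D O 𝔮₁ 𝔮₂ h1 h2 h3 h4 h5 h6

end pair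

end Fermat.Agent.M14
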