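/-
M14 (S14 project), package ART, final statement: `m14art_final : m14x_ART`.

An abelian extension `Ω/K` of number fields which is unramified (inertia form) at the primes not
containing `m` has a Frobenius map `Fr` with the three fields of `M14Art`:
* `comm`  : the hypothesis;
* `frob`  : `m14af5_Fr_spec` (ArtFrob5.lean);
* `art2`  : `m14a2_art2` (Art2Core.lean).
-/
import Mathlib
import Fermat.Agent.M14.CrossPair
import Fermat.Agent.M14.ArtFrob5
import Fermat.Agent.M14.Art2Core

set_option autoImplicit false
set_option linter.style.haveILetI false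
set_option linter.unusedSectionVars false

open NumberField Ideal
open scoped Pointwise

namespace Fermat.Agent.M14

/-- **(ART)** holds. -/
theorem m14art_final : m14x_ART := by
  intro K Ω _ _ _ _ _ _ m hab hU
  exact ⟨m14af5_Fr hab, hab, fun 𝔓 h𝔓 h0 _ => m14af5_Fr_spec hab 𝔓 h𝔓 h0,
    m14a2_art2 m hU (m14af5_Fr hab) (fun 𝔓 h𝔓 h0 _ => m14af5_Fr_spec hab 𝔓 h𝔓 h0)⟩

end Fermat.Agent.M14
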