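/-
M14 (S14 project), package ART, part 1: Frobenius elements for a finite abelian extension of
number fields, in the generality of an arbitrary finite group `G` acting on `L` with
`[IsGaloisGroup G K L]` (e.g. `G = Gal(L/K)`, or a subgroup / quotient of a bigger Galois group).

* `m14art_Unram G K L 𝔭` : every prime of `𝓞 L` over `𝔭` has trivial inertia group in `G`.
* `m14art_frob G K L 𝔭 : G` : a Frobenius element at (a prime over) `𝔭` (junk value `1` if there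
  is none, e.g. for `𝔭 = ⊥`).
* `m14art_frob_spec` : for commutative `G`, `m14art_frob G K L 𝔭` is a Frobenius at EVERY prime
  `𝔮` of `𝓞 L` over `𝔭`.
* `m14art_eq_frob_pow` : uniqueness at unramified primes: if `σ x ≡ x ^ (N𝔭)^k` modulo one prime
  `𝔮` over `𝔭`, then `σ = Frob_𝔭 ^ k`.
-/
import Mathlib

set_option autoImplicit false

open NumberField Ideal
open scoped Pointwise

namespace Fermat.Agent.M14

section abstract

variable {A B : Type*} [CommRing A] [CommRing B] [Algebra A B]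
  {G : Type*} [Group G] [MulSemiringAction G B] [SMulCommClass G A B]

/-- unfolded form of `IsArithFrobAt` -/
theorem m14art_isArithFrobAt_iff {σ : G} {Q : Ideal B} :
    IsArithFrobAt A σ Q ↔ ∀ x : B, σ • x - x ^ Nat.card (A ⧸ Q.under A) ∈ Q :=
  Iff.rfl

/-- `a ≡ b mod Q` implies `a ^ n ≡ b ^ n mod Q` -/
theorem m14art_pow_sub_pow_mem {Q : Ideal B} {a b : B} (h : a - b ∈ Q) (n : ℕ) :
    a ^ n - b ^ n ∈ Q :=
  Q.mem_of_dvd (sub_dvd_pow_sub_pow a b n) h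

/-- if `σ` acts as the `q`-th power map modulo `Q`, then `σ ^ k` acts as the `q ^ k`-th power
map modulo `Q` -/
theorem m14art_pow_smul_sub_mem {σ : G} {Q : Ideal B} {q : ℕ}
    (h : ∀ x : B, σ • x - x ^ q ∈ Q) (k : ℕ) (x : B) :
    (σ ^ k) • x - x ^ q ^ k ∈ Q := by
  induction k generalizing x with
  | zero => simp
  | succ k ih =>
    have h1 : (σ ^ (k + 1)) • x - (σ • x) ^ q ^ k ∈ Q := by
      rw [pow_succ, mul_smul]
      exact ih (σ • x)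
    have h2 : (σ • x) ^ q ^ k - (x ^ q) ^ q ^ k ∈ Q := m14art_pow_sub_pow_mem (h x) _
    have h3 : (x ^ q) ^ q ^ k = x ^ q ^ (k + 1) := by
      rw [← pow_mul, pow_succ, mul_comm]
    rw [← h3]
    have := add_mem h1 h2
    rwa [sub_add_sub_cancel] at this

/-- two elements of `G` which agree modulo `Q` are equal if the inertia group at `Q` is trivial -/
theorem m14art_eq_of_sub_mem {Q : Ideal B}
    (hI : ∀ g : G, (∀ x : B, g • x - x ∈ Q) → g = 1) {σ τ : G}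
    (h : ∀ x : B, σ • x - τ • x ∈ Q) : σ = τ := by
  have h1 : σ * τ⁻¹ = 1 := by
    apply hI
    intro y
    have := h (τ⁻¹ • y)
    rwa [smul_inv_smul, ← mul_smul] at this
  exact mul_inv_eq_one.mp h1

/-- triviality of the inertia group is invariant under conjugation -/
theorem m14art_inertia_smul {Q : Ideal B}
    (hI : ∀ g : G, (∀ x : B, g • x - x ∈ Q) → g = 1) (τ : G) :
    ∀ g : G, (∀ x : B, g • x - x ∈ τ • Q) → g = 1 := by
  intro g hg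
  have h1 : τ⁻¹ * g * τ = 1 := by
    apply hI
    intro x
    have := hg (τ • x)
    rw [Ideal.mem_pointwise_smul_iff_inv_smul_mem, smul_sub, inv_smul_smul, ← mul_smul,
      ← mul_smul] at this
    exact this
  have h2 : g = τ * (τ⁻¹ * g * τ) * τ⁻¹ := by group
  rw [h2, h1]
  group

/-- for commutative `G`, a Frobenius at `Q` is a Frobenius at every conjugate of `Q` -/
theorem m14art_isArithFrobAt_smul (hcomm : ∀ a b : G, a * b = b * a) {σ : G} {Q : Ideal B}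
    (h : IsArithFrobAt A σ Q) (τ : G) : IsArithFrobAt A σ (τ • Q) := by
  have := h.conj τ
  rwa [hcomm τ σ, mul_inv_cancel_right] at this

end abstract

section numberField

variable (G K L : Type*) [Field K] [NumberField K] [Field L] [NumberField L] [Algebra K L]
  [Group G] [Finite G] [MulSemiringAction G L] [IsGaloisGroup G K L]

/-- `L / K` is unramified at `𝔭`: every prime of `𝓞 L` over `𝔭` has trivial inertia group -/
def m14art_Unram (𝔭 : Ideal (𝓞 K)) : Prop :=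
  ∀ 𝔮 : Ideal (𝓞 L), 𝔮.IsPrime → 𝔮.under (𝓞 K) = 𝔭 →
    ∀ σ : G, (∀ x : 𝓞 L, σ • x - x ∈ 𝔮) → σ = 1

open Classical in
/-- a Frobenius element at (some prime of `𝓞 L` over) `𝔭`; junk value `1` if there is none -/
noncomputable def m14art_frob (𝔭 : Ideal (𝓞 K)) : G :=
  if h : ∃ σ : G, ∃ 𝔮 : Ideal (𝓞 L), 𝔮.IsPrime ∧ 𝔮.under (𝓞 K) = 𝔭 ∧
      IsArithFrobAt (𝓞 K) σ 𝔮 then h.choose else 1

variable {G K L}

omit [NumberField K] [NumberField L] [Finite G] [IsGaloisGroup G K L] in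
theorem m14art_ne_bot_of_under {𝔭 : Ideal (𝓞 K)} (h0 : 𝔭 ≠ ⊥) {𝔮 : Ideal (𝓞 L)}
    (hu : 𝔮.under (𝓞 K) = 𝔭) : 𝔮 ≠ ⊥ := by
  rintro rfl
  apply h0
  rw [← hu]
  exact Ideal.under_bot (𝓞 K) (𝓞 L)

/-- to check unramifiedness at `𝔭` it suffices to look at one prime over `𝔭` -/
theorem m14art_unram_of_one {𝔭 : Ideal (𝓞 K)} (𝔮 : Ideal (𝓞 L)) [𝔮.IsPrime]
    (hu : 𝔮.under (𝓞 K) = 𝔭) (hI : ∀ σ : G, (∀ x : 𝓞 L, σ • x - x ∈ 𝔮) → σ = 1) :
    m14art_Unram G K L 𝔭 := by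
  intro 𝔮' h𝔮' hu' σ hσ
  obtain ⟨τ, hτ⟩ := Algebra.IsInvariant.exists_smul_of_under_eq (𝓞 K) (𝓞 L) G 𝔮 𝔮'
    (hu.trans hu'.symm)
  rw [hτ] at hσ
  exact m14art_inertia_smul hI τ σ hσ

/-- existence of a Frobenius at every nonzero prime of `𝓞 L` -/
theorem m14art_exists_frob (𝔮 : Ideal (𝓞 L)) [𝔮.IsPrime] (h0 : 𝔮 ≠ ⊥) :
    ∃ σ : G, IsArithFrobAt (𝓞 K) σ 𝔮 := by
  have : Finite (𝓞 L ⧸ 𝔮) := Ideal.finiteQuotientOfFreeOfNeBot 𝔮 h0
  exact IsArithFrobAt.exists_of_isInvariant (𝓞 K) G 𝔮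

/-- **The Frobenius of an abelian extension** is a Frobenius at every prime over `𝔭`. -/
theorem m14art_frob_spec (hcomm : ∀ a b : G, a * b = b * a) {𝔭 : Ideal (𝓞 K)} (h0 : 𝔭 ≠ ⊥)
    (𝔮 : Ideal (𝓞 L)) [𝔮.IsPrime] (hu : 𝔮.under (𝓞 K) = 𝔭) :
    IsArithFrobAt (𝓞 K) (m14art_frob G K L 𝔭) 𝔮 := by
  classical
  have hex : ∃ σ : G, ∃ 𝔮 : Ideal (𝓞 L), 𝔮.IsPrime ∧ 𝔮.under (𝓞 K) = 𝔭 ∧
      IsArithFrobAt (𝓞 K) σ 𝔮 := by
    obtain ⟨σ, hσ⟩ := m14art_exists_frob (G := G) (K := K) 𝔮 (m14art_ne_bot_of_under h0 hu)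
    exact ⟨σ, 𝔮, inferInstance, hu, hσ⟩
  have hdef : m14art_frob G K L 𝔭 = hex.choose := by
    unfold m14art_frob
    rw [dif_pos hex]
  obtain ⟨𝔮', h𝔮', hu', hσ⟩ := hex.choose_spec
  rw [hdef]
  obtain ⟨τ, hτ⟩ := Algebra.IsInvariant.exists_smul_of_under_eq (𝓞 K) (𝓞 L) G 𝔮' 𝔮
    (hu'.trans hu.symm)
  rw [hτ]
  exact m14art_isArithFrobAt_smul hcomm hσ τ

/-- unfolded form of `m14art_frob_spec` -/
theorem m14art_frob_sub_mem (hcomm : ∀ a b : G, a * b = b * a) {𝔭 : Ideal (𝓞 K)} (h0 : 𝔭 ≠ ⊥)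
    (𝔮 : Ideal (𝓞 L)) [𝔮.IsPrime] (hu : 𝔮.under (𝓞 K) = 𝔭) (x : 𝓞 L) :
    m14art_frob G K L 𝔭 • x - x ^ Nat.card (𝓞 K ⧸ 𝔭) ∈ 𝔮 := by
  have := m14art_frob_spec hcomm h0 𝔮 hu x
  rw [hu] at this
  simpa using this

/-- powers of the Frobenius -/
theorem m14art_frob_pow_sub_mem (hcomm : ∀ a b : G, a * b = b * a) {𝔭 : Ideal (𝓞 K)}
    (h0 : 𝔭 ≠ ⊥) (𝔮 : Ideal (𝓞 L)) [𝔮.IsPrime] (hu : 𝔮.under (𝓞 K) = 𝔭) (k : ℕ) (x : 𝓞 L) :
    (m14art_frob G K L 𝔭 ^ k) • x - x ^ Nat.card (𝓞 K ⧸ 𝔭) ^ k ∈ 𝔮 :=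
  m14art_pow_smul_sub_mem (m14art_frob_sub_mem hcomm h0 𝔮 hu) k x

/-- **Uniqueness of (powers of) the Frobenius at unramified primes.** -/
theorem m14art_eq_frob_pow (hcomm : ∀ a b : G, a * b = b * a) {𝔭 : Ideal (𝓞 K)}
    (h0 : 𝔭 ≠ ⊥) (hun : m14art_Unram G K L 𝔭) (𝔮 : Ideal (𝓞 L)) [h𝔮 : 𝔮.IsPrime]
    (hu : 𝔮.under (𝓞 K) = 𝔭) (σ : G) (k : ℕ)
    (hσ : ∀ x : 𝓞 L, σ • x - x ^ Nat.card (𝓞 K ⧸ 𝔭) ^ k ∈ 𝔮) :
    σ = m14art_frob G K L 𝔭 ^ k := by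
  apply m14art_eq_of_sub_mem (hun 𝔮 h𝔮 hu)
  intro x
  have h1 := hσ x
  have h2 := m14art_frob_pow_sub_mem hcomm h0 𝔮 hu k x
  have := sub_mem h1 h2
  rwa [sub_sub_sub_cancel_right] at this

/-- the Frobenius is trivial iff ... (one direction, at unramified primes): if the identity is a
Frobenius, then `Frob = 1` -/
theorem m14art_frob_eq_one_of (hcomm : ∀ a b : G, a * b = b * a) {𝔭 : Ideal (𝓞 K)}
    (h0 : 𝔭 ≠ ⊥) (hun : m14art_Unram G K L 𝔭) (𝔮 : Ideal (𝓞 L)) [h𝔮 : 𝔮.IsPrime]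
    (hu : 𝔮.under (𝓞 K) = 𝔭) (h1 : ∀ x : 𝓞 L, x - x ^ Nat.card (𝓞 K ⧸ 𝔭) ∈ 𝔮) :
    m14art_frob G K L 𝔭 = 1 := by
  have := m14art_eq_frob_pow hcomm h0 hun 𝔮 hu 1 1 (by simpa using h1)
  rw [pow_one] at this
  exact this.symm

end numberField

end Fermat.Agent.M14
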