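/-
M14 (S14 project), package ART, part 2: the Artin symbol on ideals for a finite abelian extension
`L / K` of number fields (Galois group: any finite group `G` with `[IsGaloisGroup G K L]`,
commutativity as an explicit hypothesis `hcomm`).

* `m14art_symbol G K L hcomm 𝔞 : G` : the product of the Frobenius elements of the prime factors
  of `𝔞` (with multiplicity).
* `m14art_symbol_mul`, `m14art_symbol_top`, `m14art_symbol_prime`, `m14art_symbol_pow`.
* `m14art_ideal_induction` : induction on the prime factorisation.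
* `m14art_symbol_smul_root` : the symbol of `𝔞` raises `m`-th roots of unity to the power
  `absNorm 𝔞` if `𝔞` is prime to `m`.
-/
import Mathlib
import Fermat.Agent.M14.ArtFrob

set_option autoImplicit false
set_option linter.unusedSectionVars false

open NumberField Ideal
open scoped Pointwise

namespace Fermat.Agent.M14

section mprod

variable {G : Type*} [Group G]

/-- the product of a multiset in a group all of whose elements commute -/
noncomputable def m14art_mprod (hcomm : ∀ a b : G, a * b = b * a) (s : Multiset G) : G :=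
  letI : CommGroup G := { (inferInstance : Group G) with mul_comm := hcomm }
  s.prod

theorem m14art_mprod_zero (hcomm : ∀ a b : G, a * b = b * a) : m14art_mprod hcomm 0 = 1 := by
  let _ : CommGroup G := { (inferInstance : Group G) with mul_comm := hcomm }
  exact Multiset.prod_zero

theorem m14art_mprod_add (hcomm : ∀ a b : G, a * b = b * a) (s t : Multiset G) :
    m14art_mprod hcomm (s + t) = m14art_mprod hcomm s * m14art_mprod hcomm t := by
  let _ : CommGroup G := { (inferInstance : Group G) with mul_comm := hcomm }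
  exact Multiset.prod_add s t

theorem m14art_mprod_singleton (hcomm : ∀ a b : G, a * b = b * a) (a : G) :
    m14art_mprod hcomm {a} = a := by
  let _ : CommGroup G := { (inferInstance : Group G) with mul_comm := hcomm }
  exact Multiset.prod_singleton a

end mprod

section ideals

variable {K : Type*} [Field K] [NumberField K]

/-- induction on the prime factorisation of a nonzero ideal -/
theorem m14art_ideal_induction {P : Ideal (𝓞 K) → Prop} (h1 : P ⊤)
    (hmul : ∀ 𝔭 𝔞 : Ideal (𝓞 K), 𝔭.IsPrime → 𝔭 ≠ ⊥ → 𝔞 ≠ ⊥ → P 𝔞 → P (𝔭 * 𝔞))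
    (𝔞 : Ideal (𝓞 K)) (h𝔞 : 𝔞 ≠ ⊥) : P 𝔞 := by
  revert h𝔞
  induction 𝔞 using UniqueFactorizationMonoid.induction_on_prime with
  | h₁ => intro h; exact absurd rfl h
  | h₂ x hx =>
    intro _
    rw [Ideal.isUnit_iff.mp hx]
    exact h1
  | h₃ a q ha hq ih =>
    intro _
    exact hmul q a (Ideal.isPrime_of_prime hq) hq.ne_zero ha (ih ha)

end ideals

section symbol

variable (G K L : Type*) [Field K] [NumberField K] [Field L] [NumberField L] [Algebra K L]
  [Group G] [Finite G] [MulSemiringAction G L] [IsGaloisGroup G K L]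

/-- **The Artin symbol** of the ideal `𝔞` in the abelian extension `L / K`: the product of the
Frobenius elements of the prime factors of `𝔞`. (Junk value `1` for `𝔞 = ⊥`.) -/
noncomputable def m14art_symbol (hcomm : ∀ a b : G, a * b = b * a) (𝔞 : Ideal (𝓞 K)) : G :=
  m14art_mprod hcomm ((UniqueFactorizationMonoid.normalizedFactors 𝔞).map (m14art_frob G K L))

variable {G K L} (hcomm : ∀ a b : G, a * b = b * a)

theorem m14art_symbol_mul (I J : Ideal (𝓞 K)) (hI : I ≠ ⊥) (hJ : J ≠ ⊥) :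
    m14art_symbol G K L hcomm (I * J) =
      m14art_symbol G K L hcomm I * m14art_symbol G K L hcomm J := by
  unfold m14art_symbol
  rw [UniqueFactorizationMonoid.normalizedFactors_mul hI hJ, Multiset.map_add, m14art_mprod_add]

theorem m14art_symbol_top : m14art_symbol G K L hcomm ⊤ = 1 := by
  unfold m14art_symbol
  rw [← Ideal.one_eq_top, UniqueFactorizationMonoid.normalizedFactors_one, Multiset.map_zero,
    m14art_mprod_zero]

theorem m14art_symbol_prime (𝔭 : Ideal (𝓞 K)) [h𝔭 : 𝔭.IsPrime] (h0 : 𝔭 ≠ ⊥) :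
    m14art_symbol G K L hcomm 𝔭 = m14art_frob G K L 𝔭 := by
  unfold m14art_symbol
  rw [UniqueFactorizationMonoid.normalizedFactors_irreducible
    (Ideal.prime_of_isPrime h0 h𝔭).irreducible, normalize_eq, Multiset.map_singleton,
    m14art_mprod_singleton]

theorem m14art_symbol_pow (I : Ideal (𝓞 K)) (hI : I ≠ ⊥) (k : ℕ) :
    m14art_symbol G K L hcomm (I ^ k) = m14art_symbol G K L hcomm I ^ k := by
  induction k with
  | zero => rw [pow_zero, pow_zero, Ideal.one_eq_top, m14art_symbol_top]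
  | succ k ih => rw [pow_succ, pow_succ, m14art_symbol_mul hcomm _ _ (pow_ne_zero k hI) hI, ih]

omit [NumberField L] [Finite G] [IsGaloisGroup G K L] in
/-- an integral element of `L` as an element of `𝓞 L` -/
theorem m14art_exists_integer_of_pow_eq_one {m : ℕ} (hm : m ≠ 0) (ζ : L) (hζ : ζ ^ m = 1) :
    ∃ z : 𝓞 L, (z : L) = ζ ∧ z ^ m = 1 := by
  have hint : IsIntegral ℤ ζ := by
    refine ⟨Polynomial.X ^ m - 1, Polynomial.monic_X_pow_sub_C 1 hm, ?_⟩
    simp [hζ]
  obtain ⟨z, hz⟩ : ∃ z : 𝓞 L, (z : L) = ζ := ⟨⟨ζ, hint⟩, rfl⟩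
  refine ⟨z, hz, ?_⟩
  apply RingOfIntegers.ext
  have : ((z ^ m : 𝓞 L) : L) = (z : L) ^ m := map_pow _ _ _
  rw [this, hz, hζ]
  exact (map_one _).symm

include hcomm in
/-- the Frobenius at `𝔭 ∤ m` raises `m`-th roots of unity to the power `absNorm 𝔭` -/
theorem m14art_frob_smul_root (𝔭 : Ideal (𝓞 K)) [h𝔭 : 𝔭.IsPrime] (h0 : 𝔭 ≠ ⊥) (m : ℕ)
    (hm : (m : 𝓞 K) ∉ 𝔭) (ζ : L) (hζ : ζ ^ m = 1) :
    m14art_frob G K L 𝔭 • ζ = ζ ^ absNorm 𝔭 := by
  have hm0 : m ≠ 0 := by
    rintro rfl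
    exact hm (by simp)
  obtain ⟨z, hz, hzm⟩ := m14art_exists_integer_of_pow_eq_one hm0 ζ hζ
  obtain ⟨𝔮, -, h𝔮, hu⟩ := Ideal.exists_ideal_over_prime_of_isIntegral (S := 𝓞 L) 𝔭 ⊥
    (by simp [Ideal.comap_bot_of_injective _ (FaithfulSMul.algebraMap_injective (𝓞 K) (𝓞 L))])
  have hu' : 𝔮.under (𝓞 K) = 𝔭 := hu
  have hspec := m14art_frob_spec (G := G) hcomm h0 𝔮 hu'
  have hm' : (m : 𝓞 L) ∉ 𝔮 := by
    intro h
    apply hm
    rw [← hu', Ideal.under_def, Ideal.mem_comap]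
    simpa using h
  have key := hspec.apply_of_pow_eq_one hzm hm'
  rw [hu', ← Submodule.cardQuot_apply, ← Ideal.absNorm_apply] at key
  have h2 : ((m14art_frob G K L 𝔭 • z : 𝓞 L) : L) = ((z ^ absNorm 𝔭 : 𝓞 L) : L) :=
    congrArg (fun x : 𝓞 L => (x : L)) key
  have h3 : ((z ^ absNorm 𝔭 : 𝓞 L) : L) = (z : L) ^ absNorm 𝔭 := map_pow _ _ _
  rw [h3, hz] at h2
  rw [← h2, ← hz]
  rfl

/-- **Artin symbol and roots of unity**: the symbol of an ideal `𝔞` prime to `m` raises the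
`m`-th roots of unity to the power `absNorm 𝔞`. -/
theorem m14art_symbol_smul_root (m : ℕ) (ζ : L) (hζ : ζ ^ m = 1)
    (𝔞 : Ideal (𝓞 K)) (h𝔞 : 𝔞 ≠ ⊥)
    (hm : ∀ 𝔭 : Ideal (𝓞 K), 𝔭.IsPrime → 𝔞 ≤ 𝔭 → (m : 𝓞 K) ∉ 𝔭) :
    m14art_symbol G K L hcomm 𝔞 • ζ = ζ ^ absNorm 𝔞 := by
  revert hm
  refine m14art_ideal_induction (P := fun 𝔞 => (∀ 𝔭 : Ideal (𝓞 K), 𝔭.IsPrime → 𝔞 ≤ 𝔭 →
    (m : 𝓞 K) ∉ 𝔭) → m14art_symbol G K L hcomm 𝔞 • ζ = ζ ^ absNorm 𝔞) ?_ ?_ 𝔞 h𝔞
  · intro _
    rw [m14art_symbol_top, one_smul, Ideal.absNorm_top, pow_one]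
  · intro 𝔭 𝔞 h𝔭 h0 h𝔞 ih hm
    rw [m14art_symbol_mul hcomm _ _ h0 h𝔞, m14art_symbol_prime hcomm 𝔭 h0, mul_smul,
      ih (fun 𝔮 h𝔮 hle => hm 𝔮 h𝔮 (Ideal.mul_le_right.trans hle)), smul_pow',
      m14art_frob_smul_root hcomm 𝔭 h0 m (hm 𝔭 h𝔭 Ideal.mul_le_left) ζ hζ, map_mul, ← pow_mul]

end symbol

end Fermat.Agent.M14
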