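/-
M14 (S14 project), package ART, part 3: norms, splitting, restriction and base change.

Setting: `L / K` abelian with group `G` (`[IsGaloisGroup G K L]`, `hcomm`).

* `m14art_symbol_relNorm` : norms from `L` are in the kernel of the Artin symbol of `L / K`
  (at unramified primes).
* `m14art_relNorm_eq_of_fixes` : if the Frobenius of `𝔭` fixes the intermediate field `E`
  pointwise, then every prime `𝔓` of `E` over `𝔭` has `relNorm 𝔓 = 𝔭` (residue degree one).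
  `m14art_relNorm_eq_of_frob_eq_one` : the case `E = L`.
* `m14art_restrict_sub_mem` : restriction of "power maps modulo a prime" from `M` to `L ⊆ M`.
* `m14art_map_symbol_baseChange` : for `K ⊆ F`, `L ⊆ M`, `M / F` abelian with group `G'` and
  `r : G' → G` the restriction: `r (symbol_{M/F} 𝔄) = symbol_{L/K} (relNorm 𝔄)`.
* `m14art_map_symbol_restrict` : for `K ⊆ L ⊆ M`: `r (symbol_{M/K} 𝔞) = symbol_{L/K} 𝔞`.
* `m14art_inertia_smul_root`, `m14art_unram_of_restrict` : unramifiedness of composita with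
  cyclotomic extensions.
-/
import Mathlib
import Fermat.Agent.M14.ArtFrob
import Fermat.Agent.M14.ArtSymbol

set_option autoImplicit false
set_option linter.unusedSectionVars false

open NumberField Ideal
open scoped Pointwise

namespace Fermat.Agent.M14

/-- a finite field all of whose elements satisfy `y ^ q = y` has at most `q` elements -/
theorem m14art_card_le_of_forall_pow_eq {k : Type*} [Field k] [Finite k] (q : ℕ) (hq : 1 < q)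
    (h : ∀ y : k, y ^ q = y) : Nat.card k ≤ q := by
  classical
  have := Fintype.ofFinite k
  have h1 := Polynomial.card_le_degree_of_subset_roots (R := k)
    (p := Polynomial.X ^ q - Polynomial.X) (Z := Finset.univ) (fun x _ => by
      rw [Polynomial.mem_roots', Polynomial.IsRoot, Polynomial.eval_sub, Polynomial.eval_pow,
        Polynomial.eval_X, h x, sub_self]
      refine ⟨fun h0 => ?_, rfl⟩
      have := FiniteField.X_pow_card_sub_X_natDegree_eq k hq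
      rw [h0, Polynomial.natDegree_zero] at this
      omega)
  rw [FiniteField.X_pow_card_sub_X_natDegree_eq k hq, Finset.card_univ] at h1
  rwa [Nat.card_eq_fintype_card]

section primes

variable {K L : Type*} [Field K] [NumberField K] [Field L] [NumberField L] [Algebra K L]

theorem m14art_isMaximal {𝔭 : Ideal (𝓞 K)} (h𝔭 : 𝔭.IsPrime) (h0 : 𝔭 ≠ ⊥) : 𝔭.IsMaximal :=
  h𝔭.isMaximal h0

/-- `N 𝔮 = (N 𝔭) ^ f` -/
theorem m14art_card_quot_eq {𝔭 : Ideal (𝓞 K)} [h𝔭 : 𝔭.IsPrime] (h0 : 𝔭 ≠ ⊥)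
    (𝔮 : Ideal (𝓞 L)) [h𝔮 : 𝔮.IsPrime] (hu : 𝔮.under (𝓞 K) = 𝔭) :
    Nat.card (𝓞 L ⧸ 𝔮) = Nat.card (𝓞 K ⧸ 𝔭) ^ 𝔮.inertiaDeg (𝓞 K) := by
  have := m14art_isMaximal h𝔭 h0
  have := m14art_isMaximal h𝔮 (m14art_ne_bot_of_under h0 hu)
  have : 𝔮.LiesOver 𝔭 := ⟨hu.symm⟩
  have := Ideal.cardQuot_pow_inertiaDeg 𝔭 𝔮
  rw [Submodule.cardQuot_apply, Submodule.cardQuot_apply] at this
  exact this.symm

/-- `N_{L/K} 𝔮 = 𝔭 ^ f` -/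
theorem m14art_relNorm_prime {𝔭 : Ideal (𝓞 K)} [h𝔭 : 𝔭.IsPrime] (h0 : 𝔭 ≠ ⊥)
    (𝔮 : Ideal (𝓞 L)) [h𝔮 : 𝔮.IsPrime] (hu : 𝔮.under (𝓞 K) = 𝔭) :
    relNorm (𝓞 K) 𝔮 = 𝔭 ^ 𝔮.inertiaDeg (𝓞 K) := by
  have := m14art_isMaximal h𝔭 h0
  have := m14art_isMaximal h𝔮 (m14art_ne_bot_of_under h0 hu)
  have : 𝔮.LiesOver 𝔭 := ⟨hu.symm⟩
  exact Ideal.relNorm_eq_pow_of_isMaximal 𝔮 𝔭

theorem m14art_one_lt_card_quot {𝔭 : Ideal (𝓞 K)} [h𝔭 : 𝔭.IsPrime] (h0 : 𝔭 ≠ ⊥) :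
    1 < Nat.card (𝓞 K ⧸ 𝔭) := by
  have : Finite (𝓞 K ⧸ 𝔭) := Ideal.finiteQuotientOfFreeOfNeBot 𝔭 h0
  have : Nontrivial (𝓞 K ⧸ 𝔭) := Ideal.Quotient.nontrivial_iff.mpr h𝔭.ne_top
  exact Finite.one_lt_card

/-- Fermat's little theorem in `𝓞 L ⧸ 𝔮` -/
theorem m14art_sub_pow_card_mem (𝔮 : Ideal (𝓞 L)) [h𝔮 : 𝔮.IsPrime] (h0 : 𝔮 ≠ ⊥) (x : 𝓞 L) :
    x - x ^ Nat.card (𝓞 L ⧸ 𝔮) ∈ 𝔮 := by
  classical
  have hmax := m14art_isMaximal h𝔮 h0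
  letI := Ideal.Quotient.field 𝔮
  have : Finite (𝓞 L ⧸ 𝔮) := Ideal.finiteQuotientOfFreeOfNeBot 𝔮 h0
  have := Fintype.ofFinite (𝓞 L ⧸ 𝔮)
  rw [← Ideal.Quotient.eq_zero_iff_mem, map_sub, map_pow, Nat.card_eq_fintype_card,
    FiniteField.pow_card, sub_self]

/-- existence of a prime above -/
theorem m14art_exists_over (𝔭 : Ideal (𝓞 K)) [h𝔭 : 𝔭.IsPrime] :
    ∃ 𝔮 : Ideal (𝓞 L), 𝔮.IsPrime ∧ 𝔮.under (𝓞 K) = 𝔭 := by
  obtain ⟨𝔮, -, h𝔮, hu⟩ := Ideal.exists_ideal_over_prime_of_isIntegral (S := 𝓞 L) 𝔭 ⊥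
    (by simp [Ideal.comap_bot_of_injective _ (FaithfulSMul.algebraMap_injective (𝓞 K) (𝓞 L))])
  exact ⟨𝔮, h𝔮, hu⟩

/-- residue degree one from `x ^ q ≡ x` -/
theorem m14art_relNorm_eq_of_pow_card {𝔭 : Ideal (𝓞 K)} [h𝔭 : 𝔭.IsPrime] (h0 : 𝔭 ≠ ⊥)
    (𝔮 : Ideal (𝓞 L)) [h𝔮 : 𝔮.IsPrime] (hu : 𝔮.under (𝓞 K) = 𝔭)
    (h : ∀ x : 𝓞 L, x - x ^ Nat.card (𝓞 K ⧸ 𝔭) ∈ 𝔮) : relNorm (𝓞 K) 𝔮 = 𝔭 := by
  have h𝔮0 := m14art_ne_bot_of_under h0 hu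
  have hmax := m14art_isMaximal h𝔮 h𝔮0
  letI := Ideal.Quotient.field 𝔮
  have : Finite (𝓞 L ⧸ 𝔮) := Ideal.finiteQuotientOfFreeOfNeBot 𝔮 h𝔮0
  have hq := m14art_one_lt_card_quot h0
  have h1 : Nat.card (𝓞 L ⧸ 𝔮) ≤ Nat.card (𝓞 K ⧸ 𝔭) := by
    apply m14art_card_le_of_forall_pow_eq _ hq
    intro y
    obtain ⟨x, rfl⟩ := Ideal.Quotient.mk_surjective y
    have := h x
    rw [← Ideal.Quotient.eq_zero_iff_mem, map_sub, map_pow, sub_eq_zero] at this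
    exact this.symm
  rw [m14art_card_quot_eq h0 𝔮 hu] at h1
  have hf : 𝔮.inertiaDeg (𝓞 K) = 1 := by
    have hpos : 0 < 𝔮.inertiaDeg (𝓞 K) := Ideal.inertiaDeg_pos 𝔮 (𝓞 K)
    by_contra hne
    have h2 : 2 ≤ 𝔮.inertiaDeg (𝓞 K) := by omega
    have h3 : Nat.card (𝓞 K ⧸ 𝔭) ^ 1 < Nat.card (𝓞 K ⧸ 𝔭) ^ 𝔮.inertiaDeg (𝓞 K) :=
      Nat.pow_lt_pow_right hq h2
    rw [pow_one] at h3
    omega
  rw [m14art_relNorm_prime h0 𝔮 hu, hf, pow_one]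

end primes

section norms

variable {G K L : Type*} [Field K] [NumberField K] [Field L] [NumberField L] [Algebra K L]
  [Group G] [Finite G] [MulSemiringAction G L] [IsGaloisGroup G K L]
  (hcomm : ∀ a b : G, a * b = b * a)

include hcomm in
/-- `Frob_𝔭 ^ f = 1` at unramified primes -/
theorem m14art_frob_pow_inertiaDeg {𝔭 : Ideal (𝓞 K)} [h𝔭 : 𝔭.IsPrime] (h0 : 𝔭 ≠ ⊥)
    (hun : m14art_Unram G K L 𝔭) (𝔮 : Ideal (𝓞 L)) [h𝔮 : 𝔮.IsPrime]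
    (hu : 𝔮.under (𝓞 K) = 𝔭) : m14art_frob G K L 𝔭 ^ 𝔮.inertiaDeg (𝓞 K) = 1 := by
  symm
  apply m14art_eq_frob_pow hcomm h0 hun 𝔮 hu
  intro x
  rw [one_smul, ← m14art_card_quot_eq h0 𝔮 hu]
  exact m14art_sub_pow_card_mem 𝔮 (m14art_ne_bot_of_under h0 hu) x

/-- **Norms are in the kernel of the Artin symbol.** -/
theorem m14art_symbol_relNorm (𝔄 : Ideal (𝓞 L)) (h𝔄 : 𝔄 ≠ ⊥)
    (hun : ∀ 𝔔 : Ideal (𝓞 L), 𝔔.IsPrime → 𝔄 ≤ 𝔔 → m14art_Unram G K L (𝔔.under (𝓞 K))) :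
    m14art_symbol G K L hcomm (relNorm (𝓞 K) 𝔄) = 1 := by
  revert hun
  refine m14art_ideal_induction (P := fun 𝔄 => (∀ 𝔔 : Ideal (𝓞 L), 𝔔.IsPrime → 𝔄 ≤ 𝔔 →
    m14art_Unram G K L (𝔔.under (𝓞 K))) → m14art_symbol G K L hcomm (relNorm (𝓞 K) 𝔄) = 1)
    ?_ ?_ 𝔄 h𝔄
  · intro _
    rw [Ideal.relNorm_top, m14art_symbol_top]
  · intro 𝔔 𝔄 h𝔔 h0 h𝔄 ih hun
    have hun𝔔 := hun 𝔔 h𝔔 Ideal.mul_le_left
    have h𝔭 : (𝔔.under (𝓞 K)).IsPrime := inferInstance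
    have h𝔭0 : 𝔔.under (𝓞 K) ≠ ⊥ := by
      intro h
      exact h0 (Ideal.eq_bot_of_comap_eq_bot h)
    rw [map_mul, m14art_symbol_mul hcomm _ _ (by rwa [Ne, Ideal.relNorm_eq_bot_iff])
      (by rwa [Ne, Ideal.relNorm_eq_bot_iff]),
      ih (fun 𝔔' h𝔔' hle => hun 𝔔' h𝔔' (Ideal.mul_le_right.trans hle)), mul_one,
      m14art_relNorm_prime h𝔭0 𝔔 rfl, m14art_symbol_pow hcomm _ h𝔭0,
      m14art_symbol_prime hcomm _ h𝔭0]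
    exact m14art_frob_pow_inertiaDeg hcomm h𝔭0 hun𝔔 𝔔 rfl

end norms

end Fermat.Agent.M14
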