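/-
M14 (S14 project), package ART, part 4: splitting, restriction and base change of the Artin
symbol, unramifiedness of composita.

Setting: `L / K` abelian with group `G`, `M / F` abelian with group `G'`, `K ⊆ F`, `L ⊆ M`,
`r : G' → G` the restriction map (`hr : algebraMap L M (r σ • x) = σ • algebraMap L M x`).

* `m14art_relNorm_eq_of_frob_eq_one`, `m14art_relNorm_eq_of_fixes` : splitting.
* `m14art_restrict_sub_mem` : restriction of "power maps modulo a prime" from `M` to `L ⊆ M`.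
* `m14art_map_symbol_baseChange` : `r (symbol_{M/F} 𝔄) = symbol_{L/K} (relNorm 𝔄)`.
* `m14art_map_symbol_restrict` : for `K ⊆ L ⊆ M`: `r (symbol_{M/K} 𝔞) = symbol_{L/K} 𝔞`.
* `m14art_inertia_smul_root`, `m14art_unram_of_restrict` : unramifiedness of composita with
  cyclotomic extensions.
-/
import Mathlib
import Fermat.Agent.M14.ArtFrob
import Fermat.Agent.M14.ArtSymbol
import Fermat.Agent.M14.ArtNorm

set_option autoImplicit false
set_option linter.unusedSectionVars false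

open NumberField Ideal
open scoped Pointwise

namespace Fermat.Agent.M14

section coe

variable {L M : Type*} [Field L] [NumberField L] [Field M] [NumberField M] [Algebra L M]

theorem m14art_coe_algebraMap (x : 𝓞 L) :
    ((algebraMap (𝓞 L) (𝓞 M) x : 𝓞 M) : M) = algebraMap L M (x : L) :=
  (IsScalarTower.algebraMap_apply (𝓞 L) (𝓞 M) M x).symm.trans
    (IsScalarTower.algebraMap_apply (𝓞 L) L M x)

theorem m14art_coe_smul {G : Type*} [Group G] [MulSemiringAction G L] (σ : G) (x : 𝓞 L) :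
    ((σ • x : 𝓞 L) : L) = σ • (x : L) := rfl

variable {G G' : Type*} [Group G] [MulSemiringAction G L] [Group G'] [MulSemiringAction G' M]
  (r : G' → G) (hr : ∀ (σ : G') (x : L), algebraMap L M (r σ • x) = σ • algebraMap L M x)

include hr in
/-- the restriction map is compatible with the actions on the rings of integers -/
theorem m14art_algebraMap_smul_int (σ : G') (x : 𝓞 L) :
    algebraMap (𝓞 L) (𝓞 M) (r σ • x) = σ • algebraMap (𝓞 L) (𝓞 M) x := by
  apply RingOfIntegers.ext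
  rw [m14art_coe_algebraMap, m14art_coe_smul, m14art_coe_smul, m14art_coe_algebraMap, hr]

include hr in
/-- **Restriction of power maps**: if `σ` acts as the `n`-th power map modulo the prime `𝔔` of
`M`, then its restriction `r σ` acts as the `n`-th power map modulo `𝔔 ∩ L`. -/
theorem m14art_restrict_sub_mem (𝔔 : Ideal (𝓞 M)) (σ : G') (n : ℕ)
    (h : ∀ y : 𝓞 M, σ • y - y ^ n ∈ 𝔔) (x : 𝓞 L) :
    r σ • x - x ^ n ∈ 𝔔.under (𝓞 L) := by
  rw [Ideal.under_def, Ideal.mem_comap, map_sub, map_pow, m14art_algebraMap_smul_int r hr]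
  exact h _

include hr in
/-- the restriction of an inertia element is an inertia element -/
theorem m14art_restrict_inertia (𝔔 : Ideal (𝓞 M)) (σ : G')
    (h : ∀ y : 𝓞 M, σ • y - y ∈ 𝔔) (x : 𝓞 L) :
    r σ • x - x ∈ 𝔔.under (𝓞 L) := by
  have := m14art_restrict_sub_mem r hr 𝔔 σ 1 (by simpa using h) x
  simpa using this

end coe

section split

variable {G K L : Type*} [Field K] [NumberField K] [Field L] [NumberField L] [Algebra K L]
  [Group G] [Finite G] [MulSemiringAction G L] [IsGaloisGroup G K L]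
  (hcomm : ∀ a b : G, a * b = b * a)

include hcomm in
/-- **Splitting**: if `Frob_𝔭 = 1`, every prime of `L` over `𝔭` has relative norm `𝔭`. -/
theorem m14art_relNorm_eq_of_frob_eq_one {𝔭 : Ideal (𝓞 K)} [h𝔭 : 𝔭.IsPrime] (h0 : 𝔭 ≠ ⊥)
    (h1 : m14art_frob G K L 𝔭 = 1) (𝔮 : Ideal (𝓞 L)) [h𝔮 : 𝔮.IsPrime]
    (hu : 𝔮.under (𝓞 K) = 𝔭) : relNorm (𝓞 K) 𝔮 = 𝔭 := by
  apply m14art_relNorm_eq_of_pow_card h0 𝔮 hu
  intro x
  have := m14art_frob_sub_mem (G := G) hcomm h0 𝔮 hu x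
  rwa [h1, one_smul] at this

include hcomm in
/-- **Splitting in an intermediate field**: if `Frob_𝔭 ∈ Gal(L/K)` fixes the intermediate field
`E` pointwise, every prime of `E` over `𝔭` has relative norm `𝔭`. -/
theorem m14art_relNorm_eq_of_fixes {E : Type*} [Field E] [NumberField E] [Algebra K E]
    [Algebra E L] [IsScalarTower K E L] {𝔭 : Ideal (𝓞 K)} [h𝔭 : 𝔭.IsPrime] (h0 : 𝔭 ≠ ⊥)
    (hfix : ∀ x : E, m14art_frob G K L 𝔭 • algebraMap E L x = algebraMap E L x)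
    (𝔓 : Ideal (𝓞 E)) [h𝔓 : 𝔓.IsPrime] (hu : 𝔓.under (𝓞 K) = 𝔭) :
    relNorm (𝓞 K) 𝔓 = 𝔭 := by
  apply m14art_relNorm_eq_of_pow_card h0 𝔓 hu
  intro x
  obtain ⟨𝔔, h𝔔, hu𝔔⟩ := m14art_exists_over (L := L) 𝔓
  have hu' : 𝔔.under (𝓞 K) = 𝔭 := by
    rw [← Ideal.under_under (B := 𝓞 E), hu𝔔, hu]
  have := m14art_frob_sub_mem (G := G) hcomm h0 𝔔 hu' (algebraMap (𝓞 E) (𝓞 L) x)
  have hfix' : m14art_frob G K L 𝔭 • algebraMap (𝓞 E) (𝓞 L) x = algebraMap (𝓞 E) (𝓞 L) x := by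
    apply RingOfIntegers.ext
    rw [m14art_coe_smul, m14art_coe_algebraMap, hfix]
  rw [hfix', ← map_pow, ← map_sub] at this
  rw [← hu𝔔]
  exact this

end split

section baseChange

variable {G K L G' F M : Type*} [Field K] [NumberField K] [Field L] [NumberField L]
  [Algebra K L] [Group G] [Finite G] [MulSemiringAction G L] [IsGaloisGroup G K L]
  [Field F] [NumberField F] [Field M] [NumberField M] [Algebra F M]
  [Group G'] [Finite G'] [MulSemiringAction G' M] [IsGaloisGroup G' F M]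
  [Algebra L M]
  (hcomm : ∀ a b : G, a * b = b * a) (hcomm' : ∀ a b : G', a * b = b * a)
  (r : G' → G) (hr : ∀ (σ : G') (x : L), algebraMap L M (r σ • x) = σ • algebraMap L M x)

include hr in
theorem m14art_map_mul (K : Type*) [Field K] [Algebra K L] [IsGaloisGroup G K L] (σ τ : G') :
    r (σ * τ) = r σ * r τ := by
  apply (IsGaloisGroup.faithful K : FaithfulSMul G L).eq_of_smul_eq_smul
  intro x
  apply (algebraMap L M).injective
  rw [hr, mul_smul, mul_smul, hr, hr]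

include hr in
theorem m14art_map_one (K : Type*) [Field K] [Algebra K L] [IsGaloisGroup G K L] :
    r 1 = 1 := by
  apply (IsGaloisGroup.faithful K : FaithfulSMul G L).eq_of_smul_eq_smul
  intro x
  apply (algebraMap L M).injective
  rw [hr, one_smul, one_smul]

include hr in
theorem m14art_map_pow (K : Type*) [Field K] [Algebra K L] [IsGaloisGroup G K L] (σ : G')
    (k : ℕ) : r (σ ^ k) = r σ ^ k := by
  induction k with
  | zero => rw [pow_zero, pow_zero, m14art_map_one r hr K]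
  | succ k ih => rw [pow_succ, pow_succ, m14art_map_mul r hr K, ih]

variable [Algebra K F] [Algebra K M] [IsScalarTower K F M] [IsScalarTower K L M]

include hcomm hcomm' hr in
/-- base change for Frobenius elements -/
theorem m14art_map_frob_baseChange (𝔓 : Ideal (𝓞 F)) [h𝔓 : 𝔓.IsPrime] (h0 : 𝔓 ≠ ⊥)
    (hun : m14art_Unram G K L (𝔓.under (𝓞 K))) :
    r (m14art_frob G' F M 𝔓) = m14art_frob G K L (𝔓.under (𝓞 K)) ^ 𝔓.inertiaDeg (𝓞 K) := by
  have h𝔭0 : 𝔓.under (𝓞 K) ≠ ⊥ := by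
    intro h
    exact h0 (Ideal.eq_bot_of_comap_eq_bot h)
  obtain ⟨𝔔, h𝔔, hu𝔔⟩ := m14art_exists_over (L := M) 𝔓
  have hu' : (𝔔.under (𝓞 L)).under (𝓞 K) = 𝔓.under (𝓞 K) := by
    rw [Ideal.under_under, ← Ideal.under_under (B := 𝓞 F) 𝔔, hu𝔔]
  apply m14art_eq_frob_pow hcomm h𝔭0 hun (𝔔.under (𝓞 L)) hu'
  intro x
  rw [← m14art_card_quot_eq h𝔭0 𝔓 rfl]
  exact m14art_restrict_sub_mem r hr 𝔔 _ _ (m14art_frob_sub_mem (G := G') hcomm' h0 𝔔 hu𝔔) x

include hr in
/-- **Base change for the Artin symbol**: for `K ⊆ F`, `L ⊆ M`,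
`(symbol_{M/F} 𝔄)|_L = symbol_{L/K} (N_{F/K} 𝔄)` (at primes of `K` unramified in `L`). -/
theorem m14art_map_symbol_baseChange (𝔄 : Ideal (𝓞 F)) (h𝔄 : 𝔄 ≠ ⊥)
    (hun : ∀ 𝔓 : Ideal (𝓞 F), 𝔓.IsPrime → 𝔄 ≤ 𝔓 → m14art_Unram G K L (𝔓.under (𝓞 K))) :
    r (m14art_symbol G' F M hcomm' 𝔄) = m14art_symbol G K L hcomm (relNorm (𝓞 K) 𝔄) := by
  revert hun
  refine m14art_ideal_induction (P := fun 𝔄 => (∀ 𝔓 : Ideal (𝓞 F), 𝔓.IsPrime → 𝔄 ≤ 𝔓 →
    m14art_Unram G K L (𝔓.under (𝓞 K))) →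
    r (m14art_symbol G' F M hcomm' 𝔄) = m14art_symbol G K L hcomm (relNorm (𝓞 K) 𝔄))
    ?_ ?_ 𝔄 h𝔄
  · intro _
    rw [Ideal.relNorm_top, m14art_symbol_top, m14art_symbol_top, m14art_map_one r hr K]
  · intro 𝔓 𝔄 h𝔓 h0 h𝔄 ih hun
    have hun𝔓 := hun 𝔓 h𝔓 Ideal.mul_le_left
    have h𝔭0 : 𝔓.under (𝓞 K) ≠ ⊥ := by
      intro h
      exact h0 (Ideal.eq_bot_of_comap_eq_bot h)
    rw [m14art_symbol_mul hcomm' _ _ h0 h𝔄, m14art_map_mul r hr K, m14art_symbol_prime hcomm' 𝔓 h0,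
      ih (fun 𝔓' h𝔓' hle => hun 𝔓' h𝔓' (Ideal.mul_le_right.trans hle)),
      m14art_map_frob_baseChange hcomm hcomm' r hr 𝔓 h0 hun𝔓, map_mul,
      m14art_symbol_mul hcomm _ _ (by rwa [Ne, Ideal.relNorm_eq_bot_iff])
      (by rwa [Ne, Ideal.relNorm_eq_bot_iff]), m14art_relNorm_prime h𝔭0 𝔓 rfl,
      m14art_symbol_pow hcomm _ h𝔭0, m14art_symbol_prime hcomm _ h𝔭0]

end baseChange

section restrict

variable {G K L G' M : Type*} [Field K] [NumberField K] [Field L] [NumberField L]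
  [Algebra K L] [Group G] [Finite G] [MulSemiringAction G L] [IsGaloisGroup G K L]
  [Field M] [NumberField M] [Algebra K M]
  [Group G'] [Finite G'] [MulSemiringAction G' M] [IsGaloisGroup G' K M]
  [Algebra L M] [IsScalarTower K L M]
  (hcomm : ∀ a b : G, a * b = b * a) (hcomm' : ∀ a b : G', a * b = b * a)
  (r : G' → G) (hr : ∀ (σ : G') (x : L), algebraMap L M (r σ • x) = σ • algebraMap L M x)

include hcomm hcomm' hr in
/-- restriction for Frobenius elements -/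
theorem m14art_map_frob_restrict (𝔭 : Ideal (𝓞 K)) [h𝔭 : 𝔭.IsPrime] (h0 : 𝔭 ≠ ⊥)
    (hun : m14art_Unram G K L 𝔭) :
    r (m14art_frob G' K M 𝔭) = m14art_frob G K L 𝔭 := by
  obtain ⟨𝔔, h𝔔, hu𝔔⟩ := m14art_exists_over (L := M) 𝔭
  have hu' : (𝔔.under (𝓞 L)).under (𝓞 K) = 𝔭 := by
    rw [Ideal.under_under, hu𝔔]
  have := m14art_eq_frob_pow hcomm h0 hun (𝔔.under (𝓞 L)) hu' (r (m14art_frob G' K M 𝔭)) 1
    (fun x => by
      rw [pow_one]
      exact m14art_restrict_sub_mem r hr 𝔔 _ _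
        (m14art_frob_sub_mem (G := G') hcomm' h0 𝔔 hu𝔔) x)
  rwa [pow_one] at this

include hr in
/-- **Restriction of the Artin symbol** to a subextension `K ⊆ L ⊆ M`
(at primes of `K` unramified in `L`). -/
theorem m14art_map_symbol_restrict (𝔞 : Ideal (𝓞 K)) (h𝔞 : 𝔞 ≠ ⊥)
    (hun : ∀ 𝔭 : Ideal (𝓞 K), 𝔭.IsPrime → 𝔞 ≤ 𝔭 → m14art_Unram G K L 𝔭) :
    r (m14art_symbol G' K M hcomm' 𝔞) = m14art_symbol G K L hcomm 𝔞 := by
  revert hun
  refine m14art_ideal_induction (P := fun 𝔞 => (∀ 𝔭 : Ideal (𝓞 K), 𝔭.IsPrime → 𝔞 ≤ 𝔭 →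
    m14art_Unram G K L 𝔭) →
    r (m14art_symbol G' K M hcomm' 𝔞) = m14art_symbol G K L hcomm 𝔞) ?_ ?_ 𝔞 h𝔞
  · intro _
    rw [m14art_symbol_top, m14art_symbol_top, m14art_map_one r hr K]
  · intro 𝔭 𝔞 h𝔭 h0 h𝔞 ih hun
    rw [m14art_symbol_mul hcomm' _ _ h0 h𝔞, m14art_map_mul r hr K, m14art_symbol_prime hcomm' 𝔭 h0,
      ih (fun 𝔭' h𝔭' hle => hun 𝔭' h𝔭' (Ideal.mul_le_right.trans hle)),
      m14art_map_frob_restrict hcomm hcomm' r hr 𝔭 h0 (hun 𝔭 h𝔭 Ideal.mul_le_left),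
      m14art_symbol_mul hcomm _ _ h0 h𝔞, m14art_symbol_prime hcomm 𝔭 h0]

end restrict

section unram

variable {G' F M : Type*} [Field F] [NumberField F] [Field M] [NumberField M] [Algebra F M]
  [Group G'] [Finite G'] [MulSemiringAction G' M] [IsGaloisGroup G' F M]

variable (F) in
include F in
/-- an element of the inertia group at `𝔔 ∤ m` fixes the `m`-th roots of unity -/
theorem m14art_inertia_smul_root (𝔔 : Ideal (𝓞 M)) [h𝔔 : 𝔔.IsPrime] (h0 : 𝔔 ≠ ⊥) (σ : G')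
    (hσ : ∀ y : 𝓞 M, σ • y - y ∈ 𝔔) (m : ℕ) (hm : (m : 𝓞 M) ∉ 𝔔) (ζ : M) (hζ : ζ ^ m = 1) :
    σ • ζ = ζ := by
  have hm0 : m ≠ 0 := by
    rintro rfl
    exact hm (by simp)
  obtain ⟨φ, hφ⟩ := m14art_exists_frob (G := G') (K := F) 𝔔 h0
  -- `σ * φ` is a Frobenius as well
  have hσφ : IsArithFrobAt (𝓞 F) (σ * φ) 𝔔 := by
    intro y
    have h1 := hσ (φ • y)
    have h2 := hφ y
    have := add_mem h1 h2
    simp only [MulSemiringAction.toAlgHom_apply] at h2 this ⊢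
    rwa [sub_add_sub_cancel, ← mul_smul] at this
  obtain ⟨z, hz, hzm⟩ := m14art_exists_integer_of_pow_eq_one hm0 (φ⁻¹ • ζ)
    (by rw [← smul_pow', hζ, smul_one])
  have k1 := hφ.apply_of_pow_eq_one hzm hm
  have k2 := hσφ.apply_of_pow_eq_one hzm hm
  simp only [MulSemiringAction.toAlgHom_apply] at k1 k2
  have k3 : (σ * φ) • z = φ • z := k2.trans k1.symm
  have k4 : (((σ * φ) • z : 𝓞 M) : M) = ((φ • z : 𝓞 M) : M) := by rw [k3]
  rw [m14art_coe_smul, m14art_coe_smul, hz, mul_smul, smul_inv_smul] at k4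
  exact k4

variable {G K L : Type*} [Field K] [NumberField K] [Field L] [NumberField L]
  [Algebra K L] [Group G] [Finite G] [MulSemiringAction G L] [IsGaloisGroup G K L]
  [Algebra L M] [Algebra K F] [Algebra K M] [IsScalarTower K F M] [IsScalarTower K L M]
  (r : G' → G) (hr : ∀ (σ : G') (x : L), algebraMap L M (r σ • x) = σ • algebraMap L M x)

include hr in
/-- **Unramifiedness of a compositum** `M = L · F(ζ)`: if `L / K` is unramified at the prime
below `𝔓`, `ζ ^ m = 1`, `𝔓 ∤ m`, and an element of `G'` is determined by its restriction to `L`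
and its value on `ζ`, then `M / F` is unramified at `𝔓`. (Take `ζ = 1`, `m = 1` for a pure base
change, `G = Unit`-like trivial data for a pure cyclotomic extension.) -/
theorem m14art_unram_of_restrict (m : ℕ) (ζ : M) (hζ : ζ ^ m = 1)
    (hinj : ∀ σ : G', r σ = 1 → σ • ζ = ζ → σ = 1)
    (𝔓 : Ideal (𝓞 F)) (h0 : 𝔓 ≠ ⊥) (hm : (m : 𝓞 F) ∉ 𝔓)
    (hun : m14art_Unram G K L (𝔓.under (𝓞 K))) : m14art_Unram G' F M 𝔓 := by
  intro 𝔔 h𝔔 hu σ hσ
  have h𝔔0 : 𝔔 ≠ ⊥ := m14art_ne_bot_of_under h0 hu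
  apply hinj
  · apply hun (𝔔.under (𝓞 L)) inferInstance
    · rw [Ideal.under_under, ← Ideal.under_under (B := 𝓞 F) 𝔔, hu]
    · exact m14art_restrict_inertia r hr 𝔔 σ hσ
  · apply m14art_inertia_smul_root F 𝔔 h𝔔0 σ hσ m _ ζ hζ
    intro h
    apply hm
    rw [← hu, Ideal.under_def, Ideal.mem_comap]
    simpa using h

end unram

end Fermat.Agent.M14
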