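/-
M14 (S14 project), package ART, end theorem: `m14art_main` = the statement `m14x_ART`
(an abelian extension `Ω / K` of number fields, unramified (inertia form) outside `m`, has a
Frobenius map `Fr` on the primes of `K` with the residue degree formula (ART2) for all
intermediate fields: `relNorm 𝔓 = 𝔭 ^ n`, `n` = order of `Fr 𝔭` modulo `Gal(Ω/E)`).
-/
import Mathlib
import Fermat.Agent.M14.CrossDefs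
import Fermat.Agent.M14.ArtFrob
import Fermat.Agent.M14.ArtSymbol
import Fermat.Agent.M14.ArtNorm
import Fermat.Agent.M14.ArtRes

set_option autoImplicit false
set_option linter.unusedSectionVars false

open NumberField Ideal
open scoped Pointwise

namespace Fermat.Agent.M14

section general

variable {K L : Type*} [Field K] [NumberField K] [Field L] [NumberField L] [Algebra K L]

/-- residue degree `≤ n` from `x ^ (q ^ n) ≡ x` -/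
theorem m14art_inertiaDeg_le_of_pow {𝔭 : Ideal (𝓞 K)} [h𝔭 : 𝔭.IsPrime] (h0 : 𝔭 ≠ ⊥)
    (𝔮 : Ideal (𝓞 L)) [h𝔮 : 𝔮.IsPrime] (hu : 𝔮.under (𝓞 K) = 𝔭) (n : ℕ) (hn : 0 < n)
    (h : ∀ x : 𝓞 L, x - x ^ Nat.card (𝓞 K ⧸ 𝔭) ^ n ∈ 𝔮) : 𝔮.inertiaDeg (𝓞 K) ≤ n := by
  have h𝔮0 := m14art_ne_bot_of_under h0 hu
  have hmax := m14art_isMaximal h𝔮 h𝔮0
  letI := Ideal.Quotient.field 𝔮
  have : Finite (𝓞 L ⧸ 𝔮) := Ideal.finiteQuotientOfFreeOfNeBot 𝔮 h𝔮0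
  have hq := m14art_one_lt_card_quot h0
  have hqn : 1 < Nat.card (𝓞 K ⧸ 𝔭) ^ n := Nat.one_lt_pow hn.ne' hq
  have h1 : Nat.card (𝓞 L ⧸ 𝔮) ≤ Nat.card (𝓞 K ⧸ 𝔭) ^ n := by
    apply m14art_card_le_of_forall_pow_eq _ hqn
    intro y
    obtain ⟨x, rfl⟩ := Ideal.Quotient.mk_surjective y
    have := h x
    rw [← Ideal.Quotient.eq_zero_iff_mem, map_sub, map_pow, sub_eq_zero] at this
    exact this.symm
  rw [m14art_card_quot_eq h0 𝔮 hu] at h1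
  exact (Nat.pow_le_pow_iff_right hq).mp h1

end general

section main

variable {K Ω : Type} [Field K] [NumberField K] [Field Ω] [NumberField Ω] [Algebra K Ω]
  [IsGalois K Ω]

/-- (ART2), upper bound: `f(𝔓 | 𝔭) ≤ n` if `Frob ^ n` fixes `E`. -/
theorem m14art_art2_le (hab : ∀ σ τ : Ω ≃ₐ[K] Ω, σ * τ = τ * σ)
    (E : IntermediateField K Ω) (𝔓 : Ideal (𝓞 E)) [h𝔓 : 𝔓.IsPrime] (h0 : 𝔓 ≠ ⊥)
    (n : ℕ) (hn : 0 < n)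
    (hfix : m14art_frob (Ω ≃ₐ[K] Ω) K Ω (𝔓.under (𝓞 K)) ^ n ∈ E.fixingSubgroup) :
    𝔓.inertiaDeg (𝓞 K) ≤ n := by
  have h𝔭0 : 𝔓.under (𝓞 K) ≠ ⊥ := by
    intro h
    exact h0 (Ideal.eq_bot_of_comap_eq_bot h)
  apply m14art_inertiaDeg_le_of_pow h𝔭0 𝔓 rfl n hn
  intro x
  obtain ⟨𝔔, h𝔔, hu𝔔⟩ := m14art_exists_over (L := Ω) 𝔓
  have hu' : 𝔔.under (𝓞 K) = 𝔓.under (𝓞 K) := by
    rw [← Ideal.under_under (B := 𝓞 E), hu𝔔]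
  have key := m14art_frob_pow_sub_mem (G := Ω ≃ₐ[K] Ω) hab h𝔭0 𝔔 hu' n
    (algebraMap (𝓞 E) (𝓞 Ω) x)
  have hfix' : (m14art_frob (Ω ≃ₐ[K] Ω) K Ω (𝔓.under (𝓞 K)) ^ n) • algebraMap (𝓞 E) (𝓞 Ω) x
      = algebraMap (𝓞 E) (𝓞 Ω) x := by
    apply RingOfIntegers.ext
    rw [m14art_coe_smul, m14art_coe_algebraMap]
    exact (IntermediateField.mem_fixingSubgroup_iff _ _).mp hfix _ (x : E).2
  rw [hfix', ← map_pow, ← map_sub] at key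
  have h2 : x - x ^ Nat.card (𝓞 K ⧸ 𝔓.under (𝓞 K)) ^ n ∈ 𝔔.under (𝓞 E) := key
  rwa [hu𝔔] at h2

/-- (ART2), lower bound: `Frob ^ f(𝔓 | 𝔭)` fixes `E` (at primes with trivial inertia in `Ω`). -/
theorem m14art_art2_mem (hab : ∀ σ τ : Ω ≃ₐ[K] Ω, σ * τ = τ * σ)
    (E : IntermediateField K Ω) (𝔓 : Ideal (𝓞 E)) [h𝔓 : 𝔓.IsPrime] (h0 : 𝔓 ≠ ⊥)
    (hun : m14art_Unram (Ω ≃ₐ[K] Ω) K Ω (𝔓.under (𝓞 K))) :
    m14art_frob (Ω ≃ₐ[K] Ω) K Ω (𝔓.under (𝓞 K)) ^ 𝔓.inertiaDeg (𝓞 K) ∈ E.fixingSubgroup := by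
  have h𝔭0 : 𝔓.under (𝓞 K) ≠ ⊥ := by
    intro h
    exact h0 (Ideal.eq_bot_of_comap_eq_bot h)
  obtain ⟨𝔔, h𝔔, hu𝔔⟩ := m14art_exists_over (L := Ω) 𝔓
  have hu' : 𝔔.under (𝓞 K) = 𝔓.under (𝓞 K) := by
    rw [← Ideal.under_under (B := 𝓞 E), hu𝔔]
  have h𝔔0 : 𝔔 ≠ ⊥ := m14art_ne_bot_of_under h0 hu𝔔
  obtain ⟨τ, hτ⟩ := m14art_exists_frob (G := Ω ≃ₐ[E] Ω) (K := E) 𝔔 h𝔔0
  have hτ' : ∀ y : 𝓞 Ω, τ • y - y ^ Nat.card (𝓞 E ⧸ 𝔓) ∈ 𝔔 := by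
    intro y
    have := hτ y
    rw [hu𝔔] at this
    simpa using this
  have key := m14art_eq_frob_pow (G := Ω ≃ₐ[K] Ω) hab h𝔭0 hun 𝔔 hu' (τ.restrictScalars K)
    (𝔓.inertiaDeg (𝓞 K)) (fun y => by
      rw [← m14art_card_quot_eq h𝔭0 𝔓 rfl]
      exact hτ' y)
  rw [← key, IntermediateField.mem_fixingSubgroup_iff]
  intro x hx
  exact τ.commutes ⟨x, hx⟩

/-- **(ART2)**: the residue degree of a prime of an intermediate field is the order of the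
Frobenius modulo the corresponding subgroup. -/
theorem m14art_art2 (hab : ∀ σ τ : Ω ≃ₐ[K] Ω, σ * τ = τ * σ)
    (E : IntermediateField K Ω) (𝔓 : Ideal (𝓞 E)) [h𝔓 : 𝔓.IsPrime] (h0 : 𝔓 ≠ ⊥)
    (hun : m14art_Unram (Ω ≃ₐ[K] Ω) K Ω (𝔓.under (𝓞 K)))
    (n : ℕ) (hn : 0 < n)
    (hfix : m14art_frob (Ω ≃ₐ[K] Ω) K Ω (𝔓.under (𝓞 K)) ^ n ∈ E.fixingSubgroup)
    (hmin : ∀ k, 0 < k → k < n →
      m14art_frob (Ω ≃ₐ[K] Ω) K Ω (𝔓.under (𝓞 K)) ^ k ∉ E.fixingSubgroup) :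
    Ideal.relNorm (𝓞 K) 𝔓 = (𝔓.under (𝓞 K)) ^ n := by
  have h𝔭0 : 𝔓.under (𝓞 K) ≠ ⊥ := by
    intro h
    exact h0 (Ideal.eq_bot_of_comap_eq_bot h)
  have h1 := m14art_art2_le hab E 𝔓 h0 n hn hfix
  have h2 := m14art_art2_mem hab E 𝔓 h0 hun
  have hpos : 0 < 𝔓.inertiaDeg (𝓞 K) := Ideal.inertiaDeg_pos 𝔓 (𝓞 K)
  have h3 : n ≤ 𝔓.inertiaDeg (𝓞 K) := by
    by_contra hlt
    exact hmin _ hpos (not_le.mp hlt) h2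
  rw [m14art_relNorm_prime h𝔭0 𝔓 rfl, le_antisymm h1 h3]

/-- **End theorem of package ART** (= the statement `m14x_ART` of `CrossPair.lean`). -/
theorem m14art_main (K Ω : Type) [Field K] [NumberField K] [Field Ω] [NumberField Ω]
    [Algebra K Ω] [IsGalois K Ω] (m : ℕ)
    (hab : ∀ σ τ : Ω ≃ₐ[K] Ω, σ * τ = τ * σ)
    (hU : ∀ (𝔓 : Ideal (𝓞 Ω)), 𝔓.IsPrime → (m : 𝓞 Ω) ∉ 𝔓 → ∀ σ : Ω ≃ₐ[K] Ω,
      (∀ x : 𝓞 Ω, σ • x - x ∈ 𝔓) → σ = 1) :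
    ∃ Fr : Ideal (𝓞 K) → (Ω ≃ₐ[K] Ω), M14Art K Ω m Fr := by
  refine ⟨m14art_frob (Ω ≃ₐ[K] Ω) K Ω, hab, ?_, ?_⟩
  · intro 𝔓 h𝔓 h0 _
    have h𝔭0 : 𝔓.under (𝓞 K) ≠ ⊥ := by
      intro h
      exact h0 (Ideal.eq_bot_of_comap_eq_bot h)
    exact m14art_frob_spec hab h𝔭0 𝔓 rfl
  · intro E 𝔓 h𝔓 h0 hm n hn hfix hmin
    obtain ⟨𝔔, h𝔔, hu𝔔⟩ := m14art_exists_over (L := Ω) 𝔓
    have hu' : 𝔔.under (𝓞 K) = 𝔓.under (𝓞 K) := by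
      rw [← Ideal.under_under (B := 𝓞 E), hu𝔔]
    have hm𝔔 : (m : 𝓞 Ω) ∉ 𝔔 := by
      intro h
      apply hm
      rw [← hu𝔔, Ideal.under_def, Ideal.mem_comap]
      simpa using h
    have hun : m14art_Unram (Ω ≃ₐ[K] Ω) K Ω (𝔓.under (𝓞 K)) :=
      m14art_unram_of_one 𝔔 hu' (hU 𝔔 h𝔔 hm𝔔)
    exact m14art_art2 hab E 𝔓 h0 hun n hn hfix hmin

end main

end Fermat.Agent.M14
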