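/-
M14 (S14 project), package ART: the hypothesis `m14x_ART` of `m14x_psi` (CrossPair.lean).
-/
import Mathlib
import Fermat.Agent.M14.CrossPair
import Fermat.Agent.M14.ArtMain

set_option autoImplicit false

namespace Fermat.Agent.M14

/-- **(ART)** in the exact form consumed by `m14x_pair` / `m14x_psi`. -/
theorem m14art_ART : m14x_ART :=
  fun K Ω _ _ _ _ _ _ m hab hU => m14art_main K Ω m hab hU

end Fermat.Agent.M14
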