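/-
S14, package AN6-core, F-side (helper7, independent backup): the lower bound for
`∏_ψ L(s, ψ)` by the partial Euler product over the primes in the kernel of `χ`.

`m14c7_fside`: for `χ` multiplicative on the ideals prime to `m`, trivial on the principal
ideals `(γ)`, `γ ≡ 1 mod m`, and surjective, there is `B > 0` such that for all real
`s ∈ (1, 2]` and every finite set `T` of primes `v` of `F` prime to `m` with `χ v = 0`:
`(∏_{v ∈ T} (1 - N(v)^(-s))⁻¹) ^ |G| ≤ B / (s - 1)`.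
-/
import Mathlib
import Fermat.Agent.M14.An4Main
import Fermat.Agent.M14.An5Euler
import Fermat.Agent.M14.An5Zeta
import Fermat.Agent.M14.An6Char
import Fermat.Agent.M14.An3Res
import Fermat.Agent.M14.AnZeta

set_option autoImplicit false
set_option linter.unusedSectionVars false

namespace Fermat.Agent.M14

open NumberField IsDedekindDomain Filter

noncomputable section

variable {F : Type} [Field F] [NumberField F] {G : Type} [AddCommGroup G]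

/-- `χ ⊤ = 0`. -/
theorem m14c7_chi_top (m : ℕ) (χ : Ideal (𝓞 F) → G)
    (hprinc : ∀ γ : 𝓞 F, γ ≠ 0 → γ - 1 ∈ Ideal.span {(m : 𝓞 F)} → χ (Ideal.span {γ}) = 0) :
    χ (⊤ : Ideal (𝓞 F)) = 0 := by
  have h := hprinc 1 one_ne_zero (by rw [sub_self]; exact Ideal.zero_mem _)
  rwa [Ideal.span_singleton_one] at h

/-- The twisted term `I ↦ ψ (χ I) N(I)^(-s)` (zero off the ideals prime to `m`) as a
monoid-with-zero homomorphism. -/
def m14c7_f (m : ℕ) (χ : Ideal (𝓞 F) → G)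
    (hmul : ∀ I J : Ideal (𝓞 F), I ≠ ⊥ → J ≠ ⊥ → IsCoprime I (Ideal.span {(m : 𝓞 F)}) →
      IsCoprime J (Ideal.span {(m : 𝓞 F)}) → χ (I * J) = χ I + χ J)
    (hprinc : ∀ γ : 𝓞 F, γ ≠ 0 → γ - 1 ∈ Ideal.span {(m : 𝓞 F)} → χ (Ideal.span {γ}) = 0)
    (ψ : AddChar G ℂ) (s : ℝ) : Ideal (𝓞 F) →*₀ ℂ where
  toFun I := m14an4_term (m14an4_c m χ ψ) s I
  map_zero' := by
    rw [Ideal.zero_eq_bot, m14an4_term, m14an4_c_bot, zero_mul]
  map_one' := by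
    have hcop : IsCoprime (⊤ : Ideal (𝓞 F)) (Ideal.span {(m : 𝓞 F)}) := by
      rw [← Ideal.one_eq_top]
      exact isCoprime_one_left
    rw [Ideal.one_eq_top, m14an4_term, m14an4_c_of m χ ψ top_ne_bot hcop,
      m14c7_chi_top m χ hprinc, AddChar.map_zero_eq_one, Ideal.absNorm_top, Nat.cast_one,
      Real.one_rpow, Complex.ofReal_one, one_mul]
  map_mul' I J := by
    by_cases hI : I = ⊥
    · rw [hI, Ideal.bot_mul, m14an4_term, m14an4_c_bot, zero_mul, zero_mul]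
    by_cases hJ : J = ⊥
    · rw [hJ, Ideal.mul_bot, m14an4_term, m14an4_c_bot, zero_mul, mul_zero]
    have hIJ : I * J ≠ ⊥ := by
      rw [← Ideal.zero_eq_bot]
      exact mul_ne_zero hI hJ
    by_cases hcI : IsCoprime I (Ideal.span {(m : 𝓞 F)})
    · by_cases hcJ : IsCoprime J (Ideal.span {(m : 𝓞 F)})
      · have hcIJ : IsCoprime (I * J) (Ideal.span {(m : 𝓞 F)}) := hcI.mul_left hcJ
        simp only [m14an4_term]
        rw [m14an4_c_of m χ ψ hIJ hcIJ, m14an4_c_of m χ ψ hI hcI, m14an4_c_of m χ ψ hJ hcJ,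
          hmul I J hI hJ hcI hcJ, AddChar.map_add_eq_mul, map_mul, Nat.cast_mul,
          Real.mul_rpow (Nat.cast_nonneg _) (Nat.cast_nonneg _), Complex.ofReal_mul]
        ring
      · have hcIJ : ¬ IsCoprime (I * J) (Ideal.span {(m : 𝓞 F)}) :=
          fun h => hcJ h.of_mul_left_right
        simp only [m14an4_term]
        rw [m14an4_c_of_not m χ ψ hcIJ, m14an4_c_of_not m χ ψ hcJ, zero_mul, zero_mul, mul_zero]
    · have hcIJ : ¬ IsCoprime (I * J) (Ideal.span {(m : 𝓞 F)}) :=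
        fun h => hcI h.of_mul_left_left
      simp only [m14an4_term]
      rw [m14an4_c_of_not m χ ψ hcIJ, m14an4_c_of_not m χ ψ hcI, zero_mul, zero_mul, zero_mul]

theorem m14c7_f_apply (m : ℕ) (χ : Ideal (𝓞 F) → G)
    (hmul : ∀ I J : Ideal (𝓞 F), I ≠ ⊥ → J ≠ ⊥ → IsCoprime I (Ideal.span {(m : 𝓞 F)}) →
      IsCoprime J (Ideal.span {(m : 𝓞 F)}) → χ (I * J) = χ I + χ J)
    (hprinc : ∀ γ : 𝓞 F, γ ≠ 0 → γ - 1 ∈ Ideal.span {(m : 𝓞 F)} → χ (Ideal.span {γ}) = 0)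
    (ψ : AddChar G ℂ) (s : ℝ) (I : Ideal (𝓞 F)) :
    m14c7_f m χ hmul hprinc ψ s I = m14an4_term (m14an4_c m χ ψ) s I := rfl

/-- Summability of the norms of the twisted terms. -/
theorem m14c7_summable [Finite G] (m : ℕ) (χ : Ideal (𝓞 F) → G)
    (hmul : ∀ I J : Ideal (𝓞 F), I ≠ ⊥ → J ≠ ⊥ → IsCoprime I (Ideal.span {(m : 𝓞 F)}) →
      IsCoprime J (Ideal.span {(m : 𝓞 F)}) → χ (I * J) = χ I + χ J)
    (hprinc : ∀ γ : 𝓞 F, γ ≠ 0 → γ - 1 ∈ Ideal.span {(m : 𝓞 F)} → χ (Ideal.span {γ}) = 0)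
    (ψ : AddChar G ℂ) {s : ℝ} (hs : 1 < s) :
    Summable fun I : Ideal (𝓞 F) => ‖m14c7_f m χ hmul hprinc ψ s I‖ := by
  have h := m14an4_summable_c m χ ψ (m14anz_summable F hs)
  refine h.congr fun I => ?_
  rw [m14c7_f_apply, m14an4_norm_term]

/-- `2 ≤ N(v)` for a prime `v`. -/
theorem m14c7_two_le (v : HeightOneSpectrum (𝓞 F)) : 2 ≤ Ideal.absNorm v.asIdeal := by
  have h0 : Ideal.absNorm v.asIdeal ≠ 0 := by
    rw [Ne, Ideal.absNorm_eq_zero_iff]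
    exact v.ne_bot
  have h1 : Ideal.absNorm v.asIdeal ≠ 1 := by
    rw [Ne, Ideal.absNorm_eq_one_iff]
    exact v.isPrime.ne_top
  omega

/-- `0 ≤ N(v)^(-s) < 1` for `s > 0`. -/
theorem m14c7_t_lt_one (v : HeightOneSpectrum (𝓞 F)) {s : ℝ} (hs : 0 < s) :
    0 ≤ (Ideal.absNorm v.asIdeal : ℝ) ^ (-s) ∧ (Ideal.absNorm v.asIdeal : ℝ) ^ (-s) < 1 := by
  have h2 : (1 : ℝ) < (Ideal.absNorm v.asIdeal : ℝ) := by
    have := m14c7_two_le v
    have h3 : (2 : ℝ) ≤ (Ideal.absNorm v.asIdeal : ℝ) := by exact_mod_cast this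
    linarith
  exact ⟨Real.rpow_nonneg (Nat.cast_nonneg _) _,
    Real.rpow_lt_one_of_one_lt_of_neg h2 (neg_lt_zero.mpr hs)⟩

/-- The local factor of `∏_ψ L(s, ψ)` at `v` is at least `1`. -/
theorem m14c7_one_le_local [Finite G] (m : ℕ) (χ : Ideal (𝓞 F) → G)
    (hmul : ∀ I J : Ideal (𝓞 F), I ≠ ⊥ → J ≠ ⊥ → IsCoprime I (Ideal.span {(m : 𝓞 F)}) →
      IsCoprime J (Ideal.span {(m : 𝓞 F)}) → χ (I * J) = χ I + χ J)
    (hprinc : ∀ γ : 𝓞 F, γ ≠ 0 → γ - 1 ∈ Ideal.span {(m : 𝓞 F)} → χ (Ideal.span {γ}) = 0)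
    {s : ℝ} (hs : 0 < s) (v : HeightOneSpectrum (𝓞 F)) :
    1 ≤ ∏ ψ : AddChar G ℂ, ‖(1 - m14c7_f m χ hmul hprinc ψ s v.asIdeal)⁻¹‖ := by
  obtain ⟨ht0, ht1⟩ := m14c7_t_lt_one v hs
  by_cases hc : IsCoprime v.asIdeal (Ideal.span {(m : 𝓞 F)})
  · have h := m14an6_one_le_local (G := G) (χ v.asIdeal)
      ((Ideal.absNorm v.asIdeal : ℝ) ^ (-s)) ht0 ht1
    refine h.trans_eq (Finset.prod_congr rfl fun ψ _ => ?_)
    rw [m14c7_f_apply, m14an4_term, m14an4_c_of m χ ψ v.ne_bot hc]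
  · have h1 : ∀ ψ : AddChar G ℂ, ‖(1 - m14c7_f m χ hmul hprinc ψ s v.asIdeal)⁻¹‖ = 1 := by
      intro ψ
      rw [m14c7_f_apply, m14an4_term, m14an4_c_of_not m χ ψ hc, zero_mul, sub_zero, inv_one,
        norm_one]
    rw [Finset.prod_congr rfl fun ψ _ => h1 ψ, Finset.prod_const_one]

/-- The local factor of `∏_ψ L(s, ψ)` at a prime `v` prime to `m` in the kernel of `χ`. -/
theorem m14c7_local_zero [Finite G] (m : ℕ) (χ : Ideal (𝓞 F) → G)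
    (hmul : ∀ I J : Ideal (𝓞 F), I ≠ ⊥ → J ≠ ⊥ → IsCoprime I (Ideal.span {(m : 𝓞 F)}) →
      IsCoprime J (Ideal.span {(m : 𝓞 F)}) → χ (I * J) = χ I + χ J)
    (hprinc : ∀ γ : 𝓞 F, γ ≠ 0 → γ - 1 ∈ Ideal.span {(m : 𝓞 F)} → χ (Ideal.span {γ}) = 0)
    {s : ℝ} (hs : 0 < s) (v : HeightOneSpectrum (𝓞 F))
    (hc : IsCoprime v.asIdeal (Ideal.span {(m : 𝓞 F)})) (hχ : χ v.asIdeal = 0) :
    ∏ ψ : AddChar G ℂ, ‖(1 - m14c7_f m χ hmul hprinc ψ s v.asIdeal)⁻¹‖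
      = ((1 - m14an5z_f F s v.asIdeal)⁻¹) ^ Nat.card G := by
  obtain ⟨-, ht1⟩ := m14c7_t_lt_one v hs
  have h := m14an6_local_zero (G := G) ((Ideal.absNorm v.asIdeal : ℝ) ^ (-s)) ht1
  rw [m14an5z_f_of_ne F s v.ne_bot, ← h]
  refine Finset.prod_congr rfl fun ψ _ => ?_
  rw [m14c7_f_apply, m14an4_term, m14an4_c_of m χ ψ v.ne_bot hc, hχ]

/-- Products of factors `≥ 1` over finsets are monotone. -/
theorem m14c7_prod_mono {ι : Type*} (P : ι → ℝ) (hP : ∀ i, 1 ≤ P i) {T₀ T : Finset ι}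
    (h : T₀ ⊆ T) : ∏ i ∈ T₀, P i ≤ ∏ i ∈ T, P i := by
  classical
  rw [← Finset.prod_sdiff h]
  have h0 : 0 ≤ ∏ i ∈ T₀, P i := Finset.prod_nonneg fun i _ => zero_le_one.trans (hP i)
  have h1 : 1 ≤ ∏ i ∈ T \ T₀, P i := by
    have := Finset.prod_le_prod (s := T \ T₀) (f := fun _ => (1 : ℝ)) (g := P)
      (fun _ _ => zero_le_one) (fun i _ => hP i)
    rwa [Finset.prod_const_one] at this
  calc ∏ i ∈ T₀, P i = 1 * ∏ i ∈ T₀, P i := (one_mul _).symm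
    _ ≤ (∏ i ∈ T \ T₀, P i) * ∏ i ∈ T₀, P i := mul_le_mul_of_nonneg_right h1 h0

/-- Lower bound for `‖∏_ψ L(s, ψ)‖` by the partial Euler product over primes in the kernel. -/
theorem m14c7_lower [Finite G] (m : ℕ) (χ : Ideal (𝓞 F) → G)
    (hmul : ∀ I J : Ideal (𝓞 F), I ≠ ⊥ → J ≠ ⊥ → IsCoprime I (Ideal.span {(m : 𝓞 F)}) →
      IsCoprime J (Ideal.span {(m : 𝓞 F)}) → χ (I * J) = χ I + χ J)
    (hprinc : ∀ γ : 𝓞 F, γ ≠ 0 → γ - 1 ∈ Ideal.span {(m : 𝓞 F)} → χ (Ideal.span {γ}) = 0)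
    {s : ℝ} (hs : 1 < s) (T₀ : Finset (HeightOneSpectrum (𝓞 F)))
    (hT₀ : ∀ v ∈ T₀, IsCoprime v.asIdeal (Ideal.span {(m : 𝓞 F)}) ∧ χ v.asIdeal = 0) :
    (∏ v ∈ T₀, (1 - m14an5z_f F s v.asIdeal)⁻¹) ^ Nat.card G
      ≤ ∏ ψ : AddChar G ℂ, ‖∑' I : Ideal (𝓞 F), m14an4_term (m14an4_c m χ ψ) s I‖ := by
  have hs0 : 0 < s := by linarith
  -- the limit
  have hlim : Tendsto (fun T : Finset (HeightOneSpectrum (𝓞 F)) =>
      ∏ ψ : AddChar G ℂ, ‖∏ v ∈ T, (1 - m14c7_f m χ hmul hprinc ψ s v.asIdeal)⁻¹‖) atTop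
      (nhds (∏ ψ : AddChar G ℂ, ‖∑' I : Ideal (𝓞 F), m14an4_term (m14an4_c m χ ψ) s I‖)) := by
    refine tendsto_finsetProd _ fun ψ _ => ?_
    have h := m14an5_tendsto_prod (m14c7_f m χ hmul hprinc ψ s)
      (m14c7_summable m χ hmul hprinc ψ hs)
    exact (continuous_norm.tendsto _).comp h
  refine ge_of_tendsto hlim ?_
  filter_upwards [eventually_ge_atTop T₀] with T hT
  have h1 : ∏ ψ : AddChar G ℂ, ‖∏ v ∈ T, (1 - m14c7_f m χ hmul hprinc ψ s v.asIdeal)⁻¹‖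
      = ∏ v ∈ T, ∏ ψ : AddChar G ℂ, ‖(1 - m14c7_f m χ hmul hprinc ψ s v.asIdeal)⁻¹‖ := by
    rw [Finset.prod_comm]
    exact Finset.prod_congr rfl fun ψ _ => norm_prod _ _
  rw [h1]
  refine le_trans (le_of_eq ?_) (m14c7_prod_mono _
    (fun v => m14c7_one_le_local m χ hmul hprinc hs0 v) hT)
  rw [← Finset.prod_pow]
  exact Finset.prod_congr rfl fun v hv =>
    (m14c7_local_zero m χ hmul hprinc hs0 v (hT₀ v hv).1 (hT₀ v hv).2).symm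

/-- **AN6-core, F-side.** -/
theorem m14c7_fside (m : ℕ) (hm : m ≠ 0) (G : Type) [AddCommGroup G] [Finite G]
    (χ : Ideal (𝓞 F) → G)
    (hmul : ∀ I J : Ideal (𝓞 F), I ≠ ⊥ → J ≠ ⊥ → IsCoprime I (Ideal.span {(m : 𝓞 F)}) →
      IsCoprime J (Ideal.span {(m : 𝓞 F)}) → χ (I * J) = χ I + χ J)
    (hprinc : ∀ γ : 𝓞 F, γ ≠ 0 → γ - 1 ∈ Ideal.span {(m : 𝓞 F)} → χ (Ideal.span {γ}) = 0)
    (hsurj : ∀ g : G, ∃ I : Ideal (𝓞 F), I ≠ ⊥ ∧ IsCoprime I (Ideal.span {(m : 𝓞 F)}) ∧ χ I = g) :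
    ∃ B : ℝ, 0 < B ∧ ∀ s : ℝ, 1 < s → s ≤ 2 → ∀ T : Finset (HeightOneSpectrum (𝓞 F)),
      (∀ v ∈ T, IsCoprime v.asIdeal (Ideal.span {(m : 𝓞 F)}) ∧ χ v.asIdeal = 0) →
      (∏ v ∈ T, (1 - m14an5z_f F s v.asIdeal)⁻¹) ^ Nat.card G ≤ B / (s - 1) := by
  classical
  obtain ⟨c, C, -, δ, hδ, hcount'⟩ := m14an3r_hcount m hm G χ hmul hprinc hsurj
  have hcount : m14an4_Count m χ c C δ := fun g x hx => hcount' g x hx
  have hC : 0 ≤ C := m14an4_Count_nonneg hcount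
  set C₁ : ℝ := 2 * (Nat.card G * (|c| + C)) with hC₁
  set C₂ : ℝ := 2 * (Nat.card G * C) / min δ 1 with hC₂
  have hC₁0 : 0 ≤ C₁ := by positivity
  have hC₂0 : 0 ≤ C₂ := by
    have : 0 < min δ 1 := lt_min hδ one_pos
    positivity
  set k : ℕ := ((Finset.univ : Finset (AddChar G ℂ)).erase 0).card with hk
  refine ⟨C₁ * C₂ ^ k + 1, by positivity, fun s hs1 hs2 T hT => ?_⟩
  have hs0 : 0 < s - 1 := sub_pos.mpr hs1
  have hZ := m14anz_summable F hs1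
  refine (m14c7_lower m χ hmul hprinc hs1 T hT).trans ?_
  rw [← Finset.mul_prod_erase Finset.univ _ (Finset.mem_univ (0 : AddChar G ℂ))]
  have h1 := m14an4_bound_all hδ.le hcount (0 : AddChar G ℂ) hs1 hs2 hZ
  have h2 : ∏ ψ ∈ (Finset.univ : Finset (AddChar G ℂ)).erase 0,
      ‖∑' I : Ideal (𝓞 F), m14an4_term (m14an4_c m χ ψ) s I‖ ≤ C₂ ^ k := by
    rw [hk, ← Finset.prod_const]
    refine Finset.prod_le_prod (fun _ _ => norm_nonneg _) fun ψ hψ => ?_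
    exact m14an4_bound hδ hcount ψ (Finset.ne_of_mem_erase hψ) hs1 hs2 hZ
  calc ‖∑' I : Ideal (𝓞 F), m14an4_term (m14an4_c m χ 0) s I‖ *
        ∏ ψ ∈ (Finset.univ : Finset (AddChar G ℂ)).erase 0,
          ‖∑' I : Ideal (𝓞 F), m14an4_term (m14an4_c m χ ψ) s I‖
      ≤ (C₁ / (s - 1)) * C₂ ^ k :=
        mul_le_mul h1 h2 (Finset.prod_nonneg fun _ _ => norm_nonneg _)
          (div_nonneg hC₁0 hs0.le)
    _ = (C₁ * C₂ ^ k) / (s - 1) := by ring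
    _ ≤ (C₁ * C₂ ^ k + 1) / (s - 1) :=
        div_le_div_of_nonneg_right (by linarith) hs0.le

end

end Fermat.Agent.M14
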