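/-
M14 (S14 project), package OMEGA, part 1 (prefix `m14om_`): the auxiliary field
`Ω = CyclotomicField m L = L(ζ_m)` over `K`: it is Galois over `K`, the cyclotomic character,
injectivity of `σ ↦ (σ|_L, character)`, commutativity of `Gal(Ω/K)`.
-/
import Mathlib
import Fermat.Agent.M14.Target

set_option autoImplicit false
set_option linter.style.haveILetI false
set_option linter.unusedSectionVars false

open NumberField Ideal
open scoped Pointwise

namespace Fermat.Agent.M14

section basic

variable {L : Type} [Field L] [NumberField L] {K : IntermediateField ℚ L} (m : ℕ) [NeZero m]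

/-- `ℚ → K → Ω` is a scalar tower. -/
theorem m14om_isScalarTower : IsScalarTower ℚ ↥K (CyclotomicField m L) :=
  IsScalarTower.of_algebraMap_eq fun x => by
    simp

/-- powers with exponent `(1 : ZMod m).val` on `m`-th roots of unity -/
theorem m14om_pow_val_one {Ω : Type} [Field Ω] (z : Ω) (hz : z ^ m = 1) :
    z ^ ((1 : (ZMod m)ˣ) : ZMod m).val = z := by
  rw [Units.val_one, ZMod.val_one_eq_one_mod]
  rcases Nat.lt_or_ge 1 m with h | h
  · rw [Nat.mod_eq_of_lt h, pow_one]
  · have hm : m = 1 := le_antisymm h (NeZero.pos m)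
    subst hm
    rw [pow_one] at hz
    rw [hz, one_pow]

/-- the cyclotomic character of `Gal(Ω/K)` -/
theorem m14om_char : ∃ e : ((CyclotomicField m L) ≃ₐ[↥K] (CyclotomicField m L)) →* (ZMod m)ˣ,
    ∀ (σ : (CyclotomicField m L) ≃ₐ[↥K] (CyclotomicField m L)) (z : CyclotomicField m L),
      z ^ m = 1 → σ z = z ^ (e σ : ZMod m).val := by
  have hμ := IsCyclotomicExtension.zeta_spec m L (CyclotomicField m L)
  refine ⟨hμ.autToPow ↥K, fun σ z hz => ?_⟩
  obtain ⟨i, -, rfl⟩ := hμ.eq_pow_of_pow_eq_one hz
  rw [map_pow, ← hμ.autToPow_spec ↥K σ, ← pow_mul, ← pow_mul, mul_comm]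

/-- an automorphism of `Ω / K` fixing `L` and the `m`-th roots of unity is trivial -/
theorem m14om_inj' (σ : (CyclotomicField m L) ≃ₐ[↥K] (CyclotomicField m L))
    (h1 : ∀ x : L, σ (algebraMap L (CyclotomicField m L) x) = algebraMap L (CyclotomicField m L) x)
    (h2 : ∀ z : CyclotomicField m L, z ^ m = 1 → σ z = z) : σ = 1 := by
  have hμ := IsCyclotomicExtension.zeta_spec m L (CyclotomicField m L)
  have htop := IsCyclotomicExtension.adjoin_primitive_root_eq_top (A := L) hμ
  ext x
  have hx : x ∈ Algebra.adjoin L {IsCyclotomicExtension.zeta m L (CyclotomicField m L)} := by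
    rw [htop]; exact Algebra.mem_top
  show σ x = x
  induction hx using Algebra.adjoin_induction with
  | mem y hy =>
    rw [Set.mem_singleton_iff] at hy
    rw [hy]
    exact h2 _ hμ.pow_eq_one
  | algebraMap r => exact h1 r
  | add y z _ _ hy hz => rw [map_add, hy, hz]
  | mul y z _ _ hy hz => rw [map_mul, hy, hz]

variable [IsGalois ℚ L]

theorem m14om_inj (σ : (CyclotomicField m L) ≃ₐ[↥K] (CyclotomicField m L))
    (h1 : AlgEquiv.restrictNormalHom L σ = 1)
    (h2 : ∀ z : CyclotomicField m L, z ^ m = 1 → σ z = z) : σ = 1 := by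
  apply m14om_inj' m σ _ h2
  intro x
  have h := AlgEquiv.restrictNormal_commutes σ L x
  have h3 : σ.restrictNormal L = AlgEquiv.restrictNormalHom L σ := rfl
  rw [h3, h1] at h
  exact h.symm

/-- `Ω / ℚ` is normal. -/
theorem m14om_normal_rat : Normal ℚ (CyclotomicField m L) := by
  obtain ⟨f, hfsep, hf⟩ := IsGalois.is_separable_splitting_field ℚ L
  have hf0 : f ≠ 0 := hfsep.ne_zero
  have hg0 : (Polynomial.X ^ m - 1 : Polynomial ℚ) ≠ 0 :=
    Polynomial.X_pow_sub_C_ne_zero (NeZero.pos m) (1 : ℚ)
  haveI : Polynomial.IsSplittingField L (CyclotomicField m L)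
      (Polynomial.map (algebraMap ℚ L) (Polynomial.X ^ m - 1)) := by
    have := IsCyclotomicExtension.isSplittingField_X_pow_sub_one (n := m) L (CyclotomicField m L)
    simpa using this
  have := Polynomial.IsSplittingField.mul (K := L) (CyclotomicField m L) f
    (Polynomial.X ^ m - 1) hf0 hg0
  exact Normal.of_isSplittingField (f * (Polynomial.X ^ m - 1))

/-- `Ω / ℚ` is Galois. -/
theorem m14om_isGalois_rat : IsGalois ℚ (CyclotomicField m L) := by
  haveI := m14om_normal_rat (L := L) m
  exact ⟨⟩

/-- `Ω / K` is Galois. -/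
theorem m14om_isGalois : IsGalois ↥K (CyclotomicField m L) := by
  haveI := m14om_isGalois_rat (L := L) m
  haveI := m14om_isScalarTower (K := K) m
  exact IsGalois.tower_top_of_isGalois ℚ ↥K (CyclotomicField m L)

end basic

section comm

variable {p : ℕ} [Fact p.Prime] {L : Type} [Field L] [NumberField L]
  {K : IntermediateField ℚ L} {ζ : L} (m : ℕ) [NeZero m] [IsGalois ℚ L]

/-- `Gal(L/K)` is commutative (it has prime order). -/
theorem m14om_comm_L (D : M14Data p L K ζ) (σ τ : L ≃ₐ[↥K] L) : σ * τ = τ * σ := by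
  have hcard : Nat.card (L ≃ₐ[↥K] L) = p := by
    rw [IsGalois.card_aut_eq_finrank, D.finrank]
  haveI := isCyclic_of_prime_card hcard
  letI := IsCyclic.commGroup (α := L ≃ₐ[↥K] L)
  exact mul_comm σ τ

/-- `Gal(Ω/K)` is commutative. -/
theorem m14om_comm (D : M14Data p L K ζ)
    (σ τ : (CyclotomicField m L) ≃ₐ[↥K] (CyclotomicField m L)) : σ * τ = τ * σ := by
  obtain ⟨e, he⟩ := m14om_char (L := L) (K := K) m
  have key : σ * τ * (τ * σ)⁻¹ = 1 := by
    apply m14om_inj m
    · rw [map_mul, map_mul, map_inv, map_mul,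
        m14om_comm_L D (AlgEquiv.restrictNormalHom L σ) (AlgEquiv.restrictNormalHom L τ)]
      exact mul_inv_cancel _
    · intro z hz
      rw [he _ z hz]
      have : e (σ * τ * (τ * σ)⁻¹) = 1 := by
        rw [map_mul, map_mul, map_inv, map_mul, mul_comm (e σ) (e τ)]
        exact mul_inv_cancel _
      rw [this]
      exact m14om_pow_val_one m z hz
  exact mul_inv_eq_one.mp key

end comm

end Fermat.Agent.M14
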