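import Mathlib
import Fermat.Agent.M14.Target
import Fermat.Agent.M14.OmegaBasic

/-!
# M14 / CROSS leaf [CHAR2]: the two characters modulo `r₁`, `r₂` on `Gal(Ω/K)`,
`Ω = CyclotomicField (r₁ * r₂) L`.
-/

set_option autoImplicit false
set_option linter.unusedSectionVars false

open NumberField Ideal
open scoped Pointwise

namespace Fermat.Agent.M14

/-- Chinese remainder theorem, element form. -/
theorem m14ch_crt_aux {r₁ r₂ : ℕ} (h : r₁.Coprime r₂) (a₁ b₁ : ZMod r₁) (a₂ b₂ : ZMod r₂)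
    (h1 : a₁ * b₁ = 1) (h2 : a₂ * b₂ = 1) :
    ∃ x y : ZMod (r₁ * r₂), x * y = 1 ∧
      ZMod.castHom (dvd_mul_right r₁ r₂) (ZMod r₁) x = a₁ ∧
      ZMod.castHom (dvd_mul_left r₂ r₁) (ZMod r₂) x = a₂ := by
  refine ⟨(ZMod.chineseRemainder h).symm (a₁, a₂), (ZMod.chineseRemainder h).symm (b₁, b₂),
    ?_, ?_, ?_⟩
  · rw [← map_mul, Prod.mk_mul_mk, h1, h2]
    exact map_one _
  · have hcr : ZMod.chineseRemainder h ((ZMod.chineseRemainder h).symm (a₁, a₂)) = (a₁, a₂) :=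
      RingEquiv.apply_symm_apply _ _
    have := congrArg Prod.fst hcr
    exact (Prod.fst_zmod_cast _).symm.trans this
  · have hcr : ZMod.chineseRemainder h ((ZMod.chineseRemainder h).symm (a₁, a₂)) = (a₁, a₂) :=
      RingEquiv.apply_symm_apply _ _
    have := congrArg Prod.snd hcr
    exact (Prod.snd_zmod_cast _).symm.trans this

/-- Chinese remainder theorem for units. -/
theorem m14ch_crt {r₁ r₂ : ℕ} (h : r₁.Coprime r₂) (u₁ : (ZMod r₁)ˣ) (u₂ : (ZMod r₂)ˣ) :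
    ∃ u : (ZMod (r₁ * r₂))ˣ, ZMod.unitsMap (dvd_mul_right r₁ r₂) u = u₁ ∧
      ZMod.unitsMap (dvd_mul_left r₂ r₁) u = u₂ := by
  obtain ⟨x, y, hxy, h1, h2⟩ := m14ch_crt_aux h (u₁ : ZMod r₁) ((u₁⁻¹ : (ZMod r₁)ˣ) : ZMod r₁)
    (u₂ : ZMod r₂) ((u₂⁻¹ : (ZMod r₂)ˣ) : ZMod r₂) (Units.mul_inv u₁) (Units.mul_inv u₂)
  refine ⟨Units.mkOfMulEqOne x y hxy, ?_, ?_⟩
  · apply Units.ext
    rw [ZMod.unitsMap_def, Units.coe_map]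
    exact h1
  · apply Units.ext
    rw [ZMod.unitsMap_def, Units.coe_map]
    exact h2

/-- Exponents on a primitive root. -/
theorem m14ch_exp_eq {Ω : Type} [Field Ω] {m : ℕ} [NeZero m] {μ : Ω} (hμ : IsPrimitiveRoot μ m)
    (a : ZMod m) (N : ℕ) (h : μ ^ a.val = μ ^ N) : a = (N : ZMod m) := by
  have hN : μ ^ N = μ ^ (N % m) := by
    conv_lhs => rw [← Nat.div_add_mod N m, pow_add, pow_mul, hμ.pow_eq_one, one_pow, one_mul]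
  rw [hN] at h
  have h1 : a.val = N % m := hμ.pow_inj (ZMod.val_lt a) (Nat.mod_lt _ (NeZero.pos m)) h
  rw [← ZMod.natCast_zmod_val a, h1, ZMod.natCast_mod]

variable {p : ℕ} [Fact p.Prime] {L : Type} [Field L] [NumberField L] {K : IntermediateField ℚ L}
  {ζ : L} [IsGalois ℚ L]

theorem m14ch_main (r₁ r₂ : ℕ) (hr₁ : r₁.Prime) (hr₂ : r₂.Prime) (hne : r₁ ≠ r₂)
    [NeZero (r₁ * r₂)] [IsGalois ↥K (CyclotomicField (r₁ * r₂) L)]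
    (hsurj : ∀ (g : L ≃ₐ[↥K] L) (u : (ZMod (r₁ * r₂))ˣ),
      ∃ σ : CyclotomicField (r₁ * r₂) L ≃ₐ[↥K] CyclotomicField (r₁ * r₂) L,
        AlgEquiv.restrictNormalHom L σ = g ∧
          ∀ z : CyclotomicField (r₁ * r₂) L, z ^ (r₁ * r₂) = 1 →
            σ z = z ^ (u : ZMod (r₁ * r₂)).val)
    (hfrob : ∀ (𝔓 : Ideal (𝓞 (CyclotomicField (r₁ * r₂) L))), 𝔓.IsPrime → 𝔓 ≠ ⊥ →
      ((r₁ * r₂ : ℕ) : 𝓞 (CyclotomicField (r₁ * r₂) L)) ∉ 𝔓 →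
      ∀ σ : CyclotomicField (r₁ * r₂) L ≃ₐ[↥K] CyclotomicField (r₁ * r₂) L,
        IsArithFrobAt (𝓞 ↥K) σ 𝔓 →
        ∀ z : CyclotomicField (r₁ * r₂) L, z ^ (r₁ * r₂) = 1 →
          σ z = z ^ Ideal.absNorm (𝔓.under (𝓞 ↥K))) :
    ∃ (e₁ : (CyclotomicField (r₁ * r₂) L ≃ₐ[↥K] CyclotomicField (r₁ * r₂) L) →* (ZMod r₁)ˣ)
      (e₂ : (CyclotomicField (r₁ * r₂) L ≃ₐ[↥K] CyclotomicField (r₁ * r₂) L) →* (ZMod r₂)ˣ),
      (∀ (g : L ≃ₐ[↥K] L) (u₁ : (ZMod r₁)ˣ) (u₂ : (ZMod r₂)ˣ),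
        ∃ σ, AlgEquiv.restrictNormalHom L σ = g ∧ e₁ σ = u₁ ∧ e₂ σ = u₂) ∧
      (∀ (𝔓 : Ideal (𝓞 (CyclotomicField (r₁ * r₂) L))), 𝔓.IsPrime → 𝔓 ≠ ⊥ →
        ((r₁ * r₂ : ℕ) : 𝓞 (CyclotomicField (r₁ * r₂) L)) ∉ 𝔓 →
        ∀ σ : CyclotomicField (r₁ * r₂) L ≃ₐ[↥K] CyclotomicField (r₁ * r₂) L,
          IsArithFrobAt (𝓞 ↥K) σ 𝔓 →
          ((e₁ σ : (ZMod r₁)ˣ) : ZMod r₁) = (Ideal.absNorm (𝔓.under (𝓞 ↥K)) : ZMod r₁) ∧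
          ((e₂ σ : (ZMod r₂)ˣ) : ZMod r₂) = (Ideal.absNorm (𝔓.under (𝓞 ↥K)) : ZMod r₂)) := by
  obtain ⟨e, he⟩ := m14om_char (L := L) (K := K) (r₁ * r₂)
  have hμ := IsCyclotomicExtension.zeta_spec (r₁ * r₂) L (CyclotomicField (r₁ * r₂) L)
  have hcop : r₁.Coprime r₂ := (Nat.coprime_primes hr₁ hr₂).2 hne
  refine ⟨(ZMod.unitsMap (dvd_mul_right r₁ r₂)).comp e, (ZMod.unitsMap (dvd_mul_left r₂ r₁)).comp e,
    ?_, ?_⟩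
  · intro g u₁ u₂
    obtain ⟨u, hu1, hu2⟩ := m14ch_crt hcop u₁ u₂
    obtain ⟨σ, hσ1, hσ2⟩ := hsurj g u
    have heu : e σ = u := by
      apply Units.ext
      have h1 := he σ _ hμ.pow_eq_one
      have h2 := hσ2 _ hμ.pow_eq_one
      have h3 := m14ch_exp_eq hμ (e σ : ZMod (r₁ * r₂)) (u : ZMod (r₁ * r₂)).val
        (h1.symm.trans h2)
      rw [h3, ZMod.natCast_zmod_val]
    refine ⟨σ, hσ1, ?_, ?_⟩
    · rw [MonoidHom.comp_apply, heu, hu1]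
    · rw [MonoidHom.comp_apply, heu, hu2]
  · intro 𝔓 h𝔓 h0 hm σ hσ
    have h1 := he σ _ hμ.pow_eq_one
    have h2 := hfrob 𝔓 h𝔓 h0 hm σ hσ _ hμ.pow_eq_one
    have h3 := m14ch_exp_eq hμ (e σ : ZMod (r₁ * r₂)) (Ideal.absNorm (𝔓.under (𝓞 ↥K)))
      (h1.symm.trans h2)
    constructor
    · show ZMod.castHom (dvd_mul_right r₁ r₂) (ZMod r₁) ((e σ : (ZMod (r₁ * r₂))ˣ) : ZMod (r₁ * r₂))
        = _
      rw [h3, map_natCast]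
    · show ZMod.castHom (dvd_mul_left r₂ r₁) (ZMod r₂) ((e σ : (ZMod (r₁ * r₂))ˣ) : ZMod (r₁ * r₂))
        = _
      rw [h3, map_natCast]

end Fermat.Agent.M14
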