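import Mathlib

/-!
# M14 / CROSS leaf [GRP]: graph subgroups in `Γ = Gal(Ω/K)`

Pure group theory.  For `φ ∈ Γ` and a character `e`, the subgroup
`H = {h | ∃ k : ℤ, e h = (e φ) ^ k ∧ res h = (res φ) ^ k}` is the preimage of the cyclic subgroup
generated by `(e φ, res φ)`.
-/

set_option autoImplicit false

namespace Fermat.Agent.M14

section

variable {Γ : Type} [Group Γ] (p : ℕ) [Fact p.Prime] {U : Type} [CommGroup U]

/-- The graph subgroup attached to `φ`. -/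
def m14grp_H (res : Γ →* Multiplicative (ZMod p)) (e : Γ →* U) (φ : Γ) : Subgroup Γ :=
  Subgroup.comap (e.prod res) (Subgroup.zpowers (e φ, res φ))

variable {p}

theorem m14grp_mem_H {res : Γ →* Multiplicative (ZMod p)} {e : Γ →* U} {φ h : Γ} :
    h ∈ m14grp_H p res e φ ↔ ∃ k : ℤ, e h = e φ ^ k ∧ res h = res φ ^ k := by
  rw [m14grp_H, Subgroup.mem_comap, Subgroup.mem_zpowers_iff]
  constructor
  · rintro ⟨k, hk⟩
    have h1 := congrArg Prod.fst hk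
    have h2 := congrArg Prod.snd hk
    simp only [Prod.pow_fst, Prod.pow_snd, MonoidHom.prod_apply] at h1 h2
    exact ⟨k, h1.symm, h2.symm⟩
  · rintro ⟨k, h1, h2⟩
    refine ⟨k, ?_⟩
    ext
    · simp [h1]
    · simp [h2]

theorem m14grp_pow_p (x : Multiplicative (ZMod p)) : x ^ p = 1 := by
  have : x ^ p = Multiplicative.ofAdd (p • Multiplicative.toAdd x) := rfl
  rw [this]
  simp

theorem m14grp_zpow_of_dvd (x : Multiplicative (ZMod p)) {k : ℤ} (hk : (p : ℤ) ∣ k) : x ^ k = 1 := by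
  obtain ⟨c, rfl⟩ := hk
  rw [zpow_mul, zpow_natCast, m14grp_pow_p, one_zpow]

theorem m14grp_exists_pow {x y : Multiplicative (ZMod p)} (hx : x ≠ 1) : ∃ k : ℕ, y = x ^ k := by
  have hx' : Multiplicative.toAdd x ≠ 0 := fun h => hx (by
    have : x = Multiplicative.ofAdd (Multiplicative.toAdd x) := rfl
    rw [this, h]; rfl)
  refine ⟨(Multiplicative.toAdd y * (Multiplicative.toAdd x)⁻¹).val, ?_⟩
  have : x ^ (Multiplicative.toAdd y * (Multiplicative.toAdd x)⁻¹).val =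
      Multiplicative.ofAdd ((Multiplicative.toAdd y * (Multiplicative.toAdd x)⁻¹).val •
        Multiplicative.toAdd x) := rfl
  rw [this, nsmul_eq_mul, ZMod.natCast_val, ZMod.cast_id', id, mul_assoc, inv_mul_cancel₀ hx',
    mul_one]
  rfl

theorem m14grp_self_mem (res : Γ →* Multiplicative (ZMod p)) (e : Γ →* U) (φ : Γ) :
    φ ∈ m14grp_H p res e φ :=
  m14grp_mem_H.2 ⟨1, by simp, by simp⟩

theorem m14grp_mem_zpowers {res : Γ →* Multiplicative (ZMod p)} {e : Γ →* U} {φ h : Γ}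
    (hh : h ∈ m14grp_H p res e φ) : e h ∈ Subgroup.zpowers (e φ) := by
  obtain ⟨k, hk, -⟩ := m14grp_mem_H.1 hh
  exact Subgroup.mem_zpowers_iff.2 ⟨k, hk.symm⟩

theorem m14grp_res_eq_one {res : Γ →* Multiplicative (ZMod p)} {e : Γ →* U} {φ h : Γ}
    (ho : p ∣ orderOf (e φ)) (hh : h ∈ m14grp_H p res e φ) (h1 : e h = 1) : res h = 1 := by
  obtain ⟨k, hk, hk'⟩ := m14grp_mem_H.1 hh
  rw [h1] at hk
  have hdvd : (orderOf (e φ) : ℤ) ∣ k := orderOf_dvd_iff_zpow_eq_one.2 hk.symm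
  have hp : (p : ℤ) ∣ k := (Int.natCast_dvd_natCast.2 ho).trans hdvd
  rw [hk', m14grp_zpow_of_dvd _ hp]

theorem m14grp_exists_j [Finite Γ] {res : Γ →* Multiplicative (ZMod p)} {e : Γ →* U} {φ h : Γ}
    (ho : p ∣ orderOf (e φ)) (hh : h ∈ m14grp_H p res e φ) :
    ∃ j : ℕ, e h * e φ ^ j = 1 ∧ res h * res φ ^ j = 1 := by
  obtain ⟨k, hk, hk'⟩ := m14grp_mem_H.1 hh
  have hfin : IsOfFinOrder (e φ) := MonoidHom.isOfFinOrder e (isOfFinOrder_of_finite φ)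
  have hN : 0 < orderOf (e φ) := hfin.orderOf_pos
  set N : ℤ := (orderOf (e φ) : ℤ) with hNdef
  have hN' : 0 < N := by rw [hNdef]; exact_mod_cast hN
  -- `j = (-k) mod N`
  have hj0 : 0 ≤ (-k) % N := Int.emod_nonneg _ hN'.ne'
  refine ⟨((-k) % N).toNat, ?_, ?_⟩
  · have hdvd : N ∣ k + (-k) % N := by
      have := Int.emod_add_mul_ediv (-k) N
      refine ⟨-((-k) / N), ?_⟩
      linarith
    rw [hk, ← zpow_natCast, Int.toNat_of_nonneg hj0, ← zpow_add]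
    exact orderOf_dvd_iff_zpow_eq_one.1 hdvd
  · have hdvd : N ∣ k + (-k) % N := by
      have := Int.emod_add_mul_ediv (-k) N
      refine ⟨-((-k) / N), ?_⟩
      linarith
    have hp : (p : ℤ) ∣ k + (-k) % N := (Int.natCast_dvd_natCast.2 ho).trans hdvd
    rw [hk', ← zpow_natCast, Int.toNat_of_nonneg hj0, ← zpow_add]
    exact m14grp_zpow_of_dvd _ hp

end

theorem m14grp_main {Γ : Type} [Group Γ] [Finite Γ] (p : ℕ) [Fact p.Prime] {U₁ U₂ : Type}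
    [CommGroup U₁] [CommGroup U₂]
    (res : Γ →* Multiplicative (ZMod p)) (e₁ : Γ →* U₁) (e₂ : Γ →* U₂)
    (hsurj : ∀ (x : Multiplicative (ZMod p)) (u₁ : U₁) (u₂ : U₂),
      ∃ γ : Γ, res γ = x ∧ e₁ γ = u₁ ∧ e₂ γ = u₂)
    (φ₁ φ₂ : Γ) (h₁ : res φ₁ ≠ 1) (h₂ : res φ₂ ≠ 1) (ho₁ : p ∣ orderOf (e₁ φ₁))
    (ho₂ : p ∣ orderOf (e₂ φ₂)) :
    ∃ H₁ H₂ : Subgroup Γ, φ₁ ∈ H₁ ∧ φ₂ ∈ H₂ ∧
      (∀ h ∈ H₁, e₁ h ∈ Subgroup.zpowers (e₁ φ₁)) ∧ (∀ h ∈ H₂, e₂ h ∈ Subgroup.zpowers (e₂ φ₂)) ∧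
      (∀ h ∈ H₁, e₁ h = 1 → res h = 1) ∧ (∀ h ∈ H₂, e₂ h = 1 → res h = 1) ∧
      (∀ h ∈ H₁, ∃ j : ℕ, e₁ h * e₁ φ₁ ^ j = 1 ∧ res h * res φ₁ ^ j = 1) ∧
      (∀ h ∈ H₂, ∃ j : ℕ, e₂ h * e₂ φ₂ ^ j = 1 ∧ res h * res φ₂ ^ j = 1) ∧
      ¬ (H₁ ⊓ H₂ ≤ res.ker) := by
  refine ⟨m14grp_H p res e₁ φ₁, m14grp_H p res e₂ φ₂, m14grp_self_mem res e₁ φ₁,
    m14grp_self_mem res e₂ φ₂, fun h hh => m14grp_mem_zpowers hh,
    fun h hh => m14grp_mem_zpowers hh, fun h hh => m14grp_res_eq_one ho₁ hh,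
    fun h hh => m14grp_res_eq_one ho₂ hh, fun h hh => m14grp_exists_j ho₁ hh,
    fun h hh => m14grp_exists_j ho₂ hh, ?_⟩
  obtain ⟨k₂, hk₂⟩ := m14grp_exists_pow (y := res φ₁) h₂
  obtain ⟨γ, hγ1, hγ2, hγ3⟩ := hsurj (res φ₁) (e₁ φ₁) (e₂ φ₂ ^ k₂)
  intro hle
  have hγH : γ ∈ m14grp_H p res e₁ φ₁ ⊓ m14grp_H p res e₂ φ₂ := by
    refine ⟨m14grp_mem_H.2 ⟨1, by simp [hγ2], by simp [hγ1]⟩,
      m14grp_mem_H.2 ⟨k₂, by simp [hγ3], by simp [hγ1, hk₂]⟩⟩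
  have := hle hγH
  rw [MonoidHom.mem_ker, hγ1] at this
  exact h₁ this

end Fermat.Agent.M14
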