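import Mathlib

/-!
# M14 (S14), package [GAL], part 1: the abstract representation theory

`G` a group, `χ : G →* (ZMod p)ˣ`, `V` a `ZMod p`-module of cardinality `p ^ 2` with a linear
action of `G`, `C` a line on which `G` acts trivially and such that `G` acts on `V / C`
through `χ`.
-/

set_option autoImplicit false
set_option linter.style.haveILetI false
set_option linter.unusedSectionVars false

namespace Fermat.Agent.M14

variable {p : ℕ} [Fact p.Prime] {G : Type*} [Group G] {V : Type*} [AddCommGroup V]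
  [Module (ZMod p) V] [DistribMulAction G V] [SMulCommClass G (ZMod p) V]

/-- the abstract hypotheses -/
structure m14gal_Rep (χ : G →* (ZMod p)ˣ) (C : Submodule (ZMod p) V) : Prop where
  fixed_sub : ∀ σ : G, ∀ x ∈ C, σ • x = x
  cyclo_quot : ∀ σ : G, ∀ x : V, σ • x - ((χ σ : (ZMod p)ˣ) : ZMod p) • x ∈ C
  card_sub : Nat.card C = p
  card_total : Nat.card V = p ^ 2

namespace m14gal_Rep

variable {χ : G →* (ZMod p)ˣ} {C : Submodule (ZMod p) V} (R : m14gal_Rep χ C)

include R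

theorem finite_V : Finite V := by
  exact Nat.finite_of_card_ne_zero (by rw [R.card_total]; exact pow_ne_zero 2 (Fact.out : p.Prime).pos.ne')

theorem exists_gen : ∃ e₁ : V, e₁ ∈ C ∧ e₁ ≠ 0 ∧ ∀ x ∈ C, ∃ a : ZMod p, x = a • e₁ := by
  haveI := R.finite_V
  have hp : p.Prime := Fact.out
  have h1 : Module.finrank (ZMod p) C = 1 := by
    have h := Module.natCard_eq_pow_finrank (K := ZMod p) (V := C)
    rw [R.card_sub, Nat.card_zmod] at h
    have h2 : p ^ 1 = p ^ Module.finrank (ZMod p) C := by rw [pow_one]; exact h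
    exact (Nat.pow_right_injective hp.two_le h2).symm
  obtain ⟨v, hv0, hv⟩ := finrank_eq_one_iff'.mp h1
  refine ⟨v.1, v.2, fun h => hv0 (Subtype.ext h), fun x hx => ?_⟩
  obtain ⟨c, hc⟩ := hv ⟨x, hx⟩
  have := congrArg Subtype.val hc
  exact ⟨c, by simpa using this.symm⟩

theorem exists_not_mem : ∃ e₂ : V, e₂ ∉ C := by
  haveI := R.finite_V
  have hp : p.Prime := Fact.out
  by_contra hcon
  push Not at hcon
  have htop : C = ⊤ := by
    rw [eq_top_iff]; intro x _; exact hcon x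
  have h1 : Nat.card C = Nat.card V := by
    rw [htop]
    exact Nat.card_congr (Submodule.topEquiv (R := ZMod p) (M := V)).toEquiv
  rw [R.card_sub, R.card_total] at h1
  have : p ^ 1 = p ^ 2 := by rw [pow_one]; exact h1
  have := Nat.pow_right_injective hp.two_le this
  omega

/-- every element is `c + a • e₂` -/
theorem exists_decomp {e₂ : V} (he₂ : e₂ ∉ C) (v : V) :
    ∃ c ∈ C, ∃ a : ZMod p, v = c + a • e₂ := by
  haveI := R.finite_V
  have hp : p.Prime := Fact.out
  haveI : Finite C := inferInstance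
  let f : C × ZMod p → V := fun x => (x.1 : V) + x.2 • e₂
  have hinj : Function.Injective f := by
    rintro ⟨c, a⟩ ⟨c', a'⟩ h
    simp only [f] at h
    have h1 : (a - a') • e₂ = (c' : V) - c := by
      rw [sub_smul, sub_eq_sub_iff_add_eq_add, add_comm, h]
    have h2 : a - a' = 0 := by
      by_contra hne
      apply he₂
      have h3 : e₂ = (a - a')⁻¹ • ((c' : V) - c) := by
        rw [← h1, smul_smul, inv_mul_cancel₀ hne, one_smul]
      rw [h3]
      exact C.smul_mem _ (C.sub_mem c'.2 c.2)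
    have h4 : a = a' := sub_eq_zero.mp h2
    subst h4
    have h5 : (c : V) = c' := by
      have := h
      simpa using this
    exact Prod.ext (Subtype.ext h5) rfl
  have hcard : Nat.card (C × ZMod p) = Nat.card V := by
    rw [Nat.card_prod, R.card_sub, Nat.card_zmod, R.card_total, sq]
  have hbij : Function.Bijective f :=
    (Nat.bijective_iff_injective_and_card f).mpr ⟨hinj, hcard⟩
  obtain ⟨⟨c, a⟩, h⟩ := hbij.2 v
  exact ⟨c.1, c.2, a, h.symm⟩

/-- an element acting trivially on `e₂ ∉ C` acts trivially -/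
theorem smul_eq_of_smul_eq {e₂ : V} (he₂ : e₂ ∉ C) {σ : G} (h : σ • e₂ = e₂) (v : V) :
    σ • v = v := by
  obtain ⟨c, hc, a, rfl⟩ := R.exists_decomp he₂ v
  rw [smul_add, R.fixed_sub σ c hc, smul_comm, h]

/-- the character is trivial on the kernel of the action -/
theorem chi_eq_one_of_trivial {σ : G} (h : ∀ v : V, σ • v = v) : χ σ = 1 := by
  obtain ⟨e₂, he₂⟩ := R.exists_not_mem
  have h1 := R.cyclo_quot σ e₂
  rw [h e₂] at h1
  by_contra hne
  have hne' : ((χ σ : (ZMod p)ˣ) : ZMod p) ≠ 1 := fun h' => hne (Units.ext h')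
  have h2 : (1 - ((χ σ : (ZMod p)ˣ) : ZMod p)) • e₂ ∈ C := by
    rw [sub_smul, one_smul]; exact h1
  have h3 : (1 - ((χ σ : (ZMod p)ˣ) : ZMod p)) ≠ 0 := fun h' => hne' (sub_eq_zero.mp h').symm
  apply he₂
  have : e₂ = (1 - ((χ σ : (ZMod p)ˣ) : ZMod p))⁻¹ • ((1 - ((χ σ : (ZMod p)ˣ) : ZMod p)) • e₂) := by
    rw [smul_smul, inv_mul_cancel₀ h3, one_smul]
  rw [this]
  exact C.smul_mem _ h2

/-- elements of the kernel of `χ` move every vector by an element of `C` -/
theorem sub_mem_of_chi {σ : G} (h : χ σ = 1) (v : V) : σ • v - v ∈ C := by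
  have := R.cyclo_quot σ v
  rwa [h, Units.val_one, one_smul] at this

/-- **Case A**: if the kernel of `χ` acts trivially and `χ` is non-trivial, there is a stable
complement. -/
theorem exists_compl (hker : ∀ σ : G, χ σ = 1 → ∀ v : V, σ • v = v)
    (hχ : ∃ σ₀ : G, χ σ₀ ≠ 1) :
    ∃ C' : Submodule (ZMod p) V, (∀ σ : G, ∀ x ∈ C', σ • x ∈ C') ∧ IsCompl C C' := by
  obtain ⟨σ₀, hσ₀⟩ := hχ
  set g : ZMod p := ((χ σ₀ : (ZMod p)ˣ) : ZMod p) with hg
  have hg1 : g ≠ 1 := fun h' => hσ₀ (Units.ext h')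
  have hg1' : (1 - g) ≠ 0 := fun h' => hg1 (sub_eq_zero.mp h').symm
  -- commutation
  have hcomm : ∀ (τ : G) (v : V), σ₀ • τ • v = τ • σ₀ • v := by
    intro τ v
    have h1 : χ (τ⁻¹ * σ₀⁻¹ * τ * σ₀) = 1 := by
      simp only [map_mul, map_inv]
      rw [mul_comm (χ τ)⁻¹, mul_assoc, mul_assoc, ← mul_assoc (χ τ)⁻¹, inv_mul_cancel, one_mul,
        inv_mul_cancel]
    have h2 := hker _ h1 v
    have h3 : τ • σ₀ • v = σ₀ • τ • (τ⁻¹ * σ₀⁻¹ * τ * σ₀) • v := by
      rw [← mul_smul, ← mul_smul, ← mul_smul]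
      congr 1
      group
    rw [h3, h2]
  let C' : Submodule (ZMod p) V :=
    { carrier := {v | σ₀ • v = g • v}
      add_mem' := fun {a b} ha hb => by
        change σ₀ • (a + b) = g • (a + b)
        rw [smul_add, smul_add, ha, hb]
      zero_mem' := by
        change σ₀ • (0 : V) = g • (0 : V)
        rw [smul_zero, smul_zero]
      smul_mem' := fun c v hv => by
        change σ₀ • (c • v) = g • (c • v)
        rw [smul_comm σ₀ c v, hv, smul_comm] }
  refine ⟨C', fun τ x hx => ?_, ?_⟩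
  · change σ₀ • (τ • x) = g • (τ • x)
    rw [hcomm, hx, smul_comm]
  · rw [isCompl_iff]
    constructor
    · rw [Submodule.disjoint_def]
      intro x hxC hxC'
      have h1 : σ₀ • x = x := R.fixed_sub σ₀ x hxC
      have h2 : σ₀ • x = g • x := hxC'
      have h3 : (1 - g) • x = 0 := by
        rw [sub_smul, one_smul, ← h2, h1, sub_self]
      have : x = (1 - g)⁻¹ • ((1 - g) • x) := by
        rw [smul_smul, inv_mul_cancel₀ hg1', one_smul]
      rw [this, h3, smul_zero]
    · rw [codisjoint_iff, eq_top_iff]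
      intro v _
      -- u = σ₀ v - g v ∈ C, w = σ₀ v - v ∈ C'
      have hu : σ₀ • v - g • v ∈ C := R.cyclo_quot σ₀ v
      have hw : σ₀ • v - v ∈ C' := by
        change σ₀ • (σ₀ • v - v) = g • (σ₀ • v - v)
        have h1 : σ₀ • (σ₀ • v - g • v) = σ₀ • v - g • v := R.fixed_sub σ₀ _ hu
        rw [smul_sub, smul_comm σ₀ g v] at h1
        rw [smul_sub, smul_sub]
        have h2 : σ₀ • σ₀ • v = σ₀ • v - g • v + g • σ₀ • v := by rw [← h1]; abel
        rw [h2]; abel
      have hv : v = (1 - g)⁻¹ • (σ₀ • v - g • v) + (-(1 - g)⁻¹) • (σ₀ • v - v) := by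
        have h1 : (σ₀ • v - g • v) - (σ₀ • v - v) = (1 - g) • v := by
          rw [sub_smul, one_smul]; abel
        have h2 : v = (1 - g)⁻¹ • ((1 - g) • v) := by
          rw [smul_smul, inv_mul_cancel₀ hg1', one_smul]
        rw [neg_smul, ← sub_eq_add_neg, ← smul_sub, h1]
        exact h2
      rw [hv]
      exact Submodule.add_mem_sup (C.smul_mem _ hu) (C'.smul_mem _ hw)

end m14gal_Rep

/-- a basis adapted to `C` -/
structure m14gal_Basis (χ : G →* (ZMod p)ˣ) (C : Submodule (ZMod p) V) (e₁ e₂ : V) : Prop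
    extends m14gal_Rep χ C where
  mem : e₁ ∈ C
  ne_zero : e₁ ≠ 0
  gen : ∀ x ∈ C, ∃ a : ZMod p, x = a • e₁
  not_mem : e₂ ∉ C

theorem m14gal_Rep.exists_basis {χ : G →* (ZMod p)ˣ} {C : Submodule (ZMod p) V}
    (R : m14gal_Rep χ C) : ∃ e₁ e₂ : V, m14gal_Basis χ C e₁ e₂ := by
  obtain ⟨e₁, h1, h2, h3⟩ := R.exists_gen
  obtain ⟨e₂, h4⟩ := R.exists_not_mem
  exact ⟨e₁, e₂, ⟨R, h1, h2, h3, h4⟩⟩

namespace m14gal_Basis

variable {χ : G →* (ZMod p)ˣ} {C : Submodule (ZMod p) V} {e₁ e₂ : V}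
  (B : m14gal_Basis χ C e₁ e₂)

include B

theorem smul_inj {a a' : ZMod p} (h : a • e₁ = a' • e₁) : a = a' := by
  by_contra hne
  have h1 : (a - a') • e₁ = 0 := by rw [sub_smul, h, sub_self]
  have h2 : a - a' ≠ 0 := fun h' => hne (sub_eq_zero.mp h')
  apply B.ne_zero
  have : e₁ = (a - a')⁻¹ • ((a - a') • e₁) := by
    rw [smul_smul, inv_mul_cancel₀ h2, one_smul]
  rw [this, h1, smul_zero]

/-- the cocycle -/
noncomputable def beta (σ : G) : ZMod p :=
  Classical.choose (B.gen _ (B.cyclo_quot σ e₂))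

theorem beta_spec (σ : G) :
    σ • e₂ = ((χ σ : (ZMod p)ˣ) : ZMod p) • e₂ + B.beta σ • e₁ := by
  have := Classical.choose_spec (B.gen _ (B.cyclo_quot σ e₂))
  rw [sub_eq_iff_eq_add] at this
  rw [this, add_comm]
  rfl

theorem beta_unique (σ : G) {a : ZMod p}
    (h : σ • e₂ = ((χ σ : (ZMod p)ˣ) : ZMod p) • e₂ + a • e₁) : B.beta σ = a := by
  have h1 := B.beta_spec σ
  rw [h] at h1
  exact (B.smul_inj (add_left_cancel h1)).symm

theorem beta_mul (σ τ : G) :
    B.beta (σ * τ) = ((χ τ : (ZMod p)ˣ) : ZMod p) * B.beta σ + B.beta τ := by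
  apply B.beta_unique
  rw [mul_smul, B.beta_spec τ, smul_add, smul_comm σ _ e₂, B.beta_spec σ,
    smul_comm σ _ e₁, B.fixed_sub σ e₁ B.mem, smul_add, smul_smul, smul_smul, map_mul,
    Units.val_mul, add_smul, add_assoc, mul_comm ((χ τ : (ZMod p)ˣ) : ZMod p)]

theorem beta_one : B.beta (1 : G) = 0 := by
  apply B.beta_unique
  rw [one_smul, map_one, Units.val_one, one_smul, zero_smul, add_zero]

theorem beta_inv (σ : G) :
    B.beta σ⁻¹ = -(((χ σ⁻¹ : (ZMod p)ˣ) : ZMod p) * B.beta σ) := by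
  have h := B.beta_mul σ σ⁻¹
  rw [mul_inv_cancel, B.beta_one] at h
  rw [eq_neg_iff_add_eq_zero, add_comm]
  exact h.symm

theorem beta_pow {σ : G} (hσ : χ σ = 1) (n : ℕ) : B.beta (σ ^ n) = n * B.beta σ := by
  induction n with
  | zero => rw [pow_zero, B.beta_one, Nat.cast_zero, zero_mul]
  | succ n ih =>
    rw [pow_succ, B.beta_mul, ih, hσ, Units.val_one, one_mul, Nat.cast_succ, add_mul, one_mul]

/-- the kernel of the action in terms of `χ` and `β` -/
theorem trivial_iff (σ : G) : (∀ v : V, σ • v = v) ↔ χ σ = 1 ∧ B.beta σ = 0 := by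
  constructor
  · intro h
    have h1 := B.tom14gal_Rep.chi_eq_one_of_trivial h
    refine ⟨h1, ?_⟩
    apply B.beta_unique
    rw [h e₂, h1, Units.val_one, one_smul, zero_smul, add_zero]
  · rintro ⟨h1, h2⟩
    apply B.tom14gal_Rep.smul_eq_of_smul_eq B.not_mem
    rw [B.beta_spec σ, h1, h2, Units.val_one, one_smul, zero_smul, add_zero]

/-- two elements of the kernel of `χ` with the same `β` differ by an element acting trivially -/
theorem trivial_of_beta_eq {σ τ : G} (hσ : χ σ = 1) (hτ : χ τ = 1)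
    (h : B.beta σ = B.beta τ) (v : V) : (σ⁻¹ * τ) • v = v := by
  revert v
  rw [B.trivial_iff]
  refine ⟨by rw [map_mul, map_inv, hσ, hτ, inv_one, one_mul], ?_⟩
  rw [B.beta_mul, B.beta_inv, map_inv, hσ, hτ, inv_one, Units.val_one, one_mul, one_mul, h,
    neg_add_cancel]

/-- the conjugation action on the kernel of `χ` is through `χ⁻¹` -/
theorem beta_conj (τ : G) {σ : G} (hσ : χ σ = 1) :
    B.beta (τ * σ * τ⁻¹) = ((χ τ⁻¹ : (ZMod p)ˣ) : ZMod p) * B.beta σ := by
  rw [B.beta_mul, B.beta_mul, B.beta_inv, hσ, Units.val_one, one_mul]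
  ring

theorem conj_trivial (τ : G) {σ : G} (hσ : χ σ = 1) (n : ℕ)
    (hn : (n : ZMod p) = ((χ τ : (ZMod p)ˣ) : ZMod p)) (v : V) :
    (τ * σ ^ n * τ⁻¹ * σ⁻¹) • v = v := by
  revert v
  rw [B.trivial_iff]
  have hσn : χ (σ ^ n) = 1 := by rw [map_pow, hσ, one_pow]
  refine ⟨by rw [map_mul, map_mul, map_mul, hσn, map_inv, map_inv, hσ, mul_one, mul_inv_cancel,
    inv_one, mul_one], ?_⟩
  rw [B.beta_mul, B.beta_conj τ hσn, B.beta_pow hσ, B.beta_inv, map_inv, map_inv, hσ, inv_one,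
    Units.val_one, one_mul, one_mul, hn, ← mul_assoc, ← Units.val_mul, inv_mul_cancel,
    Units.val_one, one_mul, add_neg_cancel]

/-- **Case B**: if the kernel of `χ` does not act trivially, `β` is surjective on it -/
theorem beta_surjective (h : ∃ σ : G, χ σ = 1 ∧ ∃ v : V, σ • v ≠ v) (a : ZMod p) :
    ∃ σ : G, χ σ = 1 ∧ B.beta σ = a := by
  obtain ⟨σ₁, h1, v, hv⟩ := h
  have hb : B.beta σ₁ ≠ 0 := by
    intro h0
    exact hv ((B.trivial_iff σ₁).mpr ⟨h1, h0⟩ v)
  refine ⟨σ₁ ^ (a * (B.beta σ₁)⁻¹).val, by rw [map_pow, h1, one_pow], ?_⟩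
  rw [B.beta_pow h1, ZMod.natCast_zmod_val, mul_assoc, inv_mul_cancel₀ hb, mul_one]

end m14gal_Basis

end Fermat.Agent.M14
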