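import Mathlib
import Fermat.Prelude.Def_ExtCitation_AdmissibleExtension_v2
import Fermat.Agent.M14.GalRep
import Fermat.Agent.Frob.Profinite

/-!
# M14 (S14), package [GAL], part 3: the mod `p` cyclotomic character of `G_ℚ`
-/

set_option autoImplicit false
set_option linter.style.haveILetI false
set_option linter.unusedSectionVars false

namespace Fermat.Agent.M14

open ExtCitation Fermat.Agent.Frob

noncomputable section

attribute [local instance] isAlgebraic_Qb isAlgClosure_Qb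

variable (p : ℕ) [Fact p.Prime]

/-- the mod `p` cyclotomic character of `G_ℚ` -/
def m14gal_chi : (AlgebraicClosure ℚ ≃ₐ[ℚ] AlgebraicClosure ℚ) →* (ZMod p)ˣ :=
  haveI : NeZero p := ⟨(Fact.out : p.Prime).ne_zero⟩
  (modularCyclotomicCharacter (AlgebraicClosure ℚ) (card_rootsOfUnity_eq_self p)).comp
    { toFun := fun σ => (σ : AlgebraicClosure ℚ ≃+* AlgebraicClosure ℚ)
      map_one' := rfl
      map_mul' := fun _ _ => rfl }

variable {p}

theorem m14gal_chi_val (σ : AlgebraicClosure ℚ ≃ₐ[ℚ] AlgebraicClosure ℚ) :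
    (cycloExp p σ : ZMod p) = ((m14gal_chi p σ : (ZMod p)ˣ) : ZMod p) := by
  haveI : NeZero p := ⟨(Fact.out : p.Prime).ne_zero⟩
  unfold cycloExp
  rw [ZMod.natCast_zmod_val]
  rfl

theorem m14gal_chi_spec (σ : AlgebraicClosure ℚ ≃ₐ[ℚ] AlgebraicClosure ℚ)
    {ζ : AlgebraicClosure ℚ} (hζ : ζ ^ p = 1) :
    σ ζ = ζ ^ (((m14gal_chi p σ : (ZMod p)ˣ) : ZMod p)).val := by
  haveI : NeZero p := ⟨(Fact.out : p.Prime).ne_zero⟩
  have hp : p.Prime := Fact.out
  have hu : IsUnit ζ := IsUnit.of_pow_eq_one hζ hp.ne_zero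
  obtain ⟨t, rfl⟩ := hu
  have ht : t ∈ rootsOfUnity p (AlgebraicClosure ℚ) := by
    rw [mem_rootsOfUnity]
    exact Units.ext (by simpa using hζ)
  have := modularCyclotomicCharacter.spec (AlgebraicClosure ℚ) (card_rootsOfUnity_eq_self p)
    (σ : AlgebraicClosure ℚ ≃+* AlgebraicClosure ℚ) ht
  exact this

theorem m14gal_exists_prim (p : ℕ) [Fact p.Prime] :
    ∃ ζ : AlgebraicClosure ℚ, IsPrimitiveRoot ζ p := by
  haveI : NeZero p := ⟨(Fact.out : p.Prime).ne_zero⟩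
  haveI : NeZero (p : AlgebraicClosure ℚ) := ⟨Nat.cast_ne_zero.mpr (NeZero.ne p)⟩
  exact HasEnoughRootsOfUnity.exists_primitiveRoot (AlgebraicClosure ℚ) p

theorem m14gal_chi_eq_iff (σ : AlgebraicClosure ℚ ≃ₐ[ℚ] AlgebraicClosure ℚ)
    {ζ : AlgebraicClosure ℚ} (hζ : IsPrimitiveRoot ζ p) (n : ℕ) :
    (n : ZMod p) = ((m14gal_chi p σ : (ZMod p)ˣ) : ZMod p) ↔ σ ζ = ζ ^ n := by
  haveI : NeZero p := ⟨(Fact.out : p.Prime).ne_zero⟩
  rw [m14gal_chi_spec σ hζ.pow_eq_one]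
  have hord : orderOf ζ = p := hζ.eq_orderOf.symm
  have hmod : ∀ m : ℕ, ζ ^ (m % p) = ζ ^ m := fun m => by
    conv_lhs => rw [← hord]
    exact pow_mod_orderOf ζ m
  constructor
  · intro h
    rw [← h, ZMod.val_natCast, hmod]
  · intro h
    rw [← hmod n] at h
    have h1 := hζ.pow_inj (ZMod.val_lt _) (Nat.mod_lt _ (Fact.out : p.Prime).pos) h
    have h2 : ((((m14gal_chi p σ : (ZMod p)ˣ) : ZMod p).val : ℕ) : ZMod p) = (n : ZMod p) := by
      rw [h1, ZMod.natCast_mod]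
    rw [← h2, ZMod.natCast_zmod_val]

theorem m14gal_chi_eq_one_iff (σ : AlgebraicClosure ℚ ≃ₐ[ℚ] AlgebraicClosure ℚ)
    {ζ : AlgebraicClosure ℚ} (hζ : IsPrimitiveRoot ζ p) :
    m14gal_chi p σ = 1 ↔ σ ζ = ζ := by
  have := m14gal_chi_eq_iff σ hζ 1
  rw [pow_one, Nat.cast_one] at this
  rw [← this]
  constructor
  · intro h; rw [h]; rfl
  · intro h; exact Units.ext h.symm


/-- the cyclotomic character is non-trivial for `p ≥ 3` -/
theorem m14gal_chi_ne_one (h3 : 3 ≤ p) :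
    ∃ σ : AlgebraicClosure ℚ ≃ₐ[ℚ] AlgebraicClosure ℚ, m14gal_chi p σ ≠ 1 := by
  have hp : p.Prime := Fact.out
  obtain ⟨ζ, hζ⟩ := m14gal_exists_prim p
  by_contra hcon
  push Not at hcon
  have hfix : ∀ σ : AlgebraicClosure ℚ ≃ₐ[ℚ] AlgebraicClosure ℚ, σ ζ = ζ :=
    fun σ => (m14gal_chi_eq_one_iff σ hζ).mp (hcon σ)
  obtain ⟨r, hr⟩ := (InfiniteGalois.mem_range_algebraMap_iff_fixed (k := ℚ) ζ).mpr hfix
  have hrp : r ^ p = 1 := by
    apply (algebraMap ℚ (AlgebraicClosure ℚ)).injective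
    rw [map_pow, hr, hζ.pow_eq_one, map_one]
  have hodd : Odd p := hp.odd_of_ne_two (by omega)
  have hr1 : r = 1 := by
    have := hodd.strictMono_pow (R := ℚ)
    apply this.injective
    simp only
    rw [hrp, one_pow]
  have hζ1 : ζ = 1 := by rw [← hr, hr1, map_one]
  exact hζ.ne_one hp.one_lt hζ1

variable {V : Type} [AddCommGroup V] [Module (ZMod p) V]
  [DistribMulAction (AlgebraicClosure ℚ ≃ₐ[ℚ] AlgebraicClosure ℚ) V]
  [SMulCommClass (AlgebraicClosure ℚ ≃ₐ[ℚ] AlgebraicClosure ℚ) (ZMod p) V]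
  {C : Submodule (ZMod p) V}

/-- an admissible extension is a representation of the abstract kind -/
theorem m14gal_rep (hV : IsAdmissibleExtension p V C) : m14gal_Rep (m14gal_chi p) C where
  fixed_sub := hV.fixed_sub
  cyclo_quot σ x := by
    have := hV.cyclo_quot σ x
    rwa [m14gal_chi_val] at this
  card_sub := hV.card_sub
  card_total := hV.card_total

/-- an element of the decomposition group at a place over `p` which is in the kernel of the
cyclotomic character acts trivially -/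
theorem m14gal_trivial_of_decomp (hV : IsAdmissibleExtension p V C)
    (A : ValuationSubring (AlgebraicClosure ℚ)) (hA : A.LiesOverPrime p)
    {σ : AlgebraicClosure ℚ ≃ₐ[ℚ] AlgebraicClosure ℚ} (hσ : σ ∈ A.decompositionSubgroup ℚ)
    (hχ : m14gal_chi p σ = 1) (v : V) : σ • v = v := by
  obtain ⟨C', hC', hcompl⟩ := hV.locally_split A hA
  have hR := m14gal_rep hV
  have hsup : v ∈ C ⊔ C' := by rw [hcompl.sup_eq_top]; trivial
  obtain ⟨c, hc, c', hc', rfl⟩ := Submodule.mem_sup.mp hsup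
  rw [smul_add, hV.fixed_sub σ c hc]
  congr 1
  have h1 : σ • c' - c' ∈ C := hR.sub_mem_of_chi hχ c'
  have h2 : σ • c' - c' ∈ C' := C'.sub_mem (hC' σ hσ c' hc') hc'
  have h3 : σ • c' - c' ∈ C ⊓ C' := ⟨h1, h2⟩
  rw [hcompl.inf_eq_bot, Submodule.mem_bot] at h3
  exact sub_eq_zero.mp h3

/-- inertia acts trivially in the kernel of the cyclotomic character -/
theorem m14gal_trivial_of_inertia (hV : IsAdmissibleExtension p V C)
    (A : ValuationSubring (AlgebraicClosure ℚ)) {q : ℕ} (hq : q.Prime)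
    (hA : (q : AlgebraicClosure ℚ) ∈ A.nonunits)
    {σ : AlgebraicClosure ℚ ≃ₐ[ℚ] AlgebraicClosure ℚ} (hσ : σ ∈ A.inertiaSubgroupIn ℚ)
    (hχ : m14gal_chi p σ = 1) (v : V) : σ • v = v := by
  by_cases hqp : q = p
  · subst hqp
    refine m14gal_trivial_of_decomp hV A hA ?_ hχ v
    obtain ⟨s, -, rfl⟩ := hσ
    exact s.2
  · exact hV.unramified_outside q hq hqp A hA σ hσ v

end

end Fermat.Agent.M14
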