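import Mathlib
import Fermat.Agent.M13.Mink

/-!
# M14 (S14), package [GAL], part 2: places of `Qb` over primes of a number field, and lifting
elements of decomposition groups
-/

set_option autoImplicit false
set_option linter.style.haveILetI false
set_option linter.unusedSectionVars false

open scoped Pointwise NumberField

namespace Fermat.Agent.M14

open Fermat.Agent.Frob Fermat.Agent.M13

noncomputable section

attribute [local instance] isAlgebraic_Qb isAlgClosure_Qb isAlgebraic_int_Qb isFractionRing_Zb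
  galAction mink_numberField mink_algebra

variable (K : IntermediateField ℚ Qb)

/-- a place of `Qb` over a non-zero prime of `𝓞 K` -/
theorem m14gal_exists_valSub [FiniteDimensional ℚ K] (P : Ideal (𝓞 K)) [hP : P.IsPrime]
    (hP0 : P ≠ ⊥) :
    ∃ (A : ValuationSubring Qb) (q : ℕ), q.Prime ∧ (q : Qb) ∈ A.nonunits ∧ (q : 𝓞 K) ∈ P ∧
      ∀ x : 𝓞 K, x ∈ P ↔ (((x : K) : Qb)) ∈ A.nonunits := by
  classical
  have hmax : P.IsMaximal := hP.isMaximal hP0
  -- the rational prime
  haveI : Finite (𝓞 K ⧸ P) := Ideal.finiteQuotientOfFreeOfNeBot P hP0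
  haveI : IsDomain (𝓞 K ⧸ P) := Ideal.Quotient.isDomain P
  set q := ringChar (𝓞 K ⧸ P) with hqdef
  haveI : CharP (𝓞 K ⧸ P) q := ringChar.charP _
  have hq : q.Prime :=
    (CharP.char_is_prime_or_zero (𝓞 K ⧸ P) q).resolve_right (CharP.char_ne_zero_of_finite (𝓞 K ⧸ P) q)
  have hqP : (q : 𝓞 K) ∈ P := by
    rw [← Ideal.Quotient.eq_zero_iff_mem, map_natCast]
    exact CharP.cast_eq_zero _ q
  -- the place
  let f : 𝓞 K →+* Qb := (algebraMap K Qb).comp (algebraMap (𝓞 K) K)
  have hf : Function.Injective f :=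
    (algebraMap K Qb).injective.comp NumberField.RingOfIntegers.coe_injective
  have hsurj : Function.Surjective f.rangeRestrict := f.rangeRestrict_surjective
  have hne : Ideal.map f.rangeRestrict P ≠ ⊤ := by
    intro htop
    have h1 : (1 : f.range) ∈ Ideal.map f.rangeRestrict P := by rw [htop]; trivial
    rw [Ideal.mem_map_iff_of_surjective _ hsurj] at h1
    obtain ⟨x, hx, hx1⟩ := h1
    have h2 : f x = f 1 := by
      have := congrArg Subtype.val hx1
      simpa using this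
    have h3 : x = 1 := hf h2
    rw [h3] at hx
    exact hP.ne_top ((Ideal.eq_top_iff_one P).mpr hx)
  obtain ⟨A, -, hA⟩ := Ideal.image_subset_nonunits_valuationSubring _ hne
  have hPA : ∀ x : 𝓞 K, x ∈ P → (((x : K) : Qb)) ∈ A.nonunits := by
    intro x hx
    exact hA ⟨f.rangeRestrict x, Ideal.mem_map_of_mem _ hx, rfl⟩
  refine ⟨A, q, hq, ?_, hqP, fun x => ⟨hPA x, fun hx => ?_⟩⟩
  · have := hPA _ hqP
    simpa using this
  · let J : Ideal (𝓞 K) := (center A).comap (mink_toZb K)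
    haveI hQ : (center A).IsPrime := center_isPrime A
    haveI hJ : J.IsPrime := Ideal.comap_isPrime _ _
    have hle : P ≤ J := fun y hy => hPA y hy
    have := hmax.eq_of_le hJ.ne_top hle
    rw [this]
    exact hx


/-- an automorphism preserving a valuation subring in both directions lies in its
decomposition group -/
theorem m14gal_mem_decomposition {K L : Type*} [Field K] [Field L] [Algebra K L]
    (A : ValuationSubring L) (σ : L ≃ₐ[K] L)
    (h1 : ∀ x ∈ A, σ x ∈ A) (h2 : ∀ x ∈ A, σ.symm x ∈ A) :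
    σ ∈ A.decompositionSubgroup K := by
  rw [MulAction.mem_stabilizer_iff]
  apply le_antisymm
  · rintro _ ⟨x, hx, rfl⟩
    exact h1 x hx
  · intro x hx
    exact ⟨σ.symm x, h2 x hx, by simp⟩

/-- an automorphism of `Qb` mapping the centre of a place into itself maps the valuation ring
into itself -/
theorem m14gal_map_mem_of_center (A : ValuationSubring Qb) {q : ℕ} (hq : q.Prime)
    (hA : (q : Qb) ∈ A.nonunits) (σ : Qb ≃ₐ[ℚ] Qb)
    (h : ∀ b : Qb, IsIntegral ℤ b → σ b ∈ A.nonunits → b ∈ A.nonunits)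
    {x : Qb} (hx : x ∈ A) : σ x ∈ A := by
  obtain ⟨a, b, ha, hb, hvb, hxb⟩ := exists_integral_fraction A hq hA hx
    (isAlgebraic_int_Qb.isAlgebraic x)
  have hb0 : b ≠ 0 := by
    intro h0
    rw [h0, map_zero] at hvb
    exact zero_ne_one hvb
  have hσb : IsIntegral ℤ (σ b) := map_isIntegral_int (σ : Qb →+* Qb) hb
  have hσa : IsIntegral ℤ (σ a) := map_isIntegral_int (σ : Qb →+* Qb) ha
  have hvσb : A.valuation (σ b) = 1 := by
    have h1 : A.valuation (σ b) ≤ 1 := valuation_le_one_of_isIntegral A hσb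
    rcases lt_or_eq_of_le h1 with h2 | h2
    · exfalso
      have h3 : σ b ∈ A.nonunits := by rwa [A.mem_nonunits_iff]
      have h4 := h b hb h3
      rw [A.mem_nonunits_iff, hvb] at h4
      exact lt_irrefl _ h4
    · exact h2
  have hxeq : x = a / b := by
    rw [eq_div_iff hb0]; exact hxb
  rw [← A.valuation_le_one_iff, hxeq, map_div₀, map_div₀, hvσb, div_one]
  exact valuation_le_one_of_isIntegral A hσa

/-- an automorphism of `Qb` preserving the centre of a place lies in its decomposition group -/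
theorem m14gal_mem_decomposition_of_center (A : ValuationSubring Qb) {q : ℕ} (hq : q.Prime)
    (hA : (q : Qb) ∈ A.nonunits) (σ : Qb ≃ₐ[ℚ] Qb)
    (h : ∀ b : Qb, IsIntegral ℤ b → (σ b ∈ A.nonunits ↔ b ∈ A.nonunits)) :
    σ ∈ A.decompositionSubgroup ℚ := by
  refine m14gal_mem_decomposition A σ
    (fun x hx => m14gal_map_mem_of_center A hq hA σ (fun b hb hσ => (h b hb).mp hσ) hx)
    (fun x hx => ?_)
  have := m14gal_map_mem_of_center A hq hA σ⁻¹ (fun b hb hσ => by
    have h1 := h (σ⁻¹ b) (map_isIntegral_int ((σ⁻¹ : Qb ≃ₐ[ℚ] Qb) : Qb →+* Qb) hb)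
    have h2 : σ (σ⁻¹ b) = b := by
      change σ (σ.symm b) = b
      simp
    rw [h2] at h1
    exact h1.mpr hσ) hx
  exact this


/-- lifting an element of the decomposition group of a prime of `K` to the decomposition group
of a place of `Qb` above it -/
theorem m14gal_exists_lift_decomp [FiniteDimensional ℚ K] [Normal ℚ K]
    (A : ValuationSubring Qb) {q : ℕ} (hq : q.Prime) (hA : (q : Qb) ∈ A.nonunits)
    (τ : K ≃ₐ[ℚ] K)
    (hτ : ∀ x : 𝓞 K, ((τ (x : K) : K) : Qb) ∈ A.nonunits ↔ ((x : K) : Qb) ∈ A.nonunits) :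
    ∃ σ : Qb ≃ₐ[ℚ] Qb, σ ∈ A.decompositionSubgroup ℚ ∧ AlgEquiv.restrictNormalHom K σ = τ := by
  classical
  letI : TopologicalSpace Zb := ⊥
  haveI : DiscreteTopology Zb := ⟨rfl⟩
  haveI hcont : ContinuousSMul (Qb ≃ₐ[ℚ] Qb) Zb := continuousSMul_Zb
  haveI : ContinuousSMul K.fixingSubgroup Zb := inferInstance
  haveI : CompactSpace K.fixingSubgroup :=
    isCompact_iff_compactSpace.mp (IntermediateField.fixingSubgroup_isClosed K).isCompact
  haveI := mink_isInvariant K
  let Q := center A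
  haveI hQ : Q.IsPrime := center_isPrime A
  obtain ⟨σ₀, hσ₀⟩ := AlgEquiv.restrictNormalHom_surjective (F := ℚ) (K₁ := K) Qb τ
  have hmemQ : ∀ b : Zb, b ∈ Q ↔ (b : Qb) ∈ A.nonunits := fun b => Iff.rfl
  have hPQ : (σ₀ • Q).under (𝓞 K) = Q.under (𝓞 K) := by
    ext x
    rw [Ideal.mem_comap, Ideal.mem_comap, Ideal.mem_pointwise_smul_iff_inv_smul_mem, hmemQ, hmemQ,
      coe_smul_Zb, mink_algebraMap_coe]
    have h1 : (σ₀⁻¹ : Qb ≃ₐ[ℚ] Qb) ((x : K) : Qb) = ((τ.symm (x : K) : K) : Qb) := by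
      have := mink_restrict_coe K σ₀⁻¹ (x : K)
      rw [map_inv, hσ₀] at this
      exact this.symm
    rw [h1]
    have h2 := hτ (mink_galInt K τ.symm x)
    have h3 : τ ((mink_galInt K τ.symm x : 𝓞 K) : K) = (x : K) := by
      change τ (τ.symm (x : K)) = _
      simp
    rw [h3] at h2
    exact h2.symm
  obtain ⟨g, hg⟩ := Algebra.IsInvariant.exists_smul_of_under_eq_of_profinite
    (A := 𝓞 K) (G := K.fixingSubgroup) (σ₀ • Q) Q hPQ
  set σ₁ : Qb ≃ₐ[ℚ] Qb := (g : Qb ≃ₐ[ℚ] Qb) * σ₀ with hσ₁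
  have hσ₁Q : σ₁ • Q = Q := by
    rw [hσ₁, mul_smul]; exact hg.symm
  have hσ₁K : AlgEquiv.restrictNormalHom K σ₁ = τ := by
    rw [hσ₁, map_mul, mink_restrict_eq_one, one_mul, hσ₀]
  refine ⟨σ₁, m14gal_mem_decomposition_of_center A hq hA σ₁ (fun b hb => ?_), hσ₁K⟩
  -- `σ₁ b ∈ Q ↔ b ∈ Q`
  have h1 : (⟨b, hb⟩ : Zb) ∈ σ₁⁻¹ • Q ↔ (σ₁ • (⟨b, hb⟩ : Zb)) ∈ Q := by
    rw [Ideal.mem_pointwise_smul_iff_inv_smul_mem, inv_inv]
  have h2 : σ₁⁻¹ • Q = Q := by
    conv_lhs => rw [← hσ₁Q]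
    rw [inv_smul_smul]
  rw [h2, hmemQ, hmemQ, coe_smul_Zb] at h1
  exact h1.symm

end

end Fermat.Agent.M14
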