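import Mathlib
import Fermat.Agent.M14.GalChi
import Fermat.Agent.M14.GalLift
import Fermat.Agent.M14.Target

/-!
# M14 (S14), package [GAL], part 4: the splitting field of a non-split admissible extension

Main result: `m14gal_main : 3 ≤ p → M14NoExt p → ExtCitation.ExtVanishingCts p`.
-/

set_option autoImplicit false
set_option linter.style.haveILetI false
set_option linter.unusedSectionVars false

open scoped Pointwise NumberField

namespace Fermat.Agent.M14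

open ExtCitation Fermat.Agent.Frob Fermat.Agent.M13

noncomputable section

attribute [local instance] isAlgebraic_Qb isAlgClosure_Qb isAlgebraic_int_Qb isFractionRing_Zb
  galAction mink_numberField mink_algebra

variable {p : ℕ} [Fact p.Prime]
variable {V : Type} [AddCommGroup V] [Module (ZMod p) V]
  [DistribMulAction (Qb ≃ₐ[ℚ] Qb) V]
  [SMulCommClass (Qb ≃ₐ[ℚ] Qb) (ZMod p) V]
  {C : Submodule (ZMod p) V}

/-- the field cut out by the kernel of the action -/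
theorem m14gal_exists_field (hopen : IsOpen {σ : Qb ≃ₐ[ℚ] Qb | ∀ v : V, σ • v = v}) :
    ∃ L : IntermediateField ℚ Qb, FiniteDimensional ℚ L ∧ IsGalois ℚ L ∧
      ∀ σ : Qb ≃ₐ[ℚ] Qb, σ ∈ L.fixingSubgroup ↔ ∀ v : V, σ • v = v := by
  classical
  let H : Subgroup (Qb ≃ₐ[ℚ] Qb) := (MulAction.toPermHom (Qb ≃ₐ[ℚ] Qb) V).ker
  haveI hn : H.Normal := MonoidHom.normal_ker _
  have hmem : ∀ τ : Qb ≃ₐ[ℚ] Qb, τ ∈ H ↔ ∀ y : V, τ • y = y := by
    intro τ
    rw [MonoidHom.mem_ker]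
    constructor
    · intro h y
      have := congrArg (fun e : Equiv.Perm V => e y) h
      simpa using this
    · intro h
      ext y
      simpa using h y
  have hset : (H : Set (Qb ≃ₐ[ℚ] Qb)) = {σ : Qb ≃ₐ[ℚ] Qb | ∀ v : V, σ • v = v} := by
    ext τ
    exact hmem τ
  have hHopen : IsOpen (H : Set (Qb ≃ₐ[ℚ] Qb)) := by rw [hset]; exact hopen
  have hclosed : IsClosed (H : Set (Qb ≃ₐ[ℚ] Qb)) := Subgroup.isClosed_of_isOpen H hHopen
  set L : IntermediateField ℚ Qb := IntermediateField.fixedField H with hL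
  have hfix : L.fixingSubgroup = H :=
    InfiniteGalois.fixingSubgroup_fixedField ⟨H, hclosed⟩
  refine ⟨L, ?_, ?_, fun σ => by rw [hfix]; exact hmem σ⟩
  · rw [← InfiniteGalois.isOpen_iff_finite, hfix]
    exact hHopen
  · have hn' : L.fixingSubgroup.Normal := by rw [hfix]; exact hn
    exact (InfiniteGalois.normal_iff_isGalois L).mp hn'

/-- the data of a non-split admissible extension together with its splitting field -/
structure m14gal_Setup (p : ℕ) [Fact p.Prime] (V : Type) [AddCommGroup V] [Module (ZMod p) V]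
    [DistribMulAction (Qb ≃ₐ[ℚ] Qb) V] [SMulCommClass (Qb ≃ₐ[ℚ] Qb) (ZMod p) V]
    (C : Submodule (ZMod p) V) (L : IntermediateField ℚ Qb) (ζ : Qb) (e₁ e₂ : V) : Prop where
  adm : IsAdmissibleExtension p V C
  prim : IsPrimitiveRoot ζ p
  fix : ∀ σ : Qb ≃ₐ[ℚ] Qb, σ ∈ L.fixingSubgroup ↔ ∀ v : V, σ • v = v
  nontriv : ∃ σ : Qb ≃ₐ[ℚ] Qb, m14gal_chi p σ = 1 ∧ ∃ v : V, σ • v ≠ v
  basis : m14gal_Basis (m14gal_chi p) C e₁ e₂

namespace m14gal_Setup

variable {L : IntermediateField ℚ Qb} {ζ : Qb} {e₁ e₂ : V}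
  (S : m14gal_Setup p V C L ζ e₁ e₂)

include S

theorem chi_eq_one_of_mem {σ : Qb ≃ₐ[ℚ] Qb} (hσ : σ ∈ L.fixingSubgroup) :
    m14gal_chi p σ = 1 :=
  (m14gal_rep S.adm).chi_eq_one_of_trivial ((S.fix σ).mp hσ)

theorem zeta_mem : ζ ∈ L := by
  have h : ζ ∈ IntermediateField.fixedField L.fixingSubgroup := by
    intro σ
    exact (m14gal_chi_eq_one_iff σ.1 S.prim).mp (S.chi_eq_one_of_mem σ.2)
  rwa [InfiniteGalois.fixedField_fixingSubgroup] at h


/-- the primitive root as an element of the splitting field -/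
def zetaL : ↥L := ⟨ζ, S.zeta_mem⟩

/-- the cyclotomic subfield -/
def cyc : IntermediateField ℚ ↥L := IntermediateField.adjoin ℚ {S.zetaL}

theorem zetaL_mem : S.zetaL ∈ S.cyc :=
  IntermediateField.subset_adjoin ℚ _ (Set.mem_singleton _)

theorem zetaL_prim : IsPrimitiveRoot S.zetaL p :=
  IsPrimitiveRoot.of_map_of_injective (f := algebraMap ↥L Qb) S.prim
    (algebraMap ↥L Qb).injective

theorem map_zetaL (σ : ↥L ≃ₐ[↥S.cyc] ↥L) : σ S.zetaL = S.zetaL :=
  σ.commutes ⟨S.zetaL, S.zetaL_mem⟩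

variable [FiniteDimensional ℚ L] [IsGalois ℚ L]

theorem chi_lift (σ : ↥L ≃ₐ[↥S.cyc] ↥L) {σ' : Qb ≃ₐ[ℚ] Qb}
    (h : AlgEquiv.restrictNormalHom L σ' = σ.restrictScalars ℚ) : m14gal_chi p σ' = 1 := by
  rw [m14gal_chi_eq_one_iff σ' S.prim]
  have h1 := mink_restrict_coe L σ' S.zetaL
  rw [h] at h1
  change ((σ S.zetaL : ↥L) : Qb) = σ' ζ at h1
  rw [S.map_zetaL] at h1
  exact h1.symm

theorem eq_one_of_lift (σ : ↥L ≃ₐ[↥S.cyc] ↥L) {σ' : Qb ≃ₐ[ℚ] Qb}
    (h : AlgEquiv.restrictNormalHom L σ' = σ.restrictScalars ℚ)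
    (htriv : ∀ v : V, σ' • v = v) : σ = 1 := by
  have hmem : σ' ∈ L.fixingSubgroup := (S.fix σ').mpr htriv
  have h1 := mink_restrict_eq_one L ⟨σ', hmem⟩
  change AlgEquiv.restrictNormalHom L σ' = 1 at h1
  rw [h] at h1
  apply AlgEquiv.ext
  intro x
  have := congrArg (fun f : ↥L ≃ₐ[ℚ] ↥L => f x) h1
  exact this


/-- an automorphism fixing all integers is trivial -/
theorem eq_one_of_integers (σ : ↥L ≃ₐ[↥S.cyc] ↥L) (h : ∀ x : 𝓞 ↥L, σ (x : ↥L) = (x : ↥L)) :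
    σ = 1 := by
  apply AlgEquiv.ext
  intro y
  obtain ⟨a, b, -, rfl⟩ := IsFractionRing.div_surjective (A := 𝓞 ↥L) y
  change σ (algebraMap (𝓞 ↥L) ↥L a / algebraMap (𝓞 ↥L) ↥L b) = _
  rw [map_div₀]
  change σ (a : ↥L) / σ (b : ↥L) = _
  rw [h a, h b]
  rfl

/-- `L / ℚ(ζ)` is unramified everywhere -/
theorem inertia (P : Ideal (𝓞 ↥L)) (hP : P.IsPrime) (σ : ↥L ≃ₐ[↥S.cyc] ↥L)
    (h : ∀ x : 𝓞 ↥L, ∃ y ∈ P, (y : ↥L) = σ x - x) : σ = 1 := by
  by_cases hP0 : P = ⊥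
  · subst hP0
    refine S.eq_one_of_integers σ (fun x => ?_)
    obtain ⟨y, hy, hyx⟩ := h x
    rw [Ideal.mem_bot] at hy
    rw [hy] at hyx
    have : σ (x : ↥L) - x = 0 := by rw [← hyx]; rfl
    exact sub_eq_zero.mp this
  · haveI := hP
    obtain ⟨A, q, hq, hA, -, hPA⟩ := m14gal_exists_valSub L P hP0
    obtain ⟨σ', hσ', hres⟩ := mink_exists_lift L A hq hA (σ.restrictScalars ℚ) (fun x => by
      obtain ⟨y, hy, hyx⟩ := h x
      have h1 := (hPA y).mp hy
      rw [hyx] at h1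
      exact h1)
    exact S.eq_one_of_lift σ hres
      (m14gal_trivial_of_inertia S.adm A hq hA hσ' (S.chi_lift σ hres))


/-- the primes over `p` split completely in `L / ℚ(ζ)` -/
theorem split (P : Ideal (𝓞 ↥L)) (hP : P.IsPrime) (hpP : (p : 𝓞 ↥L) ∈ P)
    (σ : ↥L ≃ₐ[↥S.cyc] ↥L) (h : ∀ x ∈ P, ∃ y ∈ P, (y : ↥L) = σ x) : σ = 1 := by
  classical
  have hp : p.Prime := Fact.out
  have hP0 : P ≠ ⊥ := by
    intro h0
    rw [h0, Ideal.mem_bot] at hpP
    have : (p : 𝓞 ↥L) ≠ 0 := by exact_mod_cast hp.ne_zero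
    exact this hpP
  haveI := hP
  obtain ⟨A, q, hq, hA, -, hPA⟩ := m14gal_exists_valSub L P hP0
  have hAp : A.LiesOverPrime p := by
    have := (hPA _).mp hpP
    change (p : Qb) ∈ A.nonunits
    simpa using this
  -- powers of `σ` preserve `P`
  have hpow : ∀ k : ℕ, ∀ x ∈ P, ∃ y ∈ P, (y : ↥L) = (σ ^ k) x := by
    intro k
    induction k with
    | zero => intro x hx; exact ⟨x, hx, rfl⟩
    | succ k ih =>
      intro x hx
      obtain ⟨y, hy, hyx⟩ := ih x hx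
      obtain ⟨z, hz, hzy⟩ := h y hy
      refine ⟨z, hz, ?_⟩
      rw [hzy, hyx, pow_succ']
      rfl
  have hiff : ∀ x : 𝓞 ↥L, mink_galInt L (σ.restrictScalars ℚ) x ∈ P ↔ x ∈ P := by
    intro x
    constructor
    · intro hx
      haveI : Finite (↥L ≃ₐ[↥S.cyc] ↥L) := inferInstance
      have hpos : 0 < orderOf σ := orderOf_pos σ
      obtain ⟨y, hy, hyx⟩ := hpow (orderOf σ - 1) _ hx
      have h1 : (σ ^ (orderOf σ - 1)) ((mink_galInt L (σ.restrictScalars ℚ) x : 𝓞 ↥L) : ↥L)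
          = (x : ↥L) := by
        change (σ ^ (orderOf σ - 1)) (σ (x : ↥L)) = (x : ↥L)
        have h2 : (σ ^ (orderOf σ - 1)) (σ (x : ↥L)) = (σ ^ (orderOf σ - 1) * σ) (x : ↥L) := rfl
        rw [h2, ← pow_succ, Nat.sub_add_cancel hpos, pow_orderOf_eq_one]
        rfl
      rw [h1] at hyx
      have : y = x := NumberField.RingOfIntegers.coe_injective hyx
      rw [← this]
      exact hy
    · intro hx
      obtain ⟨y, hy, hyx⟩ := h x hx
      have : y = mink_galInt L (σ.restrictScalars ℚ) x :=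
        NumberField.RingOfIntegers.coe_injective hyx
      rw [← this]
      exact hy
  obtain ⟨σ', hσ', hres⟩ := m14gal_exists_lift_decomp L A hq hA (σ.restrictScalars ℚ)
    (fun x => by
      rw [← hPA x, ← hiff x, hPA]
      rfl)
  exact S.eq_one_of_lift σ hres
    (m14gal_trivial_of_decomp S.adm A hAp hσ' (S.chi_lift σ hres))


omit S in
theorem restrictScalars_pow {K' : IntermediateField ℚ ↥L} (σ : ↥L ≃ₐ[↥K'] ↥L) (n : ℕ) (y : ↥L) :
    ((σ.restrictScalars ℚ) ^ n) y = (σ ^ n) y := by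
  induction n generalizing y with
  | zero => rfl
  | succ n ih =>
    rw [pow_succ, pow_succ]
    change ((σ.restrictScalars ℚ) ^ n) ((σ.restrictScalars ℚ) y) = (σ ^ n) (σ y)
    rw [ih]
    rfl

/-- `Gal(ℚ(ζ)/ℚ)` acts on `Gal(L/ℚ(ζ))` through the inverse of the cyclotomic character -/
theorem conj (τ : ↥L ≃ₐ[ℚ] ↥L) (σ : ↥L ≃ₐ[↥S.cyc] ↥L) (n : ℕ) (hn : τ S.zetaL = S.zetaL ^ n)
    (x : ↥L) : τ ((σ ^ n) (τ.symm x)) = σ x := by
  obtain ⟨τ', hτ'⟩ := AlgEquiv.restrictNormalHom_surjective (F := ℚ) (K₁ := L) Qb τ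
  obtain ⟨σ', hσ'⟩ := AlgEquiv.restrictNormalHom_surjective (F := ℚ) (K₁ := L) Qb
    (σ.restrictScalars ℚ)
  have hχσ : m14gal_chi p σ' = 1 := S.chi_lift σ hσ'
  have hχτ : (n : ZMod p) = ((m14gal_chi p τ' : (ZMod p)ˣ) : ZMod p) := by
    rw [m14gal_chi_eq_iff τ' S.prim n]
    have h1 := mink_restrict_coe L τ' S.zetaL
    rw [hτ', hn] at h1
    exact h1.symm
  have htriv := S.basis.conj_trivial τ' hχσ n hχτ
  have hmem : τ' * σ' ^ n * τ'⁻¹ * σ'⁻¹ ∈ L.fixingSubgroup := (S.fix _).mpr htriv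
  have h1 := mink_restrict_eq_one L ⟨_, hmem⟩
  change AlgEquiv.restrictNormalHom L (τ' * σ' ^ n * τ'⁻¹ * σ'⁻¹) = 1 at h1
  rw [map_mul, map_mul, map_mul, map_pow, map_inv, map_inv, hτ', hσ', mul_inv_eq_one] at h1
  have h2 := congrArg (fun f : ↥L ≃ₐ[ℚ] ↥L => f x) h1
  change τ (((σ.restrictScalars ℚ) ^ n) (τ⁻¹ x)) = (σ.restrictScalars ℚ) x at h2
  rw [restrictScalars_pow] at h2
  exact h2


/-- a lift to `G_ℚ` of an element of `Gal(L/ℚ(ζ))` -/
def lift (σ : ↥L ≃ₐ[↥S.cyc] ↥L) : Qb ≃ₐ[ℚ] Qb :=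
  Classical.choose (AlgEquiv.restrictNormalHom_surjective (F := ℚ) (K₁ := L) Qb
    (σ.restrictScalars ℚ))

theorem lift_spec (σ : ↥L ≃ₐ[↥S.cyc] ↥L) :
    AlgEquiv.restrictNormalHom L (S.lift σ) = σ.restrictScalars ℚ :=
  Classical.choose_spec (AlgEquiv.restrictNormalHom_surjective (F := ℚ) (K₁ := L) Qb
    (σ.restrictScalars ℚ))

theorem mem_fixingSubgroup_of_restrict_eq {g h : Qb ≃ₐ[ℚ] Qb}
    (hgh : AlgEquiv.restrictNormalHom L g = AlgEquiv.restrictNormalHom L h) :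
    g⁻¹ * h ∈ L.fixingSubgroup := by
  rw [IntermediateField.mem_fixingSubgroup_iff]
  intro x hx
  have h1 := mink_restrict_coe L g ⟨x, hx⟩
  have h2 := mink_restrict_coe L h ⟨x, hx⟩
  rw [hgh, h2] at h1
  change g.symm (h x) = x
  rw [h1]
  simp

/-- the cocycle on `Gal(L/ℚ(ζ))` -/
def betaL (σ : ↥L ≃ₐ[↥S.cyc] ↥L) : ZMod p := S.basis.beta (S.lift σ)

theorem betaL_injective : Function.Injective S.betaL := by
  intro σ σ' h
  have h1 := S.basis.trivial_of_beta_eq (S.chi_lift σ (S.lift_spec σ))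
    (S.chi_lift σ' (S.lift_spec σ')) h
  have hmem : (S.lift σ)⁻¹ * S.lift σ' ∈ L.fixingSubgroup := (S.fix _).mpr h1
  have h2 := mink_restrict_eq_one L ⟨_, hmem⟩
  change AlgEquiv.restrictNormalHom L ((S.lift σ)⁻¹ * S.lift σ') = 1 at h2
  rw [map_mul, map_inv, S.lift_spec, S.lift_spec, inv_mul_eq_one] at h2
  apply AlgEquiv.ext
  intro x
  exact congrArg (fun f : ↥L ≃ₐ[ℚ] ↥L => f x) h2

theorem mem_fixingSubgroup_cyc (τ : ↥L ≃ₐ[ℚ] ↥L) (hτ : τ S.zetaL = S.zetaL) :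
    τ ∈ S.cyc.fixingSubgroup := by
  rw [IntermediateField.mem_fixingSubgroup_iff]
  intro x hx
  change x ∈ IntermediateField.adjoin ℚ {S.zetaL} at hx
  induction hx using IntermediateField.adjoin_induction with
  | mem y hy =>
    rw [Set.mem_singleton_iff] at hy
    rw [hy]; exact hτ
  | algebraMap r => exact τ.commutes r
  | add y z _ _ hy hz => rw [map_add, hy, hz]
  | inv y _ hy => rw [map_inv₀, hy]
  | mul y z _ _ hy hz => rw [map_mul, hy, hz]

theorem betaL_surjective : Function.Surjective S.betaL := by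
  intro a
  obtain ⟨g, hχ, hβ⟩ := S.basis.beta_surjective S.nontriv a
  set τ : ↥L ≃ₐ[ℚ] ↥L := AlgEquiv.restrictNormalHom L g with hτdef
  have hτ : τ S.zetaL = S.zetaL := by
    apply Subtype.ext
    have h1 := mink_restrict_coe L g S.zetaL
    rw [h1]
    exact (m14gal_chi_eq_one_iff g S.prim).mp hχ
  let σ : ↥L ≃ₐ[↥S.cyc] ↥L :=
    IntermediateField.fixingSubgroupEquiv S.cyc ⟨τ, S.mem_fixingSubgroup_cyc τ hτ⟩
  have hσ : σ.restrictScalars ℚ = τ := by
    apply AlgEquiv.ext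
    intro x
    rfl
  refine ⟨σ, ?_⟩
  have hres : AlgEquiv.restrictNormalHom L (S.lift σ) = AlgEquiv.restrictNormalHom L g := by
    rw [S.lift_spec, hσ]
  have hmem := S.mem_fixingSubgroup_of_restrict_eq hres
  have htriv := (S.fix _).mp hmem
  obtain ⟨h1, h2⟩ := (S.basis.trivial_iff _).mp htriv
  have h3 : g = S.lift σ * ((S.lift σ)⁻¹ * g) := by group
  change S.basis.beta (S.lift σ) = a
  rw [← hβ]
  conv_rhs => rw [h3]
  rw [S.basis.beta_mul, h1, h2, Units.val_one, one_mul, add_zero]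

theorem card_aut : Nat.card (↥L ≃ₐ[↥S.cyc] ↥L) = p := by
  rw [Nat.card_congr (Equiv.ofBijective S.betaL ⟨S.betaL_injective, S.betaL_surjective⟩),
    Nat.card_zmod]

theorem finrank_eq : Module.finrank ↥S.cyc ↥L = p := by
  rw [← IsGalois.card_aut_eq_finrank, S.card_aut]


/-- the number-field data of a non-split admissible extension -/
theorem data : M14Data p ↥L S.cyc S.zetaL where
  isGalois := inferInstance
  prim := S.zetaL_prim
  hK := rfl
  finrank := S.finrank_eq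
  inertia := S.inertia
  split := S.split
  conj := S.conj

end m14gal_Setup

/-- **[GAL]**: the reduction of S14 to the number-field statement `M14NoExt`. -/
theorem m14gal_main (p : ℕ) [Fact p.Prime] (h3 : 3 ≤ p) (h : M14NoExt p) :
    ExtCitation.ExtVanishingCts p := by
  intro V _ _ _ _ C hV
  have hR := m14gal_rep hV.toIsAdmissibleExtension
  by_cases hker : ∀ σ : Qb ≃ₐ[ℚ] Qb, m14gal_chi p σ = 1 → ∀ v : V, σ • v = v
  · exact hR.exists_compl hker (m14gal_chi_ne_one h3)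
  · exfalso
    push Not at hker
    obtain ⟨σ, hσ, v, hv⟩ := hker
    obtain ⟨L, hfin, hgal, hfix⟩ := m14gal_exists_field (V := V) hV.open_kernel
    obtain ⟨ζ, hζ⟩ := m14gal_exists_prim p
    obtain ⟨e₁, e₂, hB⟩ := hR.exists_basis
    have S : m14gal_Setup p V C L ζ e₁ e₂ :=
      ⟨hV.toIsAdmissibleExtension, hζ, hfix, ⟨σ, hσ, v, hv⟩, hB⟩
    haveI := hfin
    haveI := hgal
    exact h ↥L S.cyc S.zetaL S.data

end

end Fermat.Agent.M14
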