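/-
M14 (S14 project), package OMEGA, part 2 (prefix `m14om_`): Frobenius elements and inertia in
`Ω = CyclotomicField m L` over `K`: action on roots of unity, restriction to `L`,
`Ω / K` is unramified (inertia form) at the primes not containing `m`.
-/
import Mathlib
import Fermat.Agent.M14.Target
import Fermat.Agent.M14.OmegaBasic

set_option autoImplicit false
set_option linter.style.haveILetI false
set_option linter.unusedSectionVars false
set_option linter.unusedVariables false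

open NumberField Ideal
open scoped Pointwise

namespace Fermat.Agent.M14

/-- a ring endomorphism congruent to the identity modulo `Q` fixes the `m`-th roots of unity
when `m ∉ Q`. -/
theorem m14om_fix_root_aux {S : Type} [CommRing S] [IsDomain S] (φ : S →+* S) (Q : Ideal S)
    (H : ∀ x, φ x - x ∈ Q) {ζ : S} {m : ℕ} (hζ : ζ ^ m = 1) (hk' : (m : S) ∉ Q) :
    φ ζ = ζ := by
  have hm : m ≠ 0 := by rintro rfl; exact hk' (by simp)
  obtain ⟨k, hk, hζ⟩ := IsPrimitiveRoot.exists_pos hζ hm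
  have hk' : ↑k ∉ Q := fun h ↦ hk' (Q.mem_of_dvd (Nat.cast_dvd_cast (hζ.2 m ‹_›)) h)
  have : NeZero k := ⟨hk.ne'⟩
  obtain ⟨i, hi, e⟩ := hζ.eq_pow_of_pow_eq_one (ξ := φ ζ) (by rw [← map_pow, hζ.1, map_one])
  have (j : _) : 1 - ζ ^ ((1 + k - i) * j) ∈ Q := by
    rw [← Ideal.mul_unit_mem_iff_mem _ ((hζ.isUnit NeZero.out).pow (i * j)),
      sub_mul, one_mul, ← pow_add, ← add_mul, tsub_add_cancel_of_le (by linarith), add_mul,
        pow_add, pow_mul _ k, hζ.1, one_pow, mul_one, pow_mul, e, ← map_pow, one_mul]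
    exact H _
  have h₁ := sum_mem (t := Finset.range k) fun j _ ↦ this j
  have h₂ := geom_sum_mul (ζ ^ (1 + k - i)) k
  rw [pow_right_comm, hζ.1, one_pow, sub_self, mul_eq_zero, sub_eq_zero] at h₂
  rcases h₂ with h₂ | h₂
  · simp [h₂, pow_mul, hk'] at h₁
  replace h₂ := congr($h₂ * ζ ^ i)
  rw [one_mul, ← pow_add, tsub_add_cancel_of_le (by linarith), pow_add, hζ.1, mul_one,
    pow_one] at h₂
  rw [← e, ← h₂]

section frob

variable {p : ℕ} [Fact p.Prime] {L : Type} [Field L] [NumberField L]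
  {K : IntermediateField ℚ L} {ζ : L} (m : ℕ) [NeZero m] [IsGalois ℚ L]

/-- an `m`-th root of unity of `Ω` as an element of `𝓞 Ω` -/
theorem m14om_exists_integer {Ω : Type} [Field Ω] [NumberField Ω] (z : Ω) (hz : z ^ m = 1) :
    ∃ z' : 𝓞 Ω, (z' : Ω) = z ∧ z' ^ m = 1 := by
  have hint : IsIntegral ℤ z := by
    refine ⟨Polynomial.X ^ m - 1, Polynomial.monic_X_pow_sub_C 1 (NeZero.ne m), ?_⟩
    simp [hz]
  refine ⟨⟨z, hint⟩, rfl, ?_⟩
  apply RingOfIntegers.ext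
  have h1 : (((⟨z, hint⟩ : 𝓞 Ω) ^ m : 𝓞 Ω) : Ω) = ((⟨z, hint⟩ : 𝓞 Ω) : Ω) ^ m :=
    map_pow (algebraMap (𝓞 Ω) Ω) _ _
  exact h1.trans (hz.trans (map_one (algebraMap (𝓞 Ω) Ω)).symm)

/-- restriction to `L` commutes with the action on integers -/
theorem m14om_algebraMap_res_smul
    (σ : (CyclotomicField m L) ≃ₐ[↥K] (CyclotomicField m L)) (x : 𝓞 L) :
    algebraMap (𝓞 L) (𝓞 (CyclotomicField m L)) ((AlgEquiv.restrictNormalHom L σ) • x) =
      σ • (algebraMap (𝓞 L) (𝓞 (CyclotomicField m L)) x) := by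
  apply RingOfIntegers.ext
  exact AlgEquiv.restrictNormal_commutes σ L (x : L)

theorem m14om_frob_root [IsGalois ↥K (CyclotomicField m L)]
    (𝔓 : Ideal (𝓞 (CyclotomicField m L))) (h𝔓 : 𝔓.IsPrime) (h0 : 𝔓 ≠ ⊥)
    (hm : (m : 𝓞 (CyclotomicField m L)) ∉ 𝔓)
    (σ : (CyclotomicField m L) ≃ₐ[↥K] (CyclotomicField m L))
    (hσ : IsArithFrobAt (𝓞 ↥K) σ 𝔓) (z : CyclotomicField m L) (hz : z ^ m = 1) :
    σ z = z ^ Ideal.absNorm (𝔓.under (𝓞 ↥K)) := by
  obtain ⟨z', hz', hz'm⟩ := m14om_exists_integer m z hz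
  have key := hσ.apply_of_pow_eq_one hz'm hm
  have hcard : Nat.card (𝓞 ↥K ⧸ 𝔓.under (𝓞 ↥K)) = Ideal.absNorm (𝔓.under (𝓞 ↥K)) := by
    rw [Ideal.absNorm_apply, Submodule.cardQuot_apply]
  rw [hcard] at key
  have h2 : ((σ • z' : 𝓞 (CyclotomicField m L)) : CyclotomicField m L) =
      ((z' ^ Ideal.absNorm (𝔓.under (𝓞 ↥K)) : 𝓞 (CyclotomicField m L)) : CyclotomicField m L) :=
    congrArg (fun x : 𝓞 (CyclotomicField m L) => (x : CyclotomicField m L)) key
  have h3 : ((z' ^ Ideal.absNorm (𝔓.under (𝓞 ↥K)) : 𝓞 (CyclotomicField m L)) :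
      CyclotomicField m L) = (z' : CyclotomicField m L) ^ Ideal.absNorm (𝔓.under (𝓞 ↥K)) :=
    map_pow _ _ _
  rw [h3, hz'] at h2
  rw [← h2, ← hz']
  rfl

theorem m14om_frob_res [IsGalois ↥K (CyclotomicField m L)]
    (𝔓 : Ideal (𝓞 (CyclotomicField m L))) (h𝔓 : 𝔓.IsPrime) (h0 : 𝔓 ≠ ⊥)
    (σ : (CyclotomicField m L) ≃ₐ[↥K] (CyclotomicField m L))
    (hσ : IsArithFrobAt (𝓞 ↥K) σ 𝔓) :
    IsArithFrobAt (𝓞 ↥K) (AlgEquiv.restrictNormalHom L σ) (𝔓.under (𝓞 L)) := by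
  intro x
  have h := hσ (algebraMap (𝓞 L) (𝓞 (CyclotomicField m L)) x)
  rw [Ideal.under_under]
  rw [Ideal.under_def, Ideal.mem_comap, map_sub, map_pow]
  have e : algebraMap (𝓞 L) (𝓞 (CyclotomicField m L))
      ((MulSemiringAction.toAlgHom (𝓞 ↥K) (𝓞 L) (AlgEquiv.restrictNormalHom L σ)) x) =
      (MulSemiringAction.toAlgHom (𝓞 ↥K) (𝓞 (CyclotomicField m L)) σ)
        (algebraMap (𝓞 L) (𝓞 (CyclotomicField m L)) x) :=
    m14om_algebraMap_res_smul m σ x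
  rw [e]
  exact h

theorem m14om_unram (D : M14Data p L K ζ) (𝔓 : Ideal (𝓞 (CyclotomicField m L)))
    (h𝔓 : 𝔓.IsPrime) (hm : (m : 𝓞 (CyclotomicField m L)) ∉ 𝔓)
    (σ : (CyclotomicField m L) ≃ₐ[↥K] (CyclotomicField m L))
    (hσ : ∀ x : 𝓞 (CyclotomicField m L), σ • x - x ∈ 𝔓) : σ = 1 := by
  apply m14om_inj m
  · -- the restriction is in the inertia group of `𝔓 ∩ 𝓞 L`
    apply D.inertia (𝔓.under (𝓞 L)) (Ideal.IsPrime.under (𝓞 L) 𝔓)
    intro x
    refine ⟨(AlgEquiv.restrictNormalHom L σ) • x - x, ?_, ?_⟩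
    · rw [Ideal.under_def, Ideal.mem_comap, map_sub, m14om_algebraMap_res_smul]
      exact hσ _
    · rfl
  · intro z hz
    obtain ⟨z', hz', hz'm⟩ := m14om_exists_integer m z hz
    have key := m14om_fix_root_aux
      (MulSemiringAction.toRingHom ((CyclotomicField m L) ≃ₐ[↥K] (CyclotomicField m L))
        (𝓞 (CyclotomicField m L)) σ) 𝔓 hσ hz'm hm
    have h2 : ((σ • z' : 𝓞 (CyclotomicField m L)) : CyclotomicField m L) = (z' : _) :=
      congrArg (fun x : 𝓞 (CyclotomicField m L) => (x : CyclotomicField m L)) key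
    rw [← hz']
    exact h2

end frob

end Fermat.Agent.M14
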