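/-
M14 (S14 project), package OMEGA, part 3 (prefix `m14om_`): `m14om_surj`, the surjectivity of
`Gal(Ω/K) → Gal(L/K) × (ZMod m)ˣ` for `Ω = CyclotomicField m L`, `p ∤ m`
(linear disjointness of `L` and `K(ζ_m)` over `K`).
-/
import Mathlib
import Fermat.Agent.M14.Target
import Fermat.Agent.M14.OmegaBasic

set_option autoImplicit false
set_option linter.style.haveILetI false
set_option linter.unusedSectionVars false
set_option linter.unusedVariables false

open NumberField Ideal
open scoped Pointwise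

namespace Fermat.Agent.M14

section surj

variable {p : ℕ} [Fact p.Prime] {L : Type} [Field L] [NumberField L]
  {K : IntermediateField ℚ L} {ζ : L} (m : ℕ) [NeZero m] [IsGalois ℚ L]

/-- a `ℚ`-automorphism of `Ω` fixing `ζ` fixes `K = ℚ(ζ)` pointwise -/
theorem m14om_fix_K (D : M14Data p L K ζ)
    (θ : (CyclotomicField m L) ≃ₐ[ℚ] (CyclotomicField m L))
    (hθ : θ (algebraMap L (CyclotomicField m L) ζ) = algebraMap L (CyclotomicField m L) ζ)
    (x : ↥K) : θ (algebraMap ↥K (CyclotomicField m L) x) =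
      algebraMap ↥K (CyclotomicField m L) x := by
  have hx : (x : L) ∈ IntermediateField.adjoin ℚ {ζ} := by
    rw [← D.hK]; exact x.2
  have key : ∀ y ∈ IntermediateField.adjoin ℚ {ζ},
      θ (algebraMap L (CyclotomicField m L) y) = algebraMap L (CyclotomicField m L) y := by
    intro y hy
    induction hy using IntermediateField.adjoin_induction with
    | mem y hy =>
      rw [Set.mem_singleton_iff] at hy
      rw [hy, hθ]
    | algebraMap r =>
      rw [← IsScalarTower.algebraMap_apply ℚ L (CyclotomicField m L)]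
      exact θ.commutes r
    | add y z _ _ hy hz => rw [map_add, map_add, hy, hz]
    | inv y _ hy => rw [map_inv₀, map_inv₀, hy]
    | mul y z _ _ hy hz => rw [map_mul, map_mul, hy, hz]
  exact key _ hx

/-- a `ℚ`-automorphism of `Ω` fixing `ζ` is a `K`-automorphism -/
theorem m14om_mk (D : M14Data p L K ζ)
    (θ : (CyclotomicField m L) ≃ₐ[ℚ] (CyclotomicField m L))
    (hθ : θ (algebraMap L (CyclotomicField m L) ζ) = algebraMap L (CyclotomicField m L) ζ) :
    ∃ σ : (CyclotomicField m L) ≃ₐ[↥K] (CyclotomicField m L), ∀ x, σ x = θ x :=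
  ⟨AlgEquiv.ofRingEquiv (f := θ.toRingEquiv) (m14om_fix_K m D θ hθ), fun _ => rfl⟩

/-- **h₀**: an element of `Gal(Ω/K)` acting on the `m`-th roots of unity by `z ↦ z ^ u`. -/
theorem m14om_exists_char (D : M14Data p L K ζ) (hpm : Nat.Coprime p m) (u : (ZMod m)ˣ) :
    ∃ σ : (CyclotomicField m L) ≃ₐ[↥K] (CyclotomicField m L),
      ∀ z : CyclotomicField m L, z ^ m = 1 → σ z = z ^ (u : ZMod m).val := by
  have hp : p.Prime := Fact.out
  have hnorm := m14om_normal_rat (L := L) m
  set ζΩ : CyclotomicField m L := algebraMap L (CyclotomicField m L) ζ with hζΩ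
  have hζ : IsPrimitiveRoot ζΩ p :=
    D.prim.map_of_injective (algebraMap L (CyclotomicField m L)).injective
  have hμ := IsCyclotomicExtension.zeta_spec m L (CyclotomicField m L)
  set μ := IsCyclotomicExtension.zeta m L (CyclotomicField m L) with hμdef
  -- the primitive `p m`-th root of unity `ξ = ζ μ`
  have hξ : IsPrimitiveRoot (ζΩ * μ) (p * m) := by
    have h1 : orderOf (ζΩ * μ) = p * m := by
      rw [(Commute.all ζΩ μ).orderOf_mul_eq_mul_orderOf_of_coprime
        (by rw [← hζ.eq_orderOf, ← hμ.eq_orderOf]; exact hpm), ← hζ.eq_orderOf, ← hμ.eq_orderOf]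
    rw [← h1]
    exact IsPrimitiveRoot.orderOf _
  -- the exponent
  obtain ⟨a, ha1, ha2⟩ := Nat.chineseRemainder hpm.symm (u : ZMod m).val 1
  -- ha1 : a ≡ u.val [MOD m], ha2 : a ≡ 1 [MOD p]
  have hacop : a.Coprime (p * m) := by
    apply Nat.Coprime.mul_right
    · have h := ha2.gcd_eq
      rw [Nat.Coprime, h]
      exact Nat.gcd_one_left p
    · have h := ha1.gcd_eq
      rw [Nat.Coprime, h]
      exact ZMod.val_coe_unit_coprime u
  have hξa : IsPrimitiveRoot ((ζΩ * μ) ^ a) (p * m) := hξ.pow_of_coprime a hacop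
  have hpm0 : 0 < p * m := Nat.mul_pos hp.pos (NeZero.pos m)
  have hconj : IsConjRoot ℚ ((ζΩ * μ) ^ a) (ζΩ * μ) := by
    show minpoly ℚ ((ζΩ * μ) ^ a) = minpoly ℚ (ζΩ * μ)
    rw [← Polynomial.cyclotomic_eq_minpoly_rat hξa hpm0,
      ← Polynomial.cyclotomic_eq_minpoly_rat hξ hpm0]
  obtain ⟨θ, hθ⟩ := isConjRoot_iff_exists_algEquiv.mp hconj
  -- `θ` raises every `p m`-th root of unity to the power `a`
  haveI : NeZero (p * m) := ⟨hpm0.ne'⟩
  have hθpow : ∀ z : CyclotomicField m L, z ^ (p * m) = 1 → θ z = z ^ a := by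
    intro z hz
    obtain ⟨i, -, rfl⟩ := hξ.eq_pow_of_pow_eq_one hz
    rw [map_pow, hθ, ← pow_mul, ← pow_mul, mul_comm a i]
  have hθζ : θ ζΩ = ζΩ := by
    rw [hθpow ζΩ (by rw [pow_mul, hζ.pow_eq_one, one_pow])]
    have := pow_eq_pow_of_modEq ha2 hζ.pow_eq_one
    rw [this, pow_one]
  obtain ⟨σ, hσ⟩ := m14om_mk m D θ hθζ
  refine ⟨σ, fun z hz => ?_⟩
  rw [hσ, hθpow z (by rw [mul_comm, pow_mul, hz, one_pow])]
  exact pow_eq_pow_of_modEq ha1 hz

/-- an automorphism of `Ω / K` fixing `L` pointwise restricts to `1` -/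
theorem m14om_res_eq_one (σ : (CyclotomicField m L) ≃ₐ[↥K] (CyclotomicField m L))
    (h : ∀ x : L, σ (algebraMap L (CyclotomicField m L) x) =
      algebraMap L (CyclotomicField m L) x) :
    AlgEquiv.restrictNormalHom L σ = 1 := by
  ext x
  apply (algebraMap L (CyclotomicField m L)).injective
  have h1 := AlgEquiv.restrictNormal_commutes σ L x
  have h3 : σ.restrictNormal L = AlgEquiv.restrictNormalHom L σ := rfl
  rw [h3] at h1
  rw [h1, h x]
  rfl

/-- the commutator trick: every element of `Gal(Ω/K)` can be corrected, without changing its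
restriction to `L`, to an element fixing the `m`-th roots of unity. -/
theorem m14om_exists_fix_roots (hp3 : 3 ≤ p) (D : M14Data p L K ζ)
    (γ : (CyclotomicField m L) ≃ₐ[↥K] (CyclotomicField m L)) :
    ∃ γ' : (CyclotomicField m L) ≃ₐ[↥K] (CyclotomicField m L),
      AlgEquiv.restrictNormalHom L γ' = AlgEquiv.restrictNormalHom L γ ∧
      ∀ z : CyclotomicField m L, z ^ m = 1 → γ' z = z := by
  have hp : p.Prime := Fact.out
  have hnormΩ := m14om_normal_rat (L := L) m
  haveI := m14om_isScalarTower (L := L) (K := K) m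
  have hμ := IsCyclotomicExtension.zeta_spec m L (CyclotomicField m L)
  -- `τ` with `τ ζ = ζ ^ 2`
  have h2p : Nat.Coprime 2 p := by
    rw [Nat.coprime_comm, Nat.Prime.coprime_iff_not_dvd hp]
    intro h
    have := Nat.le_of_dvd (by norm_num) h
    omega
  have hconj : IsConjRoot ℚ (ζ ^ 2) ζ := by
    show minpoly ℚ (ζ ^ 2) = minpoly ℚ ζ
    rw [← Polynomial.cyclotomic_eq_minpoly_rat (D.prim.pow_of_coprime 2 h2p) hp.pos,
      ← Polynomial.cyclotomic_eq_minpoly_rat D.prim hp.pos]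
  obtain ⟨τ, hτ⟩ := isConjRoot_iff_exists_algEquiv.mp hconj
  -- the lift of `τ`
  obtain ⟨τ', hτ'⟩ := AlgEquiv.restrictNormalHom_surjective (F := ℚ) (K₁ := L)
    (CyclotomicField m L) τ
  have hτ'app : ∀ x : L, τ' (algebraMap L (CyclotomicField m L) x) =
      algebraMap L (CyclotomicField m L) (τ x) := by
    intro x
    have h1 := AlgEquiv.restrictNormal_commutes τ' L x
    have h3 : τ'.restrictNormal L = AlgEquiv.restrictNormalHom L τ' := rfl
    rw [h3, hτ'] at h1
    exact h1.symm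
  have hτ'symm : ∀ x : L, τ'.symm (algebraMap L (CyclotomicField m L) x) =
      algebraMap L (CyclotomicField m L) (τ.symm x) := by
    intro x
    rw [AlgEquiv.symm_apply_eq, hτ'app, AlgEquiv.apply_symm_apply]
  -- the restriction of `γ`
  set σ := AlgEquiv.restrictNormalHom L γ with hσdef
  have hγapp : ∀ x : L, γ (algebraMap L (CyclotomicField m L) x) =
      algebraMap L (CyclotomicField m L) (σ x) := by
    intro x
    exact (AlgEquiv.restrictNormal_commutes γ L x).symm
  have hγsymm : ∀ x : L, γ.symm (algebraMap L (CyclotomicField m L) x) =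
      algebraMap L (CyclotomicField m L) (σ.symm x) := by
    intro x
    rw [AlgEquiv.symm_apply_eq, hγapp, AlgEquiv.apply_symm_apply]
  set γℚ : (CyclotomicField m L) ≃ₐ[ℚ] (CyclotomicField m L) := γ.restrictScalars ℚ with hγℚ
  have hγℚapp : ∀ x, γℚ x = γ x := fun _ => rfl
  have hγℚsymm : ∀ x, γℚ.symm x = γ.symm x := fun _ => rfl
  -- the commutator
  set c : (CyclotomicField m L) ≃ₐ[ℚ] (CyclotomicField m L) :=
    τ' * γℚ * γℚ * τ'⁻¹ * γℚ⁻¹ with hcdef
  have hcapp : ∀ x, c x = τ' (γ (γ (τ'.symm (γ.symm x)))) := fun _ => rfl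
  have hcL : ∀ x : L, c (algebraMap L (CyclotomicField m L) x) =
      algebraMap L (CyclotomicField m L) x := by
    intro x
    rw [hcapp, hγsymm, hτ'symm, hγapp, hγapp, hτ'app]
    congr 1
    have h := D.conj τ σ 2 hτ (σ.symm x)
    rw [AlgEquiv.apply_symm_apply] at h
    exact h
  obtain ⟨cK, hcK⟩ := m14om_mk m D c (hcL ζ)
  -- the action on roots of unity
  have hpowℚ : ∀ (θ : (CyclotomicField m L) ≃ₐ[ℚ] (CyclotomicField m L))
      (z : CyclotomicField m L), z ^ m = 1 → θ z = z ^ ((hμ.autToPow ℚ θ : (ZMod m)ˣ) : ZMod m).val := by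
    intro θ z hz
    obtain ⟨i, -, rfl⟩ := hμ.eq_pow_of_pow_eq_one hz
    rw [map_pow, ← hμ.autToPow_spec ℚ θ, ← pow_mul, ← pow_mul, mul_comm]
  have hec : hμ.autToPow ℚ c = hμ.autToPow ℚ γℚ := by
    rw [hcdef, map_mul, map_mul, map_mul, map_mul, map_inv, map_inv]
    rw [mul_comm (hμ.autToPow ℚ τ') (hμ.autToPow ℚ γℚ), mul_assoc (hμ.autToPow ℚ γℚ),
      mul_comm (hμ.autToPow ℚ τ') (hμ.autToPow ℚ γℚ), ← mul_assoc,
      mul_inv_cancel_right, mul_inv_cancel_right]
  have hcγ : ∀ z : CyclotomicField m L, z ^ m = 1 → c z = γ z := by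
    intro z hz
    rw [hpowℚ c z hz, hec, ← hpowℚ γℚ z hz]
    rfl
  refine ⟨γ * cK⁻¹, ?_, ?_⟩
  · rw [map_mul, map_inv, m14om_res_eq_one m cK (fun x => by rw [hcK, hcL]), inv_one, mul_one]
  · intro z hz
    show γ (cK.symm z) = z
    have hw : (cK.symm z) ^ m = 1 := by rw [← map_pow, hz, map_one]
    have h1 : cK (cK.symm z) = z := AlgEquiv.apply_symm_apply cK z
    rw [hcK, hcγ _ hw] at h1
    exact h1

/-- **[OMEGA] surjectivity**: `Gal(Ω/K) → Gal(L/K) × (ZMod m)ˣ` is onto for `p ∤ m`. -/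
theorem m14om_surj (hp3 : 3 ≤ p) (D : M14Data p L K ζ) (hpm : Nat.Coprime p m)
    (g : L ≃ₐ[↥K] L) (u : (ZMod m)ˣ) :
    ∃ σ : (CyclotomicField m L) ≃ₐ[↥K] (CyclotomicField m L),
      AlgEquiv.restrictNormalHom L σ = g ∧
      ∀ z : CyclotomicField m L, z ^ m = 1 → σ z = z ^ (u : ZMod m).val := by
  obtain ⟨h0, hh0⟩ := m14om_exists_char m D hpm u
  haveI := m14om_isGalois (L := L) (K := K) m
  obtain ⟨γ, hγ⟩ := AlgEquiv.restrictNormalHom_surjective (F := ↥K) (K₁ := L)
    (CyclotomicField m L) (g * (AlgEquiv.restrictNormalHom L h0)⁻¹)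
  obtain ⟨γ', hγ'1, hγ'2⟩ := m14om_exists_fix_roots m hp3 D γ
  refine ⟨γ' * h0, ?_, ?_⟩
  · rw [map_mul, hγ'1, hγ, inv_mul_cancel_right]
  · intro z hz
    show γ' (h0 z) = _
    rw [hh0 z hz]
    apply hγ'2
    rw [← pow_mul, mul_comm, pow_mul, hz, one_pow]

end surj

end Fermat.Agent.M14
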