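/-
M14 (S14 project), final wiring of package PSI and of S14 itself, from the three inputs that are
still stated as hypotheses: (AN-A), (AN-B), (ART).
-/
import Mathlib
import Fermat.Agent.M14.CrossPair
import Fermat.Agent.M14.CrossGrp
import Fermat.Agent.M14.CrossChar
import Fermat.Agent.M14.OmegaFrob
import Fermat.Agent.M14.OmegaSurj
import Fermat.Agent.M14.Alg4Main
import Fermat.Agent.M14.Gal

set_option autoImplicit false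
set_option linter.style.haveILetI false
set_option linter.unusedSectionVars false

open NumberField Ideal
open scoped Pointwise

namespace Fermat.Agent.M14

/-- (GRP) holds. -/
theorem m14x_grp : m14x_GRP :=
  fun _ _ _ p _ _ _ _ _ res e₁ e₂ hsurj φ₁ φ₂ h₁ h₂ ho₁ ho₂ =>
    m14grp_main p res e₁ e₂ hsurj φ₁ φ₂ h₁ h₂ ho₁ ho₂

section om

variable {p : ℕ} [Fact p.Prime] {L : Type} [Field L] [NumberField L] [IsGalois ℚ L]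
  {K : IntermediateField ℚ L} {ζ : L}

/-- the OMEGA package, bundled -/
theorem m14x_om (hp3 : 3 ≤ p) (D : M14Data p L K ζ) : M14Om p L K where
  unram := fun m _ 𝔓 h𝔓 hm σ hσ => m14om_unram m D 𝔓 h𝔓 hm σ hσ
  frob_res := fun m _ _ 𝔓 h𝔓 h0 σ hσ => m14om_frob_res m 𝔓 h𝔓 h0 σ hσ
  char2 := by
    intro m r₁ r₂ _ _ hm hr₁ hr₂ hne hr₁p hr₂p
    subst hm
    have hp : p.Prime := Fact.out
    have hpm : Nat.Coprime p (r₁ * r₂) :=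
      Nat.Coprime.mul_right ((Nat.coprime_primes hp hr₁).mpr (Ne.symm hr₁p))
        ((Nat.coprime_primes hp hr₂).mpr (Ne.symm hr₂p))
    exact m14ch_main r₁ r₂ hr₁ hr₂ hne
      (fun g u => m14om_surj (r₁ * r₂) hp3 D hpm g u)
      (fun 𝔓 h𝔓 h0 hm σ hσ z hz => m14om_frob_root (r₁ * r₂) 𝔓 h𝔓 h0 hm σ hσ z hz)

end om

/-- the statement of (ART-FROB) -/
def m14x_ARTFROB : Prop :=
  ∀ (K Ω : Type) [Field K] [NumberField K] [Field Ω] [NumberField Ω] [Algebra K Ω]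
    [IsGalois K Ω], (∀ σ τ : Ω ≃ₐ[K] Ω, σ * τ = τ * σ) →
    ∀ (𝔭 : Ideal (𝓞 K)), 𝔭.IsPrime → 𝔭 ≠ ⊥ →
      ∃ σ : Ω ≃ₐ[K] Ω, ∀ 𝔓 : Ideal (𝓞 Ω), 𝔓.IsPrime → 𝔓.under (𝓞 K) = 𝔭 →
        IsArithFrobAt (𝓞 K) σ 𝔓

/-- the statement of (ART2-CORE) -/
def m14x_ART2CORE : Prop :=
  ∀ (K Ω : Type) [Field K] [NumberField K] [Field Ω] [NumberField Ω] [Algebra K Ω]
    [IsGalois K Ω] (E : IntermediateField K Ω) (𝔓 : Ideal (𝓞 Ω)), 𝔓.IsPrime → 𝔓 ≠ ⊥ →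
    (∀ σ : Ω ≃ₐ[K] Ω, (∀ x : 𝓞 Ω, σ • x - x ∈ 𝔓) → σ = 1) →
    ∀ σ : Ω ≃ₐ[K] Ω, IsArithFrobAt (𝓞 K) σ 𝔓 → ∀ n : ℕ, 0 < n → σ ^ n ∈ E.fixingSubgroup →
    (∀ k, 0 < k → k < n → σ ^ k ∉ E.fixingSubgroup) →
    Ideal.relNorm (𝓞 K) (𝔓.under (𝓞 E)) = (𝔓.under (𝓞 K)) ^ n

/-- (ART) from (ART-FROB) and (ART2-CORE). -/
theorem m14x_art_of (h1 : m14x_ARTFROB) (h2 : m14x_ART2CORE) : m14x_ART := by
  classical
  intro K Ω _ _ _ _ _ _ m hab hU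
  let Fr : Ideal (𝓞 K) → (Ω ≃ₐ[K] Ω) := fun 𝔭 =>
    if h : 𝔭.IsPrime ∧ 𝔭 ≠ ⊥ then Classical.choose (h1 K Ω hab 𝔭 h.1 h.2) else 1
  have hFr : ∀ (𝔓 : Ideal (𝓞 Ω)), 𝔓.IsPrime → 𝔓 ≠ ⊥ →
      IsArithFrobAt (𝓞 K) (Fr (𝔓.under (𝓞 K))) 𝔓 := by
    intro 𝔓 h𝔓 h0
    have hp : (𝔓.under (𝓞 K)).IsPrime ∧ 𝔓.under (𝓞 K) ≠ ⊥ :=
      ⟨Ideal.IsPrime.under (𝓞 K) 𝔓, fun h => h0 (Ideal.eq_bot_of_comap_eq_bot h)⟩
    have hval : Fr (𝔓.under (𝓞 K)) = Classical.choose (h1 K Ω hab _ hp.1 hp.2) := dif_pos hp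
    rw [hval]
    exact Classical.choose_spec (h1 K Ω hab _ hp.1 hp.2) 𝔓 h𝔓 rfl
  refine ⟨Fr, hab, fun 𝔓 h𝔓 h0 _ => hFr 𝔓 h𝔓 h0, ?_⟩
  intro E 𝔓E h𝔓E h𝔓E0 h𝔓Em n hn hmem hmin
  obtain ⟨𝔓, h𝔓, h𝔓0, h𝔓m, h𝔓u⟩ :=
    m14x_exists_over' (K := ↥E) (E := Ω) m 𝔓E h𝔓E h𝔓E0 h𝔓Em
  have huu : 𝔓.under (𝓞 K) = 𝔓E.under (𝓞 K) := by
    rw [← h𝔓u, Ideal.under_under]
  have key := h2 K Ω E 𝔓 h𝔓 h𝔓0 (hU 𝔓 h𝔓 h𝔓m) (Fr (𝔓.under (𝓞 K))) (hFr 𝔓 h𝔓 h𝔓0) n hn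
    (by rw [huu]; exact hmem) (by rw [huu]; exact hmin)
  rw [h𝔓u, huu] at key
  exact key

/-- **hPSI** of `m14f_noExt`, from (AN-A), (AN-B), (ART). -/
theorem m14x_hPSI (hANA : m14x_ANA) (hANB : m14x_ANB) (hART : m14x_ART) (p : ℕ)
    [Fact p.Prime] (hp3 : 3 ≤ p) :
    ∀ (L : Type) [Field L] [NumberField L] (K : IntermediateField ℚ L) (ζ : L),
      M14Data p L K ζ → m14f_PSI p K L := by
  intro L _ _ K ζ D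
  haveI := D.isGalois
  exact m14x_psi hANA hANB hART m14x_grp hp3 D (m14x_om hp3 D)

/-- **S14** from (AN-A), (AN-B), (ART). -/
theorem m14x_S14 (hANA : m14x_ANA) (hANB : m14x_ANB) (hART : m14x_ART) {p : ℕ}
    [Fact p.Prime] (h3 : 3 ≤ p) : ExtCitation.ExtVanishingCts p :=
  m14gal_main p h3 (m14alg_noExt_of_PSI p h3 (m14x_hPSI hANA hANB hART p h3))

end Fermat.Agent.M14
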