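/-
M14 (S14 project), final wiring, part 2: (ART) is a theorem; S14 from (AN-A) and (AN-B).
-/
import Mathlib
import Fermat.Agent.M14.CrossFin
import Fermat.Agent.M14.Art2Core
import Fermat.Agent.M14.ArtFrob5

set_option autoImplicit false

open NumberField Ideal
open scoped Pointwise

namespace Fermat.Agent.M14

/-- (ART) holds. -/
theorem m14x_art : m14x_ART := by
  intro K Ω _ _ _ _ _ _ m hab hU
  exact m14af5_art_of_core m hab
    (fun E 𝔓E h1 h2 h3 𝔓 h4 h5 σ hσ n hn hmem hmin =>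
      m14a2_core m hU E 𝔓E h1 h2 h3 𝔓 h4 h5 σ hσ n hn hmem hmin)

/-- **S14** from (AN-A) and (AN-B). -/
theorem m14x_S14_of_AN (hANA : m14x_ANA) (hANB : m14x_ANB) {p : ℕ} [Fact p.Prime]
    (h3 : 3 ≤ p) : ExtCitation.ExtVanishingCts p :=
  m14x_S14 hANA hANB m14x_art h3

end Fermat.Agent.M14
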