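/-
M14 (S14 project), final wiring, part 3: (AN-A) from the cardinality form (CORE) via the
class-group wrapper.
-/
import Mathlib
import Fermat.Agent.M14.CrossFin2
import Fermat.Agent.M14.AnWrap

set_option autoImplicit false

open NumberField Ideal
open scoped Pointwise

namespace Fermat.Agent.M14

/-- the statement of (CORE): the analytic index inequality in cardinality form -/
def m14x_CORE : Prop :=
  ∀ (F M : Type) [Field F] [NumberField F] [Field M] [NumberField M] [Algebra F M] (m : ℕ),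
    m ≠ 0 → ∀ (G' : Type) [AddCommGroup G'] [Finite G'] (χ' : Ideal (𝓞 F) → G'),
      (∀ I J : Ideal (𝓞 F), I ≠ ⊥ → J ≠ ⊥ → IsCoprime I (span {(m : 𝓞 F)}) →
        IsCoprime J (span {(m : 𝓞 F)}) → χ' (I * J) = χ' I + χ' J) →
      (∀ γ : 𝓞 F, γ ≠ 0 → γ - 1 ∈ span {(m : 𝓞 F)} → χ' (span {γ}) = 0) →
      (∀ 𝔄 : Ideal (𝓞 M), 𝔄 ≠ ⊥ → IsCoprime (relNorm (𝓞 F) 𝔄) (span {(m : 𝓞 F)}) →
        χ' (relNorm (𝓞 F) 𝔄) = 0) →
      (∀ g : G', ∃ I : Ideal (𝓞 F), I ≠ ⊥ ∧ IsCoprime I (span {(m : 𝓞 F)}) ∧ χ' I = g) →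
      Nat.card G' ≤ Module.finrank F M

/-- (AN-A) from (CORE). -/
theorem m14x_ana_of_core (hcore : m14x_CORE) : m14x_ANA := by
  intro F M _ _ _ _ _ m hm G _ _ hG χ hmul hprinc hnorm hsurj
  exact m14anw_main' m (fun G' _ _ χ' => hcore F M m hm G' χ') G hG χ hmul hprinc hnorm hsurj

/-- **S14** from (CORE) and (AN-B). -/
theorem m14x_S14_of_core (hcore : m14x_CORE) (hANB : m14x_ANB) {p : ℕ} [Fact p.Prime]
    (h3 : 3 ≤ p) : ExtCitation.ExtVanishingCts p :=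
  m14x_S14_of_AN (m14x_ana_of_core hcore) hANB h3

end Fermat.Agent.M14
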